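import Fermat.Agent.S34.Setup2

/-!
# C83 (S34), piece C1, abstract half: joint orthonormal families and the joint (H1)

`Red₁`, `Red₂` two reduction relations on `F/L` (axioms `RedAx`), `t ∈ F` with transcendental
reductions `T₁`, `T₂`, and a family `b i ∈ F` with reductions `β₁ i`, `β₂ i` such that the PAIRS
`(β₁ i, β₂ i)` are independent over `k[X]` acting through `(T₁, T₂)`.  If every element of `F` is
an `L(t)`-combination of the `b i`, then the joint reduction preserves the dimension of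
finite-dimensional `L`-subspaces (`joint_H1` = `Setup2.H1`).

This is S18's `GVOrtho / GVPivot / GVElim / GVSetup.finrank_redSpace`, redone for two valuations
and purely from the axioms `RedAx`.

* `joint_ortho_red`          : `∑ P_i(t) b_i` jointly integral ⇒ all `P_i ∈ A[X]`, with the residues;
* `joint_linearIndependent`  : the `b i` are linearly independent over `L[t]`;
* `linearIndependent_lifts₂` : lifts of independent joint residues are independent;
* `joint_H1`.
-/

set_option autoImplicit false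
set_option linter.unusedSectionVars false
set_option linter.style.haveILetI false
set_option linter.unusedSimpArgs false
set_option linter.unusedTactic false
set_option linter.unusedVariables false

open AlgebraicCurve Fermat.Agent.Lib.FF Fermat.Agent.S18.Deuring Polynomial
open scoped Classical

noncomputable section

namespace Fermat.Agent.S34.JH1

/-! ### polynomials with integral coefficients -/

section Poly

variable {L : Type*} [Field L] (A : ValuationSubring L)

/-- the lift to `A[X]` of a polynomial with integral coefficients (junk coefficients `0`) -/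
def liftA (p : L[X]) : A[X] :=
  ∑ i ∈ p.support, monomial i (if h : p.coeff i ∈ A then (⟨p.coeff i, h⟩ : A) else 0)

theorem liftA_coeff (p : L[X]) (n : ℕ) :
    (liftA A p).coeff n = if h : p.coeff n ∈ A then (⟨p.coeff n, h⟩ : A) else 0 := by
  rw [liftA, finsetSum_coeff]
  simp only [coeff_monomial]
  rw [Finset.sum_ite_eq' p.support n]
  split_ifs with h1 h2 h2
  · rfl
  · rfl
  · apply Subtype.ext
    show (0 : L) = p.coeff n
    rw [notMem_support_iff.mp h1]
  · rfl

theorem map_liftA (p : L[X]) (h : ∀ n, p.coeff n ∈ A) : (liftA A p).map A.subtype = p := by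
  ext n
  rw [coeff_map, liftA_coeff, dif_pos (h n)]
  rfl

/-- normalisation of a finite family of polynomials -/
theorem exists_normalization {n : ℕ} (P : Fin n → L[X]) (hP : ∃ i, P i ≠ 0) :
    ∃ (c : L) (P₀ : Fin n → A[X]), c ≠ 0 ∧ (∀ i, P i = C c * (P₀ i).map A.subtype) ∧
      ∃ i₀ m₀, (P₀ i₀).coeff m₀ = 1 := by
  set T : Finset (Σ _ : Fin n, ℕ) := Finset.univ.sigma fun i => (P i).support with hT
  have hTne : T.Nonempty := by
    obtain ⟨i, hi⟩ := hP
    have : (P i).support.Nonempty := by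
      rw [Finset.nonempty_iff_ne_empty, Ne, support_eq_empty]
      exact hi
    obtain ⟨m, hm⟩ := this
    exact ⟨⟨i, m⟩, Finset.mem_sigma.mpr ⟨Finset.mem_univ _, hm⟩⟩
  obtain ⟨⟨i₀, m₀⟩, hmem₀, hmax⟩ :=
    Finset.exists_max_image T (fun x => A.valuation ((P x.1).coeff x.2)) hTne
  have hc0 : (P i₀).coeff m₀ ≠ 0 := mem_support_iff.mp (Finset.mem_sigma.mp hmem₀).2
  set c : L := (P i₀).coeff m₀ with hc
  have hmem : ∀ i m, (P i).coeff m / c ∈ A := by
    intro i m
    by_cases hm : m ∈ (P i).support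
    · rw [← A.valuation_le_one_iff, map_div₀]
      exact div_le_one_of_le₀
        (hmax ⟨i, m⟩ (Finset.mem_sigma.mpr ⟨Finset.mem_univ _, hm⟩)) zero_le
    · rw [notMem_support_iff.mp hm, zero_div]
      exact A.zero_mem
  refine ⟨c, fun i => liftA A (C c⁻¹ * P i), hc0, fun i => ?_, i₀, m₀, ?_⟩
  · rw [map_liftA A _ (fun m => by rw [coeff_C_mul, inv_mul_eq_div]; exact hmem i m),
      ← mul_assoc, ← C_mul, mul_inv_cancel₀ hc0, C_1, one_mul]
  · apply Subtype.ext
    rw [liftA_coeff, dif_pos (by rw [coeff_C_mul, inv_mul_eq_div]; exact hmem i₀ m₀)]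
    show (C c⁻¹ * P i₀).coeff m₀ = 1
    rw [coeff_C_mul, ← hc, inv_mul_cancel₀ hc0]

end Poly

variable {L k F : Type*} [Field L] [Field k] [Field F] [Algebra L F]
variable {A : ValuationSubring L} {res : A →+* k}

/-! ### one reduction -/

section One

variable {Fk : Type*} [Field Fk] [Algebra k Fk] {Red : F → Fk → Prop} (ax : RedAx A res Red)
include ax

theorem red_aeval {t : F} {T : Fk} (ht : Red t T) (P : A[X]) :
    Red (aeval t (P.map A.subtype)) (aeval T (P.map res)) := by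
  induction P using Polynomial.induction_on' with
  | add p q hp hq =>
    rw [Polynomial.map_add, Polynomial.map_add, map_add, map_add]
    exact ax.add hp hq
  | monomial n a =>
    rw [map_monomial, map_monomial, aeval_monomial, aeval_monomial]
    exact ax.mul (ax.const a) (ax.pow ht n)

/-- an integral element with nonzero residue is a unit -/
theorem inv_mem_of_res_ne_zero (u : A) (hu : res u ≠ 0) : ((u : L))⁻¹ ∈ A := by
  by_contra h
  exact hu (ax.res_eq_zero u h)

theorem res_eq_zero_of_mul {u : A} {e : Fk} (he : e ≠ 0)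
    (h : algebraMap k Fk (res u) * e = 0) : res u = 0 := by
  rcases mul_eq_zero.mp h with h1 | h1
  · exact (map_eq_zero _).mp h1
  · exact absurd h1 he

end One

/-! ### two reductions -/

variable {Fk₁ Fk₂ : Type*} [Field Fk₁] [Field Fk₂] [Algebra k Fk₁] [Algebra k Fk₂]
  {Red₁ : F → Fk₁ → Prop} {Red₂ : F → Fk₂ → Prop}

/-- joint scaling -/
theorem joint_scale (ax₁ : RedAx A res Red₁) (ax₂ : RedAx A res Red₂) {x : F} (hx : x ≠ 0) :
    ∃ c : L, c ≠ 0 ∧ ∃ (a₁ : Fk₁) (a₂ : Fk₂), Red₁ (c • x) a₁ ∧ Red₂ (c • x) a₂ ∧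
      (a₁ ≠ 0 ∨ a₂ ≠ 0) := by
  obtain ⟨e₁, he₁, φ₁, hφ₁, h₁⟩ := ax₁.scale x hx
  obtain ⟨e₂, he₂, φ₂, hφ₂, h₂⟩ := ax₂.scale x hx
  rcases ax₂.mem_or (e₁ / e₂) with ⟨u, hu⟩ | ⟨-, u, hu, hu0⟩
  · refine ⟨e₁, he₁, φ₁, algebraMap k Fk₂ (res u) * φ₂, h₁, ?_, Or.inl hφ₁⟩
    have := ax₂.smul u h₂
    rwa [hu, smul_smul, div_mul_cancel₀ _ he₂] at this
  · refine ⟨e₂, he₂, algebraMap k Fk₁ (res u) * φ₁, φ₂, ?_, h₂, Or.inr hφ₂⟩
    have := ax₁.smul u h₁
    rwa [hu, smul_smul, inv_div, div_mul_cancel₀ _ he₁] at this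

/-- an element with joint reduction `(0, 0)` is a non-unit multiple of a jointly integral
element -/
theorem exists_of_red_zero (ax₁ : RedAx A res Red₁) (ax₂ : RedAx A res Red₂) {z : F}
    (h₁ : Red₁ z 0) (h₂ : Red₂ z 0) :
    ∃ (u : A) (y : F) (e₁ : Fk₁) (e₂ : Fk₂), res u = 0 ∧ z = (u : L) • y ∧ Red₁ y e₁ ∧
      Red₂ y e₂ := by
  by_cases hz : z = 0
  · exact ⟨0, 0, 0, 0, map_zero _, by rw [hz, smul_zero], ax₁.zero, ax₂.zero⟩
  obtain ⟨c, hc, e₁, e₂, hR₁, hR₂, hne⟩ := joint_scale ax₁ ax₂ hz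
  rcases ax₁.mem_or c⁻¹ with ⟨u, hu⟩ | ⟨-, u, hu, hu0⟩
  · have hzy : z = (u : L) • (c • z) := by
      rw [hu, smul_smul, inv_mul_cancel₀ hc, one_smul]
    refine ⟨u, c • z, e₁, e₂, ?_, hzy, hR₁, hR₂⟩
    have h3 := ax₁.smul u hR₁
    have h4 := ax₂.smul u hR₂
    rw [← hzy] at h3 h4
    rcases hne with hne | hne
    · exact res_eq_zero_of_mul ax₁ hne (ax₁.unique h3 h₁)
    · exact res_eq_zero_of_mul ax₂ hne (ax₂.unique h4 h₂)
  · exfalso
    rw [inv_inv] at hu
    have h3 := ax₁.smul u h₁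
    have h4 := ax₂.smul u h₂
    rw [hu, mul_zero] at h3 h4
    rcases hne with hne | hne
    · exact hne (ax₁.unique hR₁ h3)
    · exact hne (ax₂.unique hR₂ h4)

/-- **lifts of independent joint residues are independent** -/
theorem linearIndependent_lifts₂ (ax₁ : RedAx A res Red₁) (ax₂ : RedAx A res Red₂) {m : ℕ}
    (x : Fin m → F) (a₁ : Fin m → Fk₁) (a₂ : Fin m → Fk₂) (h₁ : ∀ i, Red₁ (x i) (a₁ i))
    (h₂ : ∀ i, Red₂ (x i) (a₂ i))
    (ha : LinearIndependent k (fun i => ((a₁ i, a₂ i) : Fk₁ × Fk₂))) : LinearIndependent L x := by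
  rw [Fintype.linearIndependent_iff]
  intro g hg
  by_contra hcon
  simp only [not_forall] at hcon
  have hS : (Finset.univ.filter fun i => g i ≠ 0).Nonempty := by
    obtain ⟨i, hi⟩ := hcon
    exact ⟨i, by simp [hi]⟩
  obtain ⟨i₀, hi₀, hmax⟩ := Finset.exists_max_image _ (fun i => A.valuation (g i)) hS
  have h0 : g i₀ ≠ 0 := (Finset.mem_filter.mp hi₀).2
  have hmem : ∀ i, g i / g i₀ ∈ A := by
    intro i
    by_cases hi : g i = 0
    · rw [hi, zero_div]; exact A.zero_mem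
    · rw [← A.valuation_le_one_iff, map_div₀]
      exact div_le_one_of_le₀ (hmax i (by simp [hi])) zero_le
  have hsum : ∑ i, (g i / g i₀) • x i = 0 := by
    have : ∑ i, (g i / g i₀) • x i = (g i₀)⁻¹ • ∑ i, g i • x i := by
      rw [Finset.smul_sum]
      refine Finset.sum_congr rfl fun i _ => ?_
      rw [smul_smul, inv_mul_eq_div]
    rw [this, hg, smul_zero]
  have hR₁ : Red₁ (∑ i, (g i / g i₀) • x i)
      (∑ i, algebraMap k Fk₁ (res ⟨g i / g i₀, hmem i⟩) * a₁ i) :=
    ax₁.sum _ _ _ fun i _ => ax₁.smul ⟨g i / g i₀, hmem i⟩ (h₁ i)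
  have hR₂ : Red₂ (∑ i, (g i / g i₀) • x i)
      (∑ i, algebraMap k Fk₂ (res ⟨g i / g i₀, hmem i⟩) * a₂ i) :=
    ax₂.sum _ _ _ fun i _ => ax₂.smul ⟨g i / g i₀, hmem i⟩ (h₂ i)
  rw [hsum] at hR₁ hR₂
  have e₁ := ax₁.unique hR₁ ax₁.zero
  have e₂ := ax₂.unique hR₂ ax₂.zero
  rw [Fintype.linearIndependent_iff] at ha
  have h4 := ha (fun i => res ⟨g i / g i₀, hmem i⟩) (by
    rw [Prod.ext_iff]
    constructor
    · rw [Prod.fst_sum]
      simp only [Prod.smul_fst, Prod.fst_zero, Algebra.smul_def]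
      exact e₁
    · rw [Prod.snd_sum]
      simp only [Prod.smul_snd, Prod.snd_zero, Algebra.smul_def]
      exact e₂) i₀
  have h5 : (⟨g i₀ / g i₀, hmem i₀⟩ : A) = 1 := Subtype.ext (div_self h0)
  rw [h5, map_one] at h4
  exact one_ne_zero h4

/-! ### joint orthonormal families -/

section Ortho

variable (ax₁ : RedAx A res Red₁) (ax₂ : RedAx A res Red₂)
  {t : F} {T₁ : Fk₁} {T₂ : Fk₂} (ht₁ : Red₁ t T₁) (ht₂ : Red₂ t T₂)
  {n : ℕ} {b : Fin n → F} {β₁ : Fin n → Fk₁} {β₂ : Fin n → Fk₂}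
  (hb₁ : ∀ i, Red₁ (b i) (β₁ i)) (hb₂ : ∀ i, Red₂ (b i) (β₂ i))
  (hind : ∀ φ : Fin n → k[X], ∑ i, aeval T₁ (φ i) * β₁ i = 0 →
    ∑ i, aeval T₂ (φ i) * β₂ i = 0 → φ = 0)

include ax₁ ht₁ hb₁ in
theorem red_sum₁ (P₀ : Fin n → A[X]) :
    Red₁ (∑ i, aeval t ((P₀ i).map A.subtype) * b i)
      (∑ i, aeval T₁ ((P₀ i).map res) * β₁ i) :=
  ax₁.sum _ _ _ fun i _ => ax₁.mul (red_aeval ax₁ ht₁ (P₀ i)) (hb₁ i)

include ax₂ ht₂ hb₂ in
theorem red_sum₂ (P₀ : Fin n → A[X]) :
    Red₂ (∑ i, aeval t ((P₀ i).map A.subtype) * b i)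
      (∑ i, aeval T₂ ((P₀ i).map res) * β₂ i) :=
  ax₂.sum _ _ _ fun i _ => ax₂.mul (red_aeval ax₂ ht₂ (P₀ i)) (hb₂ i)

include hind in
/-- a normalised family has a nonzero joint residue -/
theorem residue_ne_zero {P₀ : Fin n → A[X]} {i₀ : Fin n} {m₀ : ℕ}
    (h1 : (P₀ i₀).coeff m₀ = 1) :
    ∑ i, aeval T₁ ((P₀ i).map res) * β₁ i ≠ 0 ∨ ∑ i, aeval T₂ ((P₀ i).map res) * β₂ i ≠ 0 := by
  by_contra hcon
  rw [not_or, not_not, not_not] at hcon
  have h2 := hind (fun i => (P₀ i).map res) hcon.1 hcon.2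
  have h3 := congrArg (fun φ : Fin n → k[X] => (φ i₀).coeff m₀) h2
  simp only [coeff_map, h1, map_one, Pi.zero_apply, coeff_zero] at h3
  exact one_ne_zero h3

theorem sum_C_mul (c : L) (P₀ : Fin n → A[X]) (P : Fin n → L[X])
    (hP : ∀ i, P i = C c * (P₀ i).map A.subtype) (t : F) (b : Fin n → F) :
    ∑ i, aeval t (P i) * b i = c • ∑ i, aeval t ((P₀ i).map A.subtype) * b i := by
  rw [Finset.smul_sum]
  refine Finset.sum_congr rfl fun i _ => ?_
  rw [hP i, map_mul, aeval_C, Algebra.smul_def, mul_assoc]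

include ax₁ ax₂ ht₁ ht₂ hb₁ hb₂ hind in
/-- **joint orthonormality, integrality of the coordinates** -/
theorem joint_ortho_red {P : Fin n → L[X]} {a₁ : Fk₁} {a₂ : Fk₂}
    (h₁ : Red₁ (∑ i, aeval t (P i) * b i) a₁) (h₂ : Red₂ (∑ i, aeval t (P i) * b i) a₂) :
    ∃ P₀ : Fin n → A[X], (∀ i, P i = (P₀ i).map A.subtype) ∧
      a₁ = ∑ i, aeval T₁ ((P₀ i).map res) * β₁ i ∧
      a₂ = ∑ i, aeval T₂ ((P₀ i).map res) * β₂ i := by
  by_cases hP : ∃ i, P i ≠ 0
  · obtain ⟨c, P₀, hc, hPP₀, i₀, m₀, h1⟩ := exists_normalization A P hP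
    have hx := sum_C_mul c P₀ P hPP₀ t b
    have hy₁ := red_sum₁ ax₁ ht₁ hb₁ P₀
    have hy₂ := red_sum₂ ax₂ ht₂ hb₂ P₀
    have hne := residue_ne_zero (res := res) hind (T₁ := T₁) (T₂ := T₂) (β₁ := β₁) (β₂ := β₂) h1
    rcases ax₁.mem_or c with ⟨u, hu⟩ | ⟨-, u, hu, hu0⟩
    · have hPu : ∀ i, P i = ((C u * P₀ i)).map A.subtype := by
        intro i
        rw [Polynomial.map_mul, map_C, hPP₀ i, ← hu]
        rfl
      refine ⟨fun i => C u * P₀ i, hPu, ?_, ?_⟩
      · have := red_sum₁ ax₁ ht₁ hb₁ (fun i => C u * P₀ i)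
        rw [show (∑ i, aeval t (((fun i => C u * P₀ i) i).map A.subtype) * b i)
          = ∑ i, aeval t (P i) * b i from
            Finset.sum_congr rfl fun i _ => by rw [hPu i]] at this
        exact ax₁.unique h₁ this
      · have := red_sum₂ ax₂ ht₂ hb₂ (fun i => C u * P₀ i)
        rw [show (∑ i, aeval t (((fun i => C u * P₀ i) i).map A.subtype) * b i)
          = ∑ i, aeval t (P i) * b i from
            Finset.sum_congr rfl fun i _ => by rw [hPu i]] at this
        exact ax₂.unique h₂ this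
    · exfalso
      have hc0 : c ≠ 0 := hc
      have hy : ∑ i, aeval t ((P₀ i).map A.subtype) * b i
          = (u : L) • ∑ i, aeval t (P i) * b i := by
        rw [hx, hu, smul_smul, inv_mul_cancel₀ hc0, one_smul]
      have h3 := ax₁.smul u h₁
      have h4 := ax₂.smul u h₂
      rw [← hy, hu0, map_zero, zero_mul] at h3 h4
      rcases hne with hne | hne
      · exact hne (ax₁.unique hy₁ h3)
      · exact hne (ax₂.unique hy₂ h4)
  · simp only [not_exists, not_not] at hP
    have hx0 : ∑ i, aeval t (P i) * b i = 0 :=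
      Finset.sum_eq_zero fun i _ => by rw [hP i, map_zero, zero_mul]
    rw [hx0] at h₁ h₂
    refine ⟨fun _ => 0, fun i => by rw [hP i, Polynomial.map_zero], ?_, ?_⟩
    · rw [ax₁.unique h₁ ax₁.zero]
      exact (Finset.sum_eq_zero fun i _ => by rw [Polynomial.map_zero, map_zero, zero_mul]).symm
    · rw [ax₂.unique h₂ ax₂.zero]
      exact (Finset.sum_eq_zero fun i _ => by rw [Polynomial.map_zero, map_zero, zero_mul]).symm

include ax₁ ax₂ ht₁ ht₂ hb₁ hb₂ hind in
/-- **the `b i` are linearly independent over `L[t]`** -/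
theorem joint_linearIndependent (P : Fin n → L[X]) (h : ∑ i, aeval t (P i) * b i = 0) :
    P = 0 := by
  by_contra hP
  have hP' : ∃ i, P i ≠ 0 := by
    by_contra hcon
    simp only [not_exists, not_not] at hcon
    exact hP (funext hcon)
  obtain ⟨c, P₀, hc, hPP₀, i₀, m₀, h1⟩ := exists_normalization A P hP'
  have hx := sum_C_mul c P₀ P hPP₀ t b
  have hy₁ := red_sum₁ ax₁ ht₁ hb₁ P₀
  have hy₂ := red_sum₂ ax₂ ht₂ hb₂ P₀
  have hne := residue_ne_zero (res := res) hind (T₁ := T₁) (T₂ := T₂) (β₁ := β₁) (β₂ := β₂) h1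
  rw [h] at hx
  have hy0 : ∑ i, aeval t ((P₀ i).map A.subtype) * b i = 0 := by
    rcases smul_eq_zero.mp hx.symm with h0 | h0
    · exact absurd h0 hc
    · exact h0
  rw [hy0] at hy₁ hy₂
  rcases hne with hne | hne
  · exact hne (ax₁.unique hy₁ ax₁.zero)
  · exact hne (ax₂.unique hy₂ ax₂.zero)

end Ortho

/-! ### pivots and Gaussian elimination -/

section H1

variable (ax₁ : RedAx A res Red₁) (ax₂ : RedAx A res Red₂)
  {t : F} {T₁ : Fk₁} {T₂ : Fk₂} (ht₁ : Red₁ t T₁) (ht₂ : Red₂ t T₂)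
  (hT₁ : Transcendental k T₁) (hT₂ : Transcendental k T₂)
  {n : ℕ} {b : Fin n → F} {β₁ : Fin n → Fk₁} {β₂ : Fin n → Fk₂}
  (hb₁ : ∀ i, Red₁ (b i) (β₁ i)) (hb₂ : ∀ i, Red₂ (b i) (β₂ i))
  (hind : ∀ φ : Fin n → k[X], ∑ i, aeval T₁ (φ i) * β₁ i = 0 →
    ∑ i, aeval T₂ (φ i) * β₂ i = 0 → φ = 0)
  (hrepr : ∀ x : F, ∃ (Q : L[X]) (P : Fin n → L[X]), Q ≠ 0 ∧
    aeval t Q * x = ∑ i, aeval t (P i) * b i)

include ax₁ ax₂ ht₁ ht₂ hT₁ hT₂ hb₁ hb₂ hind hrepr in
/-- **pivots**: a jointly integral element with nonzero joint residue admits a functional which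
is integral on the jointly integral elements and takes the value `1` at it -/
theorem exists_pivot (V : Submodule L F) [Module.Finite L V] (w : V) {a₁ : Fk₁} {a₂ : Fk₂}
    (h₁ : Red₁ (w : F) a₁) (h₂ : Red₂ (w : F) a₂) (hne : a₁ ≠ 0 ∨ a₂ ≠ 0) :
    ∃ lam : V →ₗ[L] L, (∀ x : V, ∀ (e₁ : Fk₁) (e₂ : Fk₂), Red₁ (x : F) e₁ → Red₂ (x : F) e₂ →
      lam x ∈ A) ∧ lam w = 1 := by
  set vb := Module.finBasis L V with hvb
  choose Qs Ps hQs hPs using fun s : Fin (Module.finrank L V) => hrepr (vb s : F)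
  set Qc : L[X] := ∏ s, Qs s with hQc
  have hQc0 : Qc ≠ 0 := Finset.prod_ne_zero_iff.mpr fun s _ => hQs s
  set P' : Fin (Module.finrank L V) → Fin n → L[X] :=
    fun s i => (∏ s' ∈ Finset.univ.erase s, Qs s') * Ps s i with hP'def
  have hP' : ∀ s, aeval t Qc * (vb s : F) = ∑ i, aeval t (P' s i) * b i := by
    intro s
    have h1 : Qc = (∏ s' ∈ Finset.univ.erase s, Qs s') * Qs s :=
      (Finset.prod_erase_mul _ _ (Finset.mem_univ s)).symm
    rw [h1, map_mul, mul_assoc, hPs s, Finset.mul_sum]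
    refine Finset.sum_congr rfl fun i _ => ?_
    rw [hP'def, map_mul, mul_assoc]
  obtain ⟨cQ, Q₀, hcQ, hQQ₀, j₀, m₁, hQ₀1⟩ :=
    exists_normalization A (fun _ : Fin 1 => Qc) ⟨0, hQc0⟩
  have hj₀ : j₀ = 0 := Subsingleton.elim _ _
  subst hj₀
  set Qm : L[X] := (Q₀ 0).map A.subtype with hQm
  have hQcm : aeval t Qc = algebraMap L F cQ * aeval t Qm := by
    rw [hQQ₀ 0, map_mul, aeval_C]
  have hQbar : (Q₀ 0).map res ≠ 0 := by
    intro h0
    have := congrArg (fun q : k[X] => q.coeff m₁) h0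
    simp only [coeff_map, hQ₀1, map_one, coeff_zero] at this
    exact one_ne_zero this
  have hQbar₁ : aeval T₁ ((Q₀ 0).map res) ≠ 0 := fun h => hQbar (transcendental_iff.mp hT₁ _ h)
  have hQbar₂ : aeval T₂ ((Q₀ 0).map res) ≠ 0 := fun h => hQbar (transcendental_iff.mp hT₂ _ h)
  have hRQ₁ : Red₁ (aeval t Qm) (aeval T₁ ((Q₀ 0).map res)) := red_aeval ax₁ ht₁ (Q₀ 0)
  have hRQ₂ : Red₂ (aeval t Qm) (aeval T₂ ((Q₀ 0).map res)) := red_aeval ax₂ ht₂ (Q₀ 0)
  -- the polynomial coordinates, as a linear map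
  set PxL : V →ₗ[L] (Fin n → L[X]) :=
    ∑ s, (vb.coord s).smulRight (fun i => cQ⁻¹ • P' s i) with hPxL
  have hPxL_basis : ∀ s, PxL (vb s) = fun i => cQ⁻¹ • P' s i := by
    intro s
    rw [hPxL, LinearMap.sum_apply]
    simp only [LinearMap.smulRight_apply, Module.Basis.coord_apply, Module.Basis.repr_self,
      Finsupp.single_apply]
    rw [Finset.sum_eq_single s]
    · rw [if_pos rfl, one_smul]
    · intro s' _ hs'
      rw [if_neg (Ne.symm hs'), zero_smul]
    · intro h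
      exact absurd (Finset.mem_univ s) h
  have hstar : ∀ x : V, aeval t Qm * (x : F) = ∑ i, aeval t (PxL x i) * b i := by
    have hlin : (LinearMap.mulLeft L (aeval t Qm)).comp V.subtype
        = ∑ i, (LinearMap.mulRight L (b i)).comp
            ((aeval t).toLinearMap.comp ((LinearMap.proj i).comp PxL)) := by
      refine vb.ext fun s => ?_
      rw [LinearMap.sum_apply]
      simp only [LinearMap.comp_apply, Submodule.subtype_apply, LinearMap.mulLeft_apply,
        LinearMap.mulRight_apply, AlgHom.toLinearMap_apply, LinearMap.proj_apply]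
      rw [hPxL_basis s]
      have h2 : ∀ i, aeval t (cQ⁻¹ • P' s i) * b i
          = algebraMap L F cQ⁻¹ * (aeval t (P' s i) * b i) := by
        intro i
        rw [map_smul, Algebra.smul_def, mul_assoc]
      rw [Finset.sum_congr rfl fun i _ => h2 i, ← Finset.mul_sum, ← hP' s, hQcm, ← mul_assoc,
        ← mul_assoc, ← map_mul, inv_mul_cancel₀ hcQ, map_one, one_mul]
    intro x
    have := congrArg (fun φ : V →ₗ[L] F => φ x) hlin
    simp only [LinearMap.comp_apply, Submodule.subtype_apply, LinearMap.mulLeft_apply,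
      LinearMap.sum_apply, LinearMap.mulRight_apply, AlgHom.toLinearMap_apply,
      LinearMap.proj_apply] at this
    exact this
  -- integrality of the coordinates
  have hint : ∀ x : V, ∀ (e₁ : Fk₁) (e₂ : Fk₂), Red₁ (x : F) e₁ → Red₂ (x : F) e₂ →
      ∃ P₀ : Fin n → A[X], (∀ i, PxL x i = (P₀ i).map A.subtype) ∧
        aeval T₁ ((Q₀ 0).map res) * e₁ = ∑ i, aeval T₁ ((P₀ i).map res) * β₁ i ∧
        aeval T₂ ((Q₀ 0).map res) * e₂ = ∑ i, aeval T₂ ((P₀ i).map res) * β₂ i := by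
    intro x e₁ e₂ hx₁ hx₂
    have h3 := ax₁.mul hRQ₁ hx₁
    have h4 := ax₂.mul hRQ₂ hx₂
    rw [hstar x] at h3 h4
    exact joint_ortho_red ax₁ ax₂ ht₁ ht₂ hb₁ hb₂ hind h3 h4
  obtain ⟨P₀w, hP₀w, hw₁, hw₂⟩ := hint w a₁ a₂ h₁ h₂
  have hex : ∃ i₀, (P₀w i₀).map res ≠ 0 := by
    by_contra hcon
    simp only [not_exists, not_not] at hcon
    have hz₁ : ∑ i, aeval T₁ ((P₀w i).map res) * β₁ i = 0 :=
      Finset.sum_eq_zero fun i _ => by rw [hcon i, map_zero, zero_mul]
    have hz₂ : ∑ i, aeval T₂ ((P₀w i).map res) * β₂ i = 0 :=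
      Finset.sum_eq_zero fun i _ => by rw [hcon i, map_zero, zero_mul]
    rw [hz₁] at hw₁
    rw [hz₂] at hw₂
    rcases hne with hne | hne
    · exact mul_ne_zero hQbar₁ hne hw₁
    · exact mul_ne_zero hQbar₂ hne hw₂
  obtain ⟨i₀, hi₀⟩ := hex
  have hex2 : ∃ m₀, res ((P₀w i₀).coeff m₀) ≠ 0 := by
    by_contra hcon
    simp only [not_exists, not_not] at hcon
    apply hi₀
    ext m
    rw [coeff_map, hcon m, coeff_zero]
  obtain ⟨m₀, hm₀⟩ := hex2
  set u : A := (P₀w i₀).coeff m₀ with hu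
  have huinv : ((u : L))⁻¹ ∈ A := inv_mem_of_res_ne_zero ax₁ u hm₀
  have hu0 : (u : L) ≠ 0 := by
    intro h
    apply hm₀
    have : u = 0 := Subtype.ext h
    rw [this, map_zero]
  set lam : V →ₗ[L] L :=
    ((u : L))⁻¹ • ((lcoeff L m₀).comp ((LinearMap.proj i₀).comp PxL)) with hlam
  have hlam_apply : ∀ x : V, lam x = ((u : L))⁻¹ * (PxL x i₀).coeff m₀ := by
    intro x
    rw [hlam]
    simp only [LinearMap.smul_apply, LinearMap.comp_apply, LinearMap.proj_apply, lcoeff_apply,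
      smul_eq_mul]
  refine ⟨lam, fun x e₁ e₂ hx₁ hx₂ => ?_, ?_⟩
  · obtain ⟨P₀x, hP₀x, -, -⟩ := hint x e₁ e₂ hx₁ hx₂
    rw [hlam_apply, hP₀x i₀, coeff_map]
    exact A.mul_mem _ _ huinv ((P₀x i₀).coeff m₀).2
  · rw [hlam_apply, hP₀w i₀, coeff_map]
    exact inv_mul_cancel₀ hu0

include ax₁ ax₂ ht₁ ht₂ hT₁ hT₂ hb₁ hb₂ hind hrepr in
/-- **Gaussian elimination**: a finite-dimensional subspace has a basis of jointly integral
elements with `k`-linearly independent joint residues -/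
theorem exists_indep_lifts₂ :
    ∀ (m : ℕ) (V : Submodule L F), Module.Finite L V → Module.finrank L V = m →
      ∃ (x : Fin m → F) (a : Fin m → Fk₁ × Fk₂), (∀ s, x s ∈ V) ∧
        (∀ s, Red₁ (x s) (a s).1) ∧ (∀ s, Red₂ (x s) (a s).2) ∧ LinearIndependent k a := by
  intro m
  induction m with
  | zero =>
    intro V _ _
    exact ⟨Fin.elim0, Fin.elim0, fun s => s.elim0, fun s => s.elim0, fun s => s.elim0,
      linearIndependent_empty_type⟩
  | succ m ih =>
    intro V hfin hrank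
    have hVne : V ≠ ⊥ := by
      rintro rfl
      rw [finrank_bot] at hrank
      omega
    obtain ⟨v, hvV, hv0⟩ := Submodule.exists_mem_ne_zero_of_ne_bot hVne
    obtain ⟨c, hc, e₁, e₂, hR₁, hR₂, hne⟩ := joint_scale ax₁ ax₂ hv0
    have hwV : c • v ∈ V := V.smul_mem c hvV
    obtain ⟨lam, hlam, hlamw⟩ := exists_pivot ax₁ ax₂ ht₁ ht₂ hT₁ hT₂ hb₁ hb₂ hind hrepr V
      ⟨c • v, hwV⟩ hR₁ hR₂ hne
    set V' : Submodule L F := (LinearMap.ker lam).map V.subtype with hV'
    have hV'le : V' ≤ V := by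
      rintro y ⟨z, -, rfl⟩
      exact z.2
    have hfin₁ : Module.Finite L V' := Submodule.finiteDimensional_of_le hV'le
    have hrank₁ : Module.finrank L V' = m := by
      have h1 := LinearMap.finrank_range_add_finrank_ker lam
      have h2 : LinearMap.range lam = ⊤ := by
        rw [eq_top_iff]
        intro y _
        refine ⟨y • (⟨c • v, hwV⟩ : V), ?_⟩
        rw [map_smul, hlamw, smul_eq_mul, mul_one]
      have h3 : Module.finrank L ↥(LinearMap.range lam) = 1 := by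
        rw [h2, finrank_top, Module.finrank_self]
      rw [hV', Submodule.finrank_map_subtype_eq]
      omega
    obtain ⟨x', a', hx'V, hx'₁, hx'₂, ha'⟩ := ih V' hfin₁ hrank₁
    refine ⟨Fin.cons (c • v) x', Fin.cons (e₁, e₂) a', ?_, ?_, ?_, ?_⟩
    · intro s
      refine Fin.cases ?_ (fun i => ?_) s
      · rw [Fin.cons_zero]; exact hwV
      · rw [Fin.cons_succ]; exact hV'le (hx'V i)
    · intro s
      refine Fin.cases ?_ (fun i => ?_) s
      · rw [Fin.cons_zero, Fin.cons_zero]; exact hR₁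
      · rw [Fin.cons_succ, Fin.cons_succ]; exact hx'₁ i
    · intro s
      refine Fin.cases ?_ (fun i => ?_) s
      · rw [Fin.cons_zero, Fin.cons_zero]; exact hR₂
      · rw [Fin.cons_succ, Fin.cons_succ]; exact hx'₂ i
    · refine ha'.finCons ?_
      intro hmem
      rw [Submodule.mem_span_range_iff_exists_fun] at hmem
      obtain ⟨ā, hā⟩ := hmem
      choose cc hcc using fun i => ax₁.res_surj (ā i)
      have hā₁ : ∑ i, algebraMap k Fk₁ (res (cc i)) * (a' i).1 = e₁ := by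
        have := congrArg Prod.fst hā
        rw [Prod.fst_sum] at this
        simp only [Prod.smul_fst] at this
        simp only [Algebra.smul_def] at this
        rw [← this]
        exact Finset.sum_congr rfl fun i _ => by rw [hcc i]
      have hā₂ : ∑ i, algebraMap k Fk₂ (res (cc i)) * (a' i).2 = e₂ := by
        have := congrArg Prod.snd hā
        rw [Prod.snd_sum] at this
        simp only [Prod.smul_snd] at this
        simp only [Algebra.smul_def] at this
        rw [← this]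
        exact Finset.sum_congr rfl fun i _ => by rw [hcc i]
      set z : F := c • v - ∑ i, ((cc i : A) : L) • x' i with hz
      have hzV : z ∈ V :=
        V.sub_mem hwV (V.sum_mem fun i _ => V.smul_mem _ (hV'le (hx'V i)))
      have hz₁ : Red₁ z 0 := by
        have h1 := ax₁.sub hR₁ (ax₁.sum Finset.univ (fun i => ((cc i : A) : L) • x' i)
          (fun i => algebraMap k Fk₁ (res (cc i)) * (a' i).1)
          fun i _ => ax₁.smul (cc i) (hx'₁ i))
        rwa [hā₁, sub_self] at h1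
      have hz₂ : Red₂ z 0 := by
        have h1 := ax₂.sub hR₂ (ax₂.sum Finset.univ (fun i => ((cc i : A) : L) • x' i)
          (fun i => algebraMap k Fk₂ (res (cc i)) * (a' i).2)
          fun i _ => ax₂.smul (cc i) (hx'₂ i))
        rwa [hā₂, sub_self] at h1
      have hlz : lam ⟨z, hzV⟩ = 1 := by
        have h1 : (⟨z, hzV⟩ : V) = ⟨c • v, hwV⟩
            - ∑ i, ((cc i : A) : L) • (⟨x' i, hV'le (hx'V i)⟩ : V) := by
          apply Subtype.ext
          rw [AddSubgroupClass.coe_sub, AddSubmonoidClass.coe_finsetSum]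
          rfl
        rw [h1, map_sub, hlamw, map_sum]
        have h2 : ∑ i, lam (((cc i : A) : L) • (⟨x' i, hV'le (hx'V i)⟩ : V)) = 0 := by
          refine Finset.sum_eq_zero fun i _ => ?_
          obtain ⟨y, hy, hyx⟩ := hx'V i
          have hyeq : y = (⟨x' i, hV'le (hx'V i)⟩ : V) := Subtype.ext hyx
          rw [map_smul, ← hyeq, LinearMap.mem_ker.mp hy, smul_zero]
        rw [h2, sub_zero]
      obtain ⟨u, y, f₁, f₂, hu0, hzy, hy₁, hy₂⟩ := exists_of_red_zero ax₁ ax₂ hz₁ hz₂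
      by_cases hu : (u : L) = 0
      · have hz0 : (⟨z, hzV⟩ : V) = 0 := by
          apply Subtype.ext
          show z = 0
          rw [hzy, hu, zero_smul]
        rw [hz0, map_zero] at hlz
        exact zero_ne_one hlz
      · have hyV : y ∈ V := by
          have : y = ((u : L))⁻¹ • z := by
            rw [hzy, smul_smul, inv_mul_cancel₀ hu, one_smul]
          rw [this]
          exact V.smul_mem _ hzV
        have h3 := hlam ⟨y, hyV⟩ f₁ f₂ hy₁ hy₂
        have h4 : (⟨z, hzV⟩ : V) = (u : L) • (⟨y, hyV⟩ : V) := Subtype.ext hzy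
        rw [h4, map_smul, smul_eq_mul] at hlz
        have h5 : u * ⟨lam ⟨y, hyV⟩, h3⟩ = 1 := Subtype.ext hlz
        have h6 := congrArg res h5
        rw [map_mul, hu0, zero_mul, map_one] at h6
        exact zero_ne_one h6

include ax₁ ax₂ ht₁ ht₂ hT₁ hT₂ hb₁ hb₂ hind hrepr in
/-- **the joint (H1)**: the joint reduction preserves the dimension of finite-dimensional
subspaces (`= Setup2.H1`) -/
theorem joint_H1 (V : Submodule L F) (hV : Module.Finite L V) :
    Module.finrank k (redSpace₂ ax₁ ax₂ V) = Module.finrank L V := by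
  have hle : ∀ (m : ℕ) (a : Fin m → redSpace₂ ax₁ ax₂ V),
      LinearIndependent k a → m ≤ Module.finrank L V := by
    intro m a ha
    choose x hxV hx₁ hx₂ using fun i => (a i).2
    have ha1 : LinearIndependent k (fun i => ((a i : Fk₁ × Fk₂))) :=
      ha.map' (redSpace₂ ax₁ ax₂ V).subtype (Submodule.ker_subtype _)
    have hx := linearIndependent_lifts₂ ax₁ ax₂ x (fun i => (a i : Fk₁ × Fk₂).1)
      (fun i => (a i : Fk₁ × Fk₂).2) hx₁ hx₂ ha1
    have hx' : LinearIndependent L (fun i => (⟨x i, hxV i⟩ : V)) := by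
      apply LinearIndependent.of_comp V.subtype
      exact hx
    have := hx'.fintype_card_le_finrank
    rwa [Fintype.card_fin] at this
  have hrank : Module.rank k (redSpace₂ ax₁ ax₂ V) ≤ (Module.finrank L V : ℕ) := by
    by_contra hcon
    rw [not_le] at hcon
    have h1 : ((Module.finrank L V + 1 : ℕ) : Cardinal)
        ≤ Module.rank k (redSpace₂ ax₁ ax₂ V) := by
      rw [Nat.cast_succ, ← Cardinal.succ_natCast]
      exact Order.succ_le_of_lt hcon
    obtain ⟨f, hf⟩ := exists_linearIndependent_of_le_rank h1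
    have := hle _ f hf
    omega
  have hfin : Module.Finite k (redSpace₂ ax₁ ax₂ V) := by
    rw [← Module.rank_lt_aleph0_iff]
    exact lt_of_le_of_lt hrank (Cardinal.natCast_lt_aleph0)
  apply le_antisymm (Module.finrank_le_of_rank_le hrank)
  obtain ⟨x, a, hxV, hx₁, hx₂, ha⟩ :=
    exists_indep_lifts₂ ax₁ ax₂ ht₁ ht₂ hT₁ hT₂ hb₁ hb₂ hind hrepr _ V hV rfl
  have ha2 : LinearIndependent k
      (fun s => (⟨a s, ⟨x s, hxV s, hx₁ s, hx₂ s⟩⟩ : redSpace₂ ax₁ ax₂ V)) := by
    apply LinearIndependent.of_comp (redSpace₂ ax₁ ax₂ V).subtype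
    exact ha
  have := ha2.fintype_card_le_finrank
  rwa [Fintype.card_fin] at this

end H1

end Fermat.Agent.S34.JH1
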