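import Fermat.Agent.S34.C3H2
import Fermat.Agent.S34.JointH1Abs

/-!
# C83 (S34), piece C3, part 4: `JointFin` from a joint orthonormal family

The input `JointFin` of (H2p) (`C3H2.lean`) follows from the data of the joint (H1)
(`JointH1Abs.lean`): a family `b i` with jointly independent reductions and the representation
property `hrepr`.
-/

set_option autoImplicit false
set_option linter.unusedSectionVars false
set_option linter.unusedVariables false
set_option linter.style.haveILetI false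
set_option synthInstance.maxHeartbeats 400000
set_option maxHeartbeats 1000000

noncomputable section

open AlgebraicCurve ModularCurve IntermediateField Fermat.Agent.Lib.FF Polynomial
open Fermat.Agent.S18 Fermat.Agent.S18.Deuring

namespace Fermat.Agent.S34.C3

/-! ### abstract part -/

section Abs

variable {L k F : Type*} [Field L] [Field k] [Field F] [Algebra L F]
variable {A : ValuationSubring L} {res : A →+* k}
variable {Fk₁ Fk₂ : Type*} [Field Fk₁] [Field Fk₂] [Algebra k Fk₁] [Algebra k Fk₂]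
  {Red₁ : F → Fk₁ → Prop} {Red₂ : F → Fk₂ → Prop}
variable (ax₁ : RedAx A res Red₁) (ax₂ : RedAx A res Red₂)
  {t : F} {T₁ : Fk₁} {T₂ : Fk₂} (ht₁ : Red₁ t T₁) (ht₂ : Red₂ t T₂)
  {n : ℕ} {b : Fin n → F} {β₁ : Fin n → Fk₁} {β₂ : Fin n → Fk₂}
  (hb₁ : ∀ i, Red₁ (b i) (β₁ i)) (hb₂ : ∀ i, Red₂ (b i) (β₂ i))
  (hind : ∀ φ : Fin n → k[X], ∑ i, aeval T₁ (φ i) * β₁ i = 0 →
    ∑ i, aeval T₂ (φ i) * β₂ i = 0 → φ = 0)
  (hrepr : ∀ x : F, ∃ (Q : L[X]) (P : Fin n → L[X]), Q ≠ 0 ∧
    aeval t Q * x = ∑ i, aeval t (P i) * b i)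

include ax₁ ax₂ ht₁ ht₂ hb₁ hb₂ hind hrepr in
/-- a jointly integral element has integral coordinates with a primitive denominator -/
theorem exists_integral_repr {y : F} {a₁ : Fk₁} {a₂ : Fk₂} (h₁ : Red₁ y a₁) (h₂ : Red₂ y a₂) :
    ∃ (Q₀ : A[X]) (P₀ : Fin n → A[X]), Q₀.map res ≠ 0 ∧
      aeval t (Q₀.map A.subtype) * y = ∑ i, aeval t ((P₀ i).map A.subtype) * b i := by
  obtain ⟨Q, P, hQ, hrep⟩ := hrepr y
  obtain ⟨c, Q₀', hc, hQQ₀, i₀, m₀, h1⟩ :=
    Fermat.Agent.S34.JH1.exists_normalization A (fun _ : Fin 1 => Q) ⟨0, hQ⟩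
  have hi₀ : i₀ = 0 := Subsingleton.elim _ _
  subst hi₀
  set Q₀ : A[X] := Q₀' 0 with hQ₀
  have hQc : Q = C c * Q₀.map A.subtype := hQQ₀ 0
  have hQ₀ne : Q₀.map res ≠ 0 := by
    intro h
    have := congrArg (fun p : k[X] => p.coeff m₀) h
    simp only [coeff_map, h1, map_one, coeff_zero] at this
    exact one_ne_zero this
  -- the normalised equation
  have heq : aeval t (Q₀.map A.subtype) * y = ∑ i, aeval t (C c⁻¹ * P i) * b i := by
    have h2 : aeval t Q = algebraMap L F c * aeval t (Q₀.map A.subtype) := by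
      rw [hQc, map_mul, aeval_C]
    rw [h2, mul_assoc] at hrep
    have hcF : algebraMap L F c ≠ 0 := (_root_.map_ne_zero _).mpr hc
    have h3 : aeval t (Q₀.map A.subtype) * y
        = (algebraMap L F c)⁻¹ * ∑ i, aeval t (P i) * b i := by
      rw [← hrep, ← mul_assoc, inv_mul_cancel₀ hcF, one_mul]
    rw [h3, Finset.mul_sum]
    refine Finset.sum_congr rfl fun i _ => ?_
    rw [map_mul, aeval_C, map_inv₀, mul_assoc]
  have hR₁ : Red₁ (aeval t (Q₀.map A.subtype) * y) (aeval T₁ (Q₀.map res) * a₁) :=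
    ax₁.mul (Fermat.Agent.S34.JH1.red_aeval ax₁ ht₁ Q₀) h₁
  have hR₂ : Red₂ (aeval t (Q₀.map A.subtype) * y) (aeval T₂ (Q₀.map res) * a₂) :=
    ax₂.mul (Fermat.Agent.S34.JH1.red_aeval ax₂ ht₂ Q₀) h₂
  rw [heq] at hR₁ hR₂
  obtain ⟨P₀, hP₀, -, -⟩ :=
    Fermat.Agent.S34.JH1.joint_ortho_red ax₁ ax₂ ht₁ ht₂ hb₁ hb₂ hind hR₁ hR₂
  refine ⟨Q₀, P₀, hQ₀ne, ?_⟩
  rw [heq]
  refine Finset.sum_congr rfl fun i _ => ?_
  rw [hP₀ i]

include ax₁ ax₂ ht₁ ht₂ hb₁ hb₂ hind hrepr in
/-- a jointly integral element is a combination of the `b i` with coefficients in `L(t)` which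
are `Red₁`-integral -/
theorem exists_coord (hT₁ : Transcendental k T₁) {y : F} {a₁ : Fk₁} {a₂ : Fk₂}
    (h₁ : Red₁ y a₁) (h₂ : Red₂ y a₂) :
    ∃ f : Fin n → F, (∀ i, (∃ r s : L[X], f i = aeval t r / aeval t s) ∧ ∃ e, Red₁ (f i) e) ∧
      y = ∑ i, f i * b i := by
  obtain ⟨Q₀, P₀, hQ₀, heq⟩ :=
    exists_integral_repr ax₁ ax₂ ht₁ ht₂ hb₁ hb₂ hind hrepr h₁ h₂
  have hne : aeval T₁ (Q₀.map res) ≠ 0 := fun h => hQ₀ ((transcendental_iff.mp hT₁) _ h)
  have hRQ : Red₁ (aeval t (Q₀.map A.subtype)) (aeval T₁ (Q₀.map res)) :=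
    Fermat.Agent.S34.JH1.red_aeval ax₁ ht₁ Q₀
  have hQt : aeval t (Q₀.map A.subtype) ≠ 0 := ax₁.ne_zero hRQ hne
  refine ⟨fun i => aeval t ((P₀ i).map A.subtype) / aeval t (Q₀.map A.subtype),
    fun i => ⟨⟨_, _, rfl⟩, aeval T₁ ((P₀ i).map res) * (aeval T₁ (Q₀.map res))⁻¹, ?_⟩, ?_⟩
  · show Red₁ (aeval t ((P₀ i).map A.subtype) / aeval t (Q₀.map A.subtype)) _
    rw [div_eq_mul_inv]
    exact ax₁.mul (Fermat.Agent.S34.JH1.red_aeval ax₁ ht₁ (P₀ i)) (ax₁.inv hRQ hne)
  · have h3 : y = (aeval t (Q₀.map A.subtype))⁻¹ *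
        ∑ i, aeval t ((P₀ i).map A.subtype) * b i := by
      rw [← heq, ← mul_assoc, inv_mul_cancel₀ hQt, one_mul]
    rw [h3, Finset.mul_sum]
    refine Finset.sum_congr rfl fun i _ => ?_
    show _ = aeval t ((P₀ i).map A.subtype) / aeval t (Q₀.map A.subtype) * b i
    rw [div_eq_mul_inv]
    ring

end Abs

/-! ### the concrete statement -/

local notation "Qb" => AlgebraicClosure ℚ

local instance isAlgebraicQbC3J : Algebra.IsAlgebraic ℚ (AlgebraicClosure ℚ) :=
  AlgebraicClosure.isAlgebraic ℚ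

attribute [local instance] neZero_q

variable (A : ValuationSubring (AlgebraicClosure ℚ)) (q : ℕ) [hq : Fact q.Prime]
variable (hA : A.LiesOverPrime q) (M : ℕ) [NeZero M] (hqM : ¬ q ∣ M)

/-- a Gauss-integral element of `F(Mq)` has a reduction in `F_k(M)` (from the axiom `scale`) -/
theorem exists_red_of_mem_gauss (ψ : modularFunctionFieldBar (M * q) →ₐ[Qb]
      modularFunctionFieldBar (M * q))
    (ax : RedAx A (IsLocalRing.residue A)
      (fun (x : modularFunctionFieldBar (M * q))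
        (a : modularFunctionFieldFullC (IsLocalRing.ResidueField A) M) =>
        GV.Red A ((ψ x : modularFunctionFieldBar (M * q)) : LaurentSeries Qb)
          (a : LaurentSeries (IsLocalRing.ResidueField A))))
    {y : modularFunctionFieldBar (M * q)}
    (hy : ((ψ y : modularFunctionFieldBar (M * q)) : LaurentSeries Qb) ∈ GV.gaussRing A) :
    ∃ a : modularFunctionFieldFullC (IsLocalRing.ResidueField A) M,
      GV.Red A ((ψ y : modularFunctionFieldBar (M * q)) : LaurentSeries Qb)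
        (a : LaurentSeries (IsLocalRing.ResidueField A)) := by
  by_cases hy0 : y = 0
  · refine ⟨0, ?_⟩
    rw [hy0]
    exact ax.zero
  obtain ⟨c, hc, a, ha, hred⟩ := ax.scale y hy0
  by_cases hinv : c⁻¹ ∈ A
  · have h1 := ax.smul ⟨c⁻¹, hinv⟩ hred
    rw [smul_smul, inv_mul_cancel₀ hc, one_smul] at h1
    exact ⟨_, h1⟩
  · exfalso
    have hcA : c ∈ A := (A.mem_or_inv_mem c).resolve_right hinv
    have hres : IsLocalRing.residue A ⟨c, hcA⟩ = 0 := ax.res_eq_zero ⟨c, hcA⟩ hinv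
    have h1 : GV.Red A ((ψ (c • y) : modularFunctionFieldBar (M * q)) : LaurentSeries Qb) 0 := by
      have h2 := (GV.red_const A ⟨c, hcA⟩).mul A (GV.red_of_mem A hy)
      rw [hres, map_zero, zero_mul] at h2
      rw [Algebra.smul_def, map_mul, AlgHom.commutes, MulMemClass.coe_mul, GV.coe_algebraMap_ff]
      exact h2
    have h3 : GV.Red A ((ψ (c • y) : modularFunctionFieldBar (M * q)) : LaurentSeries Qb)
        (a : LaurentSeries (IsLocalRing.ResidueField A)) := hred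
    have h4 := GV.Red.unique A h3 h1
    exact ha (Subtype.ext h4)

include hA in
/-- **`JointFin` from a joint orthonormal family** (the data of the joint (H1)) -/
theorem jointFin_of_ortho
    (ax₁ : RedAx A (IsLocalRing.residue A)
      (fun (x : modularFunctionFieldBar (M * q))
        (a : modularFunctionFieldFullC (IsLocalRing.ResidueField A) M) =>
        GV.Red A (x : LaurentSeries Qb) (a : LaurentSeries (IsLocalRing.ResidueField A))))
    (ax₂ : RedAx A (IsLocalRing.residue A)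
      (fun (x : modularFunctionFieldBar (M * q))
        (a : modularFunctionFieldFullC (IsLocalRing.ResidueField A) M) =>
        GV.Red A ((Fermat.Agent.S37.AL.wAL hq.out hqM x : modularFunctionFieldBar (M * q)) :
          LaurentSeries Qb) (a : LaurentSeries (IsLocalRing.ResidueField A))))
    {T₂ : modularFunctionFieldFullC (IsLocalRing.ResidueField A) M}
    (ht₂ : GV.Red A ((jq q M : modularFunctionFieldBar (M * q)) : LaurentSeries Qb)
      (T₂ : LaurentSeries (IsLocalRing.ResidueField A)))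
    {n : ℕ} (b : Fin n → modularFunctionFieldBar (M * q))
    (β₁ β₂ : Fin n → modularFunctionFieldFullC (IsLocalRing.ResidueField A) M)
    (hb₁ : ∀ i, GV.Red A (b i : LaurentSeries Qb)
      (β₁ i : LaurentSeries (IsLocalRing.ResidueField A)))
    (hb₂ : ∀ i, GV.Red A
      ((Fermat.Agent.S37.AL.wAL hq.out hqM (b i) : modularFunctionFieldBar (M * q)) :
        LaurentSeries Qb) (β₂ i : LaurentSeries (IsLocalRing.ResidueField A)))
    (hind : ∀ φ : Fin n → (IsLocalRing.ResidueField A)[X],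
      ∑ i, aeval (GV.jK (IsLocalRing.ResidueField A) M) (φ i) * β₁ i = 0 →
      ∑ i, aeval T₂ (φ i) * β₂ i = 0 → φ = 0)
    (hrepr : ∀ x : modularFunctionFieldBar (M * q), ∃ (Q : Qb[X]) (P : Fin n → Qb[X]), Q ≠ 0 ∧
      aeval (Fermat.Agent.S24.jBar (M * q)) Q * x
        = ∑ i, aeval (Fermat.Agent.S24.jBar (M * q)) (P i) * b i) :
    JointFin A q M hqM := by
  have ht₁ := red_jBar_N A q M
  have ht₂' : GV.Red A
      ((Fermat.Agent.S37.AL.wAL hq.out hqM (Fermat.Agent.S24.jBar (M * q)) :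
        modularFunctionFieldBar (M * q)) : LaurentSeries Qb)
      (T₂ : LaurentSeries (IsLocalRing.ResidueField A)) := by
    rw [wAL_jBar q M hqM]
    exact ht₂
  have hT₁ : Transcendental (IsLocalRing.ResidueField A)
      (GV.jK (IsLocalRing.ResidueField A) M) :=
    (Fermat.Agent.S18.Final.isFF1s_jK A q hA M).transcendental
  refine ⟨n, b, fun i => ⟨(hb₁ i).mem, (hb₂ i).mem⟩, fun y hy => ?_⟩
  obtain ⟨a₁, ha₁⟩ := exists_red_of_mem_gauss A q M (AlgHom.id Qb _) ax₁ (y := y) hy.1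
  obtain ⟨a₂, ha₂⟩ := exists_red_of_mem_gauss A q M
    (Fermat.Agent.S37.AL.wALEquiv hq.out hqM).toAlgHom ax₂ (y := y) hy.2
  obtain ⟨f, hf, hyf⟩ := exists_coord ax₁ ax₂ ht₁ ht₂' hb₁ hb₂ hind hrepr hT₁
    (y := y) ha₁ ha₂
  refine ⟨f, fun i => ⟨?_, ?_⟩, hyf⟩
  · obtain ⟨⟨r, s, hrs⟩, -⟩ := hf i
    rw [IntermediateField.mem_adjoin_simple_iff]
    exact ⟨r, s, hrs⟩
  · obtain ⟨-, e, he⟩ := hf i
    exact GV.Red.mem A he

end Fermat.Agent.S34.C3
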