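import Fermat.Agent.S34.JointH1Abs

/-!
# C83 (S34), piece C1, abstract half (continued): the representation hypothesis `hrepr`

If `[F : L(t)] = n` and the `n` elements `b i` are linearly independent over `L[t]` (which follows
from the joint orthonormality, `JH1.joint_linearIndependent`), then every element of `F` is an
`L(t)`-combination of the `b i`, in the form used by `JH1.joint_H1`:
`Q(t) x = ∑ P_i(t) b_i` with `Q ≠ 0`.
-/

set_option autoImplicit false
set_option linter.unusedSectionVars false
set_option linter.style.haveILetI false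
set_option linter.unusedSimpArgs false
set_option linter.unusedTactic false
set_option linter.unusedVariables false

open Polynomial IntermediateField
open scoped Classical

noncomputable section

namespace Fermat.Agent.S34.JH1

variable {L F : Type*} [Field L] [Field F] [Algebra L F]

/-- an element of `L(t)` as a quotient with nonvanishing denominator -/
theorem exists_quot (t : F) (f : L⟮t⟯) :
    ∃ r s : L[X], aeval t s ≠ 0 ∧ (f : F) * aeval t s = aeval t r := by
  obtain ⟨r, s, h⟩ := (mem_adjoin_simple_iff L (f : F)).mp f.2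
  by_cases hs : aeval t s = 0
  · refine ⟨0, 1, by simp, ?_⟩
    rw [h, hs, div_zero, zero_mul, map_zero]
  · exact ⟨r, s, hs, by rw [h, div_mul_cancel₀ _ hs]⟩

/-- linear independence over `L[t]` implies linear independence over `L(t)` -/
theorem linearIndependent_adjoin {t : F} {n : ℕ} (b : Fin n → F)
    (hind : ∀ P : Fin n → L[X], ∑ i, aeval t (P i) * b i = 0 → P = 0) :
    LinearIndependent L⟮t⟯ b := by
  rw [Fintype.linearIndependent_iff]
  intro g hg i₀
  choose r s hs hrs using fun i => exists_quot t (g i)
  set S : Fin n → L[X] := fun i => ∏ j ∈ Finset.univ.erase i, s j with hS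
  have hSne : ∀ i, aeval t (S i) ≠ 0 := by
    intro i
    rw [hS, map_prod]
    exact Finset.prod_ne_zero_iff.mpr fun j _ => hs j
  have hprod : ∀ i, aeval t (s i) * aeval t (S i) = aeval t (∏ j, s j) := by
    intro i
    rw [← map_mul, hS, Finset.mul_prod_erase _ _ (Finset.mem_univ i)]
  have h1 : ∑ i, aeval t (r i * S i) * b i = 0 := by
    have h2 : ∀ i, aeval t (r i * S i) * b i = aeval t (∏ j, s j) * (g i • b i) := by
      intro i
      rw [map_mul, ← hrs i, ← hprod i, Algebra.smul_def, IntermediateField.algebraMap_apply]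
      ring
    rw [Finset.sum_congr rfl fun i _ => h2 i, ← Finset.mul_sum, hg, mul_zero]
  have h3 := congrFun (hind _ h1) i₀
  simp only [Pi.zero_apply] at h3
  have hr0 : r i₀ = 0 := by
    rcases mul_eq_zero.mp h3 with h | h
    · exact h
    · exfalso
      apply hSne i₀
      rw [h, map_zero]
  have h4 := hrs i₀
  rw [hr0, map_zero] at h4
  rcases mul_eq_zero.mp h4 with h | h
  · exact Subtype.ext h
  · exact absurd h (hs i₀)

/-- **the representation hypothesis from a dimension count** -/
theorem hrepr_of_finrank {t : F} {n : ℕ} (hn : 0 < n) (b : Fin n → F)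
    (hfin : Module.finrank L⟮t⟯ F = n)
    (hind : ∀ P : Fin n → L[X], ∑ i, aeval t (P i) * b i = 0 → P = 0) (x : F) :
    ∃ (Q : L[X]) (P : Fin n → L[X]), Q ≠ 0 ∧ aeval t Q * x = ∑ i, aeval t (P i) * b i := by
  haveI : Nonempty (Fin n) := ⟨⟨0, hn⟩⟩
  have hli := linearIndependent_adjoin b hind
  set bs := basisOfLinearIndependentOfCardEqFinrank hli (by rw [Fintype.card_fin, hfin])
    with hbs
  have hbs_apply : ∀ i, bs i = b i := fun i => by
    rw [hbs, coe_basisOfLinearIndependentOfCardEqFinrank]
  choose r s hs hrs using fun i => exists_quot t (bs.repr x i)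
  set S : Fin n → L[X] := fun i => ∏ j ∈ Finset.univ.erase i, s j with hS
  have hprod : ∀ i, aeval t (s i) * aeval t (S i) = aeval t (∏ j, s j) := by
    intro i
    rw [← map_mul, hS, Finset.mul_prod_erase _ _ (Finset.mem_univ i)]
  have hQne : aeval t (∏ j, s j) ≠ 0 := by
    rw [map_prod]
    exact Finset.prod_ne_zero_iff.mpr fun j _ => hs j
  refine ⟨∏ j, s j, fun i => r i * S i, ?_, ?_⟩
  · intro h0
    apply hQne
    rw [h0, map_zero]
  · have hx : x = ∑ i, bs.repr x i • b i := by
      conv_lhs => rw [← bs.sum_repr x]
      exact Finset.sum_congr rfl fun i _ => by rw [hbs_apply]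
    conv_lhs => rw [hx]
    rw [Finset.mul_sum]
    refine Finset.sum_congr rfl fun i _ => ?_
    rw [map_mul, ← hrs i, ← hprod i, Algebra.smul_def, IntermediateField.algebraMap_apply]
    ring

end Fermat.Agent.S34.JH1
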