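import Fermat.Agent.S34.JointOrtho
import Fermat.Agent.S34.JointRepr
import Fermat.Agent.S34.C3Joint

/-!
# C83 (S34), piece C1 (3): the joint (H1) and `JointFin` for `X₀(Mq)` at `q`

* `exists_joint_data` : the joint orthonormal basis, indexed by `Fin n`, with its two families of
  residues in `F_k(M)`, joint independence (`hind`) and `[F(Mq) : ℚ̄(j)] = n`;
* `joint_H1` : `Setup2.H1` for `Red1`, `Red2`;
* `jointFin` : `C3.JointFin`.
-/

set_option autoImplicit false
set_option linter.unusedSectionVars false
set_option linter.unusedVariables false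
set_option linter.style.haveILetI false
set_option synthInstance.maxHeartbeats 400000
set_option maxHeartbeats 1000000

noncomputable section

namespace Fermat.Agent.S34.Joint

open ModularCurve IntermediateField Polynomial Fermat.Agent.S18.GV Fermat.Agent.S18.Deuring
open Fermat.Agent.S37

local notation "Qb" => AlgebraicClosure ℚ

local instance isAlgebraicQbJointH : Algebra.IsAlgebraic ℚ (AlgebraicClosure ℚ) :=
  AlgebraicClosure.isAlgebraic ℚ

variable (A : ValuationSubring (AlgebraicClosure ℚ)) (q : ℕ) [hq : Fact q.Prime]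
variable (hA : A.LiesOverPrime q) (M : ℕ) [NeZero M] (hM : ¬ q ∣ M)

attribute [local instance] neZero_prime

section Coe

variable (k : Type*) [Field k]

theorem coe_aeval_jK (P : k[X]) :
    ((aeval (jK k M) P : modularFunctionFieldFullC k M) : LaurentSeries k)
      = aeval (jqModC k) P := by
  have := Polynomial.aeval_algHom_apply (modularFunctionFieldFullC k M).val (jK k M) P
  rw [IntermediateField.val_mk] at this
  exact this.symm

theorem coe_aeval_jK_pow [CharP k q] (P : k[X]) :
    ((aeval (jK k M ^ q) P : modularFunctionFieldFullC k M) : LaurentSeries k)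
      = qExpand k q (aeval (jqModC k) P) := by
  rw [← Vk_jK q M k]
  have h1 := Polynomial.aeval_algHom_apply (Vk q M k) (jK k M) P
  rw [h1, coe_Vk, coe_aeval_jK]

theorem transcendental_jK_joint : Transcendental k (jK k M) := by
  rw [transcendental_iff]
  intro P hP
  refine (transcendental_iff.mp Fermat.Agent.S28.transcendental_jqModC') P ?_
  rw [← coe_aeval_jK M k, hP]
  rfl

end Coe

include hA hM in
/-- **the joint orthonormal basis of `F(Mq)` over `ℚ̄(j)`** with all its properties -/
theorem exists_joint_data :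
    ∃ (n : ℕ) (b : Fin n → modularFunctionFieldBar (M * q))
      (β₁ β₂ : Fin n → modularFunctionFieldFullC (IsLocalRing.ResidueField A) M),
      0 < n ∧
      Module.finrank Qb⟮Fermat.Agent.S24.jBar (M * q)⟯ (modularFunctionFieldBar (M * q)) = n ∧
      (∀ i, Red1 A q M (b i) (β₁ i)) ∧ (∀ i, Red2 A q M hM (b i) (β₂ i)) ∧
      ∀ φ : Fin n → (IsLocalRing.ResidueField A)[X],
        ∑ i, aeval (jK (IsLocalRing.ResidueField A) M) (φ i) * β₁ i = 0 →
        ∑ i, aeval (jK (IsLocalRing.ResidueField A) M ^ q) (φ i) * β₂ i = 0 → φ = 0 := by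
  classical
  haveI := charP_residueField A q hA
  obtain ⟨b₀, β, hbmem, hβmem, hb, hβ⟩ := exists_ortho_basis A q hA M hM
  set e : JIdx (dedekindPsi M) q ≃ Fin (Fintype.card (JIdx (dedekindPsi M) q)) :=
    Fintype.equivFin _ with he
  have hcard : Fintype.card (JIdx (dedekindPsi M) q) = dedekindPsi (M * q) := by
    rw [card_JIdx, C3.dedekindPsi_mul_prime q M hM]
  have hpos : 0 < Fintype.card (JIdx (dedekindPsi M) q) := by
    rw [card_JIdx]
    have h1 : 0 < dedekindPsi M := by
      by_contra h0
      have h2 : dedekindPsi M = 0 := by omega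
      have h3 := Fermat.Agent.S24.finrank_jBar M
      rw [h2] at h3
      have : FiniteDimensional Qb⟮Fermat.Agent.S24.jBar M⟯ (modularFunctionFieldBar M) :=
        (Fermat.Agent.S24.isFF1_jBar M).finite
      exact absurd h3 (Module.finrank_pos).ne'
    positivity
  refine ⟨_, fun i => Bf q M (fun i => (⟨b₀ i, hbmem i⟩ : modularFunctionFieldBar M)) (e.symm i),
    fun i => ⟨fam1 q β (e.symm i), fam1_mem_ffC q M _ hβmem _⟩,
    fun i => ⟨fam2 q β (e.symm i), fam2_mem_ffC q M _ hβmem _⟩, hpos, ?_, ?_, ?_, ?_⟩
  · rw [Fermat.Agent.S24.finrank_jBar, hcard]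
  · intro i
    show Red A _ _
    rw [coe_Bf]
    exact red_fam1 A q hb _
  · intro i
    show Red A _ _
    rw [coe_wAL_Bf]
    exact red_fam2 A q hb _
  · intro φ h1 h2
    have h1' : ∑ x, aeval (jqModC (IsLocalRing.ResidueField A)) (φ (e x)) * fam1 q β x = 0 := by
      have := congrArg (fun y : modularFunctionFieldFullC (IsLocalRing.ResidueField A) M =>
        (y : LaurentSeries (IsLocalRing.ResidueField A))) h1
      simp only [ZeroMemClass.coe_zero, AddSubmonoidClass.coe_finsetSum,
        IntermediateField.coe_mul, coe_aeval_jK] at this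
      rw [← this]
      refine (Fintype.sum_equiv e _ _ fun x => ?_)
      rw [Equiv.symm_apply_apply]
    have h2' : ∑ x, qExpand (IsLocalRing.ResidueField A) q
        (aeval (jqModC (IsLocalRing.ResidueField A)) (φ (e x))) * fam2 q β x = 0 := by
      have := congrArg (fun y : modularFunctionFieldFullC (IsLocalRing.ResidueField A) M =>
        (y : LaurentSeries (IsLocalRing.ResidueField A))) h2
      simp only [ZeroMemClass.coe_zero, AddSubmonoidClass.coe_finsetSum,
        IntermediateField.coe_mul, coe_aeval_jK_pow] at this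
      rw [← this]
      refine (Fintype.sum_equiv e _ _ fun x => ?_)
      rw [Equiv.symm_apply_apply]
    have h3 := joint_indep q hβ
      (fun x => aeval (jqModC (IsLocalRing.ResidueField A)) (φ (e x)))
      (fun x => aeval_mem_simple _ _) h1' h2'
    funext i
    have h4 := h3 (e.symm i)
    simp only [Equiv.apply_symm_apply] at h4
    exact (transcendental_iff.mp Fermat.Agent.S28.transcendental_jqModC') _ h4

include hA hM in
/-- **the joint (H1)** for `X₀(Mq)` at `q` (`= Setup2.H1`) -/
theorem joint_H1 (V : Submodule Qb (modularFunctionFieldBar (M * q)))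
    (hV : Module.Finite Qb V) :
    Module.finrank (IsLocalRing.ResidueField A)
        (redSpace₂ (redAx1 A q hA M hM) (redAx2 A q hA M hM) V)
      = Module.finrank Qb V := by
  obtain ⟨n, b, β₁, β₂, hn, hfin, hb₁, hb₂, hind⟩ := exists_joint_data A q hA M hM
  have ht₁ := red1_jBar A q M
  have ht₂ := red2_jBar A q hA M hM
  have hT₁ : Transcendental (IsLocalRing.ResidueField A) (jK (IsLocalRing.ResidueField A) M) :=
    transcendental_jK_joint M _
  have hT₂ : Transcendental (IsLocalRing.ResidueField A)
      (jK (IsLocalRing.ResidueField A) M ^ q) := hT₁.pow hq.out.pos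
  have hli := JH1.joint_linearIndependent (redAx1 A q hA M hM) (redAx2 A q hA M hM)
    ht₁ ht₂ hb₁ hb₂ hind
  have hrepr := JH1.hrepr_of_finrank hn b hfin hli
  exact JH1.joint_H1 (redAx1 A q hA M hM) (redAx2 A q hA M hM) ht₁ ht₂ hT₁ hT₂ hb₁ hb₂ hind
    hrepr V hV

include hA hM in
/-- **`JointFin`**: the jointly integral functions are a finitely generated module over the
Gauss ring of `ℚ̄(j)` -/
theorem jointFin : C3.JointFin A q M hM := by
  obtain ⟨n, b, β₁, β₂, hn, hfin, hb₁, hb₂, hind⟩ := exists_joint_data A q hA M hM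
  have ht₁ := red1_jBar A q M
  have ht₂ := red2_jBar A q hA M hM
  have hli := JH1.joint_linearIndependent (redAx1 A q hA M hM) (redAx2 A q hA M hM)
    ht₁ ht₂ hb₁ hb₂ hind
  have hrepr := JH1.hrepr_of_finrank hn b hfin hli
  exact C3.jointFin_of_ortho A q hA M hM (redAx1 A q hA M hM) (redAx2 A q hA M hM)
    (red1_jq A q hA M) b β₁ β₂ hb₁ hb₂ hind hrepr

end Fermat.Agent.S34.Joint
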