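import Mathlib.Algebra.Algebra.Subalgebra.Basic
import Mathlib.Algebra.Algebra.Prod
import Mathlib.Algebra.BigOperators.Group.Finset.Basic
import Mathlib.Algebra.Field.Basic
import Mathlib.Data.Fintype.Basic
import Mathlib.Data.Finset.Prod
import Mathlib.Data.Fintype.Sum
import Mathlib.Data.Fintype.Prod
import Mathlib.Data.Finite.Sum
import Mathlib.Tactic.Ring

/-!
# S34 (C83), piece P1: the special fibre is nodal (abstract algebra)

* `exists_interp`: interpolation for finitely many characters of a commutative `k`-algebra: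
  every function on the index set which is constant on the fibres of `y ↦ ev y` is the
  family of values of an element.
* `exists_nodes`: a `k`-subalgebra `B` of `R₁ × R₂` which contains `I₁ × I₂`
  (`I_i` = common kernel of finitely many characters `e_i y` of `R_i`) and separates the
  characters on each side is the ring of pairs matching on a set `N ⊆ Y₁ × Y₂` of pairs;
  `N` is the graph of a partial injection (ordinary nodes: no triple points, no tacnodes).
-/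

set_option autoImplicit false

namespace Fermat.Agent.S34.NodalAlg

variable {k : Type*} [Field k]

section Interp

variable {B : Type*} [CommRing B] [Algebra k B] {Y : Type*}

/-- two different characters are separated by an element with values `1` and `0` -/
theorem exists_sep (ev : Y → B →ₐ[k] k) {y y' : Y} (h : ev y ≠ ev y') :
    ∃ b : B, ev y b = 1 ∧ ev y' b = 0 := by
  obtain ⟨b₀, hb₀⟩ : ∃ b₀, ev y b₀ ≠ ev y' b₀ := by
    by_contra hcon
    push_neg at hcon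
    exact h (AlgHom.ext hcon)
  have hne : ev y b₀ - ev y' b₀ ≠ 0 := sub_ne_zero.mpr hb₀
  refine ⟨(ev y b₀ - ev y' b₀)⁻¹ • (b₀ - algebraMap k B (ev y' b₀)), ?_, ?_⟩
  · rw [map_smul, map_sub, AlgHom.commutes, smul_eq_mul, Algebra.algebraMap_self_apply,
      inv_mul_cancel₀ hne]
  · rw [map_smul, map_sub, AlgHom.commutes, Algebra.algebraMap_self_apply, sub_self, smul_zero]

/-- an element with value `1` at `y` and `0` at all characters of a finite set different from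
`ev y` -/
theorem exists_indicator (ev : Y → B →ₐ[k] k) (y : Y) (S : Finset Y) :
    ∃ b : B, ev y b = 1 ∧ ∀ y' ∈ S, ev y' ≠ ev y → ev y' b = 0 := by
  classical
  induction S using Finset.induction_on with
  | empty => exact ⟨1, map_one _, fun y' h => absurd h (Finset.notMem_empty y')⟩
  | insert y₀ S _ ih =>
    obtain ⟨b, hb1, hb0⟩ := ih
    by_cases h : ev y₀ = ev y
    · refine ⟨b, hb1, fun y' hy' hne => ?_⟩
      rcases Finset.mem_insert.mp hy' with rfl | hS
      · exact absurd h hne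
      · exact hb0 y' hS hne
    · obtain ⟨c, hc1, hc0⟩ := exists_sep ev (y := y) (y' := y₀) (fun h' => h h'.symm)
      refine ⟨b * c, by rw [map_mul, hb1, hc1, one_mul], fun y' hy' hne => ?_⟩
      rcases Finset.mem_insert.mp hy' with rfl | hS
      · rw [map_mul, hc0, mul_zero]
      · rw [map_mul, hb0 y' hS hne, zero_mul]

/-- interpolation on a finite set of indices -/
theorem exists_interp_finset (ev : Y → B →ₐ[k] k) (φ : Y → k)
    (hφ : ∀ y y', ev y = ev y' → φ y = φ y') (S : Finset Y) :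
    ∃ b : B, ∀ y ∈ S, ev y b = φ y := by
  classical
  induction S using Finset.induction_on with
  | empty => exact ⟨0, fun y h => absurd h (Finset.notMem_empty y)⟩
  | insert y₀ S _ ih =>
    obtain ⟨b, hb⟩ := ih
    obtain ⟨ε, hε1, hε0⟩ := exists_indicator ev y₀ S
    refine ⟨b + (φ y₀ - ev y₀ b) • ε, fun y hy => ?_⟩
    have key : ev y₀ (b + (φ y₀ - ev y₀ b) • ε) = φ y₀ := by
      rw [map_add, map_smul, hε1, smul_eq_mul, mul_one]
      ring
    rcases Finset.mem_insert.mp hy with rfl | hS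
    · exact key
    · by_cases h : ev y = ev y₀
      · rw [h, key]
        exact (hφ y y₀ h).symm
      · rw [map_add, map_smul, hε0 y hS h, smul_zero, add_zero]
        exact hb y hS

/-- **interpolation**: a function constant on the fibres of `ev` is a family of values -/
theorem exists_interp [Finite Y] (ev : Y → B →ₐ[k] k) (φ : Y → k)
    (hφ : ∀ y y', ev y = ev y' → φ y = φ y') :
    ∃ b : B, ∀ y, ev y b = φ y := by
  classical
  haveI := Fintype.ofFinite Y
  obtain ⟨b, hb⟩ := exists_interp_finset ev φ hφ Finset.univ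
  exact ⟨b, fun y => hb y (Finset.mem_univ y)⟩

end Interp

section Nodes

variable {R₁ R₂ : Type*} [CommRing R₁] [CommRing R₂] [Algebra k R₁] [Algebra k R₂]
variable {Y₁ Y₂ : Type*}

/-- the characters of `B ⊆ R₁ × R₂` given by the points of both sides -/
noncomputable def evSum (e₁ : Y₁ → R₁ →ₐ[k] k) (e₂ : Y₂ → R₂ →ₐ[k] k)
    (B : Subalgebra k (R₁ × R₂)) : Y₁ ⊕ Y₂ → B →ₐ[k] k
  | Sum.inl y => ((e₁ y).comp (AlgHom.fst k R₁ R₂)).comp B.val
  | Sum.inr y => ((e₂ y).comp (AlgHom.snd k R₁ R₂)).comp B.val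

@[simp] theorem evSum_inl (e₁ : Y₁ → R₁ →ₐ[k] k) (e₂ : Y₂ → R₂ →ₐ[k] k)
    (B : Subalgebra k (R₁ × R₂)) (y : Y₁) (b : B) :
    evSum e₁ e₂ B (Sum.inl y) b = e₁ y (b : R₁ × R₂).1 := rfl

@[simp] theorem evSum_inr (e₁ : Y₁ → R₁ →ₐ[k] k) (e₂ : Y₂ → R₂ →ₐ[k] k)
    (B : Subalgebra k (R₁ × R₂)) (y : Y₂) (b : B) :
    evSum e₁ e₂ B (Sum.inr y) b = e₂ y (b : R₁ × R₂).2 := rfl

/-- the pairs of points at which all elements of `B` match -/
def IsNode (e₁ : Y₁ → R₁ →ₐ[k] k) (e₂ : Y₂ → R₂ →ₐ[k] k) (B : Subalgebra k (R₁ × R₂))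
    (p : Y₁ × Y₂) : Prop :=
  ∀ b ∈ B, e₁ p.1 (b : R₁ × R₂).1 = e₂ p.2 (b : R₁ × R₂).2

variable (e₁ : Y₁ → R₁ →ₐ[k] k) (e₂ : Y₂ → R₂ →ₐ[k] k) (B : Subalgebra k (R₁ × R₂))

/-- separation on the first side: a point of `Y₁` lies on at most one node -/
theorem IsNode.snd_unique
    (hsep₂ : ∀ y y' : Y₂, y ≠ y' → ∃ b ∈ B, e₂ y (b : R₁ × R₂).2 ≠ e₂ y' (b : R₁ × R₂).2)
    {p p' : Y₁ × Y₂} (hp : IsNode e₁ e₂ B p) (hp' : IsNode e₁ e₂ B p') (h : p.1 = p'.1) :
    p = p' := by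
  refine Prod.ext h ?_
  by_contra hne
  obtain ⟨b, hb, hbne⟩ := hsep₂ p.2 p'.2 hne
  apply hbne
  rw [← hp b hb, ← hp' b hb, h]

theorem IsNode.fst_unique
    (hsep₁ : ∀ y y' : Y₁, y ≠ y' → ∃ b ∈ B, e₁ y (b : R₁ × R₂).1 ≠ e₁ y' (b : R₁ × R₂).1)
    {p p' : Y₁ × Y₂} (hp : IsNode e₁ e₂ B p) (hp' : IsNode e₁ e₂ B p') (h : p.2 = p'.2) :
    p = p' := by
  refine Prod.ext ?_ h
  by_contra hne
  obtain ⟨b, hb, hbne⟩ := hsep₁ p.1 p'.1 hne
  apply hbne
  rw [hp b hb, hp' b hb, h]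

/-- **the special fibre is nodal**: if `B ⊇ I₁ × I₂` and `B` separates the points of each side,
then `B` is the ring of all pairs which match at the nodes of `B` -/
theorem mem_iff_matching [Finite Y₁] [Finite Y₂]
    (hI : ∀ c₁ : R₁, ∀ c₂ : R₂, (∀ y, e₁ y c₁ = 0) → (∀ y, e₂ y c₂ = 0) → (c₁, c₂) ∈ B)
    (hsep₁ : ∀ y y' : Y₁, y ≠ y' → ∃ b ∈ B, e₁ y (b : R₁ × R₂).1 ≠ e₁ y' (b : R₁ × R₂).1)
    (hsep₂ : ∀ y y' : Y₂, y ≠ y' → ∃ b ∈ B, e₂ y (b : R₁ × R₂).2 ≠ e₂ y' (b : R₁ × R₂).2)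
    (c : R₁ × R₂) :
    c ∈ B ↔ ∀ p : Y₁ × Y₂, IsNode e₁ e₂ B p → e₁ p.1 c.1 = e₂ p.2 c.2 := by
  classical
  constructor
  · intro hc p hp
    exact hp c hc
  · intro hc
    -- the values of `c` on `Y₁ ⊕ Y₂`
    set φ : Y₁ ⊕ Y₂ → k := fun y => Sum.elim (fun y => e₁ y c.1) (fun y => e₂ y c.2) y with hφ
    have hconst : ∀ y y', evSum e₁ e₂ B y = evSum e₁ e₂ B y' → φ y = φ y' := by
      intro y y' h
      have h' : ∀ b : B, evSum e₁ e₂ B y b = evSum e₁ e₂ B y' b := fun b => by rw [h]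
      rcases y with y | y <;> rcases y' with y' | y'
      · have hyy : y = y' := by
          by_contra hne
          obtain ⟨b, hb, hbne⟩ := hsep₁ y y' hne
          exact hbne (h' ⟨b, hb⟩)
        rw [hyy]
      · simp only [hφ, Sum.elim_inl, Sum.elim_inr]
        exact hc (y, y') (fun b hb => h' ⟨b, hb⟩)
      · simp only [hφ, Sum.elim_inl, Sum.elim_inr]
        exact (hc (y', y) (fun b hb => (h' ⟨b, hb⟩).symm)).symm
      · have hyy : y = y' := by
          by_contra hne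
          obtain ⟨b, hb, hbne⟩ := hsep₂ y y' hne
          exact hbne (h' ⟨b, hb⟩)
        rw [hyy]
    obtain ⟨b, hb⟩ := exists_interp (evSum e₁ e₂ B) φ hconst
    have hdiff : c - (b : R₁ × R₂) ∈ B := by
      have h1 : ∀ y, e₁ y (c - (b : R₁ × R₂)).1 = 0 := by
        intro y
        have := hb (Sum.inl y)
        simp only [evSum_inl, hφ, Sum.elim_inl] at this
        rw [Prod.fst_sub, map_sub, this, sub_self]
      have h2 : ∀ y, e₂ y (c - (b : R₁ × R₂)).2 = 0 := by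
        intro y
        have := hb (Sum.inr y)
        simp only [evSum_inr, hφ, Sum.elim_inr] at this
        rw [Prod.snd_sub, map_sub, this, sub_self]
      exact hI _ _ h1 h2
    have := B.add_mem hdiff b.2
    rwa [sub_add_cancel] at this

/-- **the special fibre is nodal**, with the finite set of nodes made explicit -/
theorem exists_nodes [Fintype Y₁] [Fintype Y₂]
    (hI : ∀ c₁ : R₁, ∀ c₂ : R₂, (∀ y, e₁ y c₁ = 0) → (∀ y, e₂ y c₂ = 0) → (c₁, c₂) ∈ B)
    (hsep₁ : ∀ y y' : Y₁, y ≠ y' → ∃ b ∈ B, e₁ y (b : R₁ × R₂).1 ≠ e₁ y' (b : R₁ × R₂).1)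
    (hsep₂ : ∀ y y' : Y₂, y ≠ y' → ∃ b ∈ B, e₂ y (b : R₁ × R₂).2 ≠ e₂ y' (b : R₁ × R₂).2) :
    ∃ N : Finset (Y₁ × Y₂),
      (∀ p ∈ N, ∀ p' ∈ N, p.1 = p'.1 → p = p') ∧
      (∀ p ∈ N, ∀ p' ∈ N, p.2 = p'.2 → p = p') ∧
      (∀ p ∈ N, ∀ b ∈ B, e₁ p.1 (b : R₁ × R₂).1 = e₂ p.2 (b : R₁ × R₂).2) ∧
      ∀ c : R₁ × R₂, c ∈ B ↔ ∀ p ∈ N, e₁ p.1 c.1 = e₂ p.2 c.2 := by
  classical
  refine ⟨Finset.univ.filter (fun p => IsNode e₁ e₂ B p), ?_, ?_, ?_, ?_⟩
  · intro p hp p' hp' h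
    exact IsNode.snd_unique e₁ e₂ B hsep₂ (Finset.mem_filter.mp hp).2
      (Finset.mem_filter.mp hp').2 h
  · intro p hp p' hp' h
    exact IsNode.fst_unique e₁ e₂ B hsep₁ (Finset.mem_filter.mp hp).2
      (Finset.mem_filter.mp hp').2 h
  · intro p hp
    exact (Finset.mem_filter.mp hp).2
  · intro c
    rw [mem_iff_matching e₁ e₂ B hI hsep₁ hsep₂ c]
    constructor
    · intro h p hp
      exact h p (Finset.mem_filter.mp hp).2
    · intro h p hp
      exact h p (Finset.mem_filter.mpr ⟨Finset.mem_univ p, hp⟩)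

end Nodes

end Fermat.Agent.S34.NodalAlg
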