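import Fermat.Agent.S34.NodalDefs
import Fermat.Agent.S34.NodalAlg
import Fermat.Agent.S18.DeuringRR

/-!
# C83 (S34), piece C2, part 1: counting the nodes of the special fibre (abstract form)

`B n ⊆ L₁(n D₁) × L₂(n D₂)` is the joint reduction of `L(n D)`.

* `inf_succ_eq`, `inf_eq_of_le`: if the top polar blocks are realised by `B`
  (`P n ≤ B n ⊔ P (n - 1)`), then `B m ⊓ P n = B n` for `m ≥ n ≥ n₀` (saturation);
* `eq_inf_of_saturated`: if moreover `⋃ B n = X ⊓ ⋃ P n`, then `B n = X ⊓ P n` for `n ≥ n₀`.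
-/

set_option autoImplicit false
set_option linter.unusedSectionVars false
set_option linter.style.haveILetI false
set_option linter.unusedVariables false

open AlgebraicCurve Fermat.Agent.Lib.FF

namespace Fermat.Agent.S34.NC

section LinAlg

variable {k W : Type*} [Field k] [AddCommGroup W] [Module k W]

/-- one step of saturation: `B (n + 1) ⊓ P n = B n` -/
theorem inf_succ_eq (B P : ℕ → Submodule k W) (hfin : ∀ n, Module.Finite k (P n))
    (hBP : ∀ n, B n ≤ P n) (hB : Monotone B) (hP : Monotone P)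
    (n₀ : ℕ) (d cB cP : ℤ)
    (hdB : ∀ n, n₀ ≤ n → (Module.finrank k (B n) : ℤ) = n * d + cB)
    (hdP : ∀ n, n₀ ≤ n → (Module.finrank k (P n) : ℤ) = n * d + cP)
    (htop : ∀ n, n₀ ≤ n → P (n + 1) ≤ B (n + 1) ⊔ P n)
    (n : ℕ) (hn : n₀ ≤ n) : B (n + 1) ⊓ P n = B n := by
  haveI := hfin (n + 1)
  haveI := hfin n
  haveI : Module.Finite k (B (n + 1)) := Submodule.finiteDimensional_of_le (hBP (n + 1))
  haveI : Module.Finite k (B n) := Submodule.finiteDimensional_of_le (hBP n)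
  haveI : Module.Finite k (B (n + 1) ⊓ P n : Submodule k W) :=
    Submodule.finiteDimensional_of_le (inf_le_right.trans le_rfl : B (n + 1) ⊓ P n ≤ P n)
  have hle : B n ≤ B (n + 1) ⊓ P n := le_inf (hB (Nat.le_succ n)) (hBP n)
  have hsup : B (n + 1) ⊔ P n = P (n + 1) :=
    le_antisymm (sup_le (hBP (n + 1)) (hP (Nat.le_succ n))) (htop n hn)
  have hsum := Submodule.finrank_sup_add_finrank_inf_eq (B (n + 1)) (P n)
  rw [hsup] at hsum
  have e1 := hdB n hn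
  have e2 := hdB (n + 1) (by omega)
  have e3 := hdP n hn
  have e4 := hdP (n + 1) (by omega)
  push_cast at e2 e4
  refine (Submodule.eq_of_le_of_finrank_eq hle ?_).symm
  have : (Module.finrank k (B n) : ℤ) = Module.finrank k (B (n + 1) ⊓ P n : Submodule k W) := by
    have hsum' : (Module.finrank k (P (n + 1)) : ℤ)
        + Module.finrank k (B (n + 1) ⊓ P n : Submodule k W)
        = Module.finrank k (B (n + 1)) + Module.finrank k (P n) := by
      exact_mod_cast hsum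
    linarith
  exact_mod_cast this

/-- saturation: `B m ⊓ P n = B n` for `m ≥ n ≥ n₀` -/
theorem inf_eq_of_le (B P : ℕ → Submodule k W) (hfin : ∀ n, Module.Finite k (P n))
    (hBP : ∀ n, B n ≤ P n) (hB : Monotone B) (hP : Monotone P)
    (n₀ : ℕ) (d cB cP : ℤ)
    (hdB : ∀ n, n₀ ≤ n → (Module.finrank k (B n) : ℤ) = n * d + cB)
    (hdP : ∀ n, n₀ ≤ n → (Module.finrank k (P n) : ℤ) = n * d + cP)
    (htop : ∀ n, n₀ ≤ n → P (n + 1) ≤ B (n + 1) ⊔ P n)
    (n : ℕ) (hn : n₀ ≤ n) (m : ℕ) (hm : n ≤ m) : B m ⊓ P n = B n := by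
  induction m, hm using Nat.le_induction with
  | base => exact inf_eq_left.mpr (hBP n)
  | succ m hm ih =>
    have h1 := inf_succ_eq B P hfin hBP hB hP n₀ d cB cP hdB hdP htop m (hn.trans hm)
    calc B (m + 1) ⊓ P n = B (m + 1) ⊓ (P m ⊓ P n) := by
          rw [inf_eq_right.mpr (hP hm)]
      _ = (B (m + 1) ⊓ P m) ⊓ P n := by rw [inf_assoc]
      _ = B m ⊓ P n := by rw [h1]
      _ = B n := ih

/-- if `⋃ B n = X ⊓ ⋃ P n` then `B n = X ⊓ P n` for `n ≥ n₀` -/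
theorem eq_inf_of_saturated (B P : ℕ → Submodule k W) (hfin : ∀ n, Module.Finite k (P n))
    (hBP : ∀ n, B n ≤ P n) (hB : Monotone B) (hP : Monotone P)
    (n₀ : ℕ) (d cB cP : ℤ)
    (hdB : ∀ n, n₀ ≤ n → (Module.finrank k (B n) : ℤ) = n * d + cB)
    (hdP : ∀ n, n₀ ≤ n → (Module.finrank k (P n) : ℤ) = n * d + cP)
    (htop : ∀ n, n₀ ≤ n → P (n + 1) ≤ B (n + 1) ⊔ P n)
    (X : Submodule k W) (hX : ∀ n, B n ≤ X)
    (hX' : ∀ n, ∀ x ∈ X ⊓ P n, ∃ m, x ∈ B m)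
    (n : ℕ) (hn : n₀ ≤ n) : B n = X ⊓ P n := by
  refine le_antisymm (le_inf (hX n) (hBP n)) ?_
  intro x hx
  obtain ⟨m, hm⟩ := hX' n x hx
  have hm' : x ∈ B (max m n) := hB (le_max_left m n) hm
  have := inf_eq_of_le B P hfin hBP hB hP n₀ d cB cP hdB hdP htop n hn (max m n)
    (le_max_right m n)
  rw [← this]
  exact ⟨hm', hx.2⟩

end LinAlg

open Fermat.Agent.S18.Deuring Fermat.Agent.S34.Nodal

section Coord

variable {k F : Type*} [Field k] [Field F] [Algebra k F]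

theorem one_mem_rrSpace_of_nonneg {E : Divisor k F} (hE : 0 ≤ E) :
    (1 : F) ∈ riemannRochSpace E := by
  rw [mem_rrSpace_iff_of_ne_zero one_ne_zero]
  intro v
  rw [v.ord_one]
  have := Finsupp.le_def.mp hE v
  simp only [Finsupp.coe_zero, Pi.zero_apply] at this
  omega

theorem nsmul_le_nsmul_of_nonneg {D : Divisor k F} (hD : 0 ≤ D) {n m : ℕ} (h : n ≤ m) :
    n • D ≤ m • D := by
  rw [Finsupp.le_def]
  intro v
  have := Finsupp.le_def.mp hD v
  simp only [Finsupp.coe_zero, Pi.zero_apply] at this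
  simp only [Finsupp.coe_smul, Pi.smul_apply, nsmul_eq_mul]
  have h' : (n : ℤ) ≤ m := by exact_mod_cast h
  nlinarith

theorem nsmul_nonneg_of_nonneg {D : Divisor k F} (hD : 0 ≤ D) (n : ℕ) : 0 ≤ n • D := by
  have := nsmul_le_nsmul_of_nonneg hD (Nat.zero_le n)
  rwa [zero_smul] at this

theorem rrSpace_nsmul_mono {D : Divisor k F} (hD : 0 ≤ D) :
    Monotone fun n : ℕ => riemannRochSpace (n • D) :=
  fun _ _ h => rrSpace_mono (nsmul_le_nsmul_of_nonneg hD h)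

/-- the coordinate ring `⋃ₙ L(n D)` of the complement of the support of `D ≥ 0` -/
def coordRing (D : Divisor k F) (hD : 0 ≤ D) : Subalgebra k F where
  carrier := {x | ∃ n : ℕ, x ∈ riemannRochSpace (n • D)}
  mul_mem' := by
    rintro a b ⟨n, hn⟩ ⟨m, hm⟩
    refine ⟨n + m, ?_⟩
    rw [add_smul]
    exact mul_mem_rrSpace hn hm
  add_mem' := by
    rintro a b ⟨n, hn⟩ ⟨m, hm⟩
    exact ⟨max n m, Submodule.add_mem _ (rrSpace_nsmul_mono hD (le_max_left n m) hn)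
      (rrSpace_nsmul_mono hD (le_max_right n m) hm)⟩
  algebraMap_mem' := by
    intro c
    refine ⟨0, ?_⟩
    have h := Submodule.smul_mem _ c
      (one_mem_rrSpace_of_nonneg (nsmul_nonneg_of_nonneg hD 0))
    rwa [Algebra.smul_def, mul_one] at h

theorem mem_coordRing {D : Divisor k F} {hD : 0 ≤ D} {x : F} :
    x ∈ coordRing D hD ↔ ∃ n : ℕ, x ∈ riemannRochSpace (n • D) := Iff.rfl

/-- elements of the coordinate ring are regular off the support of `D` -/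
theorem mem_valuationSubring_of_mem_rrSpace {D : Divisor k F} {y : Place k F} (hy : D y = 0)
    {n : ℕ} {x : F} (hx : x ∈ riemannRochSpace (n • D)) : x ∈ y.toValuationSubring := by
  by_cases h0 : x = 0
  · rw [h0]; exact y.toValuationSubring.zero_mem
  have := (mem_rrSpace_iff_of_ne_zero h0).mp hx y
  simp only [Finsupp.coe_smul, Pi.smul_apply, hy, smul_zero] at this
  exact mem_of_ord_nonneg y (by omega)

theorem mem_valuationSubring_of_mem_coordRing {D : Divisor k F} {hD : 0 ≤ D} {y : Place k F}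
    (hy : D y = 0) {x : F} (hx : x ∈ coordRing D hD) : x ∈ y.toValuationSubring := by
  obtain ⟨n, hn⟩ := hx
  exact mem_valuationSubring_of_mem_rrSpace hy hn

/-- evaluation at a point off the support of `D`, as a character of the coordinate ring -/
noncomputable def evalHom (hres : ∀ v : Place k F, Function.Surjective (algebraMap k v.ResidueField))
    (D : Divisor k F) (hD : 0 ≤ D) (y : Place k F) (hy : D y = 0) :
    coordRing D hD →ₐ[k] k where
  toFun x := valueAt y (x : F)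
  map_one' := (hasValue_one y).valueAt_eq
  map_mul' a b :=
    ((hasValue_valueAt (hres y) (mem_valuationSubring_of_mem_coordRing hy a.2)).mul
      (hasValue_valueAt (hres y) (mem_valuationSubring_of_mem_coordRing hy b.2))).valueAt_eq
  map_zero' := (hasValue_zero' y).valueAt_eq
  map_add' a b :=
    ((hasValue_valueAt (hres y) (mem_valuationSubring_of_mem_coordRing hy a.2)).add
      (hasValue_valueAt (hres y) (mem_valuationSubring_of_mem_coordRing hy b.2))).valueAt_eq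
  commutes' c := (hasValue_algebraMap y c).valueAt_eq

theorem hasValue_evalHom (hres : ∀ v : Place k F, Function.Surjective (algebraMap k v.ResidueField))
    (D : Divisor k F) (hD : 0 ≤ D) (y : Place k F) (hy : D y = 0) (x : coordRing D hD) :
    HasValue y (x : F) (evalHom hres D hD y hy x) :=
  hasValue_valueAt (hres y) (mem_valuationSubring_of_mem_coordRing hy x.2)

end Coord

section Main

variable {k F₁ F₂ : Type*} [Field k] [Field F₁] [Field F₂] [Algebra k F₁] [Algebra k F₂]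

/-- the product of two submodules is the product of the submodules -/
def prodSubEquiv {V W : Type*} [AddCommGroup V] [Module k V] [AddCommGroup W] [Module k W]
    (S : Submodule k V) (T : Submodule k W) : (S.prod T) ≃ₗ[k] (S × T) where
  toFun x := (⟨x.1.1, x.2.1⟩, ⟨x.1.2, x.2.2⟩)
  invFun y := ⟨(y.1.1, y.2.1), ⟨y.1.2, y.2.2⟩⟩
  map_add' _ _ := rfl
  map_smul' _ _ := rfl
  left_inv _ := rfl
  right_inv _ := rfl

theorem finrank_prodSub {V W : Type*} [AddCommGroup V] [Module k V] [AddCommGroup W]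
    [Module k W] (S : Submodule k V) (T : Submodule k W) [Module.Finite k S]
    [Module.Finite k T] :
    Module.finrank k (S.prod T) = Module.finrank k S + Module.finrank k T := by
  rw [(prodSubEquiv S T).finrank_eq, Module.finrank_prod]

theorem finite_prodSub {V W : Type*} [AddCommGroup V] [Module k V] [AddCommGroup W]
    [Module k W] (S : Submodule k V) (T : Submodule k W) [Module.Finite k S]
    [Module.Finite k T] : Module.Finite k (S.prod T) :=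
  Module.Finite.equiv (prodSubEquiv S T).symm

/-- the abstract input: `B n` = joint reduction of `L(n D)`; `Y₁`, `Y₂` = support of the
conductor -/
structure CountInput (D₁ : Divisor k F₁) (D₂ : Divisor k F₂)
    (B : ℕ → Submodule k (F₁ × F₂)) (Y₁ : Finset (Place k F₁)) (Y₂ : Finset (Place k F₂)) :
    Prop where
  hpf₁ : PlaceFacts k F₁
  hpf₂ : PlaceFacts k F₂
  D₁_nonneg : 0 ≤ D₁
  D₂_nonneg : 0 ≤ D₂
  le_prod : ∀ n, B n ≤ (riemannRochSpace (n • D₁)).prod (riemannRochSpace (n • D₂))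
  mono : Monotone B
  one_mem : ((1 : F₁), (1 : F₂)) ∈ B 0
  mul_mem : ∀ (n m : ℕ) (x y : F₁ × F₂), x ∈ B n → y ∈ B m → x * y ∈ B (n + m)
  off₁ : ∀ y ∈ Y₁, D₁ y = 0
  off₂ : ∀ y ∈ Y₂, D₂ y = 0
  cond : ∀ (n : ℕ) (c₁ : F₁) (c₂ : F₂), c₁ ∈ riemannRochSpace (n • D₁) →
    c₂ ∈ riemannRochSpace (n • D₂) → (∀ y ∈ Y₁, HasValue y c₁ 0) →
    (∀ y ∈ Y₂, HasValue y c₂ 0) → ∃ m, (c₁, c₂) ∈ B m
  sep₁ : ∀ y ∈ Y₁, ∀ y' ∈ Y₁, y ≠ y' → ∃ m, ∃ b ∈ B m, valueAt y b.1 ≠ valueAt y' b.1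
  sep₂ : ∀ y ∈ Y₂, ∀ y' ∈ Y₂, y ≠ y' → ∃ m, ∃ b ∈ B m, valueAt y b.2 ≠ valueAt y' b.2

variable {D₁ : Divisor k F₁} {D₂ : Divisor k F₂} {B : ℕ → Submodule k (F₁ × F₂)}
  {Y₁ : Finset (Place k F₁)} {Y₂ : Finset (Place k F₂)}

/-- the reduction ring `⋃ B n` -/
def CountInput.ring (I : CountInput D₁ D₂ B Y₁ Y₂) : Subalgebra k (F₁ × F₂) where
  carrier := {x | ∃ n : ℕ, x ∈ B n}
  mul_mem' := by
    rintro a b ⟨n, hn⟩ ⟨m, hm⟩
    exact ⟨n + m, I.mul_mem n m a b hn hm⟩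
  add_mem' := by
    rintro a b ⟨n, hn⟩ ⟨m, hm⟩
    exact ⟨max n m, Submodule.add_mem _ (I.mono (le_max_left n m) hn)
      (I.mono (le_max_right n m) hm)⟩
  algebraMap_mem' := by
    intro c
    refine ⟨0, ?_⟩
    have h := Submodule.smul_mem _ c I.one_mem
    have e : c • ((1 : F₁), (1 : F₂)) = algebraMap k (F₁ × F₂) c := by
      rw [Algebra.smul_def]
      exact mul_one _
    rwa [e] at h

theorem CountInput.mem_ring (I : CountInput D₁ D₂ B Y₁ Y₂) {x : F₁ × F₂} :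
    x ∈ I.ring ↔ ∃ n : ℕ, x ∈ B n := Iff.rfl

/-- **the special fibre is nodal**: the reduction ring is the ring of pairs matching on a set
of nodes `N ⊆ Y₁ × Y₂` -/
theorem CountInput.exists_nodeSet (I : CountInput D₁ D₂ B Y₁ Y₂) :
    ∃ N : Finset (Place k F₁ × Place k F₂),
      (∀ p ∈ N, p.1 ∈ Y₁ ∧ p.2 ∈ Y₂) ∧
      (∀ p ∈ N, ∀ p' ∈ N, p.1 = p'.1 → p = p') ∧
      (∀ p ∈ N, ∀ p' ∈ N, p.2 = p'.2 → p = p') ∧
      (∀ n : ℕ, B n ≤ LX N (n • D₁) (n • D₂)) ∧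
      (∀ n : ℕ, ∀ x ∈ LX N (n • D₁) (n • D₂), ∃ m, x ∈ B m) := by
  classical
  have hD₁ := I.D₁_nonneg
  have hD₂ := I.D₂_nonneg
  set R₁ := coordRing D₁ hD₁ with hR₁
  set R₂ := coordRing D₂ hD₂ with hR₂
  set e₁ : {y // y ∈ Y₁} → R₁ →ₐ[k] k :=
    fun y => evalHom I.hpf₁.res D₁ hD₁ y.1 (I.off₁ y.1 y.2) with he₁
  set e₂ : {y // y ∈ Y₂} → R₂ →ₐ[k] k :=
    fun y => evalHom I.hpf₂.res D₂ hD₂ y.1 (I.off₂ y.1 y.2) with he₂
  set B' : Subalgebra k (R₁ × R₂) := I.ring.comap (AlgHom.prodMap R₁.val R₂.val) with hB'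
  have memB' : ∀ c : R₁ × R₂, c ∈ B' ↔ ∃ n, ((c.1 : F₁), (c.2 : F₂)) ∈ B n := fun c => Iff.rfl
  have hI : ∀ c₁ : R₁, ∀ c₂ : R₂, (∀ y, e₁ y c₁ = 0) → (∀ y, e₂ y c₂ = 0) → (c₁, c₂) ∈ B' := by
    intro c₁ c₂ h₁ h₂
    obtain ⟨n₁, hn₁⟩ := c₁.2
    obtain ⟨n₂, hn₂⟩ := c₂.2
    rw [memB']
    refine I.cond (max n₁ n₂) c₁ c₂ (rrSpace_nsmul_mono hD₁ (le_max_left _ _) hn₁)
      (rrSpace_nsmul_mono hD₂ (le_max_right _ _) hn₂) ?_ ?_
    · intro y hy
      have := hasValue_evalHom I.hpf₁.res D₁ hD₁ y (I.off₁ y hy) c₁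
      have h0 : evalHom I.hpf₁.res D₁ hD₁ y (I.off₁ y hy) c₁ = 0 := h₁ ⟨y, hy⟩
      rwa [h0] at this
    · intro y hy
      have := hasValue_evalHom I.hpf₂.res D₂ hD₂ y (I.off₂ y hy) c₂
      have h0 : evalHom I.hpf₂.res D₂ hD₂ y (I.off₂ y hy) c₂ = 0 := h₂ ⟨y, hy⟩
      rwa [h0] at this
  have hsep₁ : ∀ y y' : {y // y ∈ Y₁}, y ≠ y' →
      ∃ b ∈ B', e₁ y (b : R₁ × R₂).1 ≠ e₁ y' (b : R₁ × R₂).1 := by
    intro y y' hne
    obtain ⟨m, b, hb, hv⟩ := I.sep₁ y.1 y.2 y'.1 y'.2 (fun h => hne (Subtype.ext h))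
    have hb' := I.le_prod m hb
    exact ⟨(⟨b.1, m, hb'.1⟩, ⟨b.2, m, hb'.2⟩), ⟨m, hb⟩, hv⟩
  have hsep₂ : ∀ y y' : {y // y ∈ Y₂}, y ≠ y' →
      ∃ b ∈ B', e₂ y (b : R₁ × R₂).2 ≠ e₂ y' (b : R₁ × R₂).2 := by
    intro y y' hne
    obtain ⟨m, b, hb, hv⟩ := I.sep₂ y.1 y.2 y'.1 y'.2 (fun h => hne (Subtype.ext h))
    have hb' := I.le_prod m hb
    exact ⟨(⟨b.1, m, hb'.1⟩, ⟨b.2, m, hb'.2⟩), ⟨m, hb⟩, hv⟩
  obtain ⟨N, hN₁, hN₂, hmatch, hiff⟩ :=
    Fermat.Agent.S34.NodalAlg.exists_nodes e₁ e₂ B' hI hsep₁ hsep₂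
  set ι : {y // y ∈ Y₁} × {y // y ∈ Y₂} ↪ Place k F₁ × Place k F₂ :=
    Function.Embedding.prodMap (Function.Embedding.subtype _) (Function.Embedding.subtype _)
    with hι
  have hιa : ∀ p, ι p = (p.1.1, p.2.1) := fun p => rfl
  refine ⟨N.map ι, ?_, ?_, ?_, ?_, ?_⟩
  · intro p hp
    obtain ⟨p₀, -, rfl⟩ := Finset.mem_map.mp hp
    exact ⟨p₀.1.2, p₀.2.2⟩
  · intro p hp p' hp' h
    obtain ⟨p₀, hp₀, rfl⟩ := Finset.mem_map.mp hp
    obtain ⟨p₀', hp₀', rfl⟩ := Finset.mem_map.mp hp'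
    rw [hιa, hιa] at h
    rw [hN₁ p₀ hp₀ p₀' hp₀' (Subtype.ext h)]
  · intro p hp p' hp' h
    obtain ⟨p₀, hp₀, rfl⟩ := Finset.mem_map.mp hp
    obtain ⟨p₀', hp₀', rfl⟩ := Finset.mem_map.mp hp'
    rw [hιa, hιa] at h
    rw [hN₂ p₀ hp₀ p₀' hp₀' (Subtype.ext h)]
  · intro n b hb
    have hb' := I.le_prod n hb
    refine ⟨hb'.1, hb'.2, ?_⟩
    intro p hp
    obtain ⟨p₀, hp₀, rfl⟩ := Finset.mem_map.mp hp
    set c : R₁ × R₂ := (⟨b.1, n, hb'.1⟩, ⟨b.2, n, hb'.2⟩) with hc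
    have hcB : c ∈ B' := ⟨n, hb⟩
    have hm := hmatch p₀ hp₀ c hcB
    refine ⟨e₁ p₀.1 c.1, ?_, ?_⟩
    · exact hasValue_evalHom I.hpf₁.res D₁ hD₁ p₀.1.1 (I.off₁ _ p₀.1.2) c.1
    · rw [hm]
      exact hasValue_evalHom I.hpf₂.res D₂ hD₂ p₀.2.1 (I.off₂ _ p₀.2.2) c.2
  · intro n x hx
    obtain ⟨hx₁, hx₂, hxm⟩ := hx
    set c : R₁ × R₂ := (⟨x.1, n, hx₁⟩, ⟨x.2, n, hx₂⟩) with hc
    have hcB : c ∈ B' := by
      rw [hiff]
      intro p hp
      obtain ⟨v, hv₁, hv₂⟩ := hxm (ι p) (Finset.mem_map_of_mem ι hp)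
      have a₁ := hasValue_evalHom I.hpf₁.res D₁ hD₁ p.1.1 (I.off₁ _ p.1.2) c.1
      have a₂ := hasValue_evalHom I.hpf₂.res D₂ hD₂ p.2.1 (I.off₂ _ p.2.2) c.2
      have b₁ : e₁ p.1 c.1 = v := a₁.unique hv₁
      have b₂ : e₂ p.2 c.2 = v := a₂.unique hv₂
      rw [b₁, b₂]
    exact hcB

theorem nonempty_place_of_degree_pos {F : Type*} [Field F] [Algebra k F] {D : Divisor k F}
    (hd : 0 < Divisor.degree D) : Nonempty (Place k F) := by
  by_contra h
  rw [not_nonempty_iff] at h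
  have : D = 0 := by
    ext v
    exact (h.false v).elim
  rw [this, map_zero] at hd
  exact lt_irrefl _ hd

theorem finrank_rrSpace_nsmul {F : Type*} [Field F] [Algebra k F] {g : ℕ} {c : ℤ}
    (hR : RThm k F g c) {D : Divisor k F} (hd : 0 < Divisor.degree D) (n : ℕ)
    (hn : c ≤ n) :
    (Module.finrank k (riemannRochSpace (n • D)) : ℤ) + g = n * Divisor.degree D + 1 := by
  have h := hR.eq (n • D) (by
    rw [map_nsmul, nsmul_eq_mul]
    have : (n : ℤ) * 1 ≤ n * Divisor.degree D :=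
      mul_le_mul_of_nonneg_left (by omega) (by positivity)
    omega)
  rw [h, map_nsmul, nsmul_eq_mul]

/-- **the count of nodes**: if the top polar blocks at the poles are reductions, then the
reduction of `L(n D)` is the space of all matching pairs for large `n`, and
`g + 1 = g₁ + g₂ + |N|` -/
theorem CountInput.count (I : CountInput D₁ D₂ B Y₁ Y₂)
    {g₁ g₂ : ℕ} {c₁ c₂ : ℤ} (R₁ : RThm k F₁ g₁ c₁) (R₂ : RThm k F₂ g₂ c₂)
    (hd₁ : 0 < Divisor.degree D₁) (hd₂ : 0 < Divisor.degree D₂)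
    (g : ℕ) (n₀ : ℕ)
    (hdB : ∀ n : ℕ, n₀ ≤ n → (Module.finrank k (B n) : ℤ) + g
      = n * (Divisor.degree D₁ + Divisor.degree D₂) + 1)
    (htop : ∀ n : ℕ, n₀ ≤ n →
      (riemannRochSpace ((n + 1) • D₁)).prod (riemannRochSpace ((n + 1) • D₂))
        ≤ B (n + 1) ⊔ (riemannRochSpace (n • D₁)).prod (riemannRochSpace (n • D₂)))
    (N : Finset (Place k F₁ × Place k F₂))
    (hle : ∀ n : ℕ, B n ≤ LX N (n • D₁) (n • D₂))
    (hge : ∀ n : ℕ, ∀ x ∈ LX N (n • D₁) (n • D₂), ∃ m, x ∈ B m)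
    (hdM : ∃ n₁ : ℕ, ∀ n : ℕ, n₁ ≤ n →
      (Module.finrank k (LX N (n • D₁) (n • D₂)) : ℤ) + g₁ + g₂ + N.card
        = n * (Divisor.degree D₁ + Divisor.degree D₂) + 2) :
    (∃ n₁ : ℕ, ∀ n : ℕ, n₁ ≤ n → B n = LX N (n • D₁) (n • D₂)) ∧
      g + 1 = g₁ + g₂ + N.card := by
  obtain ⟨P₁⟩ := nonempty_place_of_degree_pos hd₁
  obtain ⟨P₂⟩ := nonempty_place_of_degree_pos hd₂
  set P : ℕ → Submodule k (F₁ × F₂) :=
    fun n => (riemannRochSpace (n • D₁)).prod (riemannRochSpace (n • D₂)) with hP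
  have hfin : ∀ n, Module.Finite k (P n) := by
    intro n
    haveI := finite_rrSpace I.hpf₁ P₁ (n • D₁)
    haveI := finite_rrSpace I.hpf₂ P₂ (n • D₂)
    exact finite_prodSub _ _
  have hPmono : Monotone P := by
    intro n m h x hx
    exact ⟨rrSpace_nsmul_mono I.D₁_nonneg h hx.1, rrSpace_nsmul_mono I.D₂_nonneg h hx.2⟩
  set n₀' : ℕ := max n₀ (max c₁.toNat c₂.toNat) with hn₀'
  have hdB' : ∀ n : ℕ, n₀' ≤ n → (Module.finrank k (B n) : ℤ)
      = n * (Divisor.degree D₁ + Divisor.degree D₂) + (1 - g) := by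
    intro n hn
    have := hdB n ((le_max_left _ _).trans hn)
    omega
  have hdP' : ∀ n : ℕ, n₀' ≤ n → (Module.finrank k (P n) : ℤ)
      = n * (Divisor.degree D₁ + Divisor.degree D₂) + (2 - g₁ - g₂) := by
    intro n hn
    haveI := finite_rrSpace I.hpf₁ P₁ (n • D₁)
    haveI := finite_rrSpace I.hpf₂ P₂ (n • D₂)
    have hc₁ : c₁ ≤ n := by
      have : c₁.toNat ≤ n := ((le_max_left _ _).trans (le_max_right _ _)).trans hn
      omega
    have hc₂ : c₂ ≤ n := by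
      have : c₂.toNat ≤ n := ((le_max_right _ _).trans (le_max_right _ _)).trans hn
      omega
    have e₁ := finrank_rrSpace_nsmul R₁ hd₁ n hc₁
    have e₂ := finrank_rrSpace_nsmul R₂ hd₂ n hc₂
    rw [hP]
    simp only
    rw [finrank_prodSub]
    push_cast
    linarith
  have htop' : ∀ n : ℕ, n₀' ≤ n → P (n + 1) ≤ B (n + 1) ⊔ P n :=
    fun n hn => htop n ((le_max_left _ _).trans hn)
  have hsat : ∀ n : ℕ, n₀' ≤ n → B n = LX N (n • D₁) (n • D₂) := by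
    intro n hn
    refine le_antisymm (hle n) ?_
    intro x hx
    obtain ⟨m, hm⟩ := hge n x hx
    have hm' : x ∈ B (max m n) := I.mono (le_max_left m n) hm
    have := inf_eq_of_le B P hfin I.le_prod I.mono hPmono n₀' _ _ _ hdB' hdP' htop' n hn
      (max m n) (le_max_right m n)
    rw [← this]
    exact ⟨hm', LX_le_prod _ _ hx⟩
  refine ⟨⟨n₀', hsat⟩, ?_⟩
  obtain ⟨n₁, hn₁⟩ := hdM
  have a := hdB (max n₀' n₁) ((le_max_left _ _).trans (le_max_left _ _))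
  have b := hn₁ (max n₀' n₁) (le_max_right _ _)
  rw [hsat (max n₀' n₁) (le_max_left _ _)] at a
  omega

end Main

end Fermat.Agent.S34.NC
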