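import Fermat.Agent.S18.DeuringLoc
import Fermat.Agent.S34.NodalCount

/-!
# C83 (S34), piece C2 §3: the conductor lemma (abstract form)

`F/k` a function field with `PlaceFacts` and Riemann's theorem, `D ≥ 0` of positive degree,
`R = ⋃ₙ L(n D)` the coordinate ring of the complement of the support of `D`
(`NC.coordRing D hD`).

* `Ge z e a` : `a = 0` or `ord_z a ≥ e`;
* `mem_coordRing_of_forall` : a function regular off the support of `D` lies in `R`;
* `exists_approx` : strong approximation in `R` (one application of the pencil lemma);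
* `mem_of_local` : **local–global principle for ideals of `R`**: if `I ⊆ R` is an `R`-submodule
  and at every point `y` off the support of `D` some nonzero `ε ∈ I` has `ord_y ε ≤ ord_y c`,
  then `c ∈ I`;
* `mem_of_simple_zeros` : if `I` has at most simple common zeros, it contains every `c ∈ R`
  vanishing at the common zeros;
* `mem_of_sub_pow` : the same for `I ∋ a - W a` (`a ∈ R`), where all `W a` are `q`-th powers;
* `exists_countInput` : the `cond` and `sep` fields of `NC.CountInput` from these data.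
-/

set_option autoImplicit false
set_option linter.unusedSectionVars false
set_option linter.style.haveILetI false
set_option linter.unusedVariables false

open AlgebraicCurve Fermat.Agent.Lib.FF Fermat.Agent.S18.Deuring Fermat.Agent.S34.Nodal

namespace Fermat.Agent.S34.NCond

variable {k F : Type*} [Field k] [Field F] [Algebra k F]

/-! ### the predicate `ord_z a ≥ e` -/

/-- `a` vanishes to order at least `e` at `z` (the zero function vanishes to every order) -/
def Ge (z : Place k F) (e : ℤ) (a : F) : Prop := a = 0 ∨ e ≤ z.ord a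

theorem ge_zero (z : Place k F) (e : ℤ) : Ge z e (0 : F) := Or.inl rfl

theorem Ge.mono {z : Place k F} {e e' : ℤ} {a : F} (h : Ge z e a) (he : e' ≤ e) :
    Ge z e' a := by
  rcases h with h | h
  · exact Or.inl h
  · exact Or.inr (he.trans h)

theorem Ge.le_ord {z : Place k F} {e : ℤ} {a : F} (h : Ge z e a) (ha : a ≠ 0) : e ≤ z.ord a :=
  h.resolve_left ha

theorem Ge.add {z : Place k F} {e : ℤ} {a b : F} (ha : Ge z e a) (hb : Ge z e b) :
    Ge z e (a + b) := by
  by_cases hab : a + b = 0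
  · exact Or.inl hab
  right
  rcases ha with ha | ha
  · rw [ha, zero_add] at hab ⊢
    exact hb.resolve_left hab
  rcases hb with hb | hb
  · rw [hb, add_zero] at hab ⊢
    exact ha
  exact (le_min ha hb).trans (ord_add z hab)

theorem Ge.neg {z : Place k F} {e : ℤ} {a : F} (ha : Ge z e a) : Ge z e (-a) := by
  rcases ha with ha | ha
  · left; rw [ha, neg_zero]
  · right; rwa [ord_neg]

theorem Ge.sub {z : Place k F} {e : ℤ} {a b : F} (ha : Ge z e a) (hb : Ge z e b) :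
    Ge z e (a - b) := by
  rw [sub_eq_add_neg]
  exact ha.add hb.neg

theorem Ge.mul {z : Place k F} {e e' : ℤ} {a b : F} (ha : Ge z e a) (hb : Ge z e' b) :
    Ge z (e + e') (a * b) := by
  by_cases ha0 : a = 0
  · left; rw [ha0, zero_mul]
  by_cases hb0 : b = 0
  · left; rw [hb0, mul_zero]
  right
  have h1 := ha.le_ord ha0
  have h2 := hb.le_ord hb0
  rw [z.ord_mul ha0 hb0]
  omega

theorem Ge.sum {z : Place k F} {e : ℤ} {ι : Type*} (s : Finset ι) (f : ι → F)
    (h : ∀ i ∈ s, Ge z e (f i)) : Ge z e (∑ i ∈ s, f i) := by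
  classical
  induction s using Finset.induction_on with
  | empty => rw [Finset.sum_empty]; exact ge_zero z e
  | insert i s hi ih =>
    rw [Finset.sum_insert hi]
    exact (h i (Finset.mem_insert_self i s)).add
      (ih fun j hj => h j (Finset.mem_insert_of_mem hj))

theorem mem_rrSpace_iff_ge {E : Divisor k F} {f : F} :
    f ∈ riemannRochSpace E ↔ ∀ v : Place k F, Ge v (-E v) f := mem_rrSpace_iff

/-- elements of the coordinate ring are regular off the support of `D` -/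
theorem ge_zero_of_mem_coordRing {D : Divisor k F} {hD : 0 ≤ D} {a : F}
    (ha : a ∈ NC.coordRing D hD) {y : Place k F} (hy : D y = 0) : Ge y 0 a := by
  obtain ⟨n, hn⟩ := ha
  have := mem_rrSpace_iff_ge.mp hn y
  simpa [hy] using this

theorem hasValue_zero_iff_ge {y : Place k F} {a : F} : HasValue y a 0 ↔ Ge y 1 a := by
  rw [hasValue_zero_iff]
  unfold Ge
  constructor
  · rintro (h | h)
    · exact Or.inl h
    · exact Or.inr (by omega)
  · rintro (h | h)
    · exact Or.inl h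
    · exact Or.inr (by omega)

section PF

variable (hpf : PlaceFacts k F)
include hpf

/-- a function regular off the support of `D` lies in the coordinate ring -/
theorem mem_coordRing_of_forall {D : Divisor k F} (hD : 0 ≤ D) {ρ : F}
    (h : ∀ v : Place k F, D v = 0 → Ge v 0 ρ) : ρ ∈ NC.coordRing D hD := by
  classical
  by_cases hρ : ρ = 0
  · rw [hρ]; exact (NC.coordRing D hD).zero_mem
  set S : Finset (Place k F) := (hpf.finite_ord_ne_zero ρ hρ).toFinset with hS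
  obtain ⟨M, hM⟩ := Finset.exists_le (S.image fun v => -v.ord ρ)
  refine ⟨M.toNat, ?_⟩
  rw [mem_rrSpace_iff_of_ne_zero hρ]
  intro v
  have hDv : 0 ≤ D v := by
    have := Finsupp.le_def.mp hD v
    simpa using this
  have e : (M.toNat • D) v = (M.toNat : ℤ) * D v := by
    simp only [Finsupp.coe_smul, Pi.smul_apply, nsmul_eq_mul]
  rw [e]
  by_cases hv : D v = 0
  · have := (h v hv).le_ord hρ
    rw [hv, mul_zero]
    omega
  · have h1 : 1 ≤ D v := by omega
    have h2 : (0 : ℤ) ≤ (M.toNat : ℤ) := by positivity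
    have h3 : (M.toNat : ℤ) ≤ (M.toNat : ℤ) * D v := by nlinarith
    by_cases hv0 : v.ord ρ = 0
    · rw [hv0]; omega
    · have hvS : v ∈ S := by
        rw [hS, Set.Finite.mem_toFinset]
        exact hv0
      have := hM _ (Finset.mem_image_of_mem (fun v => -v.ord ρ) hvS)
      have h4 : M ≤ (M.toNat : ℤ) := Int.self_le_toNat M
      omega

variable {g : ℕ} {c₀ : ℤ} (hR : RThm k F g c₀)
include hR

/-- **strong approximation** in the coordinate ring: a function `θ` regular at `z` is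
approximated to order `e` at `z` by an element of `R` vanishing to order `e` at the other points
of a finite set `T` off the support of `D` -/
theorem exists_approx {D : Divisor k F} (hD : 0 ≤ D) (hdeg : 0 < Divisor.degree D)
    (T : Finset (Place k F)) (hT : ∀ y ∈ T, D y = 0) (z : Place k F) (hz : z ∈ T)
    (θ : F) (hθ : Ge z 0 θ) (e : ℕ) :
    ∃ a ∈ NC.coordRing D hD, Ge z e (θ - a) ∧ ∀ y ∈ T, y ≠ z → Ge y e a := by
  classical
  set P : Divisor k F := Fermat.Agent.S18.Deuring.posPart (-(hpf.divOf θ)) with hP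
  have hPz : P z = 0 := by
    rw [hP, Fermat.Agent.S18.Deuring.posPart_apply, Finsupp.neg_apply, hpf.divOf_apply]
    rcases hθ with h | h
    · rw [h, z.ord_zero]; simp
    · exact max_eq_right (by omega)
  have hPnn : 0 ≤ P := Fermat.Agent.S18.Deuring.posPart_nonneg _
  set n : ℕ := (c₀ + e * T.card).toNat with hn
  set G : Divisor k F := n • D + P with hG
  set Z₁ : Divisor k F := Finsupp.single z (e : ℤ) with hZ₁
  set Z₂ : Divisor k F := P + e • sumPl (T.erase z) with hZ₂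
  have hZ₁nn : 0 ≤ Z₁ := by
    rw [Finsupp.le_def]
    intro v
    rw [hZ₁, Finsupp.single_apply]
    split_ifs <;> simp
  have hsnn : 0 ≤ e • sumPl (T.erase z) := NC.nsmul_nonneg_of_nonneg (sumPl_nonneg _) e
  have hZ₂nn : 0 ≤ Z₂ := add_nonneg hPnn hsnn
  have hdisj : ∀ Q, Z₁ Q = 0 ∨ Z₂ Q = 0 := by
    intro Q
    by_cases hQ : Q = z
    · right
      rw [hQ, hZ₂, Finsupp.add_apply, hPz]
      simp only [Finsupp.coe_smul, Pi.smul_apply, sumPl_apply, Finset.mem_erase, ne_eq,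
        not_true_eq_false, false_and, if_false, smul_zero, add_zero]
    · left
      rw [hZ₁, Finsupp.single_apply, if_neg (fun h => hQ h.symm)]
  have hdegG : c₀ ≤ Divisor.degree (G - Z₁ - Z₂) := by
    have e1 : G - Z₁ - Z₂ = n • D - (Finsupp.single z (e : ℤ) + e • sumPl (T.erase z)) := by
      rw [hG, hZ₁, hZ₂]; abel
    rw [e1, map_sub, map_add, map_nsmul, map_nsmul, hpf.degree_single, degree_sumPl hpf,
      Finset.card_erase_of_mem hz]
    have hc : 1 ≤ T.card := Finset.card_pos.mpr ⟨z, hz⟩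
    have h1 : (c₀ + e * T.card) ≤ (n : ℤ) := Int.self_le_toNat _
    have h2 : (n : ℤ) ≤ (n : ℤ) * Divisor.degree D := by
      have : (0 : ℤ) ≤ n := by positivity
      nlinarith
    simp only [nsmul_eq_mul]
    push_cast [Nat.cast_sub hc]
    nlinarith
  have hsup := rrSpace_sup_of_disjoint hpf hR z hZ₁nn hZ₂nn hdisj hdegG
  have hθG : θ ∈ riemannRochSpace G := by
    rw [mem_rrSpace_iff]
    intro v
    by_cases h0 : θ = 0
    · exact Or.inl h0
    right
    have hDv : 0 ≤ D v := by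
      have := Finsupp.le_def.mp hD v
      simpa using this
    have e1 : G v = (n : ℤ) * D v + max (-(v.ord θ)) 0 := by
      rw [hG, Finsupp.add_apply, hP, Fermat.Agent.S18.Deuring.posPart_apply, Finsupp.neg_apply,
        hpf.divOf_apply]
      simp only [Finsupp.coe_smul, Pi.smul_apply, nsmul_eq_mul]
    rw [e1]
    have h1 := le_max_left (-(v.ord θ)) 0
    have h2 : (0 : ℤ) ≤ (n : ℤ) * D v := by positivity
    omega
  rw [← hsup] at hθG
  obtain ⟨b, hb, a, ha, hsum⟩ := Submodule.mem_sup.mp hθG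
  have haR : a ∈ riemannRochSpace (n • D) := by
    refine rrSpace_mono ?_ ha
    have : G - Z₂ = n • D - e • sumPl (T.erase z) := by
      rw [hG, hZ₂]; abel
    rw [this]
    exact sub_le_self _ hsnn
  refine ⟨a, ⟨n, haR⟩, ?_, ?_⟩
  · have hbe : θ - a = b := by rw [← hsum]; ring
    rw [hbe]
    have := mem_rrSpace_iff_ge.mp hb z
    have e1 : -(G - Z₁) z = (e : ℤ) := by
      rw [Finsupp.sub_apply, hG, Finsupp.add_apply, hPz, hZ₁, Finsupp.single_eq_same]
      simp only [Finsupp.coe_smul, Pi.smul_apply, hT z hz, smul_zero]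
      ring
    rwa [e1] at this
  · intro y hy hyz
    have := mem_rrSpace_iff_ge.mp ha y
    have e1 : -(G - Z₂) y = (e : ℤ) := by
      rw [Finsupp.sub_apply, hG, hZ₂, Finsupp.add_apply, Finsupp.add_apply]
      simp only [Finsupp.coe_smul, Pi.smul_apply, hT y hy, smul_zero, sumPl_apply,
        Finset.mem_erase, ne_eq, hyz, not_false_eq_true, hy, and_self, if_true, nsmul_eq_mul,
        mul_one]
      ring
    rwa [e1] at this

/-- **local–global principle for ideals of the coordinate ring**: if at every point off the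
support of `D` some nonzero element of `I` has order at most that of `c`, then `c ∈ I` -/
theorem mem_of_local {D : Divisor k F} (hD : 0 ≤ D) (hdeg : 0 < Divisor.degree D)
    (I : Submodule k F) (hIR : ∀ ε ∈ I, ε ∈ NC.coordRing D hD)
    (hImul : ∀ a ∈ NC.coordRing D hD, ∀ ε ∈ I, a * ε ∈ I)
    (hne : ∃ ε ∈ I, ε ≠ 0)
    (c : F) (hc : c ∈ NC.coordRing D hD)
    (hloc : ∀ y : Place k F, D y = 0 → ∃ ε ∈ I, ε ≠ 0 ∧ y.ord ε ≤ y.ord c) : c ∈ I := by
  classical
  by_cases hc0 : c = 0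
  · rw [hc0]; exact I.zero_mem
  obtain ⟨ε₀, hε₀I, hε₀⟩ := hne
  set T : Finset (Place k F) :=
    ((hpf.finite_ord_ne_zero ε₀ hε₀).toFinset).filter (fun y => D y = 0) with hT
  have hTD : ∀ y ∈ T, D y = 0 := fun y hy => (Finset.mem_filter.mp hy).2
  have hTmem : ∀ y, D y = 0 → y ∉ T → y.ord ε₀ = 0 := by
    intro y hy hyT
    by_contra h
    exact hyT (Finset.mem_filter.mpr ⟨(Set.Finite.mem_toFinset _).mpr h, hy⟩)
  obtain ⟨M, hM⟩ := Finset.exists_le (T.image fun v => v.ord ε₀)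
  set e : ℕ := M.toNat with he
  have hMe : ∀ y ∈ T, y.ord ε₀ ≤ e := by
    intro y hy
    have := hM _ (Finset.mem_image_of_mem (fun v => v.ord ε₀) hy)
    have h4 : M ≤ (M.toNat : ℤ) := Int.self_le_toNat M
    omega
  -- the local data
  have hex : ∀ y : Place k F, ∃ δ : F, y ∈ T →
      δ ∈ I ∧ Ge y e (c - δ) ∧ ∀ y' ∈ T, y' ≠ y → Ge y' e δ := by
    intro y
    by_cases hy : y ∈ T
    · obtain ⟨ε, hεI, hε0, hεord⟩ := hloc y (hTD y hy)
      have hθ : Ge y 0 (c / ε) := by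
        right
        rw [div_eq_mul_inv, y.ord_mul hc0 (inv_ne_zero hε0), y.ord_inv]
        omega
      obtain ⟨a, haR, ha1, ha2⟩ := exists_approx hpf hR hD hdeg T hTD y hy (c / ε) hθ e
      refine ⟨a * ε, fun _ => ⟨hImul a haR ε hεI, ?_, ?_⟩⟩
      · have e1 : c - a * ε = (c / ε - a) * ε := by
          field_simp
        rw [e1]
        have := ha1.mul (ge_zero_of_mem_coordRing (hIR ε hεI) (hTD y hy))
        rwa [add_zero] at this
      · intro y' hy' hne'
        have := (ha2 y' hy' hne').mul (ge_zero_of_mem_coordRing (hIR ε hεI) (hTD y' hy'))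
        rwa [add_zero] at this
    · exact ⟨0, fun h => absurd h hy⟩
  choose δ hδ using hex
  set εs : F := ∑ y ∈ T, δ y with hεs
  have hεsI : εs ∈ I := Submodule.sum_mem _ fun y hy => (hδ y hy).1
  have hcε : ∀ z ∈ T, Ge z e (c - εs) := by
    intro z hz
    have e1 : c - εs = (c - δ z) - ∑ y ∈ T.erase z, δ y := by
      rw [hεs, ← Finset.add_sum_erase T δ hz]; ring
    rw [e1]
    refine (hδ z hz).2.1.sub (Ge.sum _ _ ?_)
    intro y hy
    have hy' := Finset.mem_erase.mp hy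
    exact (hδ y hy'.2).2.2 z hz (fun h => hy'.1 h.symm)
  have hcεR : c - εs ∈ NC.coordRing D hD :=
    (NC.coordRing D hD).sub_mem hc (hIR εs hεsI)
  set ρ : F := (c - εs) * ε₀⁻¹ with hρ
  have hρR : ρ ∈ NC.coordRing D hD := by
    refine mem_coordRing_of_forall hpf hD ?_
    intro v hv
    have hinv : ∀ m : ℤ, v.ord ε₀ ≤ m → Ge v (-m) ε₀⁻¹ := by
      intro m hm
      right
      rw [v.ord_inv]
      omega
    by_cases hvT : v ∈ T
    · have := (hcε v hvT).mul (hinv e (hMe v hvT))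
      rwa [add_neg_cancel] at this
    · have h0 := hTmem v hv hvT
      have := (ge_zero_of_mem_coordRing hcεR hv).mul (hinv 0 h0.le)
      rwa [neg_zero, add_zero] at this
  have hfin : c = εs + ρ * ε₀ := by
    rw [hρ, mul_assoc, inv_mul_cancel₀ hε₀, mul_one]; ring
  rw [hfin]
  exact I.add_mem hεsI (hImul ρ hρR ε₀ hε₀I)

/-- if the common zeros of `I` off the support of `D` are at most simple, then `I` contains every
element of `R` vanishing at these zeros -/
theorem mem_of_simple_zeros {D : Divisor k F} (hD : 0 ≤ D) (hdeg : 0 < Divisor.degree D)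
    (I : Submodule k F) (hIR : ∀ ε ∈ I, ε ∈ NC.coordRing D hD)
    (hImul : ∀ a ∈ NC.coordRing D hD, ∀ ε ∈ I, a * ε ∈ I)
    (hne : ∃ ε ∈ I, ε ≠ 0) (Y : Set (Place k F))
    (hgen : ∀ y : Place k F, D y = 0 → y ∉ Y → ∃ ε ∈ I, ε ≠ 0 ∧ y.ord ε = 0)
    (hsimple : ∀ y ∈ Y, D y = 0 → ∃ ε ∈ I, y.ord ε = 1)
    (c : F) (hc : c ∈ NC.coordRing D hD) (hcz : ∀ y ∈ Y, D y = 0 → Ge y 1 c) : c ∈ I := by
  by_cases hc0 : c = 0
  · rw [hc0]; exact I.zero_mem
  refine mem_of_local hpf hR hD hdeg I hIR hImul hne c hc ?_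
  intro y hy
  by_cases hyY : y ∈ Y
  · obtain ⟨ε, hεI, hε⟩ := hsimple y hyY hy
    have hε0 : ε ≠ 0 := by
      rintro rfl
      rw [y.ord_zero] at hε
      omega
    refine ⟨ε, hεI, hε0, ?_⟩
    have := (hcz y hyY hy).le_ord hc0
    omega
  · obtain ⟨ε, hεI, hε0, hε⟩ := hgen y hy hyY
    refine ⟨ε, hεI, hε0, ?_⟩
    have := (ge_zero_of_mem_coordRing hc hy).le_ord hc0
    omega

/-- there are elements of `R` with a simple zero at a given point off the support of `D` -/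
theorem exists_uniformizer {D : Divisor k F} (hD : 0 ≤ D) (hdeg : 0 < Divisor.degree D)
    (y : Place k F) (hy : D y = 0) : ∃ φ ∈ NC.coordRing D hD, y.ord φ = 1 := by
  classical
  set n : ℕ := (c₀ + 2).toNat with hn
  have hE : c₀ + 1 ≤ Divisor.degree (n • D - Finsupp.single y (1 : ℤ)) := by
    rw [map_sub, map_nsmul, hpf.degree_single]
    have h1 : (c₀ + 2) ≤ (n : ℤ) := Int.self_le_toNat _
    have h2 : (n : ℤ) ≤ (n : ℤ) * Divisor.degree D := by
      have : (0 : ℤ) ≤ n := by positivity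
      nlinarith
    simp only [nsmul_eq_mul]
    omega
  obtain ⟨φ, hφ, hφ0, hord⟩ := exists_ord_eq hpf hR y hE
  refine ⟨φ, ⟨n, rrSpace_mono (sub_le_self _ ?_) hφ⟩, ?_⟩
  · rw [Finsupp.le_def]
    intro v
    rw [Finsupp.single_apply]
    split_ifs <;> simp
  · rw [hord, Finsupp.sub_apply, Finsupp.single_eq_same]
    simp only [Finsupp.coe_smul, Pi.smul_apply, hy, smul_zero]
    ring

/-- there are elements of `R` which are units at `y` and vanish at `y' ≠ y` -/
theorem exists_separating {D : Divisor k F} (hD : 0 ≤ D) (hdeg : 0 < Divisor.degree D)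
    (y y' : Place k F) (hy : D y = 0) (hy' : D y' = 0) (hne : y ≠ y') :
    ∃ φ ∈ NC.coordRing D hD, φ ≠ 0 ∧ y.ord φ = 0 ∧ Ge y' 1 φ := by
  classical
  set n : ℕ := (c₀ + 2).toNat with hn
  have hE : c₀ + 1 ≤ Divisor.degree (n • D - Finsupp.single y' (1 : ℤ)) := by
    rw [map_sub, map_nsmul, hpf.degree_single]
    have h1 : (c₀ + 2) ≤ (n : ℤ) := Int.self_le_toNat _
    have h2 : (n : ℤ) ≤ (n : ℤ) * Divisor.degree D := by
      have : (0 : ℤ) ≤ n := by positivity
      nlinarith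
    simp only [nsmul_eq_mul]
    omega
  obtain ⟨φ, hφ, hφ0, hord⟩ := exists_ord_eq hpf hR y hE
  refine ⟨φ, ⟨n, rrSpace_mono (sub_le_self _ ?_) hφ⟩, hφ0, ?_, ?_⟩
  · rw [Finsupp.le_def]
    intro v
    rw [Finsupp.single_apply]
    split_ifs <;> simp
  · rw [hord, Finsupp.sub_apply, Finsupp.single_eq_of_ne hne]
    simp only [Finsupp.coe_smul, Pi.smul_apply, hy, smul_zero]
    ring
  · have := mem_rrSpace_iff_ge.mp hφ y'
    have e1 : -(n • D - Finsupp.single y' (1 : ℤ)) y' = 1 := by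
      rw [Finsupp.sub_apply, Finsupp.single_eq_same]
      simp only [Finsupp.coe_smul, Pi.smul_apply, hy', smul_zero]
      ring
    rwa [e1] at this

/-- **the conductor lemma**: an ideal `I` of `R` containing `a - W a` for all `a ∈ R`, where
all `W a` are `q`-th powers (`q ≥ 2`), contains every element of `R` vanishing at the common
zeros of the `a - W a` -/
theorem mem_of_sub_pow {D : Divisor k F} (hD : 0 ≤ D) (hdeg : 0 < Divisor.degree D)
    (I : Submodule k F) (hIR : ∀ ε ∈ I, ε ∈ NC.coordRing D hD)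
    (hImul : ∀ a ∈ NC.coordRing D hD, ∀ ε ∈ I, a * ε ∈ I)
    (hne : ∃ ε ∈ I, ε ≠ 0)
    (q : ℕ) (hq : 2 ≤ q) (W : F → F)
    (hWI : ∀ a ∈ NC.coordRing D hD, a - W a ∈ I)
    (hWq : ∀ a ∈ NC.coordRing D hD, ∃ b : F, W a = b ^ q)
    (c : F) (hc : c ∈ NC.coordRing D hD)
    (hcz : ∀ y : Place k F, D y = 0 → (∀ a ∈ NC.coordRing D hD, Ge y 1 (a - W a)) → Ge y 1 c) :
    c ∈ I := by
  refine mem_of_simple_zeros hpf hR hD hdeg I hIR hImul hne
    {y | ∀ a ∈ NC.coordRing D hD, Ge y 1 (a - W a)} ?_ ?_ c hc (fun y hyY hy => hcz y hy hyY)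
  · intro y hy hyY
    simp only [Set.mem_setOf_eq, not_forall] at hyY
    obtain ⟨a, haR, hna⟩ := hyY
    have hε0 : a - W a ≠ 0 := fun h => hna (Or.inl h)
    refine ⟨a - W a, hWI a haR, hε0, ?_⟩
    have h1 := (ge_zero_of_mem_coordRing (hIR _ (hWI a haR)) hy).le_ord hε0
    have h2 : ¬ (1 : ℤ) ≤ y.ord (a - W a) := fun h => hna (Or.inr h)
    omega
  · intro y hyY hy
    obtain ⟨φ, hφR, hφ⟩ := exists_uniformizer hpf hR hD hdeg y hy
    have hφ0 : φ ≠ 0 := by
      rintro rfl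
      rw [y.ord_zero] at hφ
      omega
    refine ⟨φ - W φ, hWI φ hφR, ?_⟩
    obtain ⟨b, hb⟩ := hWq φ hφR
    by_cases hW0 : W φ = 0
    · rw [hW0, sub_zero]; exact hφ
    have hGe : Ge y 1 (W φ) := by
      have h1 : Ge y 1 φ := Or.inr hφ.ge
      have h2 := h1.sub (hyY φ hφR)
      rwa [sub_sub_cancel] at h2
    have h3 := hGe.le_ord hW0
    have h4 : y.ord (W φ) = (q : ℤ) * y.ord b := by
      rw [hb, ord_pow']
    have h5 : 1 ≤ y.ord b := by
      by_contra hcon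
      have : y.ord b ≤ 0 := by omega
      have : (q : ℤ) * y.ord b ≤ 0 := by
        have hq0 : (0 : ℤ) ≤ q := by positivity
        nlinarith
      omega
    have h6 : (2 : ℤ) ≤ y.ord (W φ) := by
      rw [h4]
      have hq2 : (2 : ℤ) ≤ q := by exact_mod_cast hq
      nlinarith
    have h7 : y.ord φ < y.ord (-(W φ)) := by
      rw [ord_neg]; omega
    rw [sub_eq_add_neg, ord_add_of_lt y h7 hφ0]
    exact hφ

end PF

/-! ### the product form: the fields `cond`, `sep` of `NC.CountInput` -/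

section Prod

variable {F₁ F₂ : Type*} [Field F₁] [Field F₂] [Algebra k F₁] [Algebra k F₂]

/-- the first components of the elements `(ε, 0)` of `⋃ B n` -/
def ideal₁ (B : ℕ → Submodule k (F₁ × F₂)) (hB : Monotone B) : Submodule k F₁ where
  carrier := {ε | ∃ m, (ε, (0 : F₂)) ∈ B m}
  add_mem' := by
    rintro a b ⟨n, hn⟩ ⟨m, hm⟩
    refine ⟨max n m, ?_⟩
    have := Submodule.add_mem _ (hB (le_max_left n m) hn) (hB (le_max_right n m) hm)
    simpa using this
  zero_mem' := ⟨0, (B 0).zero_mem⟩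
  smul_mem' := by
    rintro c a ⟨n, hn⟩
    refine ⟨n, ?_⟩
    have := Submodule.smul_mem _ c hn
    simpa using this

/-- the second components of the elements `(0, ε)` of `⋃ B n` -/
def ideal₂ (B : ℕ → Submodule k (F₁ × F₂)) (hB : Monotone B) : Submodule k F₂ where
  carrier := {ε | ∃ m, ((0 : F₁), ε) ∈ B m}
  add_mem' := by
    rintro a b ⟨n, hn⟩ ⟨m, hm⟩
    refine ⟨max n m, ?_⟩
    have := Submodule.add_mem _ (hB (le_max_left n m) hn) (hB (le_max_right n m) hm)
    simpa using this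
  zero_mem' := ⟨0, (B 0).zero_mem⟩
  smul_mem' := by
    rintro c a ⟨n, hn⟩
    refine ⟨n, ?_⟩
    have := Submodule.smul_mem _ c hn
    simpa using this

theorem mem_ideal₁ {B : ℕ → Submodule k (F₁ × F₂)} {hB : Monotone B} {ε : F₁} :
    ε ∈ ideal₁ B hB ↔ ∃ m, (ε, (0 : F₂)) ∈ B m := Iff.rfl

theorem mem_ideal₂ {B : ℕ → Submodule k (F₁ × F₂)} {hB : Monotone B} {ε : F₂} :
    ε ∈ ideal₂ B hB ↔ ∃ m, ((0 : F₁), ε) ∈ B m := Iff.rfl

/-- the set of common zeros (off the support of `D`) of the functions `a - W a`, `a ∈ R` -/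
def fixedSet (D : Divisor k F) (hD : 0 ≤ D) (W : F → F) : Set (Place k F) :=
  {y | D y = 0 ∧ ∀ a ∈ NC.coordRing D hD, Ge y 1 (a - W a)}

theorem finite_fixedSet (hpf : PlaceFacts k F) (D : Divisor k F) (hD : 0 ≤ D) (W : F → F)
    (hne : ∃ a ∈ NC.coordRing D hD, a - W a ≠ 0) : (fixedSet D hD W).Finite := by
  obtain ⟨a, haR, ha⟩ := hne
  refine (hpf.finite_ord_ne_zero _ ha).subset ?_
  intro y hy
  have := (hy.2 a haR).le_ord ha
  simp only [Set.mem_setOf_eq]
  omega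

/-- **the conductor package**: the data `cond`, `sep` of `NC.CountInput` from
(1) surjectivity of both projections of the reduction ring onto the coordinate rings,
(2) the elements `(a - W₁ a, 0)`, `(0, a - W₂ a)` of the reduction ring, with `W_i a` `q`-th
powers. -/
theorem exists_countInput (hpf₁ : PlaceFacts k F₁) (hpf₂ : PlaceFacts k F₂)
    {g₁ g₂ : ℕ} {c₁ c₂ : ℤ} (R₁ : RThm k F₁ g₁ c₁) (R₂ : RThm k F₂ g₂ c₂)
    {D₁ : Divisor k F₁} {D₂ : Divisor k F₂} (hD₁ : 0 ≤ D₁) (hD₂ : 0 ≤ D₂)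
    (hd₁ : 0 < Divisor.degree D₁) (hd₂ : 0 < Divisor.degree D₂)
    (B : ℕ → Submodule k (F₁ × F₂))
    (le_prod : ∀ n, B n ≤ (riemannRochSpace (n • D₁)).prod (riemannRochSpace (n • D₂)))
    (mono : Monotone B) (one_mem : ((1 : F₁), (1 : F₂)) ∈ B 0)
    (mul_mem : ∀ (n m : ℕ) (x y : F₁ × F₂), x ∈ B n → y ∈ B m → x * y ∈ B (n + m))
    (surj₁ : ∀ a ∈ NC.coordRing D₁ hD₁, ∃ (m : ℕ) (a' : F₂), (a, a') ∈ B m)
    (surj₂ : ∀ a ∈ NC.coordRing D₂ hD₂, ∃ (m : ℕ) (a' : F₁), (a', a) ∈ B m)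
    (q : ℕ) (hq : 2 ≤ q) (W₁ : F₁ → F₁) (W₂ : F₂ → F₂)
    (hW₁ : ∀ a ∈ NC.coordRing D₁ hD₁, ∃ m, (a - W₁ a, (0 : F₂)) ∈ B m)
    (hW₂ : ∀ a ∈ NC.coordRing D₂ hD₂, ∃ m, ((0 : F₁), a - W₂ a) ∈ B m)
    (hq₁ : ∀ a ∈ NC.coordRing D₁ hD₁, ∃ b : F₁, W₁ a = b ^ q)
    (hq₂ : ∀ a ∈ NC.coordRing D₂ hD₂, ∃ b : F₂, W₂ a = b ^ q)
    (hne₁ : ∃ a ∈ NC.coordRing D₁ hD₁, a - W₁ a ≠ 0)
    (hne₂ : ∃ a ∈ NC.coordRing D₂ hD₂, a - W₂ a ≠ 0) :
    NC.CountInput D₁ D₂ B (finite_fixedSet hpf₁ D₁ hD₁ W₁ hne₁).toFinset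
      (finite_fixedSet hpf₂ D₂ hD₂ W₂ hne₂).toFinset := by
  classical
  have hY₁ : ∀ y, y ∈ (finite_fixedSet hpf₁ D₁ hD₁ W₁ hne₁).toFinset ↔
      D₁ y = 0 ∧ ∀ a ∈ NC.coordRing D₁ hD₁, Ge y 1 (a - W₁ a) := fun y =>
    Set.Finite.mem_toFinset _
  have hY₂ : ∀ y, y ∈ (finite_fixedSet hpf₂ D₂ hD₂ W₂ hne₂).toFinset ↔
      D₂ y = 0 ∧ ∀ a ∈ NC.coordRing D₂ hD₂, Ge y 1 (a - W₂ a) := fun y =>
    Set.Finite.mem_toFinset _
  -- the two ideals
  have hI₁R : ∀ ε ∈ ideal₁ B mono, ε ∈ NC.coordRing D₁ hD₁ := by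
    rintro ε ⟨m, hm⟩
    exact ⟨m, (le_prod m hm).1⟩
  have hI₂R : ∀ ε ∈ ideal₂ B mono, ε ∈ NC.coordRing D₂ hD₂ := by
    rintro ε ⟨m, hm⟩
    exact ⟨m, (le_prod m hm).2⟩
  have hI₁mul : ∀ a ∈ NC.coordRing D₁ hD₁, ∀ ε ∈ ideal₁ B mono, a * ε ∈ ideal₁ B mono := by
    rintro a haR ε ⟨m, hm⟩
    obtain ⟨m', a', ha'⟩ := surj₁ a haR
    refine ⟨m' + m, ?_⟩
    have := mul_mem m' m _ _ ha' hm
    simpa using this
  have hI₂mul : ∀ a ∈ NC.coordRing D₂ hD₂, ∀ ε ∈ ideal₂ B mono, a * ε ∈ ideal₂ B mono := by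
    rintro a haR ε ⟨m, hm⟩
    obtain ⟨m', a', ha'⟩ := surj₂ a haR
    refine ⟨m' + m, ?_⟩
    have := mul_mem m' m _ _ ha' hm
    simpa using this
  have hne₁' : ∃ ε ∈ ideal₁ B mono, ε ≠ 0 := by
    obtain ⟨a, haR, ha⟩ := hne₁
    exact ⟨a - W₁ a, hW₁ a haR, ha⟩
  have hne₂' : ∃ ε ∈ ideal₂ B mono, ε ≠ 0 := by
    obtain ⟨a, haR, ha⟩ := hne₂
    exact ⟨a - W₂ a, hW₂ a haR, ha⟩
  refine
    { hpf₁ := hpf₁
      hpf₂ := hpf₂
      D₁_nonneg := hD₁
      D₂_nonneg := hD₂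
      le_prod := le_prod
      mono := mono
      one_mem := one_mem
      mul_mem := mul_mem
      off₁ := fun y hy => ((hY₁ y).mp hy).1
      off₂ := fun y hy => ((hY₂ y).mp hy).1
      cond := ?_
      sep₁ := ?_
      sep₂ := ?_ }
  · intro n x₁ x₂ hx₁ hx₂ hv₁ hv₂
    have h₁ : x₁ ∈ ideal₁ B mono := by
      refine mem_of_sub_pow hpf₁ R₁ hD₁ hd₁ _ hI₁R hI₁mul hne₁' q hq W₁ hW₁ hq₁ x₁ ⟨n, hx₁⟩ ?_
      intro y hy hyW
      exact hasValue_zero_iff_ge.mp (hv₁ y ((hY₁ y).mpr ⟨hy, hyW⟩))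
    have h₂ : x₂ ∈ ideal₂ B mono := by
      refine mem_of_sub_pow hpf₂ R₂ hD₂ hd₂ _ hI₂R hI₂mul hne₂' q hq W₂ hW₂ hq₂ x₂ ⟨n, hx₂⟩ ?_
      intro y hy hyW
      exact hasValue_zero_iff_ge.mp (hv₂ y ((hY₂ y).mpr ⟨hy, hyW⟩))
    obtain ⟨m₁, hm₁⟩ := h₁
    obtain ⟨m₂, hm₂⟩ := h₂
    refine ⟨max m₁ m₂, ?_⟩
    have := Submodule.add_mem _ (mono (le_max_left m₁ m₂) hm₁) (mono (le_max_right m₁ m₂) hm₂)
    simpa using this
  · intro y hy y' hy' hne
    obtain ⟨φ, hφR, hφ0, hφy, hφy'⟩ := exists_separating hpf₁ R₁ hD₁ hd₁ y y'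
      ((hY₁ y).mp hy).1 ((hY₁ y').mp hy').1 hne
    obtain ⟨m, a', hm⟩ := surj₁ φ hφR
    refine ⟨m, (φ, a'), hm, ?_⟩
    have h1 : valueAt y' φ = 0 := (hasValue_zero_iff_ge.mpr hφy').valueAt_eq
    have h2 := hasValue_valueAt (hpf₁.res y) (mem_of_ord_nonneg y hφy.ge)
    show valueAt y φ ≠ valueAt y' φ
    rw [h1]
    intro h0
    rw [h0, hasValue_zero_iff] at h2
    rcases h2 with h2 | h2
    · exact hφ0 h2
    · omega
  · intro y hy y' hy' hne
    obtain ⟨φ, hφR, hφ0, hφy, hφy'⟩ := exists_separating hpf₂ R₂ hD₂ hd₂ y y'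
      ((hY₂ y).mp hy).1 ((hY₂ y').mp hy').1 hne
    obtain ⟨m, a', hm⟩ := surj₂ φ hφR
    refine ⟨m, (a', φ), hm, ?_⟩
    have h1 : valueAt y' φ = 0 := (hasValue_zero_iff_ge.mpr hφy').valueAt_eq
    have h2 := hasValue_valueAt (hpf₂.res y) (mem_of_ord_nonneg y hφy.ge)
    show valueAt y φ ≠ valueAt y' φ
    rw [h1]
    intro h0
    rw [h0, hasValue_zero_iff] at h2
    rcases h2 with h2 | h2
    · exact hφ0 h2
    · omega

end Prod

end Fermat.Agent.S34.NCond
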