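import Fermat.Agent.S34.InputAsm
import Fermat.Agent.S34.JointH1
import Fermat.Agent.S34.NodalCond
import Fermat.Agent.S28.FrobDescent
import Fermat.Agent.S18.ResClosed

/-!
# C83 (S34), piece C2 (e): the conductor hypothesis `cond` for `X₀(Mq)` at `q` (concrete)

`Red1`, `Red2 : F(Mq) → F_k(M) → Prop` the two reductions (`Joint`), `V = Vk : 𝐪 ↦ 𝐪^q` on
`F_k(M)`, `W = V ∘ V`, `E = Pol(J)`, `D = Pol(j) + Pol(j_q)`, `B n` the joint reduction of `L(n D)`.

* `Vk_eq_pow`      : `V a` is a `q`-th power in `F_k(M)` (`k` perfect);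
* `jK_sub_ne_zero` : `J - W J ≠ 0`;
* `mem_Bn_alpha`, `mem_Bn_beta` : `(a, V a)`, `(V a, a) ∈ B n` for `a` the reduction of
  `f ∈ L(n Pol j)` of level `M` (the reductions of `α f`, `β f`);
* `mem_Bn_sub₁`, `mem_Bn_sub₂` : `(a - W a, 0)`, `(0, a - W a) ∈ B m` (the reductions of
  `α f - β g`, `β f - α g`, `g` a lift of `V a`);
* `condInput`      : **the conductor hypothesis** `InputAsm.CondInput` from `JointFin` (helper8's
  conductor lemma `NCond.exists_countInput`);
* `condInput'`     : the same, unconditionally (`Joint.jointFin`).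
-/

set_option autoImplicit false
set_option linter.unusedSectionVars false
set_option linter.unusedVariables false
set_option linter.style.haveILetI false
set_option synthInstance.maxHeartbeats 400000
set_option maxHeartbeats 1000000

noncomputable section

open AlgebraicCurve ModularCurve IntermediateField Fermat.Agent.Lib.FF
open Fermat.Agent.S18 Fermat.Agent.S18.Deuring Fermat.Agent.S34.Nodal

namespace Fermat.Agent.S34.CondC

local notation "Qb" => AlgebraicClosure ℚ

attribute [local instance] Fermat.Agent.S34.C3.neZero_q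

/-! ### `V a` is a `q`-th power -/

section Pow

variable (q : ℕ) [hq : Fact q.Prime] (M : ℕ) [NeZero M]
variable (k : Type*) [Field k] [CharP k q] [PerfectField k]

/-- `V a = (τ a) ^ q`, `τ` the inverse of the Frobenius on the coefficients -/
theorem Vk_eq_pow (a : modularFunctionFieldFullC k M) :
    ∃ b : modularFunctionFieldFullC k M, Fermat.Agent.S34.Joint.Vk q M k a = b ^ q := by
  refine ⟨⟨coeffMap (((frobeniusEquiv k q).symm : k ≃+* k) : k →+* k) (a : LaurentSeries k),
    Fermat.Agent.S18.IGk.coeffMap_mem_ffC _ M a.2⟩, ?_⟩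
  apply Subtype.ext
  rw [Fermat.Agent.S34.Joint.pow_q_eq_qExpand, Fermat.Agent.S34.Joint.coe_Vk]
  congr 1
  ext n
  rw [coeffMap_coeff, coeffMap_coeff]
  exact (frobenius_apply_frobeniusEquiv_symm k q _).symm

/-- `J ≠ V (V J)` -/
theorem jK_sub_ne_zero :
    Fermat.Agent.S18.GV.jK k M
      - Fermat.Agent.S34.Joint.Vk q M k
          (Fermat.Agent.S34.Joint.Vk q M k (Fermat.Agent.S18.GV.jK k M)) ≠ 0 := by
  intro h
  rw [sub_eq_zero, Fermat.Agent.S34.Joint.Vk_jK, map_pow, Fermat.Agent.S34.Joint.Vk_jK] at h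
  have h1 := congrArg (fun x : modularFunctionFieldFullC k M => (x : LaurentSeries k)) h
  simp only [IntermediateField.coe_pow] at h1
  have h2 := congrArg HahnSeries.order h1
  rw [HahnSeries.order_pow, HahnSeries.order_pow] at h2
  have h3 : ((Fermat.Agent.S18.GV.jK k M : modularFunctionFieldFullC k M) :
      LaurentSeries k).order = -1 := Fermat.Agent.S28.FrobDescent.order_jqModC_eq k
  rw [h3] at h2
  have hq2 : 2 ≤ q := hq.out.two_le
  simp only [nsmul_eq_mul] at h2
  have h4 : (q : ℤ) * ((q : ℤ) * 1) = 1 := by linarith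
  have h5 : (2 : ℤ) ≤ q := by exact_mod_cast hq2
  nlinarith

end Pow

/-! ### the joint reductions of `α f` and `β f` -/

section Conc

variable (A : ValuationSubring (AlgebraicClosure ℚ)) (q : ℕ) [hq : Fact q.Prime]
variable (hA : A.LiesOverPrime q) (M : ℕ) [NeZero M] (hqM : ¬ q ∣ M)

open Fermat.Agent.S34.InputAsm

/-- the joint reduction of `L(n D)` -/
def Bn (n : ℕ) : Submodule (IsLocalRing.ResidueField A)
    (modularFunctionFieldFullC (IsLocalRing.ResidueField A) M ×
      modularFunctionFieldFullC (IsLocalRing.ResidueField A) M) :=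
  JRed A q hA M hqM (riemannRochSpace (n • Dsym q M))

theorem mem_Bn {n : ℕ} {a : modularFunctionFieldFullC (IsLocalRing.ResidueField A) M ×
      modularFunctionFieldFullC (IsLocalRing.ResidueField A) M} :
    a ∈ Bn A q hA M hqM n ↔ ∃ x ∈ riemannRochSpace (n • Dsym q M),
      Joint.Red1 A q M x a.1 ∧ Joint.Red2 A q M hqM x a.2 := Iff.rfl

theorem Dsym_nonneg' : 0 ≤ Dsym q M := C3.Dsym_nonneg q M (C3.placeFacts_N q M)

theorem Bn_mono : Monotone (Bn A q hA M hqM) := by
  rintro n m h a ⟨x, hx, h1, h2⟩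
  exact ⟨x, NC.rrSpace_nsmul_mono (Dsym_nonneg' q M) h hx, h1, h2⟩

theorem one_mem_Bn : ((1 : modularFunctionFieldFullC (IsLocalRing.ResidueField A) M),
    (1 : modularFunctionFieldFullC (IsLocalRing.ResidueField A) M)) ∈ Bn A q hA M hqM 0 :=
  ⟨1, NC.one_mem_rrSpace_of_nonneg (NC.nsmul_nonneg_of_nonneg (Dsym_nonneg' q M) 0),
    (Joint.redAx1 A q hA M hqM).one, (Joint.redAx2 A q hA M hqM).one⟩

theorem mul_mem_Bn (n m : ℕ)
    (x y : modularFunctionFieldFullC (IsLocalRing.ResidueField A) M ×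
      modularFunctionFieldFullC (IsLocalRing.ResidueField A) M)
    (hx : x ∈ Bn A q hA M hqM n) (hy : y ∈ Bn A q hA M hqM m) :
    x * y ∈ Bn A q hA M hqM (n + m) := by
  obtain ⟨x', hx', h1, h2⟩ := hx
  obtain ⟨y', hy', h1', h2'⟩ := hy
  refine ⟨x' * y', ?_, (Joint.redAx1 A q hA M hqM).mul h1 h1',
    (Joint.redAx2 A q hA M hqM).mul h2 h2'⟩
  rw [add_smul]
  exact mul_mem_rrSpace hx' hy'

/-- `(a, V a) ∈ B n`: the joint reduction of `α f` -/
theorem mem_Bn_alpha {n : ℕ} {f : modularFunctionFieldBar M}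
    {a : modularFunctionFieldFullC (IsLocalRing.ResidueField A) M}
    (hf : f ∈ riemannRochSpace
      (n • (Final.placeFacts_bar M).poleDiv (Fermat.Agent.S24.jBar M)))
    (h : GV.RedF A M f a) :
    haveI := GV.charP_residueField A q hA
    (a, Joint.Vk q M (IsLocalRing.ResidueField A) a) ∈ Bn A q hA M hqM n := by
  haveI := GV.charP_residueField A q hA
  refine ⟨heckeAlphaBar Qb M q f, ?_, Joint.red1_alpha A q M h, Joint.red2_alpha A q hA M hqM h⟩
  have h1 := Fermat.Agent.S34.NP.alpha_mem q M (Final.placeFacts_bar M) (C3.placeFacts_N q M)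
    n hf
  refine rrSpace_mono ?_ h1
  exact nsmul_le_nsmul_right (le_add_of_nonneg_right (C3.poleDiv_nonneg' _ _)) n

/-- `(V a, a) ∈ B n`: the joint reduction of `β f` -/
theorem mem_Bn_beta {n : ℕ} {f : modularFunctionFieldBar M}
    {a : modularFunctionFieldFullC (IsLocalRing.ResidueField A) M}
    (hf : f ∈ riemannRochSpace
      (n • (Final.placeFacts_bar M).poleDiv (Fermat.Agent.S24.jBar M)))
    (h : GV.RedF A M f a) :
    haveI := GV.charP_residueField A q hA
    (Joint.Vk q M (IsLocalRing.ResidueField A) a, a) ∈ Bn A q hA M hqM n := by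
  haveI := GV.charP_residueField A q hA
  refine ⟨heckeBetaBar Qb M q f, ?_, Joint.red1_beta A q hA M h, Joint.red2_beta A q M hqM h⟩
  have h1 := Fermat.Agent.S34.NP.beta_mem q M (Final.placeFacts_bar M) (C3.placeFacts_N q M)
    n hf
  refine rrSpace_mono ?_ h1
  exact nsmul_le_nsmul_right (le_add_of_nonneg_left (C3.poleDiv_nonneg' _ _)) n

/-- the divisor `D₁ = D₂ = (1 + q) Pol(J)` is nonnegative -/
theorem D1_nonneg' : 0 ≤ (1 + q) • EJ A q hA M :=
  C3.D1_nonneg q M (C3.placeFacts_k A q hA M)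

include hA hqM in
/-- lifting of the coordinate ring of `F_k(M)` to the level `M` (S18) -/
theorem exists_lift_coordRing (h49 : 4 ∣ M ∨ 9 ∣ M)
    (a : modularFunctionFieldFullC (IsLocalRing.ResidueField A) M)
    (ha : a ∈ NC.coordRing ((1 + q) • EJ A q hA M) (D1_nonneg' A q hA M)) :
    ∃ (n : ℕ) (f : modularFunctionFieldBar M),
      f ∈ riemannRochSpace
        (n • (Final.placeFacts_bar M).poleDiv (Fermat.Agent.S24.jBar M)) ∧
      GV.RedF A M f a := by
  obtain ⟨n, hn⟩ := ha
  obtain ⟨a₀, hl⟩ := NConc.exists_lift A q hA M hqM h49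
  have hE : 0 ≤ EJ A q hA M := C3.poleDiv_nonneg' _ _
  have hmem : a ∈ riemannRochSpace ((max a₀ (n * (1 + q))) •
      (Final.placeFacts_k A q hA M).poleDiv (GV.jK (IsLocalRing.ResidueField A) M)) := by
    refine rrSpace_mono ?_ hn
    rw [← mul_nsmul']
    exact nsmul_le_nsmul_left hE (le_max_right _ _)
  obtain ⟨f, hf, hfa⟩ := hl _ (le_max_left _ _) a hmem
  exact ⟨_, f, hf, hfa⟩

include hA in
/-- the pole part of (H2) for the joint reduction -/
theorem Bn_le_prod (hJF : C3.JointFin A q M hqM) (n : ℕ) :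
    Bn A q hA M hqM n ≤ (riemannRochSpace (n • ((1 + q) • EJ A q hA M))).prod
      (riemannRochSpace (n • ((1 + q) • EJ A q hA M))) := by
  rintro a ⟨x, hx, h1, h2⟩
  exact C3.h2_pole A q hA M hqM hJF (C3.placeFacts_N q M) (C3.placeFacts_k A q hA M)
    n x a.1 a.2 hx h1 h2

/-- `W = V ∘ V` -/
def Wk : modularFunctionFieldFullC (IsLocalRing.ResidueField A) M →
    modularFunctionFieldFullC (IsLocalRing.ResidueField A) M :=
  haveI := GV.charP_residueField A q hA
  fun a => Joint.Vk q M (IsLocalRing.ResidueField A) (Joint.Vk q M (IsLocalRing.ResidueField A) a)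

include hqM in
theorem surj₁ (h49 : 4 ∣ M ∨ 9 ∣ M)
    (a : modularFunctionFieldFullC (IsLocalRing.ResidueField A) M)
    (ha : a ∈ NC.coordRing ((1 + q) • EJ A q hA M) (D1_nonneg' A q hA M)) :
    ∃ (m : ℕ) (a' : modularFunctionFieldFullC (IsLocalRing.ResidueField A) M),
      (a, a') ∈ Bn A q hA M hqM m := by
  obtain ⟨n, f, hf, hfa⟩ := exists_lift_coordRing A q hA M hqM h49 a ha
  exact ⟨n, _, mem_Bn_alpha A q hA M hqM hf hfa⟩

include hqM in
theorem surj₂ (h49 : 4 ∣ M ∨ 9 ∣ M)
    (a : modularFunctionFieldFullC (IsLocalRing.ResidueField A) M)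
    (ha : a ∈ NC.coordRing ((1 + q) • EJ A q hA M) (D1_nonneg' A q hA M)) :
    ∃ (m : ℕ) (a' : modularFunctionFieldFullC (IsLocalRing.ResidueField A) M),
      (a', a) ∈ Bn A q hA M hqM m := by
  obtain ⟨n, f, hf, hfa⟩ := exists_lift_coordRing A q hA M hqM h49 a ha
  exact ⟨n, _, mem_Bn_beta A q hA M hqM hf hfa⟩

include hqM in
/-- `(a - W a, 0) ∈ B m`: the joint reduction of `α f - β g`, `g` a lift of `V a` -/
theorem mem_Bn_sub₁ (h49 : 4 ∣ M ∨ 9 ∣ M) (hJF : C3.JointFin A q M hqM)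
    (a : modularFunctionFieldFullC (IsLocalRing.ResidueField A) M)
    (ha : a ∈ NC.coordRing ((1 + q) • EJ A q hA M) (D1_nonneg' A q hA M)) :
    ∃ m : ℕ, (a - Wk A q hA M a,
      (0 : modularFunctionFieldFullC (IsLocalRing.ResidueField A) M)) ∈ Bn A q hA M hqM m := by
  haveI := GV.charP_residueField A q hA
  obtain ⟨n, f, hf, hfa⟩ := exists_lift_coordRing A q hA M hqM h49 a ha
  have h1 := mem_Bn_alpha A q hA M hqM hf hfa
  have hV : Joint.Vk q M (IsLocalRing.ResidueField A) a
      ∈ NC.coordRing ((1 + q) • EJ A q hA M) (D1_nonneg' A q hA M) :=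
    ⟨n, (Bn_le_prod A q hA M hqM hJF n h1).2⟩
  obtain ⟨n', g, hg, hga⟩ := exists_lift_coordRing A q hA M hqM h49 _ hV
  have h2 := mem_Bn_beta A q hA M hqM hg hga
  refine ⟨max n n', ?_⟩
  have h3 := Submodule.sub_mem _ (Bn_mono A q hA M hqM (le_max_left n n') h1)
    (Bn_mono A q hA M hqM (le_max_right n n') h2)
  rw [Prod.mk_sub_mk, sub_self] at h3
  exact h3

include hqM in
/-- `(0, a - W a) ∈ B m`: the joint reduction of `β f - α g`, `g` a lift of `V a` -/
theorem mem_Bn_sub₂ (h49 : 4 ∣ M ∨ 9 ∣ M) (hJF : C3.JointFin A q M hqM)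
    (a : modularFunctionFieldFullC (IsLocalRing.ResidueField A) M)
    (ha : a ∈ NC.coordRing ((1 + q) • EJ A q hA M) (D1_nonneg' A q hA M)) :
    ∃ m : ℕ, ((0 : modularFunctionFieldFullC (IsLocalRing.ResidueField A) M),
      a - Wk A q hA M a) ∈ Bn A q hA M hqM m := by
  haveI := GV.charP_residueField A q hA
  obtain ⟨n, f, hf, hfa⟩ := exists_lift_coordRing A q hA M hqM h49 a ha
  have h1 := mem_Bn_beta A q hA M hqM hf hfa
  have hV : Joint.Vk q M (IsLocalRing.ResidueField A) a
      ∈ NC.coordRing ((1 + q) • EJ A q hA M) (D1_nonneg' A q hA M) :=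
    ⟨n, (Bn_le_prod A q hA M hqM hJF n h1).1⟩
  obtain ⟨n', g, hg, hga⟩ := exists_lift_coordRing A q hA M hqM h49 _ hV
  have h2 := mem_Bn_alpha A q hA M hqM hg hga
  refine ⟨max n n', ?_⟩
  have h3 := Submodule.sub_mem _ (Bn_mono A q hA M hqM (le_max_left n n') h1)
    (Bn_mono A q hA M hqM (le_max_right n n') h2)
  rw [Prod.mk_sub_mk, sub_self] at h3
  exact h3

/-- `W a` is a `q`-th power -/
theorem Wk_eq_pow (a : modularFunctionFieldFullC (IsLocalRing.ResidueField A) M) :
    ∃ b : modularFunctionFieldFullC (IsLocalRing.ResidueField A) M, Wk A q hA M a = b ^ q := by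
  haveI := GV.charP_residueField A q hA
  haveI := Fermat.Agent.S18.ResClosed.perfectField_residueField A
  exact Vk_eq_pow q M (IsLocalRing.ResidueField A) _

/-- `J` lies in the coordinate ring and `J - W J ≠ 0` -/
theorem exists_ne : ∃ a ∈ NC.coordRing ((1 + q) • EJ A q hA M) (D1_nonneg' A q hA M),
    a - Wk A q hA M a ≠ 0 := by
  haveI := GV.charP_residueField A q hA
  haveI := Fermat.Agent.S18.ResClosed.perfectField_residueField A
  haveI := Fermat.Agent.S18.ResClosed.isAlgClosed_residueField A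
  refine ⟨GV.jK (IsLocalRing.ResidueField A) M, ⟨1, ?_⟩,
    jK_sub_ne_zero q M (IsLocalRing.ResidueField A)⟩
  rw [one_smul]
  have hJ0 : GV.jK (IsLocalRing.ResidueField A) M ≠ 0 := by
    intro h
    have := jK_sub_ne_zero q M (IsLocalRing.ResidueField A)
    rw [h, map_zero, map_zero, sub_zero] at this
    exact this rfl
  have h1 := Fermat.Agent.S34.NP.pow_mem_rrSpace_poleDiv (C3.placeFacts_k A q hA M) hJ0 1
  rw [pow_one, one_smul] at h1
  refine rrSpace_mono ?_ h1
  have hE : 0 ≤ EJ A q hA M := C3.poleDiv_nonneg' _ _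
  calc EJ A q hA M = 1 • EJ A q hA M := (one_smul _ _).symm
    _ ≤ (1 + q) • EJ A q hA M := nsmul_le_nsmul_left hE (by omega)

include hqM in
/-- **the conductor hypothesis** of the concrete side -/
theorem condInput (h49 : 4 ∣ M ∨ 9 ∣ M) (hJF : C3.JointFin A q M hqM) :
    CondInput A q hA M hqM := by
  obtain ⟨g, g₁, c, c₁, -, -, -, hRk, -⟩ := NConc.exists_rthm A q hA M hqM h49
  have hd : 0 < Divisor.degree ((1 + q) • EJ A q hA M) :=
    C3.degree_D1_pos A q hA M hqM (C3.placeFacts_k A q hA M)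
  have hCI := Fermat.Agent.S34.NCond.exists_countInput (C3.placeFacts_k A q hA M)
    (C3.placeFacts_k A q hA M) hRk hRk (D1_nonneg' A q hA M) (D1_nonneg' A q hA M) hd hd
    (Bn A q hA M hqM) (Bn_le_prod A q hA M hqM hJF) (Bn_mono A q hA M hqM)
    (one_mem_Bn A q hA M hqM) (mul_mem_Bn A q hA M hqM)
    (surj₁ A q hA M hqM h49) (surj₂ A q hA M hqM h49) q hq.out.two_le
    (Wk A q hA M) (Wk A q hA M)
    (mem_Bn_sub₁ A q hA M hqM h49 hJF) (mem_Bn_sub₂ A q hA M hqM h49 hJF)
    (fun a _ => Wk_eq_pow A q hA M a) (fun a _ => Wk_eq_pow A q hA M a)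
    (exists_ne A q hA M) (exists_ne A q hA M)
  have hoff : ∀ y : Place (IsLocalRing.ResidueField A)
      (modularFunctionFieldFullC (IsLocalRing.ResidueField A) M),
      ((1 + q) • EJ A q hA M) y = 0 → EJ A q hA M y = 0 := by
    intro y hy
    rw [Finsupp.smul_apply, smul_eq_zero] at hy
    rcases hy with hy | hy
    · omega
    · exact hy
  exact ⟨_, _, fun y hy => hoff y (hCI.off₁ y hy), fun y hy => hoff y (hCI.off₂ y hy), hCI.cond⟩

include hqM in
/-- **the conductor hypothesis** of the concrete side, unconditionally -/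
theorem condInput' (h49 : 4 ∣ M ∨ 9 ∣ M) : CondInput A q hA M hqM :=
  condInput A q hA M hqM h49 (Joint.jointFin A q hA M hqM)

end Conc

end Fermat.Agent.S34.CondC
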