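import Fermat.Agent.S34.NodalDefs
import Fermat.Agent.S18.DeuringNS

/-!
# C83 (S34), piece A1: Riemann–Roch on the nodal fibre `C₁ ∪ C₂`

`k` a field, `F₁`, `F₂` function fields over `k` with `PlaceFacts` and Riemann's theorem
(`RThm k F_i g_i c_i`), `N` a finite set of nodes `(x₁, x₂)`, injective in both coordinates.

* `exists_interp` : interpolation of values at finitely many places by sections of `L(E)`;
* `finrank_LX` : `dim LX N E₁ E₂ = ℓ₂(E₂) + ℓ₁(E₁ - ΣN₁) = deg E₁ + deg E₂ + 2 - g₁ - g₂ - |N|`;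
* `exists_balanced` : balanced non-special sets `Qs₁`, `Qs₂`;
* `LX_sumPl_eq_const` : `LX N (ΣQs₁) (ΣQs₂)` consists of the diagonal constants.
-/

set_option autoImplicit false
set_option linter.unusedSectionVars false
set_option linter.style.haveILetI false
set_option linter.unusedVariables false
set_option linter.unusedSimpArgs false
set_option linter.unusedTactic false

open AlgebraicCurve Fermat.Agent.Lib.FF Fermat.Agent.S18.Deuring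
open scoped Classical

namespace Fermat.Agent.S34.Nodal

/-! ### one curve: values of sections -/

section One

variable {k F : Type*} [Field k] [Field F] [Algebra k F]

theorem HasValue.sum {ι : Type*} (s : Finset ι) (x : Place k F) (φ : ι → F) (c : ι → k)
    (h : ∀ i ∈ s, HasValue x (φ i) (c i)) : HasValue x (∑ i ∈ s, φ i) (∑ i ∈ s, c i) := by
  induction s using Finset.induction_on with
  | empty => simpa using hasValue_zero' x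
  | insert a s ha ih =>
    rw [Finset.sum_insert ha, Finset.sum_insert ha]
    exact (h a (Finset.mem_insert_self _ _)).add (ih fun i hi => h i (Finset.mem_insert_of_mem hi))

/-- membership in `L(E - ΣZ)` for `E` vanishing on `Z` -/
theorem mem_rrSpace_sub_sumPl_iff {E : Divisor k F} {Z : Finset (Place k F)}
    (hEZ : ∀ z ∈ Z, E z = 0) {φ : F} :
    φ ∈ riemannRochSpace (E - sumPl Z) ↔
      φ ∈ riemannRochSpace E ∧ ∀ z ∈ Z, HasValue z φ 0 := by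
  constructor
  · intro h
    refine ⟨rrSpace_mono (sub_le_self _ (sumPl_nonneg Z)) h, fun z hz => ?_⟩
    rw [hasValue_zero_iff]
    rcases (mem_riemannRochSpace_iff.mp h) z with h0 | h1
    · exact Or.inl h0
    · right
      rw [Finsupp.sub_apply, sumPl_apply, if_pos hz, hEZ z hz] at h1
      omega
  · rintro ⟨h, hval⟩
    rw [mem_riemannRochSpace_iff]
    intro v
    by_cases hv : v ∈ Z
    · rcases hasValue_zero_iff.mp (hval v hv) with h0 | h1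
      · exact Or.inl h0
      · right
        rw [Finsupp.sub_apply, sumPl_apply, if_pos hv, hEZ v hv]
        omega
    · rcases (mem_riemannRochSpace_iff.mp h) v with h0 | h1
      · exact Or.inl h0
      · right
        rw [Finsupp.sub_apply, sumPl_apply, if_neg hv, sub_zero]
        exact h1

variable (hpf : PlaceFacts k F) {g : ℕ} {c : ℤ} (hR : RThm k F g c)
include hpf hR

/-- a section with value `1` at `z` and `0` at the other places of `Z` -/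
theorem exists_delta {E : Divisor k F} {Z : Finset (Place k F)} (hEZ : ∀ z ∈ Z, E z = 0)
    (hdeg : c + Z.card ≤ Divisor.degree E) {z : Place k F} (hz : z ∈ Z) :
    ∃ φ ∈ riemannRochSpace E, HasValue z φ 1 ∧ ∀ z' ∈ Z, z' ≠ z → HasValue z' φ 0 := by
  set E' : Divisor k F := E - sumPl (Z.erase z) with hE'
  have hcard : (Z.erase z).card + 1 = Z.card := Finset.card_erase_add_one hz
  have hdeg' : c + 1 ≤ Divisor.degree E' := by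
    rw [hE', map_sub, degree_sumPl hpf]
    have : ((Z.erase z).card : ℤ) + 1 = Z.card := by exact_mod_cast hcard
    omega
  obtain ⟨φ, hφ, hφn⟩ := exists_notMem_sub_single hpf hR z hdeg'
  obtain ⟨hφ0, hord⟩ := ord_eq_of_notMem_sub_single hφ hφn
  have hE'z : E' z = 0 := by
    rw [hE', Finsupp.sub_apply, sumPl_apply, if_neg (Finset.notMem_erase z Z), hEZ z hz, sub_zero]
  rw [hE'z, neg_zero] at hord
  have hEZ' : ∀ z' ∈ Z.erase z, E z' = 0 := fun z' hz' => hEZ z' (Finset.mem_of_mem_erase hz')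
  obtain ⟨hφE, hval⟩ := (mem_rrSpace_sub_sumPl_iff hEZ').mp hφ
  obtain ⟨a, ha⟩ := exists_hasValue_of_ord_nonneg (hpf.res z) (le_of_eq hord.symm)
  have ha0 : a ≠ 0 := by
    rintro rfl
    rcases hasValue_zero_iff.mp ha with h0 | h1
    · exact hφ0 h0
    · omega
  refine ⟨a⁻¹ • φ, Submodule.smul_mem _ _ hφE, ?_, fun z' hz' hne => ?_⟩
  · have := ha.smul a⁻¹
    rwa [inv_mul_cancel₀ ha0] at this
  · have := (hval z' (Finset.mem_erase.mpr ⟨hne, hz'⟩)).smul a⁻¹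
    rwa [mul_zero] at this

/-- **interpolation**: sections of `L(E)` with prescribed values on `Z` -/
theorem exists_interp {E : Divisor k F} {Z : Finset (Place k F)} (hEZ : ∀ z ∈ Z, E z = 0)
    (hdeg : c + Z.card ≤ Divisor.degree E) (a : Place k F → k) :
    ∃ φ ∈ riemannRochSpace E, ∀ z ∈ Z, HasValue z φ (a z) := by
  have hex : ∀ z : Place k F, ∃ φ : F, z ∈ Z →
      (φ ∈ riemannRochSpace E ∧ HasValue z φ 1 ∧ ∀ z' ∈ Z, z' ≠ z → HasValue z' φ 0) := by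
    intro z
    by_cases hz : z ∈ Z
    · obtain ⟨φ, h1, h2, h3⟩ := exists_delta hpf hR hEZ hdeg hz
      exact ⟨φ, fun _ => ⟨h1, h2, h3⟩⟩
    · exact ⟨0, fun h => absurd h hz⟩
  choose δ hδ using hex
  refine ⟨∑ z ∈ Z, a z • δ z, Submodule.sum_mem _ fun z hz =>
    Submodule.smul_mem _ _ (hδ z hz).1, fun z' hz' => ?_⟩
  have h1 : ∀ z ∈ Z, HasValue z' (a z • δ z) (if z = z' then a z' else 0) := by
    intro z hz
    by_cases hzz : z = z'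
    · subst hzz
      rw [if_pos rfl]
      have := (hδ z hz).2.1.smul (a z)
      rwa [mul_one] at this
    · rw [if_neg hzz]
      have := ((hδ z hz).2.2 z' hz' (fun h => hzz h.symm)).smul (a z)
      rwa [mul_zero] at this
  have h2 := HasValue.sum Z z' (fun z => a z • δ z) (fun z => if z = z' then a z' else 0) h1
  rwa [Finset.sum_ite_eq' Z z', if_pos hz'] at h2

end One

/-! ### the dimension of the nodal Riemann–Roch space -/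

section Two

variable {k F₁ F₂ : Type*} [Field k] [Field F₁] [Field F₂] [Algebra k F₁] [Algebra k F₂]
variable {N : Finset (Place k F₁ × Place k F₂)}

/-- the first branches of the nodes -/
noncomputable def nodes₁ (N : Finset (Place k F₁ × Place k F₂)) : Finset (Place k F₁) :=
  N.image Prod.fst

/-- the second branches of the nodes -/
noncomputable def nodes₂ (N : Finset (Place k F₁ × Place k F₂)) : Finset (Place k F₂) :=
  N.image Prod.snd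

theorem mem_nodes₁ {z : Place k F₁} : z ∈ nodes₁ N ↔ ∃ p ∈ N, p.1 = z := by
  simp [nodes₁]

theorem mem_nodes₂ {z : Place k F₂} : z ∈ nodes₂ N ↔ ∃ p ∈ N, p.2 = z := by
  simp [nodes₂]

theorem card_nodes₁ (hinj₁ : ∀ p ∈ N, ∀ p' ∈ N, p.1 = p'.1 → p = p') :
    (nodes₁ N).card = N.card :=
  Finset.card_image_of_injOn fun p hp p' hp' h => hinj₁ p hp p' hp' h

theorem card_nodes₂ (hinj₂ : ∀ p ∈ N, ∀ p' ∈ N, p.2 = p'.2 → p = p') :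
    (nodes₂ N).card = N.card :=
  Finset.card_image_of_injOn fun p hp p' hp' h => hinj₂ p hp p' hp' h

/-- sections of `L(E)` are regular where `E` vanishes -/
theorem mem_valuationSubring_of_mem_rrSpace {F : Type*} [Field F] [Algebra k F]
    {E : Divisor k F} {φ : F} (hφ : φ ∈ riemannRochSpace E) {z : Place k F} (hz : E z = 0) :
    φ ∈ z.toValuationSubring := by
  rcases (mem_riemannRochSpace_iff.mp hφ) z with h0 | h1
  · rw [h0]; exact z.toValuationSubring.zero_mem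
  · rw [hz, neg_zero] at h1
    exact mem_of_ord_nonneg z h1

variable (hpf₁ : PlaceFacts k F₁) (hpf₂ : PlaceFacts k F₂)

include hpf₁ hpf₂ in
/-- `LX` is finite-dimensional -/
theorem finite_LX (P₁ : Place k F₁) (P₂ : Place k F₂) (E₁ : Divisor k F₁) (E₂ : Divisor k F₂) :
    Module.Finite k (LX N E₁ E₂) := by
  haveI := finite_rrSpace hpf₁ P₁ E₁
  haveI := finite_rrSpace hpf₂ P₂ E₂
  let f : LX N E₁ E₂ →ₗ[k] (riemannRochSpace E₁ × riemannRochSpace E₂) :=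
    { toFun := fun φ => (⟨φ.1.1, φ.2.1⟩, ⟨φ.1.2, φ.2.2.1⟩)
      map_add' := fun a b => rfl
      map_smul' := fun c a => rfl }
  have hf : Function.Injective f := by
    intro a b hab
    have h1 := congrArg (fun x => (x.1 : F₁)) hab
    have h2 := congrArg (fun x => (x.2 : F₂)) hab
    exact Subtype.ext (Prod.ext h1 h2)
  exact Module.Finite.of_injective f hf

variable {g₁ g₂ : ℕ} {c₁ c₂ : ℤ} (hR₁ : RThm k F₁ g₁ c₁) (hR₂ : RThm k F₂ g₂ c₂)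

include hpf₁ hpf₂ hR₁ in
/-- every section on `C₂` extends to a matching pair -/
theorem exists_fst_of_snd (hinj₁ : ∀ p ∈ N, ∀ p' ∈ N, p.1 = p'.1 → p = p')
    {E₁ : Divisor k F₁} {E₂ : Divisor k F₂} (hE₁ : ∀ p ∈ N, E₁ p.1 = 0)
    (hE₂ : ∀ p ∈ N, E₂ p.2 = 0) (hdeg₁ : c₁ + N.card ≤ Divisor.degree E₁)
    {φ₂ : F₂} (hφ₂ : φ₂ ∈ riemannRochSpace E₂) :
    ∃ φ₁ : F₁, (φ₁, φ₂) ∈ LX N E₁ E₂ := by
  have hEZ : ∀ z ∈ nodes₁ N, E₁ z = 0 := by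
    intro z hz
    obtain ⟨p, hp, rfl⟩ := mem_nodes₁.mp hz
    exact hE₁ p hp
  have hdeg : c₁ + (nodes₁ N).card ≤ Divisor.degree E₁ := by
    rw [card_nodes₁ hinj₁]; exact hdeg₁
  let a : Place k F₁ → k := fun z =>
    if h : ∃ p ∈ N, p.1 = z then valueAt h.choose.2 φ₂ else 0
  obtain ⟨φ₁, hφ₁, hval⟩ := exists_interp hpf₁ hR₁ hEZ hdeg a
  refine ⟨φ₁, hφ₁, hφ₂, fun p hp => ?_⟩
  have hex : ∃ p' ∈ N, p'.1 = p.1 := ⟨p, hp, rfl⟩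
  have hch : hex.choose = p := hinj₁ _ hex.choose_spec.1 _ hp hex.choose_spec.2
  have ha : a p.1 = valueAt p.2 φ₂ := by
    show (if h : ∃ p' ∈ N, p'.1 = p.1 then valueAt h.choose.2 φ₂ else 0) = _
    rw [dif_pos hex, hch]
  refine ⟨a p.1, hval p.1 (mem_nodes₁.mpr ⟨p, hp, rfl⟩), ?_⟩
  rw [ha]
  exact hasValue_valueAt (hpf₂.res p.2) (mem_valuationSubring_of_mem_rrSpace hφ₂ (hE₂ p hp))

include hpf₁ hpf₂ hR₁ in
/-- **the dimension of `LX`**, first form -/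
theorem finrank_LX_eq (P₁ : Place k F₁) (P₂ : Place k F₂)
    (hinj₁ : ∀ p ∈ N, ∀ p' ∈ N, p.1 = p'.1 → p = p')
    {E₁ : Divisor k F₁} {E₂ : Divisor k F₂} (hE₁ : ∀ p ∈ N, E₁ p.1 = 0)
    (hE₂ : ∀ p ∈ N, E₂ p.2 = 0) (hdeg₁ : c₁ + N.card ≤ Divisor.degree E₁) :
    Module.finrank k (LX N E₁ E₂)
      = Module.finrank k (riemannRochSpace E₂)
        + Module.finrank k (riemannRochSpace (E₁ - sumPl (nodes₁ N))) := by
  haveI := finite_LX (N := N) hpf₁ hpf₂ P₁ P₂ E₁ E₂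
  have hEZ : ∀ z ∈ nodes₁ N, E₁ z = 0 := by
    intro z hz
    obtain ⟨p, hp, rfl⟩ := mem_nodes₁.mp hz
    exact hE₁ p hp
  set π : LX N E₁ E₂ →ₗ[k] F₂ := (LinearMap.snd k F₁ F₂).comp (LX N E₁ E₂).subtype with hπ
  have hrange : LinearMap.range π = riemannRochSpace E₂ := by
    apply le_antisymm
    · rintro _ ⟨φ, rfl⟩
      exact φ.2.2.1
    · intro φ₂ hφ₂
      obtain ⟨φ₁, h⟩ := exists_fst_of_snd hpf₁ hpf₂ hR₁ hinj₁ hE₁ hE₂ hdeg₁ hφ₂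
      exact ⟨⟨(φ₁, φ₂), h⟩, rfl⟩
  set ψ : LinearMap.ker π →ₗ[k] F₁ :=
    ((LinearMap.fst k F₁ F₂).comp (LX N E₁ E₂).subtype).comp (LinearMap.ker π).subtype with hψ
  have hψinj : Function.Injective ψ := by
    intro a b hab
    have ha : (a.1.1).2 = 0 := a.2
    have hb : (b.1.1).2 = 0 := b.2
    have h1 : (a.1.1).1 = (b.1.1).1 := hab
    exact Subtype.ext (Subtype.ext (Prod.ext h1 (ha.trans hb.symm)))
  have hψrange : LinearMap.range ψ = riemannRochSpace (E₁ - sumPl (nodes₁ N)) := by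
    apply le_antisymm
    · rintro _ ⟨φ, rfl⟩
      have h2 : (φ.1.1).2 = 0 := φ.2
      rw [mem_rrSpace_sub_sumPl_iff hEZ]
      refine ⟨φ.1.2.1, fun z hz => ?_⟩
      obtain ⟨p, hp, rfl⟩ := mem_nodes₁.mp hz
      obtain ⟨v, hv1, hv2⟩ := φ.1.2.2.2 p hp
      rw [h2] at hv2
      have hv0 : v = 0 := hv2.unique (hasValue_zero' p.2)
      rw [hv0] at hv1
      exact hv1
    · intro φ₁ hφ₁
      obtain ⟨hφE, hval⟩ := (mem_rrSpace_sub_sumPl_iff hEZ).mp hφ₁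
      have hmem : ((φ₁, (0 : F₂)) : F₁ × F₂) ∈ LX N E₁ E₂ :=
        ⟨hφE, Submodule.zero_mem _, fun p hp =>
          ⟨0, hval p.1 (mem_nodes₁.mpr ⟨p, hp, rfl⟩), hasValue_zero' p.2⟩⟩
      have hker : (⟨(φ₁, 0), hmem⟩ : LX N E₁ E₂) ∈ LinearMap.ker π := rfl
      exact ⟨⟨⟨(φ₁, 0), hmem⟩, hker⟩, rfl⟩
  have h1 := LinearMap.finrank_range_add_finrank_ker π
  have h2 := LinearMap.finrank_range_of_inj hψinj
  rw [hrange] at h1
  rw [hψrange] at h2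
  omega

include hpf₁ hpf₂ hR₁ hR₂ in
/-- **Riemann–Roch on the nodal fibre** (large degree) -/
theorem finrank_LX (P₁ : Place k F₁) (P₂ : Place k F₂)
    (hinj₁ : ∀ p ∈ N, ∀ p' ∈ N, p.1 = p'.1 → p = p')
    {E₁ : Divisor k F₁} {E₂ : Divisor k F₂} (hE₁ : ∀ p ∈ N, E₁ p.1 = 0)
    (hE₂ : ∀ p ∈ N, E₂ p.2 = 0) (hdeg₁ : c₁ + N.card ≤ Divisor.degree E₁)
    (hdeg₂ : c₂ ≤ Divisor.degree E₂) :
    (Module.finrank k (LX N E₁ E₂) : ℤ) + g₁ + g₂ + N.card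
      = Divisor.degree E₁ + Divisor.degree E₂ + 2 := by
  rw [finrank_LX_eq hpf₁ hpf₂ hR₁ P₁ P₂ hinj₁ hE₁ hE₂ hdeg₁]
  have h2 := hR₂.eq E₂ hdeg₂
  have h1 := hR₁.eq (E₁ - sumPl (nodes₁ N)) (by
    rw [map_sub, degree_sumPl hpf₁, card_nodes₁ hinj₁]; omega)
  rw [map_sub, degree_sumPl hpf₁, card_nodes₁ hinj₁] at h1
  push_cast
  omega

/-! ### sections with exact orders -/

include hpf₁ hR₁ in
/-- one-sided sections `(φ₁, 0)` with exact order at a smooth point of `C₁` -/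
theorem exists_oneSided₁ (hinj₁ : ∀ p ∈ N, ∀ p' ∈ N, p.1 = p'.1 → p = p')
    {E₁ : Divisor k F₁} (E₂ : Divisor k F₂) (hE₁ : ∀ p ∈ N, E₁ p.1 = 0)
    (hdeg₁ : c₁ + N.card + 1 ≤ Divisor.degree E₁) {Q : Place k F₁} (hQ : Q ∉ nodes₁ N) :
    ∃ φ₁ ∈ riemannRochSpace (E₁ - sumPl (nodes₁ N)),
      ((φ₁, (0 : F₂)) : F₁ × F₂) ∈ LX N E₁ E₂ ∧ φ₁ ∉ riemannRochSpace (E₁ - Finsupp.single Q 1) := by
  have hEZ : ∀ z ∈ nodes₁ N, E₁ z = 0 := by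
    intro z hz
    obtain ⟨p, hp, rfl⟩ := mem_nodes₁.mp hz
    exact hE₁ p hp
  obtain ⟨φ, hφ, hφn⟩ := exists_notMem_sub_single hpf₁ hR₁ (E := E₁ - sumPl (nodes₁ N)) Q (by
    rw [map_sub, degree_sumPl hpf₁, card_nodes₁ hinj₁]; omega)
  obtain ⟨hφ0, hord⟩ := ord_eq_of_notMem_sub_single hφ hφn
  rw [Finsupp.sub_apply, sumPl_apply, if_neg hQ, sub_zero] at hord
  obtain ⟨hφE, hval⟩ := (mem_rrSpace_sub_sumPl_iff hEZ).mp hφ
  refine ⟨φ, hφ, ⟨hφE, Submodule.zero_mem _, fun p hp =>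
    ⟨0, hval p.1 (mem_nodes₁.mpr ⟨p, hp, rfl⟩), hasValue_zero' p.2⟩⟩,
    notMem_sub_single_of_ord_eq hφ0 hord⟩

include hpf₂ hR₂ in
/-- one-sided sections `(0, φ₂)` with exact order at a smooth point of `C₂` -/
theorem exists_oneSided₂ (hinj₂ : ∀ p ∈ N, ∀ p' ∈ N, p.2 = p'.2 → p = p')
    (E₁ : Divisor k F₁) {E₂ : Divisor k F₂} (hE₂ : ∀ p ∈ N, E₂ p.2 = 0)
    (hdeg₂ : c₂ + N.card + 1 ≤ Divisor.degree E₂) {Q : Place k F₂} (hQ : Q ∉ nodes₂ N) :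
    ∃ φ₂ ∈ riemannRochSpace (E₂ - sumPl (nodes₂ N)),
      (((0 : F₁), φ₂) : F₁ × F₂) ∈ LX N E₁ E₂ ∧ φ₂ ∉ riemannRochSpace (E₂ - Finsupp.single Q 1) := by
  have hEZ : ∀ z ∈ nodes₂ N, E₂ z = 0 := by
    intro z hz
    obtain ⟨p, hp, rfl⟩ := mem_nodes₂.mp hz
    exact hE₂ p hp
  obtain ⟨φ, hφ, hφn⟩ := exists_notMem_sub_single hpf₂ hR₂ (E := E₂ - sumPl (nodes₂ N)) Q (by
    rw [map_sub, degree_sumPl hpf₂, card_nodes₂ hinj₂]; omega)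
  obtain ⟨hφ0, hord⟩ := ord_eq_of_notMem_sub_single hφ hφn
  rw [Finsupp.sub_apply, sumPl_apply, if_neg hQ, sub_zero] at hord
  obtain ⟨hφE, hval⟩ := (mem_rrSpace_sub_sumPl_iff hEZ).mp hφ
  refine ⟨φ, hφ, ⟨Submodule.zero_mem _, hφE, fun p hp =>
    ⟨0, hasValue_zero' p.1, hval p.2 (mem_nodes₂.mpr ⟨p, hp, rfl⟩)⟩⟩,
    notMem_sub_single_of_ord_eq hφ0 hord⟩

include hpf₁ hpf₂ hR₁ hR₂ in
/-- a pair with value `1` at a given node and `0` at the other nodes -/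
theorem exists_node_delta (hinj₁ : ∀ p ∈ N, ∀ p' ∈ N, p.1 = p'.1 → p = p')
    (hinj₂ : ∀ p ∈ N, ∀ p' ∈ N, p.2 = p'.2 → p = p')
    {E₁ : Divisor k F₁} {E₂ : Divisor k F₂} (hE₁ : ∀ p ∈ N, E₁ p.1 = 0)
    (hE₂ : ∀ p ∈ N, E₂ p.2 = 0) (hdeg₁ : c₁ + N.card ≤ Divisor.degree E₁)
    (hdeg₂ : c₂ + N.card ≤ Divisor.degree E₂) {p : Place k F₁ × Place k F₂} (hp : p ∈ N) :
    ∃ φ ∈ LX N E₁ E₂, HasValue p.1 φ.1 1 ∧ HasValue p.2 φ.2 1 ∧
      ∀ p' ∈ N, p' ≠ p → HasValue p'.1 φ.1 0 ∧ HasValue p'.2 φ.2 0 := by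
  have hEZ₁ : ∀ z ∈ nodes₁ N, E₁ z = 0 := by
    intro z hz
    obtain ⟨p, hp, rfl⟩ := mem_nodes₁.mp hz
    exact hE₁ p hp
  have hEZ₂ : ∀ z ∈ nodes₂ N, E₂ z = 0 := by
    intro z hz
    obtain ⟨p, hp, rfl⟩ := mem_nodes₂.mp hz
    exact hE₂ p hp
  obtain ⟨φ₁, h1, h1v, h1o⟩ := exists_delta hpf₁ hR₁ hEZ₁
    (by rw [card_nodes₁ hinj₁]; exact hdeg₁) (mem_nodes₁.mpr ⟨p, hp, rfl⟩)
  obtain ⟨φ₂, h2, h2v, h2o⟩ := exists_delta hpf₂ hR₂ hEZ₂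
    (by rw [card_nodes₂ hinj₂]; exact hdeg₂) (mem_nodes₂.mpr ⟨p, hp, rfl⟩)
  have hother : ∀ p' ∈ N, p' ≠ p → HasValue p'.1 φ₁ 0 ∧ HasValue p'.2 φ₂ 0 := by
    intro p' hp' hne
    exact ⟨h1o p'.1 (mem_nodes₁.mpr ⟨p', hp', rfl⟩) (fun h => hne (hinj₁ p' hp' p hp h)),
      h2o p'.2 (mem_nodes₂.mpr ⟨p', hp', rfl⟩) (fun h => hne (hinj₂ p' hp' p hp h))⟩
  refine ⟨(φ₁, φ₂), ⟨h1, h2, fun p' hp' => ?_⟩, h1v, h2v, hother⟩
  by_cases hpp : p' = p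
  · subst hpp
    exact ⟨1, h1v, h2v⟩
  · exact ⟨0, (hother p' hp' hpp).1, (hother p' hp' hpp).2⟩

include hpf₁ hpf₂ hR₁ hR₂ in
/-- base-point-freeness of `LX` on `C₁` (nodes included) -/
theorem exists_LX_notMem₁ (hinj₁ : ∀ p ∈ N, ∀ p' ∈ N, p.1 = p'.1 → p = p')
    (hinj₂ : ∀ p ∈ N, ∀ p' ∈ N, p.2 = p'.2 → p = p')
    {E₁ : Divisor k F₁} {E₂ : Divisor k F₂} (hE₁ : ∀ p ∈ N, E₁ p.1 = 0)
    (hE₂ : ∀ p ∈ N, E₂ p.2 = 0) (hdeg₁ : c₁ + N.card + 1 ≤ Divisor.degree E₁)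
    (hdeg₂ : c₂ + N.card ≤ Divisor.degree E₂) (Q : Place k F₁) :
    ∃ φ ∈ LX N E₁ E₂, φ.1 ∉ riemannRochSpace (E₁ - Finsupp.single Q 1) := by
  by_cases hQ : Q ∈ nodes₁ N
  · obtain ⟨p, hp, rfl⟩ := mem_nodes₁.mp hQ
    obtain ⟨φ, hφ, hv, -, -⟩ := exists_node_delta hpf₁ hpf₂ hR₁ hR₂ hinj₁ hinj₂ hE₁ hE₂
      (by omega) hdeg₂ hp
    obtain ⟨h0, hord⟩ := hv.ord_eq_zero one_ne_zero
    exact ⟨φ, hφ, notMem_sub_single_of_ord_eq h0 (by rw [hord, hE₁ p hp, neg_zero])⟩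
  · obtain ⟨φ₁, -, hmem, hn⟩ := exists_oneSided₁ hpf₁ hR₁ hinj₁ E₂ hE₁ hdeg₁ hQ
    exact ⟨(φ₁, 0), hmem, hn⟩

include hpf₁ hpf₂ hR₁ hR₂ in
/-- base-point-freeness of `LX` on `C₂` (nodes included) -/
theorem exists_LX_notMem₂ (hinj₁ : ∀ p ∈ N, ∀ p' ∈ N, p.1 = p'.1 → p = p')
    (hinj₂ : ∀ p ∈ N, ∀ p' ∈ N, p.2 = p'.2 → p = p')
    {E₁ : Divisor k F₁} {E₂ : Divisor k F₂} (hE₁ : ∀ p ∈ N, E₁ p.1 = 0)
    (hE₂ : ∀ p ∈ N, E₂ p.2 = 0) (hdeg₁ : c₁ + N.card ≤ Divisor.degree E₁)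
    (hdeg₂ : c₂ + N.card + 1 ≤ Divisor.degree E₂) (Q : Place k F₂) :
    ∃ φ ∈ LX N E₁ E₂, φ.2 ∉ riemannRochSpace (E₂ - Finsupp.single Q 1) := by
  by_cases hQ : Q ∈ nodes₂ N
  · obtain ⟨p, hp, rfl⟩ := mem_nodes₂.mp hQ
    obtain ⟨φ, hφ, -, hv, -⟩ := exists_node_delta hpf₁ hpf₂ hR₁ hR₂ hinj₁ hinj₂ hE₁ hE₂
      hdeg₁ (by omega) hp
    obtain ⟨h0, hord⟩ := hv.ord_eq_zero one_ne_zero
    exact ⟨φ, hφ, notMem_sub_single_of_ord_eq h0 (by rw [hord, hE₂ p hp, neg_zero])⟩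
  · obtain ⟨φ₂, -, hmem, hn⟩ := exists_oneSided₂ hpf₂ hR₂ hinj₂ E₁ hE₂ hdeg₂ hQ
    exact ⟨(0, φ₂), hmem, hn⟩

/-- generic elements of a subspace `H` of `F₁ × F₂`: avoid finitely many conditions on both
components simultaneously -/
theorem exists_forall_notMem₂ [Infinite k] (H : Submodule k (F₁ × F₂))
    (G₁ : Divisor k F₁) (G₂ : Divisor k F₂)
    (T₁ : Finset (Place k F₁)) (T₂ : Finset (Place k F₂))
    (h₁ : ∀ Q ∈ T₁, ∃ φ ∈ H, φ.1 ∉ riemannRochSpace (G₁ - Finsupp.single Q 1))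
    (h₂ : ∀ Q ∈ T₂, ∃ φ ∈ H, φ.2 ∉ riemannRochSpace (G₂ - Finsupp.single Q 1)) :
    ∃ φ ∈ H, (∀ Q ∈ T₁, φ.1 ∉ riemannRochSpace (G₁ - Finsupp.single Q 1)) ∧
      (∀ Q ∈ T₂, φ.2 ∉ riemannRochSpace (G₂ - Finsupp.single Q 1)) := by
  let s₁ : Finset (Subspace k H) := T₁.image fun Q =>
    ((riemannRochSpace (G₁ - Finsupp.single Q 1)).comap (LinearMap.fst k F₁ F₂)).comap H.subtype
  let s₂ : Finset (Subspace k H) := T₂.image fun Q =>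
    ((riemannRochSpace (G₂ - Finsupp.single Q 1)).comap (LinearMap.snd k F₁ F₂)).comap H.subtype
  have hs : (⊤ : Subspace k H) ∉ s₁ ∪ s₂ := by
    intro htop
    rcases Finset.mem_union.mp htop with h | h
    · obtain ⟨Q, hQ, hQtop⟩ := Finset.mem_image.mp h
      obtain ⟨φ, hφ, hφn⟩ := h₁ Q hQ
      have : (⟨φ, hφ⟩ : H) ∈ ((riemannRochSpace (G₁ - Finsupp.single Q 1)).comap
          (LinearMap.fst k F₁ F₂)).comap H.subtype := by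
        rw [hQtop]; exact Submodule.mem_top
      exact hφn this
    · obtain ⟨Q, hQ, hQtop⟩ := Finset.mem_image.mp h
      obtain ⟨φ, hφ, hφn⟩ := h₂ Q hQ
      have : (⟨φ, hφ⟩ : H) ∈ ((riemannRochSpace (G₂ - Finsupp.single Q 1)).comap
          (LinearMap.snd k F₁ F₂)).comap H.subtype := by
        rw [hQtop]; exact Submodule.mem_top
      exact hφn this
  have hne := Subspace.biUnion_ne_univ_of_top_notMem hs
  obtain ⟨x, hx⟩ := (Set.ne_univ_iff_exists_notMem _).mp hne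
  refine ⟨x.1, x.2, fun Q hQ hmem => hx ?_, fun Q hQ hmem => hx ?_⟩
  · simp only [Set.mem_iUnion]
    exact ⟨_, Finset.mem_union_left _ (Finset.mem_image_of_mem _ hQ), hmem⟩
  · simp only [Set.mem_iUnion]
    exact ⟨_, Finset.mem_union_right _ (Finset.mem_image_of_mem _ hQ), hmem⟩

include hpf₁ hpf₂ hR₁ hR₂ in
/-- **generic sections of `LX`**: exact orders `-E_i(Q)` at finitely many places of both
components (at a node point this means: the value is nonzero) -/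
theorem exists_LX_exact [Infinite k] (hinj₁ : ∀ p ∈ N, ∀ p' ∈ N, p.1 = p'.1 → p = p')
    (hinj₂ : ∀ p ∈ N, ∀ p' ∈ N, p.2 = p'.2 → p = p')
    {E₁ : Divisor k F₁} {E₂ : Divisor k F₂} (hE₁ : ∀ p ∈ N, E₁ p.1 = 0)
    (hE₂ : ∀ p ∈ N, E₂ p.2 = 0) (hdeg₁ : c₁ + N.card + 1 ≤ Divisor.degree E₁)
    (hdeg₂ : c₂ + N.card + 1 ≤ Divisor.degree E₂)
    (T₁ : Finset (Place k F₁)) (T₂ : Finset (Place k F₂)) :
    ∃ φ ∈ LX N E₁ E₂, (∀ Q ∈ T₁, φ.1 ≠ 0 ∧ Q.ord φ.1 = - E₁ Q) ∧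
      (∀ Q ∈ T₂, φ.2 ≠ 0 ∧ Q.ord φ.2 = - E₂ Q) := by
  obtain ⟨φ, hφ, h1, h2⟩ := exists_forall_notMem₂ (LX N E₁ E₂) E₁ E₂ T₁ T₂
    (fun Q _ => exists_LX_notMem₁ hpf₁ hpf₂ hR₁ hR₂ hinj₁ hinj₂ hE₁ hE₂ hdeg₁ (by omega) Q)
    (fun Q _ => exists_LX_notMem₂ hpf₁ hpf₂ hR₁ hR₂ hinj₁ hinj₂ hE₁ hE₂ (by omega) hdeg₂ Q)
  exact ⟨φ, hφ, fun Q hQ => ord_eq_of_notMem_sub_single hφ.1 (h1 Q hQ),
    fun Q hQ => ord_eq_of_notMem_sub_single hφ.2.1 (h2 Q hQ)⟩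

include hpf₁ hR₁ in
/-- **generic one-sided sections** `(φ₁, 0)`, `φ₁ ∈ L(E₁ - ΣN₁)`, exact at finitely many smooth
points of `C₁` -/
theorem exists_oneSided_exact₁ [Infinite k]
    (hinj₁ : ∀ p ∈ N, ∀ p' ∈ N, p.1 = p'.1 → p = p')
    {E₁ : Divisor k F₁} (E₂ : Divisor k F₂) (hE₁ : ∀ p ∈ N, E₁ p.1 = 0)
    (hdeg₁ : c₁ + N.card + 1 ≤ Divisor.degree E₁)
    (T₁ : Finset (Place k F₁)) (hT₁ : ∀ Q ∈ T₁, Q ∉ nodes₁ N) :
    ∃ φ₁ ∈ riemannRochSpace (E₁ - sumPl (nodes₁ N)),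
      ((φ₁, (0 : F₂)) : F₁ × F₂) ∈ LX N E₁ E₂ ∧ ∀ Q ∈ T₁, φ₁ ≠ 0 ∧ Q.ord φ₁ = - E₁ Q := by
  have hEZ : ∀ z ∈ nodes₁ N, E₁ z = 0 := by
    intro z hz
    obtain ⟨p, hp, rfl⟩ := mem_nodes₁.mp hz
    exact hE₁ p hp
  obtain ⟨φ, hφ, hall⟩ := exists_forall_notMem hpf₁ (riemannRochSpace (E₁ - sumPl (nodes₁ N))) E₁ T₁
    (fun Q hQ => by
      obtain ⟨φ₁, h1, -, h3⟩ := exists_oneSided₁ hpf₁ hR₁ hinj₁ E₂ hE₁ hdeg₁ (hT₁ Q hQ)
      exact ⟨φ₁, h1, h3⟩)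
  obtain ⟨hφE, hval⟩ := (mem_rrSpace_sub_sumPl_iff hEZ).mp hφ
  exact ⟨φ, hφ, ⟨hφE, Submodule.zero_mem _, fun p hp =>
    ⟨0, hval p.1 (mem_nodes₁.mpr ⟨p, hp, rfl⟩), hasValue_zero' p.2⟩⟩,
    fun Q hQ => ord_eq_of_notMem_sub_single hφE (hall Q hQ)⟩

include hpf₂ hR₂ in
/-- **generic one-sided sections** `(0, φ₂)`, `φ₂ ∈ L(E₂ - ΣN₂)`, exact at finitely many smooth
points of `C₂` -/
theorem exists_oneSided_exact₂ [Infinite k]
    (hinj₂ : ∀ p ∈ N, ∀ p' ∈ N, p.2 = p'.2 → p = p')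
    (E₁ : Divisor k F₁) {E₂ : Divisor k F₂} (hE₂ : ∀ p ∈ N, E₂ p.2 = 0)
    (hdeg₂ : c₂ + N.card + 1 ≤ Divisor.degree E₂)
    (T₂ : Finset (Place k F₂)) (hT₂ : ∀ Q ∈ T₂, Q ∉ nodes₂ N) :
    ∃ φ₂ ∈ riemannRochSpace (E₂ - sumPl (nodes₂ N)),
      (((0 : F₁), φ₂) : F₁ × F₂) ∈ LX N E₁ E₂ ∧ ∀ Q ∈ T₂, φ₂ ≠ 0 ∧ Q.ord φ₂ = - E₂ Q := by
  have hEZ : ∀ z ∈ nodes₂ N, E₂ z = 0 := by
    intro z hz
    obtain ⟨p, hp, rfl⟩ := mem_nodes₂.mp hz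
    exact hE₂ p hp
  obtain ⟨φ, hφ, hall⟩ := exists_forall_notMem hpf₂ (riemannRochSpace (E₂ - sumPl (nodes₂ N))) E₂ T₂
    (fun Q hQ => by
      obtain ⟨φ₂, h1, -, h3⟩ := exists_oneSided₂ hpf₂ hR₂ hinj₂ E₁ hE₂ hdeg₂ (hT₂ Q hQ)
      exact ⟨φ₂, h1, h3⟩)
  obtain ⟨hφE, hval⟩ := (mem_rrSpace_sub_sumPl_iff hEZ).mp hφ
  exact ⟨φ, hφ, ⟨Submodule.zero_mem _, hφE, fun p hp =>
    ⟨0, hasValue_zero' p.1, hval p.2 (mem_nodes₂.mpr ⟨p, hp, rfl⟩)⟩⟩,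
    fun Q hQ => ord_eq_of_notMem_sub_single hφE (hall Q hQ)⟩

end Two

end Fermat.Agent.S34.Nodal
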