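import Fermat.Agent.Lib.FunctionField.RRSpace
import Fermat.Agent.Lib.FunctionField.PrimePlace

/-!
# C83 (S34), piece A1/P4, part 0: values at places, matching at nodes, the nodal Riemann–Roch space

* `HasValue x φ c` : `φ` is regular at the place `x` and `φ(x) = c ∈ k`;
* `Match N φ₁ φ₂` : for every node `(x₁, x₂) ∈ N` the functions `φ₁`, `φ₂` are regular at `x₁`, `x₂`
  and `φ₁(x₁) = φ₂(x₂)`;
* `LX N E₁ E₂` : the pairs `(φ₁, φ₂) ∈ L(E₁) × L(E₂)` matching at `N`.
-/

set_option autoImplicit false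
set_option linter.unusedSectionVars false
set_option linter.style.haveILetI false
set_option linter.unusedVariables false

open AlgebraicCurve Fermat.Agent.Lib.FF

namespace Fermat.Agent.S34.Nodal

section Value

variable {k F : Type*} [Field k] [Field F] [Algebra k F]

/-- `φ` is regular at `x` and has the value `c ∈ k` there -/
def HasValue (x : Place k F) (φ : F) (c : k) : Prop :=
  ∃ h : φ ∈ x.toValuationSubring,
    IsLocalRing.residue x.toValuationSubring ⟨φ, h⟩ = algebraMap k x.ResidueField c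

variable {x : Place k F} {φ ψ : F} {c d : k}

theorem HasValue.mem (h : HasValue x φ c) : φ ∈ x.toValuationSubring := h.1

theorem HasValue.ord_nonneg (h : HasValue x φ c) : 0 ≤ x.ord φ := ord_nonneg_of_mem x h.1

theorem hasValue_algebraMap (x : Place k F) (c : k) : HasValue x (algebraMap k F c) c :=
  ⟨x.algebraMap_mem' c, rfl⟩

theorem hasValue_zero' (x : Place k F) : HasValue x (0 : F) 0 := by
  have := hasValue_algebraMap x (0 : k)
  rwa [map_zero] at this

theorem hasValue_one (x : Place k F) : HasValue x (1 : F) 1 := by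
  have := hasValue_algebraMap x (1 : k)
  rwa [map_one] at this

theorem HasValue.add (h₁ : HasValue x φ c) (h₂ : HasValue x ψ d) : HasValue x (φ + ψ) (c + d) := by
  obtain ⟨m₁, e₁⟩ := h₁
  obtain ⟨m₂, e₂⟩ := h₂
  refine ⟨x.toValuationSubring.add_mem _ _ m₁ m₂, ?_⟩
  have : (⟨φ + ψ, x.toValuationSubring.add_mem _ _ m₁ m₂⟩ : x.toValuationSubring)
      = ⟨φ, m₁⟩ + ⟨ψ, m₂⟩ := rfl
  rw [this, map_add, e₁, e₂, map_add]

theorem HasValue.mul (h₁ : HasValue x φ c) (h₂ : HasValue x ψ d) : HasValue x (φ * ψ) (c * d) := by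
  obtain ⟨m₁, e₁⟩ := h₁
  obtain ⟨m₂, e₂⟩ := h₂
  refine ⟨x.toValuationSubring.mul_mem _ _ m₁ m₂, ?_⟩
  have : (⟨φ * ψ, x.toValuationSubring.mul_mem _ _ m₁ m₂⟩ : x.toValuationSubring)
      = ⟨φ, m₁⟩ * ⟨ψ, m₂⟩ := rfl
  rw [this, map_mul, e₁, e₂, map_mul]

theorem HasValue.neg (h : HasValue x φ c) : HasValue x (-φ) (-c) := by
  have := (hasValue_algebraMap x (-1 : k)).mul h
  simpa using this

theorem HasValue.sub (h₁ : HasValue x φ c) (h₂ : HasValue x ψ d) : HasValue x (φ - ψ) (c - d) := by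
  rw [sub_eq_add_neg, sub_eq_add_neg]
  exact h₁.add h₂.neg

theorem HasValue.smul (a : k) (h : HasValue x φ c) : HasValue x (a • φ) (a * c) := by
  rw [Algebra.smul_def]
  exact (hasValue_algebraMap x a).mul h

theorem HasValue.pow (h : HasValue x φ c) (n : ℕ) : HasValue x (φ ^ n) (c ^ n) := by
  induction n with
  | zero => simpa using hasValue_one x
  | succ n ih => rw [pow_succ, pow_succ]; exact ih.mul h

theorem HasValue.unique (h₁ : HasValue x φ c) (h₂ : HasValue x φ d) : c = d := by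
  obtain ⟨m₁, e₁⟩ := h₁
  obtain ⟨m₂, e₂⟩ := h₂
  exact (algebraMap k x.ResidueField).injective (e₁.symm.trans e₂)

/-- value `0` means: zero or positive order -/
theorem hasValue_zero_iff : HasValue x φ 0 ↔ φ = 0 ∨ 0 < x.ord φ := by
  constructor
  · rintro ⟨m, e⟩
    rw [map_zero, IsLocalRing.residue_eq_zero_iff, mem_maximalIdeal_iff] at e
    exact e
  · rintro (h | h)
    · rw [h]; exact hasValue_zero' x
    · have m : φ ∈ x.toValuationSubring := mem_of_ord_nonneg x h.le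
      refine ⟨m, ?_⟩
      rw [map_zero, IsLocalRing.residue_eq_zero_iff, mem_maximalIdeal_iff]
      exact Or.inr h

theorem hasValue_iff : HasValue x φ c ↔
    φ = algebraMap k F c ∨ 0 < x.ord (φ - algebraMap k F c) := by
  constructor
  · intro h
    have := h.sub (hasValue_algebraMap x c)
    rw [sub_self, hasValue_zero_iff, sub_eq_zero] at this
    exact this
  · intro h
    have h0 : HasValue x (φ - algebraMap k F c) 0 := by
      rw [hasValue_zero_iff, sub_eq_zero]; exact h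
    have := h0.add (hasValue_algebraMap x c)
    rwa [sub_add_cancel, zero_add] at this

/-- a nonzero value: the function is a unit at `x` -/
theorem HasValue.ord_eq_zero (h : HasValue x φ c) (hc : c ≠ 0) : φ ≠ 0 ∧ x.ord φ = 0 := by
  have hφ0 : φ ≠ 0 := by
    rintro rfl
    exact hc (h.unique (hasValue_zero' x))
  refine ⟨hφ0, ?_⟩
  rcases h.ord_nonneg.lt_or_eq with h1 | h1
  · exact absurd (h.unique (hasValue_zero_iff.mpr (Or.inr h1))) hc
  · exact h1.symm

/-- existence of the value (residue field `k`) -/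
theorem exists_hasValue (hres : Function.Surjective (algebraMap k x.ResidueField))
    (hφ : φ ∈ x.toValuationSubring) : ∃ c : k, HasValue x φ c := by
  obtain ⟨c, hc⟩ := hres (IsLocalRing.residue _ ⟨φ, hφ⟩)
  exact ⟨c, hφ, hc.symm⟩

theorem exists_hasValue_of_ord_nonneg (hres : Function.Surjective (algebraMap k x.ResidueField))
    (hφ : 0 ≤ x.ord φ) : ∃ c : k, HasValue x φ c :=
  exists_hasValue hres (mem_of_ord_nonneg x hφ)

/-- the value of `φ` at `x` (junk value `0` if `φ` is not regular at `x`) -/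
noncomputable def valueAt (x : Place k F) (φ : F) : k :=
  letI := Classical.propDecidable
  if h : ∃ c : k, HasValue x φ c then h.choose else 0

theorem HasValue.valueAt_eq (h : HasValue x φ c) : valueAt x φ = c := by
  have hex : ∃ c : k, HasValue x φ c := ⟨c, h⟩
  rw [valueAt, dif_pos hex]
  exact hex.choose_spec.unique h

theorem hasValue_valueAt (hres : Function.Surjective (algebraMap k x.ResidueField))
    (hφ : φ ∈ x.toValuationSubring) : HasValue x φ (valueAt x φ) := by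
  obtain ⟨c, hc⟩ := exists_hasValue hres hφ
  rw [hc.valueAt_eq]
  exact hc

end Value

section Match

variable {k F₁ F₂ : Type*} [Field k] [Field F₁] [Field F₂] [Algebra k F₁] [Algebra k F₂]

/-- `φ₁` and `φ₂` are regular at all the nodes and have the same value at both branches -/
def Match (N : Finset (Place k F₁ × Place k F₂)) (φ₁ : F₁) (φ₂ : F₂) : Prop :=
  ∀ p ∈ N, ∃ c : k, HasValue p.1 φ₁ c ∧ HasValue p.2 φ₂ c

variable {N : Finset (Place k F₁ × Place k F₂)} {φ₁ ψ₁ : F₁} {φ₂ ψ₂ : F₂}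

theorem match_zero (N : Finset (Place k F₁ × Place k F₂)) : Match N (0 : F₁) (0 : F₂) :=
  fun p _ => ⟨0, hasValue_zero' p.1, hasValue_zero' p.2⟩

theorem match_algebraMap (N : Finset (Place k F₁ × Place k F₂)) (c : k) :
    Match N (algebraMap k F₁ c) (algebraMap k F₂ c) :=
  fun p _ => ⟨c, hasValue_algebraMap p.1 c, hasValue_algebraMap p.2 c⟩

theorem match_one (N : Finset (Place k F₁ × Place k F₂)) : Match N (1 : F₁) (1 : F₂) :=
  fun p _ => ⟨1, hasValue_one p.1, hasValue_one p.2⟩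

theorem Match.add (h : Match N φ₁ φ₂) (h' : Match N ψ₁ ψ₂) : Match N (φ₁ + ψ₁) (φ₂ + ψ₂) := by
  intro p hp
  obtain ⟨c, h1, h2⟩ := h p hp
  obtain ⟨d, h1', h2'⟩ := h' p hp
  exact ⟨c + d, h1.add h1', h2.add h2'⟩

theorem Match.sub (h : Match N φ₁ φ₂) (h' : Match N ψ₁ ψ₂) : Match N (φ₁ - ψ₁) (φ₂ - ψ₂) := by
  intro p hp
  obtain ⟨c, h1, h2⟩ := h p hp
  obtain ⟨d, h1', h2'⟩ := h' p hp
  exact ⟨c - d, h1.sub h1', h2.sub h2'⟩

theorem Match.mul (h : Match N φ₁ φ₂) (h' : Match N ψ₁ ψ₂) : Match N (φ₁ * ψ₁) (φ₂ * ψ₂) := by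
  intro p hp
  obtain ⟨c, h1, h2⟩ := h p hp
  obtain ⟨d, h1', h2'⟩ := h' p hp
  exact ⟨c * d, h1.mul h1', h2.mul h2'⟩

theorem Match.smul (a : k) (h : Match N φ₁ φ₂) : Match N (a • φ₁) (a • φ₂) := by
  intro p hp
  obtain ⟨c, h1, h2⟩ := h p hp
  exact ⟨a * c, h1.smul a, h2.smul a⟩

theorem Match.pow (h : Match N φ₁ φ₂) (n : ℕ) : Match N (φ₁ ^ n) (φ₂ ^ n) := by
  intro p hp
  obtain ⟨c, h1, h2⟩ := h p hp
  exact ⟨c ^ n, h1.pow n, h2.pow n⟩

theorem Match.mono {N' : Finset (Place k F₁ × Place k F₂)} (hN : N' ⊆ N) (h : Match N φ₁ φ₂) :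
    Match N' φ₁ φ₂ := fun p hp => h p (hN hp)

/-- the nodal Riemann–Roch space: pairs in `L(E₁) × L(E₂)` matching at the nodes -/
def LX (N : Finset (Place k F₁ × Place k F₂)) (E₁ : Divisor k F₁) (E₂ : Divisor k F₂) :
    Submodule k (F₁ × F₂) where
  carrier := {φ | φ.1 ∈ riemannRochSpace E₁ ∧ φ.2 ∈ riemannRochSpace E₂ ∧ Match N φ.1 φ.2}
  zero_mem' := ⟨Submodule.zero_mem _, Submodule.zero_mem _, match_zero N⟩
  add_mem' := fun {a b} ha hb =>
    ⟨Submodule.add_mem _ ha.1 hb.1, Submodule.add_mem _ ha.2.1 hb.2.1, ha.2.2.add hb.2.2⟩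
  smul_mem' := fun c {a} ha =>
    ⟨Submodule.smul_mem _ c ha.1, Submodule.smul_mem _ c ha.2.1, ha.2.2.smul c⟩

theorem mem_LX {E₁ : Divisor k F₁} {E₂ : Divisor k F₂} {φ : F₁ × F₂} :
    φ ∈ LX N E₁ E₂ ↔
      φ.1 ∈ riemannRochSpace E₁ ∧ φ.2 ∈ riemannRochSpace E₂ ∧ Match N φ.1 φ.2 := Iff.rfl

theorem LX_mono {E₁ E₁' : Divisor k F₁} {E₂ E₂' : Divisor k F₂} (h₁ : E₁ ≤ E₁') (h₂ : E₂ ≤ E₂') :
    LX N E₁ E₂ ≤ LX N E₁' E₂' :=
  fun _ hφ => ⟨rrSpace_mono h₁ hφ.1, rrSpace_mono h₂ hφ.2.1, hφ.2.2⟩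

theorem LX_le_prod (E₁ : Divisor k F₁) (E₂ : Divisor k F₂) :
    LX N E₁ E₂ ≤ (riemannRochSpace E₁).prod (riemannRochSpace E₂) :=
  fun _ hφ => ⟨hφ.1, hφ.2.1⟩

/-- the diagonal constants lie in `LX` of effective divisors -/
theorem const_mem_LX {E₁ : Divisor k F₁} {E₂ : Divisor k F₂} (h₁ : 0 ≤ E₁) (h₂ : 0 ≤ E₂) (c : k) :
    (algebraMap k F₁ c, algebraMap k F₂ c) ∈ LX N E₁ E₂ := by
  refine ⟨?_, ?_, match_algebraMap N c⟩
  · have : (1 : F₁) ∈ riemannRochSpace E₁ := by
      rw [mem_rrSpace_iff_of_ne_zero one_ne_zero]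
      intro v
      rw [v.ord_one]
      have := Finsupp.le_def.mp h₁ v
      simp only [Finsupp.coe_zero, Pi.zero_apply] at this
      omega
    have h := Submodule.smul_mem _ c this
    rwa [Algebra.smul_def, mul_one] at h
  · have : (1 : F₂) ∈ riemannRochSpace E₂ := by
      rw [mem_rrSpace_iff_of_ne_zero one_ne_zero]
      intro v
      rw [v.ord_one]
      have := Finsupp.le_def.mp h₂ v
      simp only [Finsupp.coe_zero, Pi.zero_apply] at this
      omega
    have h := Submodule.smul_mem _ c this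
    rwa [Algebra.smul_def, mul_one] at h

end Match

end Fermat.Agent.S34.Nodal
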