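import Fermat.Agent.S18.DeuringTors
import Fermat.Agent.S34.NodalDefs
import Fermat.Prelude.Def_AlgebraicCurve_BaseChangeGalois

/-!
# C83 (S34), piece A0: the abstract interface of the two-component (nodal) Deuring reduction

`L ⊃ A` a valued field with residue field `k`, `F/L` a function field of one variable,
`Red₁ : F → Fk₁ → Prop`, `Red₂ : F → Fk₂ → Prop` two reduction relations (two valuations of `F`
over `A`, with residue function fields `Fk₁`, `Fk₂`), `Sg` a finite set of pairs of places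
(the nodes of the special fibre, an ABSTRACT set).

* values at places and matching at the nodes: `Nodal.HasValue`, `Nodal.Match` (`NodalDefs.lean`);
* `redSpace₂`   : the joint reduction of an `L`-subspace of `F`, a `k`-subspace of `Fk₁ × Fk₂`;
* `Setup2`      : the axioms (what the concrete side C1–C3 delivers for `X₀(qM)` at `q`);
* `Compat2`     : a semilinear automorphism acting trivially on the special fibre (inertia, C4);
* `Target`      : the statement of the abstract theorem (A5).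
-/

set_option autoImplicit false
set_option linter.unusedSectionVars false
set_option linter.style.haveILetI false

open AlgebraicCurve Fermat.Agent.Lib.FF Fermat.Agent.S18.Deuring

namespace Fermat.Agent.S34

variable {L k F Fk₁ Fk₂ : Type*} [Field L] [Field k] [Field F] [Field Fk₁] [Field Fk₂]
  [Algebra L F] [Algebra k Fk₁] [Algebra k Fk₂]
variable {A : ValuationSubring L} {res : A →+* k} {Red₁ : F → Fk₁ → Prop}
  {Red₂ : F → Fk₂ → Prop}

/-- the joint reduction of an `L`-subspace of `F` -/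
def redSpace₂ (ax₁ : RedAx A res Red₁) (ax₂ : RedAx A res Red₂) (V : Submodule L F) :
    Submodule k (Fk₁ × Fk₂) where
  carrier := {a | ∃ x ∈ V, Red₁ x a.1 ∧ Red₂ x a.2}
  zero_mem' := ⟨0, V.zero_mem, ax₁.zero, ax₂.zero⟩
  add_mem' := by
    rintro a b ⟨x, hx, hx1, hx2⟩ ⟨y, hy, hy1, hy2⟩
    exact ⟨x + y, V.add_mem hx hy, ax₁.add hx1 hy1, ax₂.add hx2 hy2⟩
  smul_mem' := by
    rintro c a ⟨x, hx, hx1, hx2⟩
    obtain ⟨c', rfl⟩ := ax₁.res_surj c
    refine ⟨(c' : L) • x, V.smul_mem _ hx, ?_, ?_⟩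
    · show Red₁ _ (res c' • a.1)
      rw [Algebra.smul_def, Algebra.smul_def]
      exact ax₁.mul (ax₁.const c') hx1
    · show Red₂ _ (res c' • a.2)
      rw [Algebra.smul_def, Algebra.smul_def]
      exact ax₂.mul (ax₂.const c') hx2

theorem mem_redSpace₂ {ax₁ : RedAx A res Red₁} {ax₂ : RedAx A res Red₂} {V : Submodule L F}
    {a : Fk₁ × Fk₂} : a ∈ redSpace₂ ax₁ ax₂ V ↔ ∃ x ∈ V, Red₁ x a.1 ∧ Red₂ x a.2 := Iff.rfl

/-- **the axioms of the two-component (nodal) reduction** -/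
structure Setup2 (A : ValuationSubring L) (res : A →+* k) (Red₁ : F → Fk₁ → Prop)
    (Red₂ : F → Fk₂ → Prop) (D : Divisor L F) (D₁ : Divisor k Fk₁) (D₂ : Divisor k Fk₂)
    (Sg : Finset (Place k Fk₁ × Place k Fk₂)) (g g₁ g₂ : ℕ) (c c₁ c₂ : ℤ) : Prop where
  hpf : PlaceFacts L F
  hpf₁ : PlaceFacts k Fk₁
  hpf₂ : PlaceFacts k Fk₂
  ax₁ : RedAx A res Red₁
  ax₂ : RedAx A res Red₂
  RF : RThm L F g c
  RF₁ : RThm k Fk₁ g₁ c₁
  RF₂ : RThm k Fk₂ g₂ c₂
  D_nonneg : 0 ≤ D
  D₁_nonneg : 0 ≤ D₁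
  D₂_nonneg : 0 ≤ D₂
  deg_eq : Divisor.degree D = Divisor.degree D₁ + Divisor.degree D₂
  deg₁_pos : 0 < Divisor.degree D₁
  deg₂_pos : 0 < Divisor.degree D₂
  /-- the nodes: a partial bijection between places of `Fk₁` and places of `Fk₂` -/
  node_inj₁ : ∀ p ∈ Sg, ∀ p' ∈ Sg, p.1 = p'.1 → p = p'
  node_inj₂ : ∀ p ∈ Sg, ∀ p' ∈ Sg, p.2 = p'.2 → p = p'
  node_off₁ : ∀ p ∈ Sg, D₁ p.1 = 0
  node_off₂ : ∀ p ∈ Sg, D₂ p.2 = 0
  node_nonempty : Sg.Nonempty
  /-- the joint reduction preserves the dimension -/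
  H1 : ∀ V : Submodule L F, Module.Finite L V →
    Module.finrank k (redSpace₂ ax₁ ax₂ V) = Module.finrank L V
  /-- sections reduce to sections, matching at the nodes -/
  H2 : ∀ (n : ℕ) (x : F) (a₁ : Fk₁) (a₂ : Fk₂), x ∈ riemannRochSpace (n • D) →
    Red₁ x a₁ → Red₂ x a₂ →
      a₁ ∈ riemannRochSpace (n • D₁) ∧ a₂ ∈ riemannRochSpace (n • D₂) ∧ Nodal.Match Sg a₁ a₂
  /-- the arithmetic genus of the special fibre is the genus of `F` -/
  genus_eq : g + 1 = g₁ + g₂ + Sg.card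
  /-- the valuation of `A` has rank one (Archimedean value group) -/
  arch : ∀ c d : L, c ≠ 0 → d⁻¹ ∉ A → ∃ N : ℕ, d ^ N / c ∈ A

/-- a semilinear automorphism of `F/L` acting trivially on the special fibre -/
structure Compat2 (A : ValuationSubring L) (Red₁ : F → Fk₁ → Prop) (Red₂ : F → Fk₂ → Prop)
    (D : Divisor L F) (s : SemilinearAut L F) : Prop where
  red₁ : ∀ x a, Red₁ x a → Red₁ (s • x) a
  red₂ : ∀ x a, Red₂ x a → Red₂ (s • x) a
  red₁_inv : ∀ x a, Red₁ x a → Red₁ (s⁻¹ • x) a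
  red₂_inv : ∀ x a, Red₂ x a → Red₂ (s⁻¹ • x) a
  /-- the action on the constants preserves the valuation -/
  val : ∀ c : L, c ≠ 0 → SemilinearAut.baseAut s c / c ∈ A ∧ c / SemilinearAut.baseAut s c ∈ A
  fixD : s • D = D

/-- **the statement of the abstract theorem (A5)**: for `div f = m • D₀`, `m` invertible in `k`,
and `h, h'` acting trivially on the special fibre, `(h' - 1)(h - 1) D₀` is principal. -/
def Target (A : ValuationSubring L) (_res : A →+* k) (Red₁ : F → Fk₁ → Prop)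
    (Red₂ : F → Fk₂ → Prop) (D : Divisor L F) : Prop :=
  ∀ (h h' : SemilinearAut L F), Compat2 A Red₁ Red₂ D h → Compat2 A Red₁ Red₂ D h' →
    ∀ (m : ℕ), (m : k) ≠ 0 → ∀ (f : F), f ≠ 0 → ∀ D₀ : Divisor L F,
      (∀ P, (m : ℤ) * D₀ P = P.ord f) →
        ∃ s : F, s ≠ 0 ∧ ∀ P, (h' • (h • D₀ - D₀) - (h • D₀ - D₀)) P = P.ord s

end Fermat.Agent.S34
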