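import Fermat.Agent.S34.NodalTop
import Fermat.Agent.S34.NodalRR
import Fermat.Agent.S34.Setup2

/-!
# C83 (S34), piece C2, part 3: the nodal fibre — `Setup2` from the concrete inputs

`PreSetup2` = the fields of `Setup2` which do not mention the nodes (delivered by C1 and C3).
`PreSetup2.exists_setup2`: from the conductor (`cond`), separation (`sep₁`, `sep₂`), the top
polar blocks (`htop`) and `g₁ + g₂ ≤ g` we get a set of nodes `Sg` and `Setup2` for it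
(in particular `genus_eq : g + 1 = g₁ + g₂ + |Sg|`).
-/

set_option autoImplicit false
set_option linter.unusedSectionVars false
set_option linter.style.haveILetI false
set_option linter.unusedVariables false

open AlgebraicCurve Fermat.Agent.Lib.FF Fermat.Agent.S18.Deuring Fermat.Agent.S34.Nodal

namespace Fermat.Agent.S34.NC

variable {L k F Fk₁ Fk₂ : Type*} [Field L] [Field k] [Field F] [Field Fk₁] [Field Fk₂]
  [Algebra L F] [Algebra k Fk₁] [Algebra k Fk₂]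

/-- the fields of `Setup2` which do not mention the nodes -/
structure PreSetup2 (A : ValuationSubring L) (res : A →+* k) (Red₁ : F → Fk₁ → Prop)
    (Red₂ : F → Fk₂ → Prop) (D : Divisor L F) (D₁ : Divisor k Fk₁) (D₂ : Divisor k Fk₂)
    (g g₁ g₂ : ℕ) (c c₁ c₂ : ℤ) : Prop where
  hpf : PlaceFacts L F
  hpf₁ : PlaceFacts k Fk₁
  hpf₂ : PlaceFacts k Fk₂
  ax₁ : RedAx A res Red₁
  ax₂ : RedAx A res Red₂
  RF : RThm L F g c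
  RF₁ : RThm k Fk₁ g₁ c₁
  RF₂ : RThm k Fk₂ g₂ c₂
  D_nonneg : 0 ≤ D
  D₁_nonneg : 0 ≤ D₁
  D₂_nonneg : 0 ≤ D₂
  deg_eq : Divisor.degree D = Divisor.degree D₁ + Divisor.degree D₂
  deg₁_pos : 0 < Divisor.degree D₁
  deg₂_pos : 0 < Divisor.degree D₂
  H1 : ∀ V : Submodule L F, Module.Finite L V →
    Module.finrank k (redSpace₂ ax₁ ax₂ V) = Module.finrank L V
  /-- the pole part of `H2` -/
  H2p : ∀ (n : ℕ) (x : F) (a₁ : Fk₁) (a₂ : Fk₂), x ∈ riemannRochSpace (n • D) →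
    Red₁ x a₁ → Red₂ x a₂ →
      a₁ ∈ riemannRochSpace (n • D₁) ∧ a₂ ∈ riemannRochSpace (n • D₂)
  arch : ∀ c d : L, c ≠ 0 → d⁻¹ ∉ A → ∃ N : ℕ, d ^ N / c ∈ A

variable {A : ValuationSubring L} {res : A →+* k} {Red₁ : F → Fk₁ → Prop}
  {Red₂ : F → Fk₂ → Prop} {D : Divisor L F} {D₁ : Divisor k Fk₁} {D₂ : Divisor k Fk₂}
  {g g₁ g₂ : ℕ} {c c₁ c₂ : ℤ}

/-- the joint reduction of `L(n D)` -/
noncomputable def PreSetup2.B (S : PreSetup2 A res Red₁ Red₂ D D₁ D₂ g g₁ g₂ c c₁ c₂) (n : ℕ) :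
    Submodule k (Fk₁ × Fk₂) :=
  redSpace₂ S.ax₁ S.ax₂ (riemannRochSpace (n • D))

theorem PreSetup2.mem_B (S : PreSetup2 A res Red₁ Red₂ D D₁ D₂ g g₁ g₂ c c₁ c₂) {n : ℕ}
    {a : Fk₁ × Fk₂} :
    a ∈ S.B n ↔ ∃ x ∈ riemannRochSpace (n • D), Red₁ x a.1 ∧ Red₂ x a.2 := Iff.rfl

theorem PreSetup2.deg_pos (S : PreSetup2 A res Red₁ Red₂ D D₁ D₂ g g₁ g₂ c c₁ c₂) :
    0 < Divisor.degree D := by
  rw [S.deg_eq]
  have := S.deg₁_pos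
  have := S.deg₂_pos
  omega

/-- the dimension of the joint reduction of `L(n D)` -/
theorem PreSetup2.finrank_B (S : PreSetup2 A res Red₁ Red₂ D D₁ D₂ g g₁ g₂ c c₁ c₂) (n : ℕ)
    (hn : c ≤ n) :
    (Module.finrank k (S.B n) : ℤ) + g
      = n * (Divisor.degree D₁ + Divisor.degree D₂) + 1 := by
  obtain ⟨P₀⟩ := nonempty_place_of_degree_pos S.deg_pos
  have h1 := S.H1 (riemannRochSpace (n • D)) (finite_rrSpace S.hpf P₀ (n • D))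
  have h2 := finrank_rrSpace_nsmul S.RF S.deg_pos n hn
  rw [PreSetup2.B, h1, h2, S.deg_eq]

/-- the abstract count input from the concrete inputs -/
theorem PreSetup2.countInput (S : PreSetup2 A res Red₁ Red₂ D D₁ D₂ g g₁ g₂ c c₁ c₂)
    (Y₁ : Finset (Place k Fk₁)) (Y₂ : Finset (Place k Fk₂))
    (off₁ : ∀ y ∈ Y₁, D₁ y = 0) (off₂ : ∀ y ∈ Y₂, D₂ y = 0)
    (cond : ∀ (n : ℕ) (c₁ : Fk₁) (c₂ : Fk₂), c₁ ∈ riemannRochSpace (n • D₁) →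
      c₂ ∈ riemannRochSpace (n • D₂) → (∀ y ∈ Y₁, HasValue y c₁ 0) →
      (∀ y ∈ Y₂, HasValue y c₂ 0) → ∃ m : ℕ, (c₁, c₂) ∈ S.B m)
    (sep₁ : ∀ y ∈ Y₁, ∀ y' ∈ Y₁, y ≠ y' → ∃ m : ℕ, ∃ b ∈ S.B m, valueAt y b.1 ≠ valueAt y' b.1)
    (sep₂ : ∀ y ∈ Y₂, ∀ y' ∈ Y₂, y ≠ y' → ∃ m : ℕ, ∃ b ∈ S.B m, valueAt y b.2 ≠ valueAt y' b.2) :
    CountInput D₁ D₂ S.B Y₁ Y₂ where
  hpf₁ := S.hpf₁
  hpf₂ := S.hpf₂
  D₁_nonneg := S.D₁_nonneg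
  D₂_nonneg := S.D₂_nonneg
  le_prod := by
    rintro n a ⟨x, hx, h1, h2⟩
    exact S.H2p n x a.1 a.2 hx h1 h2
  mono := by
    rintro n m h a ⟨x, hx, h1, h2⟩
    exact ⟨x, rrSpace_nsmul_mono S.D_nonneg h hx, h1, h2⟩
  one_mem := ⟨1, one_mem_rrSpace_of_nonneg (nsmul_nonneg_of_nonneg S.D_nonneg 0),
    S.ax₁.one, S.ax₂.one⟩
  mul_mem := by
    rintro n m a b ⟨x, hx, h1, h2⟩ ⟨y, hy, h1', h2'⟩
    refine ⟨x * y, ?_, S.ax₁.mul h1 h1', S.ax₂.mul h2 h2'⟩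
    rw [add_smul]
    exact mul_mem_rrSpace hx hy
  off₁ := off₁
  off₂ := off₂
  cond := cond
  sep₁ := sep₁
  sep₂ := sep₂

/-- **the nodal fibre**: a set of nodes and `Setup2` from the concrete inputs -/
theorem PreSetup2.exists_setup2 (S : PreSetup2 A res Red₁ Red₂ D D₁ D₂ g g₁ g₂ c c₁ c₂)
    (Y₁ : Finset (Place k Fk₁)) (Y₂ : Finset (Place k Fk₂))
    (off₁ : ∀ y ∈ Y₁, D₁ y = 0) (off₂ : ∀ y ∈ Y₂, D₂ y = 0)
    (cond : ∀ (n : ℕ) (c₁ : Fk₁) (c₂ : Fk₂), c₁ ∈ riemannRochSpace (n • D₁) →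
      c₂ ∈ riemannRochSpace (n • D₂) → (∀ y ∈ Y₁, HasValue y c₁ 0) →
      (∀ y ∈ Y₂, HasValue y c₂ 0) → ∃ m : ℕ, (c₁, c₂) ∈ S.B m)
    (sep₁ : ∀ y ∈ Y₁, ∀ y' ∈ Y₁, y ≠ y' → ∃ m : ℕ, ∃ b ∈ S.B m, valueAt y b.1 ≠ valueAt y' b.1)
    (sep₂ : ∀ y ∈ Y₂, ∀ y' ∈ Y₂, y ≠ y' → ∃ m : ℕ, ∃ b ∈ S.B m, valueAt y b.2 ≠ valueAt y' b.2)
    (htop : ∃ n₀ : ℕ, ∀ n : ℕ, n₀ ≤ n →
      (riemannRochSpace ((n + 1) • D₁)).prod (riemannRochSpace ((n + 1) • D₂))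
        ≤ S.B (n + 1) ⊔ (riemannRochSpace (n • D₁)).prod (riemannRochSpace (n • D₂)))
    (hg : g₁ + g₂ ≤ g) :
    ∃ Sg : Finset (Place k Fk₁ × Place k Fk₂),
      (∀ p ∈ Sg, p.1 ∈ Y₁ ∧ p.2 ∈ Y₂) ∧
        Fermat.Agent.S34.Setup2 A res Red₁ Red₂ D D₁ D₂ Sg g g₁ g₂ c c₁ c₂ := by
  have I := S.countInput Y₁ Y₂ off₁ off₂ cond sep₁ sep₂
  obtain ⟨Sg, hY, hinj₁, hinj₂, hle, hge⟩ := I.exists_nodeSet
  obtain ⟨n₀, htop⟩ := htop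
  obtain ⟨P₁⟩ := nonempty_place_of_degree_pos S.deg₁_pos
  obtain ⟨P₂⟩ := nonempty_place_of_degree_pos S.deg₂_pos
  have hoff₁ : ∀ p ∈ Sg, D₁ p.1 = 0 := fun p hp => off₁ _ (hY p hp).1
  have hoff₂ : ∀ p ∈ Sg, D₂ p.2 = 0 := fun p hp => off₂ _ (hY p hp).2
  have hdM : ∃ n₁ : ℕ, ∀ n : ℕ, n₁ ≤ n →
      (Module.finrank k (LX Sg (n • D₁) (n • D₂)) : ℤ) + g₁ + g₂ + Sg.card
        = n * (Divisor.degree D₁ + Divisor.degree D₂) + 2 := by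
    refine ⟨max (c₁ + Sg.card).toNat c₂.toNat, fun n hn => ?_⟩
    have hn₁ : c₁ + Sg.card ≤ n := by
      have : (c₁ + Sg.card).toNat ≤ n := (le_max_left _ _).trans hn
      omega
    have hn₂ : c₂ ≤ n := by
      have : c₂.toNat ≤ n := (le_max_right _ _).trans hn
      omega
    have hd₁ : (n : ℤ) * 1 ≤ n * Divisor.degree D₁ :=
      mul_le_mul_of_nonneg_left (by have := S.deg₁_pos; omega) (by positivity)
    have hd₂ : (n : ℤ) * 1 ≤ n * Divisor.degree D₂ :=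
      mul_le_mul_of_nonneg_left (by have := S.deg₂_pos; omega) (by positivity)
    have := finrank_LX (N := Sg) S.hpf₁ S.hpf₂ S.RF₁ S.RF₂ P₁ P₂ hinj₁
      (E₁ := n • D₁) (E₂ := n • D₂)
      (fun p hp => by rw [Finsupp.smul_apply, hoff₁ p hp, smul_zero])
      (fun p hp => by rw [Finsupp.smul_apply, hoff₂ p hp, smul_zero])
      (by rw [map_nsmul, nsmul_eq_mul]; omega)
      (by rw [map_nsmul, nsmul_eq_mul]; omega)
    rw [this, map_nsmul, map_nsmul, nsmul_eq_mul, nsmul_eq_mul]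
    ring
  have hcount := I.count S.RF₁ S.RF₂ S.deg₁_pos S.deg₂_pos g (max n₀ c.toNat)
    (fun n hn => S.finrank_B n (by
      have : c.toNat ≤ n := (le_max_right _ _).trans hn
      omega))
    (fun n hn => htop n ((le_max_left _ _).trans hn)) Sg hle hge hdM
  obtain ⟨-, hgenus⟩ := hcount
  refine ⟨Sg, hY, ?_⟩
  exact
    { hpf := S.hpf
      hpf₁ := S.hpf₁
      hpf₂ := S.hpf₂
      ax₁ := S.ax₁
      ax₂ := S.ax₂
      RF := S.RF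
      RF₁ := S.RF₁
      RF₂ := S.RF₂
      D_nonneg := S.D_nonneg
      D₁_nonneg := S.D₁_nonneg
      D₂_nonneg := S.D₂_nonneg
      deg_eq := S.deg_eq
      deg₁_pos := S.deg₁_pos
      deg₂_pos := S.deg₂_pos
      node_inj₁ := hinj₁
      node_inj₂ := hinj₂
      node_off₁ := hoff₁
      node_off₂ := hoff₂
      node_nonempty := by
        rw [← Finset.card_pos]
        omega
      H1 := S.H1
      H2 := by
        intro n x a₁ a₂ hx h1 h2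
        have hmem : (a₁, a₂) ∈ S.B n := ⟨x, hx, h1, h2⟩
        exact hle n hmem
      genus_eq := hgenus
      arch := S.arch }

/-- **the nodal fibre**, with the top blocks obtained from the reductions of the products
`α f · j_q ^ (n + 2)` and `β f · j ^ (n + 2)`; here `Fk₁ = Fk₂ = Fk`, `E = Pol(J)` and
`D₁ = D₂ = (1 + q) • E` -/
theorem PreSetup2.exists_setup2_of_products {Fk : Type*} [Field Fk] [Algebra k Fk]
    {Red₁ Red₂ : F → Fk → Prop} {E : Divisor k Fk} {q : ℕ}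
    (S : PreSetup2 A res Red₁ Red₂ D ((1 + q) • E) ((1 + q) • E) g g₁ g₂ c c₁ c₂)
    (hE : 0 ≤ E) (hdE : 0 < Divisor.degree E) {J : Fk} (hJ0 : J ≠ 0)
    (hJ : ∀ y : Place k Fk, 0 < E y → y.ord J = - E y)
    (hJ' : ∀ y : Place k Fk, E y = 0 → 0 ≤ y.ord J) (hq : 2 ≤ q)
    (Y₁ Y₂ : Finset (Place k Fk))
    (off₁ : ∀ y ∈ Y₁, E y = 0) (off₂ : ∀ y ∈ Y₂, E y = 0)
    (cond : ∀ (n : ℕ) (c₁ c₂ : Fk), c₁ ∈ riemannRochSpace (n • ((1 + q) • E)) →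
      c₂ ∈ riemannRochSpace (n • ((1 + q) • E)) → (∀ y ∈ Y₁, HasValue y c₁ 0) →
      (∀ y ∈ Y₂, HasValue y c₂ 0) → ∃ m : ℕ, (c₁, c₂) ∈ S.B m)
    (sep₁ : ∀ y ∈ Y₁, ∀ y' ∈ Y₁, y ≠ y' → ∃ m : ℕ, ∃ b ∈ S.B m, valueAt y b.1 ≠ valueAt y' b.1)
    (sep₂ : ∀ y ∈ Y₂, ∀ y' ∈ Y₂, y ≠ y' → ∃ m : ℕ, ∃ b ∈ S.B m, valueAt y b.2 ≠ valueAt y' b.2)
    (n₀ : ℕ)
    (hα : ∀ n : ℕ, n₀ ≤ n → ∀ f ∈ riemannRochSpace ((n + 1 - q) • E),
      ∃ h ∈ riemannRochSpace (n • ((1 + q) • E)), (J ^ (q * (n + 2)) * f, h) ∈ S.B (n + 1))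
    (hβ : ∀ n : ℕ, n₀ ≤ n → ∀ f ∈ riemannRochSpace ((n + 1 - q) • E),
      ∃ h ∈ riemannRochSpace (n • ((1 + q) • E)), (h, J ^ (q * (n + 2)) * f) ∈ S.B (n + 1))
    (hg : g₁ + g₂ ≤ g) :
    ∃ Sg : Finset (Place k Fk × Place k Fk),
      (∀ p ∈ Sg, p.1 ∈ Y₁ ∧ p.2 ∈ Y₂) ∧
        Fermat.Agent.S34.Setup2 A res Red₁ Red₂ D ((1 + q) • E) ((1 + q) • E) Sg
          g g₁ g₂ c c₁ c₂ := by
  refine S.exists_setup2 Y₁ Y₂ ?_ ?_ cond sep₁ sep₂ ?_ hg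
  · intro y hy
    rw [Finsupp.smul_apply, off₁ y hy, smul_zero]
  · intro y hy
    rw [Finsupp.smul_apply, off₂ y hy, smul_zero]
  · exact top_of_products S.hpf₁ S.RF₁ hE hdE hJ0 hJ hJ' q hq S.B n₀ hα hβ

end Fermat.Agent.S34.NC
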