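import Fermat.Agent.S34.NodalCond
import Fermat.Agent.S34.NodalFibre

/-!
# C83 (S34), piece C2: `Setup2` from `PreSetup2`, the products and the conductor data

`exists_setup2_of_conductor` = helper4's `NC.PreSetup2.exists_setup2_of_products` with the
hypotheses `cond`, `sep₁`, `sep₂`, `off` replaced by the concrete data of the conductor lemma
(`NCond.exists_countInput`): both projections of the reduction ring are onto, and the reduction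
ring contains the pairs `(a - W₁ a, 0)` and `(0, a - W₂ a)`, all `W_i a` being `q`-th powers.
-/

set_option autoImplicit false
set_option linter.unusedSectionVars false
set_option linter.style.haveILetI false
set_option linter.unusedVariables false

open AlgebraicCurve Fermat.Agent.Lib.FF Fermat.Agent.S18.Deuring Fermat.Agent.S34.Nodal

namespace Fermat.Agent.S34.NCond

variable {L k F Fk : Type*} [Field L] [Field k] [Field F] [Field Fk]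
  [Algebra L F] [Algebra k Fk]
  {A : ValuationSubring L} {res : A →+* k} {Red₁ Red₂ : F → Fk → Prop}
  {D : Divisor L F} {E : Divisor k Fk} {q : ℕ} {g g₁ g₂ : ℕ} {c c₁ c₂ : ℤ}

/-- **the nodal fibre from the conductor data** -/
theorem exists_setup2_of_conductor
    (S : NC.PreSetup2 A res Red₁ Red₂ D ((1 + q) • E) ((1 + q) • E) g g₁ g₂ c c₁ c₂)
    (hE : 0 ≤ E) (hdE : 0 < Divisor.degree E) {J : Fk} (hJ0 : J ≠ 0)
    (hJ : ∀ y : Place k Fk, 0 < E y → y.ord J = - E y)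
    (hJ' : ∀ y : Place k Fk, E y = 0 → 0 ≤ y.ord J) (hq : 2 ≤ q)
    (surj₁ : ∀ a ∈ NC.coordRing ((1 + q) • E) S.D₁_nonneg,
      ∃ (m : ℕ) (a' : Fk), (a, a') ∈ S.B m)
    (surj₂ : ∀ a ∈ NC.coordRing ((1 + q) • E) S.D₁_nonneg,
      ∃ (m : ℕ) (a' : Fk), (a', a) ∈ S.B m)
    (W₁ W₂ : Fk → Fk)
    (hW₁ : ∀ a ∈ NC.coordRing ((1 + q) • E) S.D₁_nonneg, ∃ m : ℕ, (a - W₁ a, (0 : Fk)) ∈ S.B m)
    (hW₂ : ∀ a ∈ NC.coordRing ((1 + q) • E) S.D₁_nonneg, ∃ m : ℕ, ((0 : Fk), a - W₂ a) ∈ S.B m)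
    (hq₁ : ∀ a ∈ NC.coordRing ((1 + q) • E) S.D₁_nonneg, ∃ b : Fk, W₁ a = b ^ q)
    (hq₂ : ∀ a ∈ NC.coordRing ((1 + q) • E) S.D₁_nonneg, ∃ b : Fk, W₂ a = b ^ q)
    (hne₁ : ∃ a ∈ NC.coordRing ((1 + q) • E) S.D₁_nonneg, a - W₁ a ≠ 0)
    (hne₂ : ∃ a ∈ NC.coordRing ((1 + q) • E) S.D₁_nonneg, a - W₂ a ≠ 0)
    (n₀ : ℕ)
    (hα : ∀ n : ℕ, n₀ ≤ n → ∀ f ∈ riemannRochSpace ((n + 1 - q) • E),
      ∃ h ∈ riemannRochSpace (n • ((1 + q) • E)), (J ^ (q * (n + 2)) * f, h) ∈ S.B (n + 1))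
    (hβ : ∀ n : ℕ, n₀ ≤ n → ∀ f ∈ riemannRochSpace ((n + 1 - q) • E),
      ∃ h ∈ riemannRochSpace (n • ((1 + q) • E)), (h, J ^ (q * (n + 2)) * f) ∈ S.B (n + 1))
    (hg : g₁ + g₂ ≤ g) :
    ∃ Sg : Finset (Place k Fk × Place k Fk),
      Fermat.Agent.S34.Setup2 A res Red₁ Red₂ D ((1 + q) • E) ((1 + q) • E) Sg
        g g₁ g₂ c c₁ c₂ := by
  have hle : ∀ n, S.B n ≤ (riemannRochSpace (n • ((1 + q) • E))).prod
      (riemannRochSpace (n • ((1 + q) • E))) := by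
    rintro n a ⟨x, hx, h1, h2⟩
    exact S.H2p n x a.1 a.2 hx h1 h2
  have hmono : Monotone S.B := by
    rintro n m h a ⟨x, hx, h1, h2⟩
    exact ⟨x, NC.rrSpace_nsmul_mono S.D_nonneg h hx, h1, h2⟩
  have hone : ((1 : Fk), (1 : Fk)) ∈ S.B 0 :=
    ⟨1, NC.one_mem_rrSpace_of_nonneg (NC.nsmul_nonneg_of_nonneg S.D_nonneg 0),
      S.ax₁.one, S.ax₂.one⟩
  have hmul : ∀ (n m : ℕ) (x y : Fk × Fk), x ∈ S.B n → y ∈ S.B m → x * y ∈ S.B (n + m) := by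
    rintro n m a b ⟨x, hx, h1, h2⟩ ⟨y, hy, h1', h2'⟩
    refine ⟨x * y, ?_, S.ax₁.mul h1 h1', S.ax₂.mul h2 h2'⟩
    rw [add_smul]
    exact mul_mem_rrSpace hx hy
  have hCI := exists_countInput S.hpf₁ S.hpf₂ S.RF₁ S.RF₂ S.D₁_nonneg S.D₁_nonneg
    S.deg₁_pos S.deg₁_pos S.B hle hmono hone hmul surj₁ surj₂ q hq W₁ W₂ hW₁ hW₂ hq₁ hq₂
    hne₁ hne₂
  have hoff : ∀ y : Place k Fk, ((1 + q) • E) y = 0 → E y = 0 := by
    intro y hy
    simp only [Finsupp.coe_smul, Pi.smul_apply, nsmul_eq_mul] at hy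
    rcases mul_eq_zero.mp hy with h | h
    · exfalso
      have : (0 : ℤ) ≤ (q : ℤ) := by positivity
      push_cast at h
      omega
    · exact h
  obtain ⟨Sg, -, hSg⟩ := S.exists_setup2_of_products hE hdE hJ0 hJ hJ' hq _ _
    (fun y hy => hoff y (hCI.off₁ y hy)) (fun y hy => hoff y (hCI.off₂ y hy))
    hCI.cond hCI.sep₁ hCI.sep₂ n₀ hα hβ hg
  exact ⟨Sg, hSg⟩

end Fermat.Agent.S34.NCond
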