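import Fermat.Agent.S34.InputAsm
import Fermat.Agent.S34.JointH1
import Fermat.Agent.S34.CondGlue

/-!
# C83 (S34): the final concrete glue, second part

With (H1) and `JointFin` proved (`Joint.joint_H1`, `Joint.jointFin`), the only open input is the
conductor.

* `exists_preSetup2_joint` : the instance of `PreSetup2` at the level `M * q`, unconditionally;
* `input_of_setup2`        : `CoreAsm.Input` from ANY instance of `Setup2` for `Joint.Red1`,
                             `Joint.Red2` and the divisor `Dsym`;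
* `input_of_cond`          : `CoreAsm.Input` from `CondInput`;
* `WInput`, `input_of_w`   : `CoreAsm.Input` from the conductor data (`NCond`): the projections
                             of the reduction ring are onto, `(a - W a, 0)` and `(0, a - W a)`
                             are joint reductions, `W a` is a `q`-th power, `W ≠ id`;
* `unipotent_of_cond`, `unipotent_of_w` : the statement of S34 from these.
-/

set_option autoImplicit false
set_option linter.unusedSectionVars false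
set_option linter.unusedVariables false
set_option linter.style.haveILetI false
set_option synthInstance.maxHeartbeats 400000
set_option maxHeartbeats 1000000

noncomputable section

namespace Fermat.Agent.S34.InputFin

open AlgebraicCurve ModularCurve Fermat.Agent.Lib.FF Fermat.Agent.S18 Fermat.Agent.S18.GV
open Fermat.Agent.S18.Deuring Fermat.Agent.S34.Nodal Fermat.Agent.S34.InputAsm

local notation "Qb" => AlgebraicClosure ℚ
local notation "Gal" => (AlgebraicClosure ℚ ≃ₐ[ℚ] AlgebraicClosure ℚ)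

local instance isAlgebraicQbInputFin : Algebra.IsAlgebraic ℚ (AlgebraicClosure ℚ) :=
  AlgebraicClosure.isAlgebraic ℚ

variable (A : ValuationSubring (AlgebraicClosure ℚ)) (q : ℕ) [hq : Fact q.Prime]
variable (hA : A.LiesOverPrime q) (M : ℕ) [NeZero M] (hqM : ¬ q ∣ M)

attribute [local instance] C3.neZero_q

include hA hqM in
/-- (H1) in the form of `InputAsm` -/
theorem h1Input : H1Input A q hA M hqM :=
  fun V hV => Joint.joint_H1 A q hA M hqM V hV

include hA hqM in
/-- **the instance of `PreSetup2`** at the level `M * q` -/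
theorem exists_preSetup2_joint (h49 : 4 ∣ M ∨ 9 ∣ M) :
    ∃ (g g₁ : ℕ) (c c₁ : ℤ), g₁ + g₁ ≤ g ∧
      NC.PreSetup2 A (IsLocalRing.residue A) (Joint.Red1 A q M) (Joint.Red2 A q M hqM)
        (Dsym q M) ((1 + q) • EJ A q hA M) ((1 + q) • EJ A q hA M) g g₁ g₁ c c₁ c₁ :=
  exists_preSetup2 A q hA M hqM h49 (h1Input A q hA M hqM) (Joint.jointFin A q hA M hqM)

include hqM in
/-- **the input of `CoreAsm`** from any instance of `Setup2` for the two reductions and the
symmetric divisor -/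
theorem input_of_setup2
    {D₁ D₂ : Divisor (IsLocalRing.ResidueField A)
      (modularFunctionFieldFullC (IsLocalRing.ResidueField A) M)}
    {Sg : Finset (Place (IsLocalRing.ResidueField A)
        (modularFunctionFieldFullC (IsLocalRing.ResidueField A) M) ×
        Place (IsLocalRing.ResidueField A)
        (modularFunctionFieldFullC (IsLocalRing.ResidueField A) M))}
    {g g₁ g₂ : ℕ} {c c₁ c₂ : ℤ}
    (S2 : Setup2 A (IsLocalRing.residue A) (Joint.Red1 A q M) (Joint.Red2 A q M hqM)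
      (Dsym q M) D₁ D₂ Sg g g₁ g₂ c c₁ c₂) :
    CoreAsm.Input hq.out M hqM A := by
  haveI : IsAlgClosed (IsLocalRing.ResidueField A) :=
    Fermat.Agent.S18.ResClosed.isAlgClosed_residueField A
  haveI : Infinite (IsLocalRing.ResidueField A) := IsAlgClosed.instInfinite
  refine ⟨modularFunctionFieldFullC (IsLocalRing.ResidueField A) M,
    modularFunctionFieldFullC (IsLocalRing.ResidueField A) M, inferInstance, inferInstance,
    inferInstance, inferInstance,
    fun a => (a : LaurentSeries (IsLocalRing.ResidueField A)),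
    fun a => (a : LaurentSeries (IsLocalRing.ResidueField A)),
    Joint.Red1 A q M, Joint.Red2 A q M hqM, Dsym q M, D₁, D₂, Sg, g, g₁, g₂, c, c₁, c₂, S2,
    Nodal.nonempty_facts S2, ?_, ?_, ?_⟩
  · intro x a
    exact Iff.rfl
  · intro x a
    exact Iff.rfl
  · exact galois_smul_dsym q M hqM

include hA hqM in
/-- **the input of `CoreAsm`** from the conductor hypothesis `CondInput` -/
theorem input_of_cond (h49 : 4 ∣ M ∨ 9 ∣ M) (hcond : CondInput A q hA M hqM) :
    CoreAsm.Input hq.out M hqM A :=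
  input_of_pieces A q hA M hqM h49 (h1Input A q hA M hqM) (Joint.jointFin A q hA M hqM) hcond

/-! ### the conductor data -/

/-- the coordinate ring of the complement of the cusps in the reduction of `X₀(M)` -/
def CoordJ : Subalgebra (IsLocalRing.ResidueField A)
    (modularFunctionFieldFullC (IsLocalRing.ResidueField A) M) :=
  NC.coordRing ((1 + q) • EJ A q hA M) (C3.D1_nonneg q M (C3.placeFacts_k A q hA M))

/-- the reduction ring: `a` is a joint reduction of a function in some `L(m D)` -/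
def InB (a : modularFunctionFieldFullC (IsLocalRing.ResidueField A) M ×
    modularFunctionFieldFullC (IsLocalRing.ResidueField A) M) : Prop :=
  ∃ m : ℕ, a ∈ JRed A q hA M hqM (riemannRochSpace (m • Dsym q M))

/-- **the conductor data** (the hypotheses of `NCond.exists_setup2_of_conductor`) -/
def WInput : Prop :=
  (∀ a ∈ CoordJ A q hA M, ∃ a', InB A q hA M hqM (a, a')) ∧
  (∀ a ∈ CoordJ A q hA M, ∃ a', InB A q hA M hqM (a', a)) ∧
  ∃ W₁ W₂ : modularFunctionFieldFullC (IsLocalRing.ResidueField A) M →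
      modularFunctionFieldFullC (IsLocalRing.ResidueField A) M,
    (∀ a ∈ CoordJ A q hA M, InB A q hA M hqM (a - W₁ a, 0)) ∧
    (∀ a ∈ CoordJ A q hA M, InB A q hA M hqM (0, a - W₂ a)) ∧
    (∀ a ∈ CoordJ A q hA M, ∃ b, W₁ a = b ^ q) ∧
    (∀ a ∈ CoordJ A q hA M, ∃ b, W₂ a = b ^ q) ∧
    (∃ a ∈ CoordJ A q hA M, a - W₁ a ≠ 0) ∧
    (∃ a ∈ CoordJ A q hA M, a - W₂ a ≠ 0)

include hA hqM in
/-- **the input of `CoreAsm`** from the conductor data -/
theorem input_of_w (h49 : 4 ∣ M ∨ 9 ∣ M) (hW : WInput A q hA M hqM) :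
    CoreAsm.Input hq.out M hqM A := by
  obtain ⟨g, g₁, c, c₁, hg, S⟩ := exists_preSetup2_joint A q hA M hqM h49
  obtain ⟨surj₁, surj₂, W₁, W₂, hW₁, hW₂, hq₁, hq₂, hne₁, hne₂⟩ := hW
  have PF := NConc.prodFacts A q hA M hqM (Joint.jointFin A q hA M hqM)
    (C3.placeFacts_N q M) (C3.placeFacts_k A q hA M)
  obtain ⟨nα, hα⟩ := NConc.halpha hA hqM PF S.ax₁ S.ax₂ h49
  obtain ⟨nβ, hβ⟩ := NConc.hbeta hA hqM PF S.ax₁ S.ax₂ h49
  have hE : 0 ≤ EJ A q hA M := C3.poleDiv_nonneg' _ _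
  have hdE : 0 < Divisor.degree (EJ A q hA M) := by
    rw [EJ, C3.degree_pol_J A q hA M hqM]
    exact_mod_cast Fermat.Agent.S18.Final.dedekindPsi_pos M
  have hJ : ∀ y : Place (IsLocalRing.ResidueField A)
      (modularFunctionFieldFullC (IsLocalRing.ResidueField A) M),
      0 < EJ A q hA M y → y.ord (jK (IsLocalRing.ResidueField A) M) = - EJ A q hA M y := by
    intro y hy
    rw [EJ, PlaceFacts.poleDiv_apply] at hy ⊢
    rcases max_cases (-y.ord (jK (IsLocalRing.ResidueField A) M)) 0 with ⟨h1, h2⟩ | ⟨h1, h2⟩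
    · rw [h1]; ring
    · rw [h1] at hy; exact absurd hy (lt_irrefl _)
  have hJ' : ∀ y : Place (IsLocalRing.ResidueField A)
      (modularFunctionFieldFullC (IsLocalRing.ResidueField A) M),
      EJ A q hA M y = 0 → 0 ≤ y.ord (jK (IsLocalRing.ResidueField A) M) := by
    intro y hy
    rw [EJ, PlaceFacts.poleDiv_apply] at hy
    have := le_max_left (-y.ord (jK (IsLocalRing.ResidueField A) M)) 0
    omega
  obtain ⟨Sg, S2⟩ := NCond.exists_setup2_of_conductor S hE hdE
    (jK_ne_zero M (IsLocalRing.ResidueField A)) hJ hJ' hq.out.two_le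
    (fun a ha => by obtain ⟨a', m, h⟩ := surj₁ a ha; exact ⟨m, a', h⟩)
    (fun a ha => by obtain ⟨a', m, h⟩ := surj₂ a ha; exact ⟨m, a', h⟩)
    W₁ W₂ hW₁ hW₂ hq₁ hq₂ hne₁ hne₂ (max nα nβ)
    (fun n hn => hα n ((le_max_left _ _).trans hn))
    (fun n hn => hβ n ((le_max_right _ _).trans hn)) hg
  exact input_of_setup2 A q M hqM S2

/-! ### the statement of S34 -/

/-- the input of `CoreAsm` at all levels -/
theorem input_all_of {q : ℕ} (hq : q.Prime)
    (H : ∀ (A : ValuationSubring Qb) (hA : A.LiesOverPrime q) (M : ℕ) (i : NeZero M)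
      (i' : NeZero (M * q)) (hqM : ¬ q ∣ M), (4 ∣ M ∨ 9 ∣ M) →
        @CoreAsm.Input q ⟨hq.ne_zero⟩ hq M i' hqM A)
    (M' : ℕ) (i : NeZero (M' * q)) (hM' : ¬ q ∣ M') (h49 : 4 ∣ M' ∨ 9 ∣ M')
    (P : ValuationSubring Qb) (hP : P.LiesOverPrime q) :
    @CoreAsm.Input q ⟨hq.ne_zero⟩ hq M' i hM' P :=
  H P hP M' ⟨left_ne_zero_of_mul i.out⟩ i hM' h49

/-- **the statement of S34** from `CondInput` at all levels -/
theorem unipotent_of_cond {q : ℕ} (hq : q.Prime)
    (H : ∀ (A : ValuationSubring Qb) (hA : A.LiesOverPrime q) (M : ℕ) (i : NeZero M)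
      (hqM : ¬ q ∣ M), (4 ∣ M ∨ 9 ∣ M) → @CondInput A q ⟨hq⟩ hA M i hqM)
    {𝒪 : Type} [CommRing 𝒪] [IsDomain 𝒪] [IsDiscreteValuationRing 𝒪]
    [IsAdicComplete (IsLocalRing.maximalIdeal 𝒪) 𝒪] [Finite (IsLocalRing.ResidueField 𝒪)]
    [CharZero 𝒪]
    {p : ℕ} (hp : p.Prime) (hp𝒪 : (p : 𝒪) ∈ IsLocalRing.maximalIdeal 𝒪)
    {N : ℕ} [NeZero N] {S : Finset ℕ} (hpS : p ∈ S) (hNS : ∀ q : ℕ, q.Prime → q ∣ N → q ∈ S)
    {θ : CuspForm.heckeAlgebra N 2 (↑S : Set ℕ) →+* IsLocalRing.ResidueField 𝒪}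
    {T : Type} [CommRing T] [IsLocalRing T] [IsNoetherianRing T]
    [IsAdicComplete (IsLocalRing.maximalIdeal T) T] [Algebra 𝒪 T]
    [IsLocalHom (algebraMap 𝒪 T)] [Module.Finite 𝒪 T] [Module.Free 𝒪 T]
    (Hd : CuspForm.HeckeGaloisRepDatum N (↑S : Set ℕ) 𝒪 θ T)
    (hqp : q ≠ p) (hqN : q ∣ N) (hq2 : ¬ q ^ 2 ∣ N) :
    Hd.ρ.IsUnipotentOnInertiaAt q := by
  haveI : Fact q.Prime := ⟨hq⟩
  refine CoreAsm.unipotent_of_input hq (input_all_of hq fun A hA M i i' hqM h49 => ?_)
    hp hp𝒪 hpS hNS Hd hqp hqN hq2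
  exact @input_of_cond A q ⟨hq⟩ hA M i hqM h49 (H A hA M i hqM h49)

/-- **the statement of S34** from the conductor data at all levels -/
theorem unipotent_of_w {q : ℕ} (hq : q.Prime)
    (H : ∀ (A : ValuationSubring Qb) (hA : A.LiesOverPrime q) (M : ℕ) (i : NeZero M)
      (hqM : ¬ q ∣ M), (4 ∣ M ∨ 9 ∣ M) → @WInput A q ⟨hq⟩ hA M i hqM)
    {𝒪 : Type} [CommRing 𝒪] [IsDomain 𝒪] [IsDiscreteValuationRing 𝒪]
    [IsAdicComplete (IsLocalRing.maximalIdeal 𝒪) 𝒪] [Finite (IsLocalRing.ResidueField 𝒪)]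
    [CharZero 𝒪]
    {p : ℕ} (hp : p.Prime) (hp𝒪 : (p : 𝒪) ∈ IsLocalRing.maximalIdeal 𝒪)
    {N : ℕ} [NeZero N] {S : Finset ℕ} (hpS : p ∈ S) (hNS : ∀ q : ℕ, q.Prime → q ∣ N → q ∈ S)
    {θ : CuspForm.heckeAlgebra N 2 (↑S : Set ℕ) →+* IsLocalRing.ResidueField 𝒪}
    {T : Type} [CommRing T] [IsLocalRing T] [IsNoetherianRing T]
    [IsAdicComplete (IsLocalRing.maximalIdeal T) T] [Algebra 𝒪 T]
    [IsLocalHom (algebraMap 𝒪 T)] [Module.Finite 𝒪 T] [Module.Free 𝒪 T]
    (Hd : CuspForm.HeckeGaloisRepDatum N (↑S : Set ℕ) 𝒪 θ T)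
    (hqp : q ≠ p) (hqN : q ∣ N) (hq2 : ¬ q ^ 2 ∣ N) :
    Hd.ρ.IsUnipotentOnInertiaAt q := by
  haveI : Fact q.Prime := ⟨hq⟩
  refine CoreAsm.unipotent_of_input hq (input_all_of hq fun A hA M i i' hqM h49 => ?_)
    hp hp𝒪 hpS hNS Hd hqp hqN hq2
  exact @input_of_w A q ⟨hq⟩ hA M i hqM h49 (H A hA M i hqM h49)

end Fermat.Agent.S34.InputFin
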