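import Fermat.Agent.S34.C3K1
import Fermat.Agent.S37.RedInjM

/-!
# C83 (S34), piece C3, part 3: **(DEG)** — the symmetric divisor on `X₀(Mq)` and its degree

Level `M * q`, `q` prime, `q ∤ M`.

* `finrank_jq`, `degree_pol_jq`: `j(𝐪^q)` has degree `ψ(Mq)` on `X₀(Mq)`;
* `Dsym = Pol(j) + Pol(j_q)` on `F(Mq)`, `D1 = (1 + q) • Pol(J)` on `F_k(M)`;
* `Dsym_nonneg`, `D1_nonneg`, `degree_Dsym_eq : deg Dsym = deg D1 + deg D1`, `degree_D1_pos`;
* `Dsym_le_j`, `Dsym_le_jq`: `Dsym ≤ (1 + q) • Pol(j)`, `Dsym ≤ (1 + q) • Pol(j_q)`, and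
  `mem_of_mem_nsmul_Dsym`;
* `rthm_k_genus`: Riemann's theorem for `F_k(M)` with genus `genusFormula M`
  (for `4 ∣ M ∨ 9 ∣ M`).
-/

set_option autoImplicit false
set_option linter.unusedSectionVars false
set_option linter.unusedVariables false
set_option linter.style.haveILetI false
set_option synthInstance.maxHeartbeats 400000
set_option maxHeartbeats 1000000

noncomputable section

open AlgebraicCurve ModularCurve IntermediateField Fermat.Agent.Lib.FF

namespace Fermat.Agent.S34.C3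

local notation "Qb" => AlgebraicClosure ℚ

/-- the degree of a function is invariant under an automorphism of the function field -/
theorem finrank_adjoin_algEquiv {K F : Type*} [Field K] [Field F] [Algebra K F]
    (e : F ≃ₐ[K] F) (x : F) :
    Module.finrank K⟮e x⟯ F = Module.finrank K⟮x⟯ F := by
  have hmap : (K⟮x⟯).map (e : F →ₐ[K] F) = K⟮e x⟯ := by
    rw [IntermediateField.adjoin_map, Set.image_singleton]
    rfl
  let i : K⟮x⟯ ≃+* K⟮e x⟯ :=
    ((IntermediateField.equivMap K⟮x⟯ (e : F →ₐ[K] F)).trans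
      (IntermediateField.equivOfEq hmap)).toRingEquiv
  refine (Algebra.finrank_eq_of_equiv_equiv i e.toRingEquiv ?_).symm
  ext y
  rfl

variable (A : ValuationSubring (AlgebraicClosure ℚ)) (q : ℕ) [hq : Fact q.Prime]
variable (hA : A.LiesOverPrime q) (M : ℕ) [NeZero M] (hqM : ¬ q ∣ M)

attribute [local instance] neZero_q

include hqM in
/-- `j(𝐪^q)` is transcendental over `ℚ̄` -/
theorem transcendental_jq : Transcendental Qb (jq q M) := by
  have h := (Fermat.Agent.S24.isFF1_jBar (M * q)).transcendental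
  intro halg
  apply h
  have h2 : IsAlgebraic Qb ((Fermat.Agent.S37.AL.wALEquiv hq.out hqM) (jq q M)) := by
    have := halg.algHom (Fermat.Agent.S37.AL.wALEquiv hq.out hqM).toAlgHom
    exact this
  have h3 : (Fermat.Agent.S37.AL.wALEquiv hq.out hqM) (jq q M)
      = Fermat.Agent.S24.jBar (M * q) := wAL_jq q M hqM
  rwa [h3] at h2

include hqM in
/-- the degree of `j(𝐪^q)` on `X₀(Mq)` is `ψ(Mq)` -/
theorem finrank_jq :
    Module.finrank Qb⟮jq q M⟯ (modularFunctionFieldBar (M * q)) = dedekindPsi (M * q) := by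
  have h1 : (Fermat.Agent.S37.AL.wALEquiv hq.out hqM) (Fermat.Agent.S24.jBar (M * q))
      = jq q M := wAL_jBar q M hqM
  rw [← h1, finrank_adjoin_algEquiv, Fermat.Agent.S24.finrank_jBar]

include hqM in
/-- the degree of the polar divisor of `j(𝐪^q)` on `X₀(Mq)` -/
theorem degree_pol_jq (hpf : PlaceFacts Qb (modularFunctionFieldBar (M * q))) :
    Divisor.degree (hpf.poleDiv (jq q M)) = (dedekindPsi (M * q) : ℤ) := by
  rw [hpf.degree_poleDiv (transcendental_jq q M hqM), finrank_jq q M hqM]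

/-- the symmetric divisor `Pol(j) + Pol(j_q)` on `X₀(Mq)` -/
def Dsym (hpf : PlaceFacts Qb (modularFunctionFieldBar (M * q))) :
    Divisor Qb (modularFunctionFieldBar (M * q)) :=
  hpf.poleDiv (Fermat.Agent.S24.jBar (M * q)) + hpf.poleDiv (jq q M)

/-- the divisor `(1 + q) • Pol(J)` on the reduction of `X₀(M)` -/
def D1 {k : Type*} [Field k]
    (hpfk : PlaceFacts k (modularFunctionFieldFullC k M)) :
    Divisor k (modularFunctionFieldFullC k M) :=
  (1 + q) • hpfk.poleDiv (Fermat.Agent.S18.GV.jK k M)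

theorem poleDiv_nonneg' {K F : Type*} [Field K] [Field F] [Algebra K F]
    (hpf : PlaceFacts K F) (x : F) : 0 ≤ hpf.poleDiv x := by
  rw [Finsupp.le_def]
  intro v
  rw [PlaceFacts.poleDiv_apply]
  exact le_max_right _ _

theorem Dsym_nonneg (hpf : PlaceFacts Qb (modularFunctionFieldBar (M * q))) :
    0 ≤ Dsym q M hpf :=
  add_nonneg (poleDiv_nonneg' hpf _) (poleDiv_nonneg' hpf _)

theorem D1_nonneg {k : Type*} [Field k]
    (hpfk : PlaceFacts k (modularFunctionFieldFullC k M)) : 0 ≤ D1 q M hpfk :=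
  nsmul_nonneg (poleDiv_nonneg' hpfk _) _

include hqM in
/-- `deg Dsym = 2 (q + 1) ψ(M)` -/
theorem degree_Dsym (hpf : PlaceFacts Qb (modularFunctionFieldBar (M * q))) :
    Divisor.degree (Dsym q M hpf) = 2 * ((1 + q : ℕ) : ℤ) * (dedekindPsi M : ℤ) := by
  rw [Dsym, map_add, degree_pol_jq q M hqM hpf,
    Fermat.Agent.S18.Final.degree_poleDiv_bar (M * q) hpf, dedekindPsi_mul_prime q M hqM]
  push_cast
  ring

include hA hqM in
/-- `deg D1 = (q + 1) ψ(M)` -/
theorem degree_D1 (hpfk : PlaceFacts (IsLocalRing.ResidueField A)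
      (modularFunctionFieldFullC (IsLocalRing.ResidueField A) M)) :
    Divisor.degree (D1 q M hpfk) = ((1 + q : ℕ) : ℤ) * (dedekindPsi M : ℤ) := by
  rw [D1, map_nsmul, Fermat.Agent.S18.Final.degree_poleDiv_k A q hA M hqM hpfk]
  simp

include hA hqM in
/-- `deg Dsym = deg D1 + deg D1` (= `Setup2.deg_eq` with `D₁ = D₂ = D1`) -/
theorem degree_Dsym_eq (hpf : PlaceFacts Qb (modularFunctionFieldBar (M * q)))
    (hpfk : PlaceFacts (IsLocalRing.ResidueField A)
      (modularFunctionFieldFullC (IsLocalRing.ResidueField A) M)) :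
    Divisor.degree (Dsym q M hpf) = Divisor.degree (D1 q M hpfk) + Divisor.degree (D1 q M hpfk) := by
  rw [degree_Dsym q M hqM hpf, degree_D1 A q hA M hqM hpfk]
  ring

include hA hqM in
/-- `0 < deg D1` (= `Setup2.deg₁_pos`) -/
theorem degree_D1_pos (hpfk : PlaceFacts (IsLocalRing.ResidueField A)
      (modularFunctionFieldFullC (IsLocalRing.ResidueField A) M)) :
    0 < Divisor.degree (D1 q M hpfk) := by
  rw [degree_D1 A q hA M hqM hpfk]
  have h1 : 0 < dedekindPsi M := Fermat.Agent.S18.Final.dedekindPsi_pos M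
  have h2 : (0 : ℤ) < (dedekindPsi M : ℤ) := by exact_mod_cast h1
  have h3 : (0 : ℤ) < ((1 + q : ℕ) : ℤ) := by
    have : 0 < 1 + q := by omega
    exact_mod_cast this
  exact mul_pos h3 h2

include hqM in
theorem degree_Dsym_pos (hpf : PlaceFacts Qb (modularFunctionFieldBar (M * q))) :
    0 < Divisor.degree (Dsym q M hpf) := by
  rw [degree_Dsym q M hqM hpf]
  have h1 : 0 < dedekindPsi M := Fermat.Agent.S18.Final.dedekindPsi_pos M
  have h2 : (0 : ℤ) < (dedekindPsi M : ℤ) := by exact_mod_cast h1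
  have h3 : (0 : ℤ) < ((1 + q : ℕ) : ℤ) := by
    have : 0 < 1 + q := by omega
    exact_mod_cast this
  positivity

include hqM in
/-- `Dsym ≤ (1 + q) • Pol(j)` -/
theorem Dsym_le_j (hpf : PlaceFacts Qb (modularFunctionFieldBar (M * q))) :
    Dsym q M hpf ≤ (1 + q) • hpf.poleDiv (Fermat.Agent.S24.jBar (M * q)) := by
  rw [Dsym, add_smul, one_smul]
  exact add_le_add_right (poleDiv_jq_le q M hqM hpf) _

include hqM in
/-- `Dsym ≤ (1 + q) • Pol(j_q)` -/
theorem Dsym_le_jq (hpf : PlaceFacts Qb (modularFunctionFieldBar (M * q))) :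
    Dsym q M hpf ≤ (1 + q) • hpf.poleDiv (jq q M) := by
  rw [Dsym, add_smul, one_smul, add_comm]
  exact add_le_add_right (poleDiv_j_le q M hqM hpf) _

include hqM in
/-- `L(n Dsym) ⊆ L(n (1 + q) Pol j) ∩ L(n (1 + q) Pol j_q)` -/
theorem mem_of_mem_nsmul_Dsym (hpf : PlaceFacts Qb (modularFunctionFieldBar (M * q)))
    (n : ℕ) (x : modularFunctionFieldBar (M * q))
    (hx : x ∈ riemannRochSpace (n • Dsym q M hpf)) :
    x ∈ riemannRochSpace ((n * (1 + q)) • hpf.poleDiv (Fermat.Agent.S24.jBar (M * q))) ∧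
    x ∈ riemannRochSpace ((n * (1 + q)) • hpf.poleDiv (jq q M)) := by
  constructor
  · refine rrSpace_mono ?_ hx
    rw [mul_smul]
    exact nsmul_le_nsmul_right (Dsym_le_j q M hqM hpf) n
  · refine rrSpace_mono ?_ hx
    rw [mul_smul]
    exact nsmul_le_nsmul_right (Dsym_le_jq q M hqM hpf) n

include hA hqM in
/-- Riemann's theorem for `F_k(M)` with the genus formula (`4 ∣ M ∨ 9 ∣ M`) -/
theorem rthm_k_genus (h49 : 4 ∣ M ∨ 9 ∣ M) : ∃ (g : ℕ) (c : ℤ), (g : ℚ) = genusFormula M ∧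
    Fermat.Agent.S18.Deuring.RThm (IsLocalRing.ResidueField A)
      (modularFunctionFieldFullC (IsLocalRing.ResidueField A) M) g c := by
  obtain ⟨g, c, hg, S⟩ := Fermat.Agent.S37.R.exists_setup A q hA M hqM h49
  obtain ⟨ck, hck⟩ := S.rthm_k
  exact ⟨g, ck, hg, hck⟩

end Fermat.Agent.S34.C3
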