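import Fermat.Agent.S34.JointOrtho
import Fermat.Agent.S34.JointRepr
import Fermat.Agent.S34.JointH1Abs
import Fermat.Agent.S34.C3Joint

/-!
# C83 (S34), piece C1: the concrete joint (H1) and `JointFin` for `X₀(Mq)` at `q`

* `joint_H1_concrete` : `dim_k (joint reduction of V) = dim_ℚ̄ V` for every finite-dimensional
  `V ≤ F(Mq)` (`= Setup2.H1` for `Joint.Red1`, `Joint.Red2`);
* `jointFin_concrete` : `C3.JointFin A q M hM` (the input of (H2p)).

Both from the abstract `JH1.joint_H1` / `C3.jointFin_of_ortho` and the joint basis `Joint.Bf` of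
lifts of an `(IG_k)`-family at level `M`.
-/

set_option autoImplicit false
set_option linter.unusedSectionVars false
set_option linter.unusedVariables false
set_option linter.style.haveILetI false
set_option synthInstance.maxHeartbeats 400000
set_option maxHeartbeats 1000000

noncomputable section

open AlgebraicCurve ModularCurve IntermediateField Fermat.Agent.Lib.FF Polynomial
open Fermat.Agent.S18 Fermat.Agent.S18.GV Fermat.Agent.S18.Deuring Fermat.Agent.S34.Joint

namespace Fermat.Agent.S34.C3H1

local notation "Qb" => AlgebraicClosure ℚ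

local instance isAlgebraicQbC3H1 : Algebra.IsAlgebraic ℚ (AlgebraicClosure ℚ) :=
  AlgebraicClosure.isAlgebraic ℚ

attribute [local instance] Fermat.Agent.S34.C3.neZero_q

variable (A : ValuationSubring (AlgebraicClosure ℚ)) (q : ℕ) [hq : Fact q.Prime]
variable (hA : A.LiesOverPrime q) (M : ℕ) [NeZero M] (hM : ¬ q ∣ M)

/-- the data of the joint orthonormal family, indexed by `Fin n` -/
structure Data (n : ℕ) : Prop where
  ex : ∃ (B : Fin n → modularFunctionFieldBar (M * q))
    (β₁ β₂ : Fin n → modularFunctionFieldFullC (IsLocalRing.ResidueField A) M),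
    (∀ i, Red1 A q M (B i) (β₁ i)) ∧ (∀ i, Red2 A q M hM (B i) (β₂ i)) ∧
    (∀ φ : Fin n → (IsLocalRing.ResidueField A)[X],
      ∑ i, aeval (jK (IsLocalRing.ResidueField A) M) (φ i) * β₁ i = 0 →
      ∑ i, aeval (jK (IsLocalRing.ResidueField A) M ^ q) (φ i) * β₂ i = 0 → φ = 0) ∧
    (∀ x : modularFunctionFieldBar (M * q), ∃ (Q : Qb[X]) (P : Fin n → Qb[X]), Q ≠ 0 ∧
      aeval (Fermat.Agent.S24.jBar (M * q)) Q * x
        = ∑ i, aeval (Fermat.Agent.S24.jBar (M * q)) (P i) * B i)

/-- `𝐪 ↦ 𝐪^q` on polynomials in `J` -/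
theorem qExpand_aeval (k : Type*) [Field k] [CharP k q] (p : k[X]) :
    qExpand k q (aeval (jqModC k) p) = aeval (jqModC k ^ q) p := by
  have h := Polynomial.aeval_algHom_apply (qExpandAlgHomC k q) (jqModC k) p
  rw [qExpandAlgHomC_apply, qExpandAlgHomC_apply, qExpand_jqModC_char (k := k) q] at h
  exact h.symm

include hA in
/-- **the joint orthonormal family exists** -/
theorem data : Data A q M hM (dedekindPsi M * (q + 1)) := by
  haveI := charP_residueField A q hA
  obtain ⟨b, β, hbmem, hβmem, hb, hβ⟩ := exists_ortho_basis A q hA M hM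
  set n := dedekindPsi M * (q + 1) with hn
  have e : JIdx (dedekindPsi M) q ≃ Fin n := Fintype.equivFinOfCardEq (card_JIdx q _)
  have hb' : ∀ i, Red A (((⟨b i, hbmem i⟩ : modularFunctionFieldBar M)) : LaurentSeries Qb)
      (β i) := hb
  have hT₁s : Transcendental (IsLocalRing.ResidueField A)
      (jqModC (IsLocalRing.ResidueField A)) := Fermat.Agent.S28.transcendental_jqModC'
  have hβ₁ : ∀ i : Fin n, Red1 A q M (Bf q M (fun i => (⟨b i, hbmem i⟩ :
      modularFunctionFieldBar M)) (e.symm i))
      (⟨fam1 q β (e.symm i), fam1_mem_ffC q M (IsLocalRing.ResidueField A) hβmem _⟩ :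
        modularFunctionFieldFullC (IsLocalRing.ResidueField A) M) := by
    intro i
    show Red A _ _
    rw [coe_Bf]
    exact red_fam1 A q hb' _
  have hβ₂ : ∀ i : Fin n, Red2 A q M hM (Bf q M (fun i => (⟨b i, hbmem i⟩ :
      modularFunctionFieldBar M)) (e.symm i))
      (⟨fam2 q β (e.symm i), fam2_mem_ffC q M (IsLocalRing.ResidueField A) hβmem _⟩ :
        modularFunctionFieldFullC (IsLocalRing.ResidueField A) M) := by
    intro i
    show Red A _ _
    rw [coe_wAL_Bf]
    exact red_fam2 A q hb' _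
  have hind : ∀ φ : Fin n → (IsLocalRing.ResidueField A)[X],
      ∑ i, aeval (jK (IsLocalRing.ResidueField A) M) (φ i) *
        (⟨fam1 q β (e.symm i), fam1_mem_ffC q M (IsLocalRing.ResidueField A) hβmem _⟩ :
          modularFunctionFieldFullC (IsLocalRing.ResidueField A) M) = 0 →
      ∑ i, aeval (jK (IsLocalRing.ResidueField A) M ^ q) (φ i) *
        (⟨fam2 q β (e.symm i), fam2_mem_ffC q M (IsLocalRing.ResidueField A) hβmem _⟩ :
          modularFunctionFieldFullC (IsLocalRing.ResidueField A) M) = 0 → φ = 0 := by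
    intro φ h1 h2
    have h1' : ∑ x, aeval (jqModC (IsLocalRing.ResidueField A)) (φ (e x)) * fam1 q β x = 0 := by
      have h := congrArg (fun z : modularFunctionFieldFullC (IsLocalRing.ResidueField A) M =>
        (z : LaurentSeries (IsLocalRing.ResidueField A))) h1
      simp only [ZeroMemClass.coe_zero] at h
      rw [AddSubmonoidClass.coe_finsetSum] at h
      rw [← h, ← Equiv.sum_comp e]
      refine Finset.sum_congr rfl fun x _ => ?_
      rw [MulMemClass.coe_mul, coe_aeval_ff, coe_jK, Equiv.symm_apply_apply]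
    have h2' : ∑ x, qExpand (IsLocalRing.ResidueField A) q
        (aeval (jqModC (IsLocalRing.ResidueField A)) (φ (e x))) * fam2 q β x = 0 := by
      have h := congrArg (fun z : modularFunctionFieldFullC (IsLocalRing.ResidueField A) M =>
        (z : LaurentSeries (IsLocalRing.ResidueField A))) h2
      simp only [ZeroMemClass.coe_zero] at h
      rw [AddSubmonoidClass.coe_finsetSum] at h
      rw [← h, ← Equiv.sum_comp e]
      refine Finset.sum_congr rfl fun x _ => ?_
      rw [MulMemClass.coe_mul, coe_aeval_ff, IntermediateField.coe_pow, coe_jK,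
        Equiv.symm_apply_apply, qExpand_aeval]
    have h3 := joint_indep q hβ
      (fun x => aeval (jqModC (IsLocalRing.ResidueField A)) (φ (e x)))
      (fun x => aeval_mem_simple _ _) h1' h2'
    funext i
    have h4 := h3 (e.symm i)
    simp only [Equiv.apply_symm_apply] at h4
    exact (transcendental_iff.mp hT₁s) _ h4
  have ax₁ := redAx1 A q hA M hM
  have ax₂ := redAx2 A q hA M hM
  have ht₁ := red1_jBar A q M
  have ht₂ := red2_jBar A q hA M hM
  have hfin : Module.finrank Qb⟮Fermat.Agent.S24.jBar (M * q)⟯ (modularFunctionFieldBar (M * q))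
      = n := by
    rw [Fermat.Agent.S24.finrank_jBar, Fermat.Agent.S34.C3.dedekindPsi_mul_prime q M hM]
  have hn0 : 0 < n := by
    rw [← hfin]
    haveI : FiniteDimensional Qb⟮Fermat.Agent.S24.jBar (M * q)⟯
        (modularFunctionFieldBar (M * q)) := (Fermat.Agent.S24.isFF1_jBar (M * q)).finite
    exact Module.finrank_pos
  refine ⟨⟨_, _, _, hβ₁, hβ₂, hind, fun x => ?_⟩⟩
  exact Fermat.Agent.S34.JH1.hrepr_of_finrank hn0 _ hfin
    (fun P h => Fermat.Agent.S34.JH1.joint_linearIndependent ax₁ ax₂ ht₁ ht₂ hβ₁ hβ₂ hind P h) x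

include hA in
/-- **the concrete joint (H1)** (`= Setup2.H1` for `Joint.Red1`, `Joint.Red2`) -/
theorem joint_H1_concrete (V : Submodule Qb (modularFunctionFieldBar (M * q)))
    (hV : Module.Finite Qb V) :
    Module.finrank (IsLocalRing.ResidueField A)
      (Fermat.Agent.S34.redSpace₂ (redAx1 A q hA M hM) (redAx2 A q hA M hM) V)
      = Module.finrank Qb V := by
  obtain ⟨B, β₁, β₂, hb₁, hb₂, hind, hrepr⟩ := (data A q hA M hM).ex
  have hT₁ : Transcendental (IsLocalRing.ResidueField A)
      (jK (IsLocalRing.ResidueField A) M) :=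
    (Fermat.Agent.S18.Final.isFF1s_jK A q hA M).transcendental
  have hT₂ : Transcendental (IsLocalRing.ResidueField A)
      (jK (IsLocalRing.ResidueField A) M ^ q) := hT₁.pow hq.out.pos
  exact Fermat.Agent.S34.JH1.joint_H1 (redAx1 A q hA M hM) (redAx2 A q hA M hM)
    (red1_jBar A q M) (red2_jBar A q hA M hM) hT₁ hT₂ hb₁ hb₂ hind hrepr V hV

include hA in
/-- **`JointFin`** (the input of (H2p)) -/
theorem jointFin_concrete : Fermat.Agent.S34.C3.JointFin A q M hM := by
  obtain ⟨B, β₁, β₂, hb₁, hb₂, hind, hrepr⟩ := (data A q hA M hM).ex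
  exact Fermat.Agent.S34.C3.jointFin_of_ortho A q hA M hM (redAx1 A q hA M hM)
    (redAx2 A q hA M hM) (T₂ := jK (IsLocalRing.ResidueField A) M ^ q)
    (red1_jq A q hA M) B β₁ β₂ hb₁ hb₂ hind hrepr

end Fermat.Agent.S34.C3H1
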