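import Fermat.Agent.S34.C3K1
import Fermat.Agent.S18.GVH2

/-!
# C83 (S34), piece C3, part 3: **(H2p)** — the pole part of (H2) for the two-component reduction

`F = F(Mq)` over `ℚ̄`, `Red₁ x a = Red (x) a`, `Red₂ x a = Red (w x) a` (`w` = Atkin–Lehner),
both with values in `F_k(M)`.  For the symmetric divisor `D = Pol(j) + Pol(j_q)`:

  `x ∈ L(n • D)`, `Red₁ x a₁`, `Red₂ x a₂`  ⟹  `a₁, a₂ ∈ L(n • (1 + q) • Pol(J))`.

The only input from the joint reduction theory (C1) is the JOINT integrality `JointFin`: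
the ring of jointly Gauss-integral elements of `F(Mq)` is spanned by finitely many elements
over the Gauss ring of `ℚ̄(j)`.
-/

set_option autoImplicit false
set_option linter.unusedSectionVars false
set_option linter.unusedVariables false
set_option linter.style.haveILetI false
set_option synthInstance.maxHeartbeats 400000
set_option maxHeartbeats 1000000

noncomputable section

open AlgebraicCurve ModularCurve IntermediateField Fermat.Agent.Lib.FF Polynomial
open Fermat.Agent.S18 Fermat.Agent.S18.GV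
open scoped IntermediateField.algebraAdjoinAdjoin

namespace Fermat.Agent.S34.C3

local notation "Qb" => AlgebraicClosure ℚ

local instance isAlgebraicQbC3H : Algebra.IsAlgebraic ℚ (AlgebraicClosure ℚ) :=
  AlgebraicClosure.isAlgebraic ℚ

attribute [local instance] neZero_q

variable (A : ValuationSubring (AlgebraicClosure ℚ)) (q : ℕ) [hq : Fact q.Prime]
variable (hA : A.LiesOverPrime q) (M : ℕ) [NeZero M] (hqM : ¬ q ∣ M)

/-! ### reduction preserves integrality, two levels -/

include hA in
/-- **reduction preserves integrality over `K[t]`**, from `F(N)` to `F_k(M)`, given the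
integrality over the Gauss ring of `ℚ̄(t)` -/
theorem isIntegral_red2 (N : ℕ) [NeZero N] (t : modularFunctionFieldBar N)
    (T : modularFunctionFieldFullC (IsLocalRing.ResidueField A) M)
    (ht : Red A (t : LaurentSeries Qb) (T : LaurentSeries (IsLocalRing.ResidueField A)))
    (hT : Transcendental (IsLocalRing.ResidueField A)
      (T : LaurentSeries (IsLocalRing.ResidueField A)))
    (y : modularFunctionFieldBar N) (hy : IsIntegral (Algebra.adjoin Qb {t}) y)
    (hO : letI := algebraGaussO A q hA N t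
      IsIntegral (gaussO A q N hA t) y)
    (a : modularFunctionFieldFullC (IsLocalRing.ResidueField A) M)
    (hya : Red A (y : LaurentSeries Qb) (a : LaurentSeries (IsLocalRing.ResidueField A))) :
    IsIntegral (Algebra.adjoin (IsLocalRing.ResidueField A) {T}) a := by
  letI := algebraGaussO A q hA N t
  haveI : IsScalarTower (gaussO A q N hA t) Qb⟮t⟯ (modularFunctionFieldBar N) :=
    IsScalarTower.of_algebraMap_eq (fun _ => rfl)
  haveI := Fermat.Agent.Lib.FF.isPrincipalIdealRing_adjoin Qb t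
  have e1 := minpoly.isIntegrallyClosed_eq_field_fractions' Qb⟮t⟯ hy
  have e2 := minpoly.isIntegrallyClosed_eq_field_fractions' Qb⟮t⟯ hO
  have hyK : IsIntegral Qb⟮t⟯ y := hy.tower_top
  -- the coefficients are polynomials in `t`
  have hc1 : ∀ i, ∃ p : Qb[X],
      ((((minpoly Qb⟮t⟯ y).coeff i : Qb⟮t⟯) : modularFunctionFieldBar N) : LaurentSeries Qb)
        = aeval (t : LaurentSeries Qb) p := by
    intro i
    rw [e1, Polynomial.coeff_map]
    have h1 := ((minpoly (Algebra.adjoin Qb {t}) y).coeff i).2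
    have h2 : (((minpoly (Algebra.adjoin Qb {t}) y).coeff i : Algebra.adjoin Qb {t}) :
        modularFunctionFieldBar N) ∈
        (aeval t : Qb[X] →ₐ[Qb] modularFunctionFieldBar N).range := by
      rw [← Algebra.adjoin_singleton_eq_range_aeval]
      exact h1
    obtain ⟨p, hp⟩ := h2
    refine ⟨p, ?_⟩
    rw [← coe_aeval_ff]
    exact congrArg (fun z : modularFunctionFieldBar N => (z : LaurentSeries Qb)) hp.symm
  -- the coefficients are `w`-integral
  have hc2 : ∀ i,
      ((((minpoly Qb⟮t⟯ y).coeff i : Qb⟮t⟯) : modularFunctionFieldBar N) : LaurentSeries Qb)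
        ∈ gaussRing A := by
    intro i
    rw [e2, Polynomial.coeff_map]
    exact ((minpoly (gaussO A q N hA t) y).coeff i).2
  choose p hp using hc1
  have hP : ∀ i, ∃ P : A[X], p i = P.map A.subtype := fun i =>
    exists_of_aeval_mem_gaussRing A q hA ht hT (p i) (by rw [← hp]; exact hc2 i)
  choose P hP using hP
  have hredc : ∀ i, Red A
      ((((minpoly Qb⟮t⟯ y).coeff i : Qb⟮t⟯) : modularFunctionFieldBar N) : LaurentSeries Qb)
      (aeval (T : LaurentSeries (IsLocalRing.ResidueField A))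
        ((P i).map (IsLocalRing.residue A))) := by
    intro i
    rw [hp, hP]
    exact red_aeval A (P i) ht
  -- the equation
  have hm : (minpoly Qb⟮t⟯ y).Monic := minpoly.monic hyK
  have heq : aeval y (minpoly Qb⟮t⟯ y) = 0 := minpoly.aeval _ _
  rw [hm.as_sum, map_add, map_pow, aeval_X, map_sum] at heq
  have hexp : (y : LaurentSeries Qb) ^ (minpoly Qb⟮t⟯ y).natDegree
      + ∑ i ∈ Finset.range (minpoly Qb⟮t⟯ y).natDegree,
        ((((minpoly Qb⟮t⟯ y).coeff i : Qb⟮t⟯) : modularFunctionFieldBar N) : LaurentSeries Qb)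
          * (y : LaurentSeries Qb) ^ i = 0 := by
    have h0 := congrArg (fun z : modularFunctionFieldBar N => (z : LaurentSeries Qb)) heq
    simp only [ZeroMemClass.coe_zero] at h0
    rw [← h0, AddMemClass.coe_add, AddSubmonoidClass.coe_finsetSum]
    congr 1
    refine Finset.sum_congr rfl fun i _ => ?_
    rw [map_mul, map_pow, aeval_X, aeval_C]
    rfl
  have hred : Red A 0 ((a : LaurentSeries (IsLocalRing.ResidueField A))
      ^ (minpoly Qb⟮t⟯ y).natDegree
      + ∑ i ∈ Finset.range (minpoly Qb⟮t⟯ y).natDegree,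
        aeval (T : LaurentSeries (IsLocalRing.ResidueField A))
          ((P i).map (IsLocalRing.residue A))
          * (a : LaurentSeries (IsLocalRing.ResidueField A)) ^ i) := by
    rw [← hexp]
    exact (hya.pow A _).add A (Red.sum A _ fun i _ => (hredc i).mul A (hya.pow A i))
  have h0 := (red_zero A).unique A hred
  -- the monic polynomial over `k[T]`
  have hmemT : ∀ r : (IsLocalRing.ResidueField A)[X],
      aeval T r ∈ Algebra.adjoin (IsLocalRing.ResidueField A) {T} := fun r => by
    rw [Algebra.adjoin_singleton_eq_range_aeval]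
    exact ⟨r, rfl⟩
  refine ⟨X ^ (minpoly Qb⟮t⟯ y).natDegree + ∑ i ∈ Finset.range (minpoly Qb⟮t⟯ y).natDegree,
    Polynomial.C (⟨aeval T ((P i).map (IsLocalRing.residue A)), hmemT _⟩ :
      Algebra.adjoin (IsLocalRing.ResidueField A) {T}) * X ^ i, ?_, ?_⟩
  · apply Polynomial.monic_X_pow_add
    refine lt_of_le_of_lt (Polynomial.degree_sum_le _ _) ?_
    rw [Finset.sup_lt_iff (WithBot.bot_lt_coe _)]
    intro i hi
    refine lt_of_le_of_lt (Polynomial.degree_C_mul_X_pow_le _ _) ?_
    exact_mod_cast Finset.mem_range.mp hi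
  · rw [Polynomial.eval₂_add, Polynomial.eval₂_pow, Polynomial.eval₂_X, Polynomial.eval₂_finsetSum]
    apply Subtype.ext
    rw [ZeroMemClass.coe_zero, h0, AddMemClass.coe_add, AddSubmonoidClass.coe_finsetSum]
    congr 1
    refine Finset.sum_congr rfl fun i _ => ?_
    rw [Polynomial.eval₂_mul, Polynomial.eval₂_C, Polynomial.eval₂_pow, Polynomial.eval₂_X,
      ← coe_aeval_ff]
    rfl

/-! ### joint integrality -/

/-- joint Gauss integrality: integral for both valuations `v₁` and `v₂ = v₁ ∘ w` -/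
def JInt (x : modularFunctionFieldBar (M * q)) : Prop :=
  (x : LaurentSeries Qb) ∈ gaussRing A ∧
    ((Fermat.Agent.S37.AL.wAL hq.out hqM x : modularFunctionFieldBar (M * q)) : LaurentSeries Qb)
      ∈ gaussRing A

/-- **the input from the joint reduction theory (C1)**: finitely many jointly integral elements
span the jointly integral elements over the Gauss ring of `ℚ̄(j)` -/
def JointFin : Prop :=
  ∃ (n : ℕ) (b : Fin n → modularFunctionFieldBar (M * q)),
    (∀ i, JInt A q M hqM (b i)) ∧
    ∀ y : modularFunctionFieldBar (M * q), JInt A q M hqM y →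
      ∃ f : Fin n → modularFunctionFieldBar (M * q),
        (∀ i, f i ∈ Qb⟮Fermat.Agent.S24.jBar (M * q)⟯ ∧ (f i : LaurentSeries Qb) ∈ gaussRing A) ∧
        y = ∑ i, f i * b i

theorem JInt.mul {x y : modularFunctionFieldBar (M * q)} (hx : JInt A q M hqM x)
    (hy : JInt A q M hqM y) : JInt A q M hqM (x * y) := by
  refine ⟨(gaussRing A).mul_mem hx.1 hy.1, ?_⟩
  rw [map_mul]
  exact (gaussRing A).mul_mem hx.2 hy.2

theorem JInt.add {x y : modularFunctionFieldBar (M * q)} (hx : JInt A q M hqM x)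
    (hy : JInt A q M hqM y) : JInt A q M hqM (x + y) := by
  refine ⟨(gaussRing A).add_mem hx.1 hy.1, ?_⟩
  rw [map_add]
  exact (gaussRing A).add_mem hx.2 hy.2

theorem jInt_one : JInt A q M hqM 1 := by
  refine ⟨(gaussRing A).one_mem, ?_⟩
  rw [map_one]
  exact (gaussRing A).one_mem

theorem jInt_zero : JInt A q M hqM 0 := by
  refine ⟨(gaussRing A).zero_mem, ?_⟩
  rw [map_zero]
  exact (gaussRing A).zero_mem

theorem JInt.wAL {x : modularFunctionFieldBar (M * q)} (hx : JInt A q M hqM x) :
    JInt A q M hqM (Fermat.Agent.S37.AL.wAL hq.out hqM x) := by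
  refine ⟨hx.2, ?_⟩
  rw [Fermat.Agent.S37.AL.wAL_wAL]
  exact hx.1

/-- on `ℚ̄(j)`, the Atkin–Lehner involution is `𝐪 ↦ 𝐪^q` -/
theorem coe_wAL_of_mem_adjoin {x : modularFunctionFieldBar (M * q)}
    (hx : x ∈ Qb⟮Fermat.Agent.S24.jBar (M * q)⟯) :
    ((Fermat.Agent.S37.AL.wAL hq.out hqM x : modularFunctionFieldBar (M * q)) : LaurentSeries Qb)
      = qExpand Qb q (x : LaurentSeries Qb) := by
  have hle : Qb⟮Fermat.Agent.S24.jBar (M * q)⟯ ≤ (heckeAlphaBar Qb M q).fieldRange := by
    rw [IntermediateField.adjoin_simple_le_iff]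
    exact ⟨Fermat.Agent.S24.jBar M, alpha_jBar q M⟩
  obtain ⟨x', rfl⟩ := hle hx
  show ((Fermat.Agent.S37.AL.wAL hq.out hqM (heckeAlphaBar Qb M q x') :
      modularFunctionFieldBar (M * q)) : LaurentSeries Qb)
    = qExpand Qb q ((heckeAlphaBar Qb M q x' : modularFunctionFieldBar (M * q)) :
        LaurentSeries Qb)
  rw [Fermat.Agent.S37.AL.wAL_alpha, coe_heckeBetaBar, coe_heckeAlphaBar]

/-- Gauss-integral elements of `ℚ̄(j)` are jointly integral -/
theorem jInt_of_mem_adjoin {x : modularFunctionFieldBar (M * q)}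
    (hx : x ∈ Qb⟮Fermat.Agent.S24.jBar (M * q)⟯) (hg : (x : LaurentSeries Qb) ∈ gaussRing A) :
    JInt A q M hqM x := by
  refine ⟨hg, ?_⟩
  rw [coe_wAL_of_mem_adjoin q M hqM hx]
  exact (Fermat.Agent.S18.Desc.red_qExpand A q (red_of_mem A hg)).mem

include hA in
/-- **the jointly integral elements are integral over the Gauss ring of `ℚ̄(t)`** -/
theorem isIntegral_gaussO_joint (hJF : JointFin A q M hqM) (t : modularFunctionFieldBar (M * q))
    (hgen : Qb⟮t⟯ = Qb⟮Fermat.Agent.S24.jBar (M * q)⟯)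
    (y : modularFunctionFieldBar (M * q)) (hy : JInt A q M hqM y) :
    letI := algebraGaussO A q hA (M * q) t
    IsIntegral (gaussO A q (M * q) hA t) y := by
  letI := algebraGaussO A q hA (M * q) t
  obtain ⟨n, b, hb, hrep⟩ := hJF
  -- the subalgebra of jointly integral elements
  let S : Subalgebra (gaussO A q (M * q) hA t) (modularFunctionFieldBar (M * q)) :=
    { carrier := {z | JInt A q M hqM z}
      mul_mem' := fun ha hb => JInt.mul A q M hqM ha hb
      one_mem' := jInt_one A q M hqM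
      add_mem' := fun ha hb => JInt.add A q M hqM ha hb
      zero_mem' := jInt_zero A q M hqM
      algebraMap_mem' := fun o =>
        jInt_of_mem_adjoin A q M hqM (hgen ▸ (o : Qb⟮t⟯).2) o.2 }
  refine IsIntegral.of_mem_of_fg S ?_ y hy
  have hspan : S.toSubmodule = Submodule.span (gaussO A q (M * q) hA t) (Set.range b) := by
    apply le_antisymm
    · intro z hz
      have hz' : JInt A q M hqM z := hz
      obtain ⟨f, hf, hzf⟩ := hrep z hz'
      have hfK : ∀ i, f i ∈ Qb⟮t⟯ := fun i => hgen ▸ (hf i).1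
      rw [Submodule.mem_span_range_iff_exists_fun]
      refine ⟨fun i => ⟨⟨f i, hfK i⟩, (hf i).2⟩, ?_⟩
      rw [hzf]
      rfl
    · rw [Submodule.span_le]
      rintro _ ⟨i, rfl⟩
      exact hb i
  rw [hspan]
  exact Submodule.fg_span (Set.finite_range _)

/-! ### (H2), pole part -/

theorem red_jBar_N : Red A
    ((Fermat.Agent.S24.jBar (M * q) : modularFunctionFieldBar (M * q)) : LaurentSeries Qb)
    ((jK (IsLocalRing.ResidueField A) M : modularFunctionFieldFullC (IsLocalRing.ResidueField A) M) :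
      LaurentSeries (IsLocalRing.ResidueField A)) := by
  rw [coe_jBar, coe_jK]
  exact red_j A

include hA in
/-- regularity at the finite places is preserved -/
theorem isIntegral_red_j2 (hJF : JointFin A q M hqM) (x : modularFunctionFieldBar (M * q))
    (a : modularFunctionFieldFullC (IsLocalRing.ResidueField A) M)
    (hx : IsIntegral (Algebra.adjoin Qb {Fermat.Agent.S24.jBar (M * q)}) x)
    (hxa : Red A (x : LaurentSeries Qb) (a : LaurentSeries (IsLocalRing.ResidueField A)))
    (hw : JInt A q M hqM x) :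
    IsIntegral (Algebra.adjoin (IsLocalRing.ResidueField A)
      {jK (IsLocalRing.ResidueField A) M}) a := by
  refine isIntegral_red2 A q hA M (M * q) _ _ (red_jBar_N A q M) ?_ x hx ?_ a hxa
  · rw [coe_jK]
    exact Fermat.Agent.S28.transcendental_jqModC'
  · exact isIntegral_gaussO_joint A q hA M hqM hJF _ rfl x hw

include hA in
/-- regularity at the infinite places is preserved -/
theorem isIntegral_red_jinv2 (hJF : JointFin A q M hqM) (x : modularFunctionFieldBar (M * q))
    (a : modularFunctionFieldFullC (IsLocalRing.ResidueField A) M)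
    (hx : IsIntegral (Algebra.adjoin Qb {(Fermat.Agent.S24.jBar (M * q))⁻¹}) x)
    (hxa : Red A (x : LaurentSeries Qb) (a : LaurentSeries (IsLocalRing.ResidueField A)))
    (hw : JInt A q M hqM x) :
    IsIntegral (Algebra.adjoin (IsLocalRing.ResidueField A)
      {(jK (IsLocalRing.ResidueField A) M)⁻¹}) a := by
  have hJ0 : (jqModC (IsLocalRing.ResidueField A)) ≠ 0 := jqModC_ne_zero_of_nontrivial _
  refine isIntegral_red2 A q hA M (M * q) _ _ ?_ ?_ x hx ?_ a hxa
  · rw [IntermediateField.coe_inv, IntermediateField.coe_inv, coe_jBar, coe_jK]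
    exact (red_j A).inv A hJ0
  · rw [IntermediateField.coe_inv, coe_jK]
    exact transcendental_inv Fermat.Agent.S28.transcendental_jqModC'
  · exact isIntegral_gaussO_joint A q hA M hqM hJF _
      (Fermat.Agent.Lib.FF.adjoin_inv_eq _) x hw

/-- `j⁻¹` is jointly integral -/
theorem jInt_jBar_inv : JInt A q M hqM (Fermat.Agent.S24.jBar (M * q))⁻¹ := by
  have hJ0 : (jqModC (IsLocalRing.ResidueField A)) ≠ 0 := jqModC_ne_zero_of_nontrivial _
  refine jInt_of_mem_adjoin A q M hqM
    (inv_mem (IntermediateField.mem_adjoin_simple_self Qb _)) ?_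
  rw [IntermediateField.coe_inv, coe_jBar]
  exact ((red_j A).inv A hJ0).mem

theorem JInt.pow {x : modularFunctionFieldBar (M * q)} (hx : JInt A q M hqM x) (n : ℕ) :
    JInt A q M hqM (x ^ n) := by
  induction n with
  | zero => rw [pow_zero]; exact jInt_one A q M hqM
  | succ n ih => rw [pow_succ]; exact JInt.mul A q M hqM ih hx

include hA in
/-- **(H2), first component**: a jointly integral `x ∈ L(n • Pol j)` reduces (under `v₁`) into
`L(n • Pol J)`. -/
theorem h2_first (hJF : JointFin A q M hqM)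
    (hpf : PlaceFacts Qb (modularFunctionFieldBar (M * q)))
    (hpfk : PlaceFacts (IsLocalRing.ResidueField A)
      (modularFunctionFieldFullC (IsLocalRing.ResidueField A) M))
    (n : ℕ) (x : modularFunctionFieldBar (M * q))
    (a : modularFunctionFieldFullC (IsLocalRing.ResidueField A) M)
    (hx : x ∈ riemannRochSpace (n • hpf.poleDiv (Fermat.Agent.S24.jBar (M * q))))
    (hxa : Red A (x : LaurentSeries Qb) (a : LaurentSeries (IsLocalRing.ResidueField A)))
    (hw : ((Fermat.Agent.S37.AL.wAL hq.out hqM x : modularFunctionFieldBar (M * q)) :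
      LaurentSeries Qb) ∈ gaussRing A) :
    a ∈ riemannRochSpace (n • hpfk.poleDiv (jK (IsLocalRing.ResidueField A) M)) := by
  haveI := Fermat.Agent.S18.ResClosed.isAlgClosed_residueField A
  have hxJ : JInt A q M hqM x := ⟨hxa.mem, hw⟩
  have hff := Fermat.Agent.S24.isFF1_jBar (M * q)
  have hffk := Fermat.Agent.S18.Final.isFF1s_jK A q hA M
  have hj0 : Fermat.Agent.S24.jBar (M * q) ≠ 0 := fun h =>
    hff.transcendental (h ▸ isAlgebraic_zero)
  rw [mem_rrSpace_iff] at hx
  -- regularity of `x` at the finite places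
  have hreg : ∀ Q : Place Qb (modularFunctionFieldBar (M * q)),
      0 ≤ Q.ord (Fermat.Agent.S24.jBar (M * q)) → 0 ≤ Q.ord x := by
    intro Q hQ
    rcases hx Q with h0 | h1
    · rw [h0, Q.ord_zero]
    · rw [Finsupp.smul_apply, hpf.poleDiv_of_nonneg hQ, smul_zero, neg_zero] at h1
      exact h1
  -- regularity of `x / j^n` at the infinite places
  have hinf : ∀ Q : Place Qb (modularFunctionFieldBar (M * q)),
      0 ≤ Q.ord (Fermat.Agent.S24.jBar (M * q))⁻¹ →
        0 ≤ Q.ord (x * ((Fermat.Agent.S24.jBar (M * q))⁻¹) ^ n) := by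
    intro Q hQ
    rw [Q.ord_inv] at hQ
    by_cases hx0 : x = 0
    · rw [hx0, zero_mul, Q.ord_zero]
    have hjn : ((Fermat.Agent.S24.jBar (M * q))⁻¹) ^ n ≠ 0 := pow_ne_zero _ (inv_ne_zero hj0)
    have hord : Q.ord (((Fermat.Agent.S24.jBar (M * q))⁻¹) ^ n)
        = -((n : ℤ) * Q.ord (Fermat.Agent.S24.jBar (M * q))) := by
      rw [inv_pow, Q.ord_inv, ← zpow_natCast, Q.ord_zpow]
    rw [Q.ord_mul hx0 hjn, hord]
    rcases lt_or_eq_of_le (neg_nonneg.mp hQ) with hlt | heq
    · rcases hx Q with h0 | h1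
      · exact absurd h0 hx0
      · rw [Finsupp.smul_apply, hpf.poleDiv_of_neg hlt, nsmul_eq_mul] at h1
        linarith
    · rw [heq, mul_zero, neg_zero, add_zero]
      exact hreg Q (by rw [heq])
  have hint1 := Fermat.Agent.Lib.FFs.isIntegral_of_forall_ord_nonneg
    (Fermat.Agent.Lib.FFs.IsFF1s.of_isFF1 hff) x hreg
  have hint2 := Fermat.Agent.Lib.FFs.isIntegral_of_forall_ord_nonneg
    (Fermat.Agent.Lib.FFs.IsFF1s.of_isFF1 hff.inv) _ hinf
  have hJ0 := jK_ne_zero M (IsLocalRing.ResidueField A)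
  have hJ0' : (jqModC (IsLocalRing.ResidueField A)) ≠ 0 := jqModC_ne_zero_of_nontrivial _
  have hredinv : Red A
      (((Fermat.Agent.S24.jBar (M * q))⁻¹ : modularFunctionFieldBar (M * q)) : LaurentSeries Qb)
      (((jK (IsLocalRing.ResidueField A) M)⁻¹ :
        modularFunctionFieldFullC (IsLocalRing.ResidueField A) M) :
        LaurentSeries (IsLocalRing.ResidueField A)) := by
    rw [IntermediateField.coe_inv, IntermediateField.coe_inv, coe_jBar, coe_jK]
    exact (red_j A).inv A hJ0'
  have hred2 : Red A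
      ((x * ((Fermat.Agent.S24.jBar (M * q))⁻¹) ^ n : modularFunctionFieldBar (M * q)) :
        LaurentSeries Qb)
      ((a * ((jK (IsLocalRing.ResidueField A) M)⁻¹) ^ n :
        modularFunctionFieldFullC (IsLocalRing.ResidueField A) M) :
        LaurentSeries (IsLocalRing.ResidueField A)) := by
    rw [MulMemClass.coe_mul, MulMemClass.coe_mul, SubmonoidClass.coe_pow, SubmonoidClass.coe_pow]
    exact hxa.mul A (hredinv.pow A n)
  have hJ2 : JInt A q M hqM (x * ((Fermat.Agent.S24.jBar (M * q))⁻¹) ^ n) :=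
    JInt.mul A q M hqM hxJ (JInt.pow A q M hqM (jInt_jBar_inv A q M hqM) n)
  have hk1 := isIntegral_red_j2 A q hA M hqM hJF x a hint1 hxa hxJ
  have hk2 := isIntegral_red_jinv2 A q hA M hqM hJF _ _ hint2 hred2 hJ2
  haveI := hffk.finite
  haveI := hffk.separable
  rw [mem_rrSpace_iff]
  intro Q
  by_cases ha0 : a = 0
  · exact Or.inl ha0
  right
  by_cases hQ : 0 ≤ Q.ord (jK (IsLocalRing.ResidueField A) M)
  · rw [Finsupp.smul_apply, hpfk.poleDiv_of_nonneg hQ, smul_zero, neg_zero]
    exact Fermat.Agent.Lib.FFs.ord_nonneg_of_isIntegral hk1 Q hQ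
  · rw [not_le] at hQ
    have h1 := Fermat.Agent.Lib.FFs.ord_nonneg_of_isIntegral hk2 Q (by
      rw [Q.ord_inv]; omega)
    have hJn : ((jK (IsLocalRing.ResidueField A) M)⁻¹) ^ n ≠ 0 := pow_ne_zero _ (inv_ne_zero hJ0)
    have hord : Q.ord (((jK (IsLocalRing.ResidueField A) M)⁻¹) ^ n)
        = -((n : ℤ) * Q.ord (jK (IsLocalRing.ResidueField A) M)) := by
      rw [inv_pow, Q.ord_inv, ← zpow_natCast, Q.ord_zpow]
    rw [Q.ord_mul ha0 hJn, hord] at h1
    rw [Finsupp.smul_apply, hpfk.poleDiv_of_neg hQ, nsmul_eq_mul]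
    linarith

/-- transport of `L(n • Pol j_q)` to `L(n • Pol j)` by the Atkin–Lehner involution -/
theorem wAL_mem_rrSpace (hpf : PlaceFacts Qb (modularFunctionFieldBar (M * q)))
    (n : ℕ) (x : modularFunctionFieldBar (M * q))
    (hx : x ∈ riemannRochSpace (n • hpf.poleDiv (jq q M))) :
    Fermat.Agent.S37.AL.wAL hq.out hqM x
      ∈ riemannRochSpace (n • hpf.poleDiv (Fermat.Agent.S24.jBar (M * q))) := by
  let g : SemilinearAut Qb (modularFunctionFieldBar (M * q)) :=
    SemilinearAut.ofAlgAut (Fermat.Agent.S37.AL.wALEquiv hq.out hqM)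
  rw [mem_rrSpace_iff] at hx ⊢
  intro Q
  have hQ : g • (g⁻¹ • Q) = Q := smul_inv_smul g Q
  have h1 : Q.ord (Fermat.Agent.S37.AL.wAL hq.out hqM x) = (g⁻¹ • Q).ord x := by
    have := SemilinearAut.ord_smul g (g⁻¹ • Q) x
    rw [hQ] at this
    exact this
  have h2 : Q.ord (Fermat.Agent.S24.jBar (M * q)) = (g⁻¹ • Q).ord (jq q M) := by
    have := SemilinearAut.ord_smul g (g⁻¹ • Q) (jq q M)
    rw [hQ] at this
    rw [← this]
    congr 1
    exact (wAL_jq q M hqM).symm
  rcases hx (g⁻¹ • Q) with h0 | h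
  · left
    rw [h0, map_zero]
  · right
    rw [Finsupp.smul_apply, hpf.poleDiv_apply] at h ⊢
    rw [h1, h2]
    exact h

include hA in
/-- **(H2), second component**: a jointly integral `x ∈ L(n • Pol j_q)` reduces (under
`v₂ = v₁ ∘ w`) into `L(n • Pol J)`. -/
theorem h2_second (hJF : JointFin A q M hqM)
    (hpf : PlaceFacts Qb (modularFunctionFieldBar (M * q)))
    (hpfk : PlaceFacts (IsLocalRing.ResidueField A)
      (modularFunctionFieldFullC (IsLocalRing.ResidueField A) M))
    (n : ℕ) (x : modularFunctionFieldBar (M * q))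
    (a : modularFunctionFieldFullC (IsLocalRing.ResidueField A) M)
    (hx : x ∈ riemannRochSpace (n • hpf.poleDiv (jq q M)))
    (hxa : Red A
      ((Fermat.Agent.S37.AL.wAL hq.out hqM x : modularFunctionFieldBar (M * q)) :
        LaurentSeries Qb) (a : LaurentSeries (IsLocalRing.ResidueField A)))
    (hw : (x : LaurentSeries Qb) ∈ gaussRing A) :
    a ∈ riemannRochSpace (n • hpfk.poleDiv (jK (IsLocalRing.ResidueField A) M)) := by
  refine h2_first A q hA M hqM hJF hpf hpfk n _ a (wAL_mem_rrSpace q M hqM hpf n x hx) hxa ?_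
  rw [Fermat.Agent.S37.AL.wAL_wAL]
  exact hw

include hqM in
theorem poleDiv_add_le_j (hpf : PlaceFacts Qb (modularFunctionFieldBar (M * q))) :
    hpf.poleDiv (Fermat.Agent.S24.jBar (M * q)) + hpf.poleDiv (jq q M)
      ≤ (1 + q) • hpf.poleDiv (Fermat.Agent.S24.jBar (M * q)) := by
  rw [add_nsmul, one_nsmul]
  exact add_le_add le_rfl (poleDiv_jq_le q M hqM hpf)

include hqM in
theorem poleDiv_add_le_jq (hpf : PlaceFacts Qb (modularFunctionFieldBar (M * q))) :
    hpf.poleDiv (Fermat.Agent.S24.jBar (M * q)) + hpf.poleDiv (jq q M)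
      ≤ (1 + q) • hpf.poleDiv (jq q M) := by
  rw [add_nsmul, one_nsmul, add_comm]
  exact add_le_add le_rfl (poleDiv_j_le q M hqM hpf)

include hA in
/-- **(H2p)**: the pole part of `Setup2.H2` for the symmetric divisor
`D = Pol(j) + Pol(j_q)` and `D₁ = D₂ = (1 + q) • Pol(J)`. -/
theorem h2_pole (hJF : JointFin A q M hqM)
    (hpf : PlaceFacts Qb (modularFunctionFieldBar (M * q)))
    (hpfk : PlaceFacts (IsLocalRing.ResidueField A)
      (modularFunctionFieldFullC (IsLocalRing.ResidueField A) M))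
    (n : ℕ) (x : modularFunctionFieldBar (M * q))
    (a₁ a₂ : modularFunctionFieldFullC (IsLocalRing.ResidueField A) M)
    (hx : x ∈ riemannRochSpace
      (n • (hpf.poleDiv (Fermat.Agent.S24.jBar (M * q)) + hpf.poleDiv (jq q M))))
    (h1 : Red A (x : LaurentSeries Qb) (a₁ : LaurentSeries (IsLocalRing.ResidueField A)))
    (h2 : Red A
      ((Fermat.Agent.S37.AL.wAL hq.out hqM x : modularFunctionFieldBar (M * q)) :
        LaurentSeries Qb) (a₂ : LaurentSeries (IsLocalRing.ResidueField A))) :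
    a₁ ∈ riemannRochSpace (n • ((1 + q) • hpfk.poleDiv (jK (IsLocalRing.ResidueField A) M))) ∧
    a₂ ∈ riemannRochSpace (n • ((1 + q) • hpfk.poleDiv (jK (IsLocalRing.ResidueField A) M))) := by
  have hx1 : x ∈ riemannRochSpace
      ((n * (1 + q)) • hpf.poleDiv (Fermat.Agent.S24.jBar (M * q))) := by
    refine rrSpace_mono ?_ hx
    rw [mul_nsmul']
    exact nsmul_le_nsmul_right (poleDiv_add_le_j q M hqM hpf) n
  have hx2 : x ∈ riemannRochSpace ((n * (1 + q)) • hpf.poleDiv (jq q M)) := by
    refine rrSpace_mono ?_ hx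
    rw [mul_nsmul']
    exact nsmul_le_nsmul_right (poleDiv_add_le_jq q M hqM hpf) n
  rw [← mul_nsmul']
  exact ⟨h2_first A q hA M hqM hJF hpf hpfk _ x a₁ hx1 h1 h2.mem,
    h2_second A q hA M hqM hJF hpf hpfk _ x a₂ hx2 h2 h1.mem⟩

end Fermat.Agent.S34.C3
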