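import Fermat.Agent.S34.C3Num
import Fermat.Agent.S37.MCModEq

/-!
# C83 (S34), piece C3, part 2: **(K1)** — the polar divisors of `j` and `j(𝐪^q)` on `X₀(Mq)`

`Pol(j) ≤ q • Pol(j_q)` and `Pol(j_q) ≤ q • Pol(j)` on `F(Mq)`.

Proof: the modular equation `Ψ(j) = 0`, `Ψ = (X - j(𝐪^{q²})) ∏_b (X - j(ζ^b 𝐪))`, whose
coefficients are polynomials `c_i` in `j(𝐪^q)`; the `𝐪`-order of the `i`-th coefficient is at least
`-q² (q + 1 - i)`, hence `deg c_i ≤ q (q + 1 - i)`, hence `j / j_q^q` is integral over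
`ℚ̄[j_q⁻¹]`.  The other inequality follows by the Atkin–Lehner involution.
-/

set_option autoImplicit false
set_option linter.unusedSectionVars false
set_option linter.unusedVariables false
set_option linter.style.haveILetI false
set_option synthInstance.maxHeartbeats 400000
set_option maxHeartbeats 1000000

noncomputable section

open AlgebraicCurve ModularCurve IntermediateField Fermat.Agent.Lib.FF Polynomial

namespace Fermat.Agent.S34.C3

local notation "Qb" => AlgebraicClosure ℚ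

/-! ### Laurent series with no coefficients below a bound -/

section Low

variable {R : Type*} [CommRing R]

/-- all coefficients below `m` vanish -/
def Low (m : ℤ) (x : LaurentSeries R) : Prop := ∀ n : ℤ, n < m → x.coeff n = 0

theorem Low.mono {m m' : ℤ} {x : LaurentSeries R} (h : Low m x) (hm : m' ≤ m) : Low m' x :=
  fun n hn => h n (lt_of_lt_of_le hn hm)

theorem low_zero (m : ℤ) : Low m (0 : LaurentSeries R) := fun _ _ => HahnSeries.coeff_zero

theorem low_one : Low 0 (1 : LaurentSeries R) := fun n hn => by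
  rw [HahnSeries.coeff_one, if_neg (ne_of_lt hn)]

theorem Low.add {m : ℤ} {x y : LaurentSeries R} (hx : Low m x) (hy : Low m y) :
    Low m (x + y) := fun n hn => by
  rw [HahnSeries.coeff_add, hx n hn, hy n hn, add_zero]

theorem Low.neg {m : ℤ} {x : LaurentSeries R} (hx : Low m x) : Low m (-x) := fun n hn => by
  rw [HahnSeries.coeff_neg, hx n hn, neg_zero]

theorem Low.sub {m : ℤ} {x y : LaurentSeries R} (hx : Low m x) (hy : Low m y) :
    Low m (x - y) := fun n hn => by
  rw [HahnSeries.coeff_sub, hx n hn, hy n hn, sub_zero]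

theorem Low.mul {m m' : ℤ} {x y : LaurentSeries R} (hx : Low m x) (hy : Low m' y) :
    Low (m + m') (x * y) := by
  intro n hn
  rw [HahnSeries.coeff_mul]
  apply Finset.sum_eq_zero
  rintro ⟨i, j⟩ hij
  rw [Finset.mem_antidiagonal] at hij
  obtain ⟨hi, hj, hsum⟩ := hij
  by_cases h1 : i < m
  · exact absurd (hx i h1) hi
  · have h2 : j < m' := by
      simp only at hsum
      omega
    exact absurd (hy j h2) hj

/-- the coefficients of a product of linear factors -/
theorem low_coeff_prod {ι : Type*} (s : Finset ι) (r : ι → LaurentSeries R) (c : ℤ)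
    (hc : 0 ≤ c) (hr : ∀ i ∈ s, Low (-c) (r i)) (k : ℕ) :
    Low (-(c * ((s.card : ℤ) - k))) ((∏ i ∈ s, (X - C (r i))).coeff k) := by
  classical
  induction s using Finset.induction_on generalizing k with
  | empty =>
    rw [Finset.prod_empty, Finset.card_empty, Polynomial.coeff_one]
    split_ifs with hk
    · subst hk
      have : -(c * (((0 : ℕ) : ℤ) - ((0 : ℕ) : ℤ))) = 0 := by simp
      rw [this]
      exact low_one
    · exact low_zero _
  | insert a s ha ih =>
    have hr' : ∀ i ∈ s, Low (-c) (r i) := fun i hi => hr i (Finset.mem_insert_of_mem hi)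
    have hra : Low (-c) (r a) := hr a (Finset.mem_insert_self a s)
    rw [Finset.prod_insert ha, Finset.card_insert_of_notMem ha,
      mul_comm (X - C (r a)) (∏ i ∈ s, (X - C (r i)))]
    cases k with
    | zero =>
      rw [Polynomial.mul_coeff_zero, Polynomial.coeff_sub, Polynomial.coeff_X_zero,
        Polynomial.coeff_C_zero, zero_sub]
      have h1 := (ih hr' 0).mul hra.neg
      refine h1.mono ?_
      push_cast
      nlinarith
    | succ k =>
      rw [Polynomial.coeff_mul_X_sub_C]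
      refine Low.sub ((ih hr' k).mono ?_) (((ih hr' (k + 1)).mul hra).mono ?_)
      · push_cast
        nlinarith
      · push_cast
        nlinarith

end Low

/-! ### The coefficients of the modular equation -/

section ModEq

variable (p : ℕ) [hp : Fact p.Prime]

theorem neZero_sq : NeZero (p ^ 2) := ⟨pow_ne_zero 2 hp.out.ne_zero⟩

attribute [local instance] neZero_q neZero_sq

/-- the roots of `Ψ` have no coefficients below `-p²` -/
theorem low_root {R : Type*} [CommRing R] (ζ : Rˣ) (i : Option (Fin p)) :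
    Low (-((p : ℤ) ^ 2)) (Fermat.Agent.S28.ModEq.root p ζ i) := by
  have hp1 : (1 : ℤ) ≤ p := by exact_mod_cast hp.out.one_lt.le
  have hp2 : (1 : ℤ) ≤ (p : ℤ) ^ 2 := by nlinarith
  intro n hn
  cases i with
  | none =>
    show (qExpand R (p ^ 2) (jqModC R)).coeff n = 0
    by_cases hd : (((p ^ 2 : ℕ)) : ℤ) ∣ n
    · obtain ⟨k, rfl⟩ := hd
      rw [qExpand_coeff_mul]
      apply coeff_jqModC_of_lt
      push_cast at hn
      nlinarith
    · exact qExpand_coeff_of_not_dvd _ _ hd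
  | some b =>
    show (Fermat.Agent.S28.rot (ζ ^ (b : ℕ)) (jqModC R)).coeff n = 0
    rw [Fermat.Agent.S28.coeff_rot, coeff_jqModC_of_lt R (by omega), zero_mul]

/-- the coefficients of `Ψ` -/
theorem low_coeff_Psi {R : Type*} [CommRing R] (ζ : Rˣ) (k : ℕ) :
    Low (-((p : ℤ) ^ 2 * ((p : ℤ) + 1 - k))) ((Fermat.Agent.S28.ModEq.Psi p ζ).coeff k) := by
  have h := low_coeff_prod (Finset.univ : Finset (Option (Fin p)))
    (Fermat.Agent.S28.ModEq.root p ζ) ((p : ℤ) ^ 2) (by positivity)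
    (fun i _ => low_root p ζ i) k
  rw [Finset.card_univ, Fintype.card_option, Fintype.card_fin] at h
  push_cast at h
  exact h

/-- a polynomial in `j(𝐪^p)` has its leading term at `-p · deg` -/
theorem coeff_aeval_qExpand {K : Type*} [Field K] (Q : K[X]) :
    (aeval (qExpand K p (jqModC K)) Q).coeff (-((p : ℤ) * Q.natDegree)) = Q.leadingCoeff := by
  have h1 : aeval (qExpand K p (jqModC K)) Q = qExpand K p (aeval (jqModC K) Q) := by
    have := Polynomial.aeval_algHom_apply (qExpandAlgHomC K p) (jqModC K) Q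
    simpa using this
  rw [h1, show -((p : ℤ) * Q.natDegree) = (p : ℤ) * (-(Q.natDegree : ℤ)) by ring,
    qExpand_coeff_mul, Fermat.Agent.S28.coeff_aeval_jqModC]

/-- the degree bound -/
theorem natDegree_le_of_low {K : Type*} [Field K] (Q : K[X]) (m : ℕ)
    (h : Low (-((p : ℤ) * m)) (aeval (qExpand K p (jqModC K)) Q)) : Q.natDegree ≤ m := by
  by_contra hlt
  rw [not_le] at hlt
  have hp0 : (0 : ℤ) < p := by exact_mod_cast hp.out.pos
  have h1 := h (-((p : ℤ) * Q.natDegree)) (by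
    have : (m : ℤ) < Q.natDegree := by exact_mod_cast hlt
    nlinarith)
  rw [coeff_aeval_qExpand] at h1
  have hQ : Q ≠ 0 := by
    rintro rfl
    simp at hlt
  exact (Polynomial.leadingCoeff_ne_zero.mpr hQ) h1

/-- **the modular equation with degree bounds**, in `ℚ̄((𝐪))` -/
theorem exists_modEq_deg : ∃ c : ℕ → Qb[X],
    (∀ i, i < p + 1 → (c i).natDegree ≤ p * (p + 1 - i)) ∧
    (jqModC Qb) ^ (p + 1) + ∑ i ∈ Finset.range (p + 1),
      aeval (qExpand Qb p (jqModC Qb)) (c i) * (jqModC Qb) ^ i = 0 := by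
  obtain ⟨ζ₀, hζ₀⟩ := IsAlgClosed.exists_root (Polynomial.cyclotomic p Qb)
    (by
      rw [Polynomial.degree_cyclotomic]
      exact_mod_cast (Nat.totient_pos.2 hp.out.pos).ne')
  haveI : NeZero ((p : ℕ) : Qb) := ⟨by exact_mod_cast hp.out.ne_zero⟩
  have hprim : IsPrimitiveRoot ζ₀ p := Polynomial.isRoot_cyclotomic_iff.1 hζ₀
  have hu : IsUnit ζ₀ := IsUnit.of_pow_eq_one hprim.pow_eq_one hp.out.ne_zero
  set ζ : Qbˣ := hu.unit with hζ
  have hζroot : Polynomial.eval₂ (Int.castRingHom Qb) (ζ : Qb) (Polynomial.cyclotomic p ℤ) = 0 := by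
    rw [Polynomial.eval₂_eq_eval_map, Polynomial.map_cyclotomic_int]
    exact hζ₀
  have hstar := Fermat.Agent.S28.ModEq.star_of_isRoot p ζ hζroot
  choose c hc using hstar
  refine ⟨c, ?_, ?_⟩
  · intro i hi
    apply natDegree_le_of_low p
    rw [hc i]
    refine (low_coeff_Psi p ζ i).mono ?_
    have : ((p + 1 - i : ℕ) : ℤ) = (p : ℤ) + 1 - i := by
      have : i ≤ p + 1 := hi.le
      push_cast [Nat.cast_sub this]
      ring
    push_cast [this]
    have hp0 : (0 : ℤ) ≤ p := by positivity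
    nlinarith
  · have hmonic := Fermat.Agent.S28.ModEq.Psi_monic (R := Qb) p ζ
    have hdeg := Fermat.Agent.S28.ModEq.Psi_natDegree (R := Qb) p ζ
    have hroot : (Fermat.Agent.S28.ModEq.Psi p ζ).eval (jqModC Qb) = 0 := by
      rw [Fermat.Agent.S28.ModEq.Psi, Polynomial.eval_prod]
      apply Finset.prod_eq_zero (Finset.mem_univ (some ⟨0, hp.out.pos⟩ : Option (Fin p)))
      rw [Polynomial.eval_sub, Polynomial.eval_X, Polynomial.eval_C]
      show jqModC Qb - Fermat.Agent.S28.rot (ζ ^ ((⟨0, hp.out.pos⟩ : Fin p) : ℕ)) (jqModC Qb) = 0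
      rw [show ((⟨0, hp.out.pos⟩ : Fin p) : ℕ) = 0 from rfl, pow_zero, Fermat.Agent.S28.rot_one,
        sub_self]
    have hsum := hmonic.as_sum
    rw [hdeg] at hsum
    rw [hsum, Polynomial.eval_add, Polynomial.eval_pow, Polynomial.eval_X,
      Polynomial.eval_finsetSum] at hroot
    rw [← hroot]
    congr 1
    refine Finset.sum_congr rfl fun i _ => ?_
    rw [Polynomial.eval_mul, Polynomial.eval_C, Polynomial.eval_pow, Polynomial.eval_X, hc]

end ModEq

/-! ### From a modular equation to polar divisors -/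

section Places

variable {K F : Type*} [Field K] [Field F] [Algebra K F]

/-- for `deg c ≤ N`: `c(y) · y⁻ᴺ ∈ K[y⁻¹]` -/
theorem aeval_mul_inv_pow_mem (y : F) (hy : y ≠ 0) (c : K[X]) (N : ℕ) (hc : c.natDegree ≤ N) :
    aeval y c * (y⁻¹) ^ N ∈ Algebra.adjoin K {y⁻¹} := by
  rw [Polynomial.aeval_eq_sum_range' (Nat.lt_succ_of_le hc), Finset.sum_mul]
  refine Subalgebra.sum_mem _ fun k hk => ?_
  have hk' : k ≤ N := Nat.lt_succ_iff.mp (Finset.mem_range.mp hk)
  obtain ⟨d, rfl⟩ := Nat.exists_eq_add_of_le hk'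
  have h1 : c.coeff k • y ^ k * (y⁻¹) ^ (k + d) = c.coeff k • (y⁻¹) ^ d := by
    rw [smul_mul_assoc, pow_add, ← mul_assoc, ← mul_pow, mul_inv_cancel₀ hy, one_pow, one_mul]
  rw [h1]
  exact Subalgebra.smul_mem _ (Subalgebra.pow_mem _
    (Algebra.subset_adjoin (Set.mem_singleton _)) _) _

/-- `x` is integral over `K[y]` -/
theorem isIntegral_of_modEq (x y : F) (n : ℕ) (c : ℕ → K[X])
    (heq : x ^ (n + 1) + ∑ i ∈ Finset.range (n + 1), aeval y (c i) * x ^ i = 0) :
    IsIntegral (Algebra.adjoin K {y}) x := by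
  have hmem : ∀ Q : K[X], aeval y Q ∈ Algebra.adjoin K {y} := fun Q => by
    rw [Algebra.adjoin_singleton_eq_range_aeval]
    exact ⟨Q, rfl⟩
  refine ⟨X ^ (n + 1) + ∑ i ∈ Finset.range (n + 1),
    Polynomial.C (⟨aeval y (c i), hmem _⟩ : Algebra.adjoin K {y}) * X ^ i, ?_, ?_⟩
  · apply Polynomial.monic_X_pow_add
    refine lt_of_le_of_lt (Polynomial.degree_sum_le _ _) ?_
    rw [Finset.sup_lt_iff (WithBot.bot_lt_coe _)]
    intro i hi
    refine lt_of_le_of_lt (Polynomial.degree_C_mul_X_pow_le _ _) ?_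
    exact_mod_cast Finset.mem_range.mp hi
  · rw [Polynomial.eval₂_add, Polynomial.eval₂_pow, Polynomial.eval₂_X, Polynomial.eval₂_finsetSum,
      ← heq]
    congr 1
    refine Finset.sum_congr rfl fun i _ => ?_
    rw [Polynomial.eval₂_mul, Polynomial.eval₂_C, Polynomial.eval₂_pow, Polynomial.eval₂_X]
    rfl

/-- `x / y^m` is integral over `K[y⁻¹]` -/
theorem isIntegral_of_modEq_inv (x y : F) (hy : y ≠ 0) (n m : ℕ) (c : ℕ → K[X])
    (hdeg : ∀ i, i < n + 1 → (c i).natDegree ≤ m * (n + 1 - i))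
    (heq : x ^ (n + 1) + ∑ i ∈ Finset.range (n + 1), aeval y (c i) * x ^ i = 0) :
    IsIntegral (Algebra.adjoin K {y⁻¹}) (x * (y⁻¹) ^ m) := by
  classical
  let γ : ℕ → Algebra.adjoin K {y⁻¹} := fun i =>
    if hi : i < n + 1 then ⟨aeval y (c i) * (y⁻¹) ^ (m * (n + 1 - i)),
      aeval_mul_inv_pow_mem y hy (c i) _ (hdeg i hi)⟩ else 0
  refine ⟨X ^ (n + 1) + ∑ i ∈ Finset.range (n + 1), Polynomial.C (γ i) * X ^ i, ?_, ?_⟩
  · apply Polynomial.monic_X_pow_add
    refine lt_of_le_of_lt (Polynomial.degree_sum_le _ _) ?_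
    rw [Finset.sup_lt_iff (WithBot.bot_lt_coe _)]
    intro i hi
    refine lt_of_le_of_lt (Polynomial.degree_C_mul_X_pow_le _ _) ?_
    exact_mod_cast Finset.mem_range.mp hi
  · rw [Polynomial.eval₂_add, Polynomial.eval₂_pow, Polynomial.eval₂_X, Polynomial.eval₂_finsetSum]
    have key : (x * (y⁻¹) ^ m) ^ (n + 1) + ∑ i ∈ Finset.range (n + 1),
        Polynomial.eval₂ (algebraMap (Algebra.adjoin K {y⁻¹}) F) (x * (y⁻¹) ^ m)
          (Polynomial.C (γ i) * X ^ i)
        = (y⁻¹) ^ (m * (n + 1)) * (x ^ (n + 1) + ∑ i ∈ Finset.range (n + 1),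
            aeval y (c i) * x ^ i) := by
      rw [mul_add, Finset.mul_sum]
      congr 1
      · rw [mul_pow, ← pow_mul, mul_comm]
      · refine Finset.sum_congr rfl fun i hi => ?_
        have hi' : i < n + 1 := Finset.mem_range.mp hi
        rw [Polynomial.eval₂_mul, Polynomial.eval₂_C, Polynomial.eval₂_pow, Polynomial.eval₂_X]
        have hγ : algebraMap (Algebra.adjoin K {y⁻¹}) F (γ i)
            = aeval y (c i) * (y⁻¹) ^ (m * (n + 1 - i)) := by
          simp only [γ, dif_pos hi']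
          rfl
        rw [hγ, mul_pow, ← pow_mul]
        have e : m * (n + 1) = m * (n + 1 - i) + m * i := by
          rw [← mul_add, Nat.sub_add_cancel hi'.le]
        rw [e, pow_add]
        ring
    rw [key, heq, mul_zero]

variable [IsAlgClosed K]

/-- the orders of `x` at a place, from a modular equation over `y` -/
theorem ord_of_modEq (x y : F) (hx : x ≠ 0) (hy : y ≠ 0) (n m : ℕ) (c : ℕ → K[X])
    (hdeg : ∀ i, i < n + 1 → (c i).natDegree ≤ m * (n + 1 - i))
    (heq : x ^ (n + 1) + ∑ i ∈ Finset.range (n + 1), aeval y (c i) * x ^ i = 0)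
    (P : Place K F) :
    (0 ≤ P.ord y → 0 ≤ P.ord x) ∧ (P.ord y ≤ 0 → (m : ℤ) * P.ord y ≤ P.ord x) := by
  constructor
  · intro h
    exact Fermat.Agent.Lib.FFs.ord_nonneg_of_isIntegral (isIntegral_of_modEq x y n c heq) P h
  · intro h
    have h1 := Fermat.Agent.Lib.FFs.ord_nonneg_of_isIntegral
      (isIntegral_of_modEq_inv x y hy n m c hdeg heq) P (by rw [P.ord_inv]; omega)
    have hpow : (y⁻¹) ^ m ≠ 0 := pow_ne_zero _ (inv_ne_zero hy)
    have hord : P.ord ((y⁻¹) ^ m) = -((m : ℤ) * P.ord y) := by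
      rw [inv_pow, P.ord_inv, ← zpow_natCast, P.ord_zpow]
    rw [P.ord_mul hx hpow, hord] at h1
    linarith

/-- **polar divisors**: `Pol(x) ≤ m • Pol(y)` -/
theorem poleDiv_le_of_modEq (hpf : PlaceFacts K F) (x y : F) (hx : x ≠ 0) (hy : y ≠ 0)
    (n m : ℕ) (c : ℕ → K[X])
    (hdeg : ∀ i, i < n + 1 → (c i).natDegree ≤ m * (n + 1 - i))
    (heq : x ^ (n + 1) + ∑ i ∈ Finset.range (n + 1), aeval y (c i) * x ^ i = 0) :
    hpf.poleDiv x ≤ m • hpf.poleDiv y := by
  rw [Finsupp.le_def]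
  intro P
  obtain ⟨h1, h2⟩ := ord_of_modEq x y hx hy n m c hdeg heq P
  rw [Finsupp.smul_apply, hpf.poleDiv_apply, hpf.poleDiv_apply, nsmul_eq_mul]
  rcases le_or_gt 0 (P.ord y) with h | h
  · have := h1 h
    rw [max_eq_right (by omega), max_eq_right (by omega), mul_zero]
  · have := h2 h.le
    rw [max_eq_left (a := -P.ord y) (by omega)]
    apply max_le
    · linarith
    · have hm : (0 : ℤ) ≤ m := by positivity
      nlinarith

end Places

/-! ### (K1) on `F(Mq)` -/

section K1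

variable (q : ℕ) [hq : Fact q.Prime] (M : ℕ) [NeZero M] (hqM : ¬ q ∣ M)

attribute [local instance] neZero_q

theorem jBar_ne_zero : Fermat.Agent.S24.jBar (M * q) ≠ 0 := fun h =>
  (Fermat.Agent.S24.isFF1_jBar (M * q)).transcendental (h ▸ isAlgebraic_zero)

include hqM in
theorem jq_ne_zero : jq q M ≠ 0 := by
  intro h
  have h1 := wAL_jq q M hqM
  rw [h, map_zero] at h1
  exact jBar_ne_zero q M h1.symm

/-- the modular equation in `F(Mq)`: `j` over `j_q`, with degree bounds -/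
theorem modEq_j : ∃ c : ℕ → Qb[X],
    (∀ i, i < q + 1 → (c i).natDegree ≤ q * (q + 1 - i)) ∧
    (Fermat.Agent.S24.jBar (M * q)) ^ (q + 1) + ∑ i ∈ Finset.range (q + 1),
      aeval (jq q M) (c i) * (Fermat.Agent.S24.jBar (M * q)) ^ i = 0 := by
  obtain ⟨c, hdeg, hc⟩ := exists_modEq_deg q
  refine ⟨c, hdeg, ?_⟩
  have hinj : Function.Injective (modularFunctionFieldBar (M * q)).val :=
    (modularFunctionFieldBar (M * q)).val.toRingHom.injective
  apply hinj
  have hx : (modularFunctionFieldBar (M * q)).val (Fermat.Agent.S24.jBar (M * q))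
      = jqModC Qb := Fermat.Agent.S18.GV.coe_jBar (M * q)
  have hy : (modularFunctionFieldBar (M * q)).val (jq q M) = qExpand Qb q (jqModC Qb) :=
    coe_jq q M
  have hae : ∀ Q : Polynomial Qb,
      (modularFunctionFieldBar (M * q)).val (Polynomial.aeval (jq q M) Q)
      = Polynomial.aeval (qExpand Qb q (jqModC Qb)) Q := by
    intro Q
    rw [← hy]
    exact (Polynomial.aeval_algHom_apply (modularFunctionFieldBar (M * q)).val _ Q).symm
  rw [map_zero, map_add, map_pow, map_sum, ← hc, hx]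
  congr 1
  refine Finset.sum_congr rfl fun i _ => ?_
  rw [map_mul, map_pow, hae, hx]

include hqM in
/-- the modular equation in `F(Mq)`: `j_q` over `j`, with degree bounds -/
theorem modEq_jq : ∃ c : ℕ → Qb[X],
    (∀ i, i < q + 1 → (c i).natDegree ≤ q * (q + 1 - i)) ∧
    (jq q M) ^ (q + 1) + ∑ i ∈ Finset.range (q + 1),
      aeval (Fermat.Agent.S24.jBar (M * q)) (c i) * (jq q M) ^ i = 0 := by
  obtain ⟨c, hdeg, hc⟩ := modEq_j q M
  refine ⟨c, hdeg, ?_⟩
  have hw1 : Fermat.Agent.S37.AL.wALEquiv hq.out hqM (Fermat.Agent.S24.jBar (M * q)) = jq q M :=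
    wAL_jBar q M hqM
  have hw2 : Fermat.Agent.S37.AL.wALEquiv hq.out hqM (jq q M) = Fermat.Agent.S24.jBar (M * q) :=
    wAL_jq q M hqM
  have := congrArg (Fermat.Agent.S37.AL.wALEquiv hq.out hqM) hc
  rw [map_zero, map_add, map_pow, hw1, map_sum] at this
  rw [← this]
  congr 1
  refine Finset.sum_congr rfl fun i _ => ?_
  have hae : Fermat.Agent.S37.AL.wALEquiv hq.out hqM (Polynomial.aeval (jq q M) (c i))
      = Polynomial.aeval (Fermat.Agent.S24.jBar (M * q)) (c i) := by
    rw [← hw2]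
    exact (Polynomial.aeval_algHom_apply (Fermat.Agent.S37.AL.wALEquiv hq.out hqM) _ (c i)).symm
  rw [map_mul, map_pow, hw1, hae]

include hqM in
/-- **(K1a)** `Pol(j) ≤ q • Pol(j_q)` on `F(Mq)` -/
theorem poleDiv_j_le (hpf : PlaceFacts Qb (modularFunctionFieldBar (M * q))) :
    hpf.poleDiv (Fermat.Agent.S24.jBar (M * q)) ≤ q • hpf.poleDiv (jq q M) := by
  obtain ⟨c, hdeg, hc⟩ := modEq_j q M
  exact poleDiv_le_of_modEq hpf _ _ (jBar_ne_zero q M) (jq_ne_zero q M hqM) q q c hdeg hc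

include hqM in
/-- **(K1b)** `Pol(j_q) ≤ q • Pol(j)` on `F(Mq)` -/
theorem poleDiv_jq_le (hpf : PlaceFacts Qb (modularFunctionFieldBar (M * q))) :
    hpf.poleDiv (jq q M) ≤ q • hpf.poleDiv (Fermat.Agent.S24.jBar (M * q)) := by
  obtain ⟨c, hdeg, hc⟩ := modEq_jq q M hqM
  exact poleDiv_le_of_modEq hpf _ _ (jq_ne_zero q M hqM) (jBar_ne_zero q M) q q c hdeg hc

include hqM in
/-- (K1), pointwise form: the orders of `j` and `j_q` at a place of `F(Mq)` -/
theorem ord_j_jq (P : Place Qb (modularFunctionFieldBar (M * q))) :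
    (0 ≤ P.ord (jq q M) ↔ 0 ≤ P.ord (Fermat.Agent.S24.jBar (M * q))) ∧
    (P.ord (jq q M) ≤ 0 → (q : ℤ) * P.ord (jq q M) ≤ P.ord (Fermat.Agent.S24.jBar (M * q))) ∧
    (P.ord (Fermat.Agent.S24.jBar (M * q)) ≤ 0 →
      (q : ℤ) * P.ord (Fermat.Agent.S24.jBar (M * q)) ≤ P.ord (jq q M)) := by
  obtain ⟨c, hdeg, hc⟩ := modEq_j q M
  obtain ⟨c', hdeg', hc'⟩ := modEq_jq q M hqM
  obtain ⟨h1, h2⟩ := ord_of_modEq _ _ (jBar_ne_zero q M) (jq_ne_zero q M hqM) q q c hdeg hc P
  obtain ⟨h3, h4⟩ := ord_of_modEq _ _ (jq_ne_zero q M hqM) (jBar_ne_zero q M) q q c' hdeg' hc' P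
  exact ⟨⟨h1, h3⟩, h2, h4⟩

end K1

end Fermat.Agent.S34.C3
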