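import Fermat.Agent.S18.FinalSetup
import Fermat.Agent.S37.ALDeg
import Fermat.Agent.Lib.Gamma0Count.PrimCount

/-!
# C83 (S34), piece C3, part 1: the numbers for `X₀(Mq)` at `q`

Level `M * q`, `q` prime, `q ∤ M`, `A` a valuation ring of `ℚ̄` over `q`, `k` its residue field.

* `placeFacts_N`, `placeFacts_k`, `rthm_N`, `rthm_k`: place facts and Riemann's theorem for
  `F(Mq)` over `ℚ̄` (genus `genusFormula (M * q)`) and for `F_k(M)` over `k`;
* `jq`: the function `j(𝐪^q) = β j = w j` in `F(Mq)`;
* `dedekindPsi_mul_prime`: `ψ(Mq) = ψ(M) (q + 1)`;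
* `degree_pol_j`, `degree_pol_J`: the degrees of the polar divisors of `j` and `J`.
-/

set_option autoImplicit false
set_option linter.unusedSectionVars false
set_option linter.unusedVariables false
set_option linter.style.haveILetI false
set_option synthInstance.maxHeartbeats 400000
set_option maxHeartbeats 1000000

noncomputable section

open AlgebraicCurve ModularCurve IntermediateField Fermat.Agent.Lib.FF

namespace Fermat.Agent.S34.C3

local notation "Qb" => AlgebraicClosure ℚ

variable (A : ValuationSubring (AlgebraicClosure ℚ)) (q : ℕ) [hq : Fact q.Prime]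
variable (hA : A.LiesOverPrime q) (M : ℕ) [NeZero M] (hqM : ¬ q ∣ M)

/-- `q ≠ 0` as an instance -/
theorem neZero_q : NeZero q := ⟨hq.out.ne_zero⟩

attribute [local instance] neZero_q

/-- the place facts of `F(Mq)` over `ℚ̄` -/
theorem placeFacts_N : PlaceFacts Qb (modularFunctionFieldBar (M * q)) :=
  Fermat.Agent.S18.Final.placeFacts_bar (M * q)

include hA in
/-- the place facts of `F_k(M)` over `k` -/
theorem placeFacts_k :
    PlaceFacts (IsLocalRing.ResidueField A)
      (modularFunctionFieldFullC (IsLocalRing.ResidueField A) M) :=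
  Fermat.Agent.S18.Final.placeFacts_k A q hA M

/-- Riemann's theorem for `F(Mq)` with the genus formula -/
theorem rthm_N : ∃ (g : ℕ) (c : ℤ), (g : ℚ) = genusFormula (M * q) ∧
    Fermat.Agent.S18.Deuring.RThm Qb (modularFunctionFieldBar (M * q)) g c :=
  Fermat.Agent.S18.RF.rthm_bar (M * q)

include hA in
/-- Riemann's theorem for `F_k(M)` -/
theorem rthm_k : ∃ (g : ℕ) (c : ℤ),
    Fermat.Agent.S18.Deuring.RThm (IsLocalRing.ResidueField A)
      (modularFunctionFieldFullC (IsLocalRing.ResidueField A) M) g c :=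
  haveI := Fermat.Agent.S18.ResClosed.isAlgClosed_residueField A
  Fermat.Agent.S18.RF.rthm_of_isFF1s (Fermat.Agent.S18.Final.isFF1s_jK A q hA M)

include hqM in
/-- `ψ(Mq) = ψ(M) (q + 1)` -/
theorem dedekindPsi_mul_prime : dedekindPsi (M * q) = dedekindPsi M * (q + 1) := by
  have hcop : M.Coprime q := (Nat.Prime.coprime_iff_not_dvd hq.out).2 hqM |>.symm
  rw [Fermat.Agent.Lib.Gamma0Count.dedekindPsi_mul hcop]
  have h := Fermat.Agent.Lib.Gamma0Count.dedekindPsi_prime_pow (p := q) (k := 1) hq.out
    Nat.one_pos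
  rw [pow_one, Nat.sub_self, pow_zero] at h
  rw [h]

/-- the degree of the polar divisor of `j` on `X₀(Mq)` -/
theorem degree_pol_j :
    Divisor.degree ((placeFacts_N q M).poleDiv (Fermat.Agent.S24.jBar (M * q)))
      = (dedekindPsi (M * q) : ℤ) :=
  Fermat.Agent.S18.Final.degree_poleDiv_bar (M * q) _

include hA hqM in
/-- the degree of the polar divisor of `J` on the reduction of `X₀(M)` -/
theorem degree_pol_J :
    Divisor.degree ((placeFacts_k A q hA M).poleDiv
        (Fermat.Agent.S18.GV.jK (IsLocalRing.ResidueField A) M))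
      = (dedekindPsi M : ℤ) :=
  Fermat.Agent.S18.Final.degree_poleDiv_k A q hA M hqM _

/-- the function `j(𝐪^q)` of `F(Mq)` -/
def jq : modularFunctionFieldBar (M * q) :=
  heckeBetaBar Qb M q (Fermat.Agent.S24.jBar M)

theorem coe_jq : ((jq q M : modularFunctionFieldBar (M * q)) : LaurentSeries Qb)
    = qExpand Qb q (jqModC Qb) := by
  show qExpand Qb q ((Fermat.Agent.S24.jBar M : modularFunctionFieldBar M) : LaurentSeries Qb) = _
  rw [Fermat.Agent.S18.GV.coe_jBar]

theorem alpha_jBar :
    heckeAlphaBar Qb M q (Fermat.Agent.S24.jBar M) = Fermat.Agent.S24.jBar (M * q) := by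
  apply Subtype.ext
  rw [coe_heckeAlphaBar, Fermat.Agent.S18.GV.coe_jBar, Fermat.Agent.S18.GV.coe_jBar]

include hqM in
/-- the Atkin–Lehner involution exchanges `j` and `j(𝐪^q)` -/
theorem wAL_jBar :
    Fermat.Agent.S37.AL.wAL hq.out hqM (Fermat.Agent.S24.jBar (M * q)) = jq q M := by
  rw [← alpha_jBar q M, Fermat.Agent.S37.AL.wAL_alpha]
  rfl

include hqM in
theorem wAL_jq :
    Fermat.Agent.S37.AL.wAL hq.out hqM (jq q M) = Fermat.Agent.S24.jBar (M * q) := by
  rw [← wAL_jBar q M hqM, Fermat.Agent.S37.AL.wAL_wAL]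

end Fermat.Agent.S34.C3
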