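import Mathlib
import Fermat.Agent.S37.GalConc
import Fermat.Agent.S37.ALMap
import Fermat.Agent.S05.Inertia
import Fermat.Agent.S34.Setup2

/-!
# C83 (S34), piece C4 = (EQ): the inertia group and the two reductions of `X₀(N q)` at `q`

Level `N * q`, `q` prime, `q ∤ N`; `A` a valuation ring of `ℚ̄`; `F = ℚ̄(X₀(N q))`.

* `Red₁ = RedF A (N * q)`: the Gauss reduction of `q`-expansions at the cusp `∞`;
* `Red₂ x a := Red₁ (w x) a` with `w = wAL` the Atkin–Lehner involution (the reduction at the
  cusp `0`), `red2`;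
* `galois_smul_aevalF`: the Galois group acts on polynomial expressions in the generators
  through the coefficients;
* `wAL_galois_smul`: `w` commutes with the Galois action;
* `redF_inertia`, `red2_inertia`: for `h` in the inertia group of `A`:
  `Red_i x a → Red_i (h • x) a`;
* `redF_decomp`, `red2_decomp`: the same for the decomposition group, with the coefficientwise
  action on the residue side;
* `galois_smul_poleDiv_j`, `galois_smul_poleDiv_wj`: the Galois group fixes the polar divisors
  of `j` and of `w j`;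
* `val_decomp_eq`: the decomposition group preserves the valuation;
* `compat2_inertia`: **the instance of `Compat2`** for `h` in the inertia group, for any pair of
  reduction relations `Red₁`, `Red₂` which are the Gauss reduction of `x`, resp. of `w x`
  (with arbitrary carriers `Fk₁`, `Fk₂` mapping to `k((q))`), and any Galois-stable divisor.
-/

set_option autoImplicit false
set_option linter.unusedSectionVars false
set_option linter.unusedVariables false
set_option linter.style.haveILetI false

noncomputable section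

namespace Fermat.Agent.S34.Equiv

open ModularCurve AlgebraicCurve Fermat.Agent.Lib.ModC Fermat.Agent.Lib.FF
open Fermat.Agent.S37.AL Fermat.Agent.S37.G Fermat.Agent.S18.GV Fermat.Agent.S18 Fermat.Agent

local notation "Qb" => AlgebraicClosure ℚ
local notation "Gal" => (AlgebraicClosure ℚ ≃ₐ[ℚ] AlgebraicClosure ℚ)
local notation "Ω" => LaurentSeries (AlgebraicClosure ℚ)

/-! ### the Galois action on polynomial expressions -/

section Poly

variable (N : ℕ)

theorem coeffMap_aeval_gensK (σ : Gal) (P : MvPolynomial (DivIdx N) Qb) :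
    coeffMap ((σ : Qb ≃ₐ[ℚ] Qb) : Qb →+* Qb) (MvPolynomial.aeval (gensK Qb N) P)
      = MvPolynomial.aeval (gensK Qb N) (MvPolynomial.map ((σ : Qb ≃ₐ[ℚ] Qb) : Qb →+* Qb) P) := by
  induction P using MvPolynomial.induction_on with
  | C c =>
    rw [MvPolynomial.map_C, MvPolynomial.aeval_C, MvPolynomial.aeval_C,
      algebraMap_laurentSeries_eq_single, coeffMap_single, algebraMap_laurentSeries_eq_single]
  | add P Q hP hQ => rw [map_add, map_add, map_add, map_add, hP, hQ]
  | mul_X P d hP =>
    simp only [map_mul, MvPolynomial.map_X, MvPolynomial.aeval_X, hP]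
    rw [gensK_eq, coeffMap_coeffEmb]

/-- the Galois group acts on polynomial expressions through the coefficients -/
theorem galois_smul_aevalF (σ : Gal) (P : MvPolynomial (DivIdx N) Qb) :
    arithmeticGalois (modularFunctionFieldFull N) σ • (aevalF N P : modularFunctionFieldBar N)
      = aevalF N (MvPolynomial.map ((σ : Qb ≃ₐ[ℚ] Qb) : Qb →+* Qb) P) := by
  apply Subtype.ext
  rw [coe_arithmeticGalois_smul, coe_aevalF, coe_aevalF]
  exact coeffMap_aeval_gensK N σ P

end Poly

/-! ### the Atkin–Lehner involution commutes with the Galois action -/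

section AL

variable {N ℓ : ℕ} [NeZero ℓ] (hℓ : ℓ.Prime) (hN : ¬ ℓ ∣ N)

/-- the Galois action as a ring homomorphism -/
def galHom (M : ℕ) (σ : Gal) : modularFunctionFieldBar M →+* modularFunctionFieldBar M :=
  ((SemilinearAut.toRingAut (arithmeticGalois (modularFunctionFieldFull M) σ) :
    modularFunctionFieldBar M ≃+* modularFunctionFieldBar M) :
    modularFunctionFieldBar M →+* modularFunctionFieldBar M)

theorem galHom_apply (M : ℕ) (σ : Gal) (f : modularFunctionFieldBar M) :
    galHom M σ f = arithmeticGalois (modularFunctionFieldFull M) σ • f := rfl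

/-- **the Atkin–Lehner involution commutes with the Galois action** -/
theorem wAL_galois_smul (σ : Gal) (f : modularFunctionFieldBar (N * ℓ)) :
    wAL hℓ hN (arithmeticGalois (modularFunctionFieldFull (N * ℓ)) σ • f)
      = arithmeticGalois (modularFunctionFieldFull (N * ℓ)) σ • wAL hℓ hN f := by
  have hP : ∀ P : MvPolynomial (DivIdx (N * ℓ)) Qb,
      wAL hℓ hN (galHom (N * ℓ) σ (aevalF (N * ℓ) P))
        = galHom (N * ℓ) σ (wAL hℓ hN (aevalF (N * ℓ) P)) := by
    intro P
    rw [galHom_apply, galHom_apply, galois_smul_aevalF, wAL_aevalF, wAL_aevalF,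
      galois_smul_aevalF]
    congr 1
    unfold swapRename
    exact (MvPolynomial.map_rename _ _ _).symm
  obtain ⟨P, Q, hQ, hf⟩ := exists_aevalF_div (N * ℓ) f
  have h1 : wAL hℓ hN (galHom (N * ℓ) σ f) * wAL hℓ hN (galHom (N * ℓ) σ (aevalF (N * ℓ) Q))
      = galHom (N * ℓ) σ (wAL hℓ hN f) * galHom (N * ℓ) σ (wAL hℓ hN (aevalF (N * ℓ) Q)) := by
    rw [← map_mul, ← map_mul, ← map_mul, ← map_mul, hf, hP P]
  rw [hP Q] at h1
  have hQ' : galHom (N * ℓ) σ (wAL hℓ hN (aevalF (N * ℓ) Q)) ≠ 0 :=
    (map_ne_zero _).mpr ((map_ne_zero _).mpr hQ)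
  exact mul_right_cancel₀ hQ' h1

end AL

/-! ### the Gauss reduction and the decomposition / inertia group -/

section Red

variable (A : ValuationSubring Qb)

/-- the coefficientwise action of the trivial automorphism is trivial -/
theorem coeffMap_one_residue (a : LaurentSeries (IsLocalRing.ResidueField A)) :
    coeffMap (((1 : RingAut (IsLocalRing.ResidueField A)) : IsLocalRing.ResidueField A ≃+* _) :
      IsLocalRing.ResidueField A →+* IsLocalRing.ResidueField A) a = a := by
  rw [show (((1 : RingAut (IsLocalRing.ResidueField A)) : IsLocalRing.ResidueField A ≃+* _) :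
      IsLocalRing.ResidueField A →+* IsLocalRing.ResidueField A) = RingHom.id _ from
    RingHom.ext fun _ => rfl, coeffMap_id]

/-- **decomposition group**: the Gauss reduction of `q`-expansions at level `M` -/
theorem red_decomp (M : ℕ) (g : A.decompositionSubgroup ℚ) {x : modularFunctionFieldBar M}
    {a : LaurentSeries (IsLocalRing.ResidueField A)} (h : Red A (x : Ω) a) :
    Red A ((arithmeticGalois (modularFunctionFieldFull M) (g : Gal) • x :
        modularFunctionFieldBar M) : Ω)
      (coeffMap ((resAut A g : IsLocalRing.ResidueField A ≃+* _) :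
        IsLocalRing.ResidueField A →+* IsLocalRing.ResidueField A) a) := by
  rw [coe_arithmeticGalois_smul]
  exact Red.coeffMap_decomp A g h

/-- **inertia**: the Gauss reduction of `q`-expansions at level `M` -/
theorem red_inertia (M : ℕ) {σ : Gal} (hσ : σ ∈ A.inertiaSubgroupIn ℚ)
    {x : modularFunctionFieldBar M} {a : LaurentSeries (IsLocalRing.ResidueField A)}
    (h : Red A (x : Ω) a) :
    Red A ((arithmeticGalois (modularFunctionFieldFull M) σ • x : modularFunctionFieldBar M) : Ω)
      a := by
  obtain ⟨g, hg, rfl⟩ := hσ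
  have h1 : resAut A g = 1 := hg
  have h2 := red_decomp A M g h
  rw [h1, coeffMap_one_residue] at h2
  exact h2

/-- inertia, converse direction -/
theorem red_inertia_iff (M : ℕ) {σ : Gal} (hσ : σ ∈ A.inertiaSubgroupIn ℚ)
    {x : modularFunctionFieldBar M} {a : LaurentSeries (IsLocalRing.ResidueField A)} :
    Red A ((arithmeticGalois (modularFunctionFieldFull M) σ • x : modularFunctionFieldBar M) : Ω)
      a ↔ Red A (x : Ω) a := by
  refine ⟨fun h => ?_, red_inertia A M hσ⟩
  have h2 := red_inertia A M ((A.inertiaSubgroupIn ℚ).inv_mem hσ) h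
  rwa [← mul_smul, ← map_mul, inv_mul_cancel, map_one, one_smul] at h2

variable {N ℓ : ℕ} [NeZero ℓ] (hℓ : ℓ.Prime) (hN : ¬ ℓ ∣ N)

/-- **decomposition group**: the reduction at the other cusp (through the Atkin–Lehner
involution) -/
theorem red_wAL_decomp (g : A.decompositionSubgroup ℚ) {x : modularFunctionFieldBar (N * ℓ)}
    {a : LaurentSeries (IsLocalRing.ResidueField A)}
    (h : Red A ((wAL hℓ hN x : modularFunctionFieldBar (N * ℓ)) : Ω) a) :
    Red A ((wAL hℓ hN (arithmeticGalois (modularFunctionFieldFull (N * ℓ)) (g : Gal) • x) :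
        modularFunctionFieldBar (N * ℓ)) : Ω)
      (coeffMap ((resAut A g : IsLocalRing.ResidueField A ≃+* _) :
        IsLocalRing.ResidueField A →+* IsLocalRing.ResidueField A) a) := by
  rw [wAL_galois_smul]
  exact red_decomp A (N * ℓ) g h

/-- **inertia**: the reduction at the other cusp -/
theorem red_wAL_inertia {σ : Gal} (hσ : σ ∈ A.inertiaSubgroupIn ℚ)
    {x : modularFunctionFieldBar (N * ℓ)} {a : LaurentSeries (IsLocalRing.ResidueField A)}
    (h : Red A ((wAL hℓ hN x : modularFunctionFieldBar (N * ℓ)) : Ω) a) :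
    Red A ((wAL hℓ hN (arithmeticGalois (modularFunctionFieldFull (N * ℓ)) σ • x) :
        modularFunctionFieldBar (N * ℓ)) : Ω) a := by
  rw [wAL_galois_smul]
  exact red_inertia A (N * ℓ) hσ h

theorem red_wAL_inertia_iff {σ : Gal} (hσ : σ ∈ A.inertiaSubgroupIn ℚ)
    {x : modularFunctionFieldBar (N * ℓ)} {a : LaurentSeries (IsLocalRing.ResidueField A)} :
    Red A ((wAL hℓ hN (arithmeticGalois (modularFunctionFieldFull (N * ℓ)) σ • x) :
        modularFunctionFieldBar (N * ℓ)) : Ω) a
      ↔ Red A ((wAL hℓ hN x : modularFunctionFieldBar (N * ℓ)) : Ω) a := by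
  rw [wAL_galois_smul]
  exact red_inertia_iff A (N * ℓ) hσ

end Red

/-! ### divisors fixed by the Galois action -/

section Div

variable {N ℓ : ℕ} [NeZero ℓ] (hℓ : ℓ.Prime) (hN : ¬ ℓ ∣ N)

/-- the Galois group fixes the polar divisor of `j` -/
theorem galois_smul_poleDiv_j (M : ℕ) [NeZero M]
    (hpf : PlaceFacts Qb (modularFunctionFieldBar M)) (σ : Gal) :
    arithmeticGalois (modularFunctionFieldFull M) σ • hpf.poleDiv (S24.jBar M)
      = hpf.poleDiv (S24.jBar M) := by
  rw [smul_poleDiv, arithmeticGalois_smul_jBar]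

/-- the Galois group fixes the polar divisor of `w j` -/
theorem galois_smul_poleDiv_wj [NeZero (N * ℓ)]
    (hpf : PlaceFacts Qb (modularFunctionFieldBar (N * ℓ))) (σ : Gal) :
    arithmeticGalois (modularFunctionFieldFull (N * ℓ)) σ
        • hpf.poleDiv (wAL hℓ hN (S24.jBar (N * ℓ)))
      = hpf.poleDiv (wAL hℓ hN (S24.jBar (N * ℓ))) := by
  rw [smul_poleDiv, ← wAL_galois_smul, arithmeticGalois_smul_jBar]

end Div

/-! ### the decomposition group preserves the valuation -/

section Val

variable {F₀ K : Type*} [Field F₀] [Field K] [Algebra F₀ K] (A : ValuationSubring K)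

theorem decomp_le {σ : K ≃ₐ[F₀] K} (hσ : σ ∈ A.decompositionSubgroup F₀) {a b : K}
    (h : A.valuation a ≤ A.valuation b) : A.valuation (σ a) ≤ A.valuation (σ b) := by
  by_cases hb : b = 0
  · have ha : a = 0 := by
      rw [hb, Valuation.map_zero] at h
      exact (Valuation.zero_iff _).1 (le_antisymm h zero_le)
    rw [ha, hb]
  · have hvb : A.valuation b ≠ 0 := (Valuation.ne_zero_iff _).2 hb
    have hσb : σ b ≠ 0 := fun h0 => hb (by simpa using h0)
    have hvσb : A.valuation (σ b) ≠ 0 := (Valuation.ne_zero_iff _).2 hσb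
    have h1 : a / b ∈ A := by
      rw [← A.valuation_le_one_iff, map_div₀]
      exact (div_le_one₀ (zero_lt_iff.2 hvb)).2 h
    have h2 := Fermat.Agent.S05.mem_of_mem_decomposition A hσ h1
    rw [map_div₀, ← A.valuation_le_one_iff, map_div₀] at h2
    exact (div_le_one₀ (zero_lt_iff.2 hvσb)).1 h2

theorem decomp_lt {σ : K ≃ₐ[F₀] K} (hσ : σ ∈ A.decompositionSubgroup F₀) {a b : K}
    (h : A.valuation a < A.valuation b) : A.valuation (σ a) < A.valuation (σ b) := by
  by_contra hle
  rw [not_lt] at hle
  have := decomp_le A (inv_mem hσ) hle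
  have ea : σ⁻¹ (σ a) = a := σ.symm_apply_apply a
  have eb : σ⁻¹ (σ b) = b := σ.symm_apply_apply b
  rw [ea, eb] at this
  exact absurd h (not_lt.2 this)

theorem exists_pow_fixes [Algebra.IsAlgebraic F₀ K] (σ : K ≃ₐ[F₀] K) (z : K) :
    ∃ m : ℕ, 0 < m ∧ (σ ^ m) z = z := by
  have hz : IsIntegral F₀ z := (Algebra.IsAlgebraic.isAlgebraic z).isIntegral
  have hfin : ((minpoly F₀ z).rootSet K).Finite := Polynomial.rootSet_finite _ _
  have hmem : ∀ k : ℕ, (σ ^ k) z ∈ (minpoly F₀ z).rootSet K := by
    intro k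
    rw [Polynomial.mem_rootSet_of_ne (minpoly.ne_zero hz)]
    have := minpoly.aeval F₀ ((σ ^ k) z)
    rwa [minpoly.algEquiv_eq] at this
  have : Finite ((minpoly F₀ z).rootSet K) := hfin
  obtain ⟨i, j, hij, e⟩ := Finite.exists_ne_map_eq_of_infinite
    (fun k : ℕ => (⟨(σ ^ k) z, hmem k⟩ : (minpoly F₀ z).rootSet K))
  have e' : (σ ^ i) z = (σ ^ j) z := congrArg Subtype.val e
  have aux : ∀ i j : ℕ, i < j → (σ ^ i) z = (σ ^ j) z → ∃ m : ℕ, 0 < m ∧ (σ ^ m) z = z := by
    intro i j hlt e
    refine ⟨j - i, by omega, ?_⟩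
    have hj : σ ^ j = σ ^ i * σ ^ (j - i) := by rw [← pow_add]; congr 1; omega
    rw [hj, AlgEquiv.mul_apply] at e
    exact ((σ ^ i).injective e).symm
  rcases lt_or_gt_of_ne hij with h | h
  · exact aux i j h e'
  · exact aux j i h e'.symm

/-- the decomposition group preserves the valuation (algebraic case) -/
theorem val_decomp_eq [Algebra.IsAlgebraic F₀ K] {σ : K ≃ₐ[F₀] K}
    (hσ : σ ∈ A.decompositionSubgroup F₀) (z : K) : A.valuation (σ z) = A.valuation z := by
  obtain ⟨m, hm, e⟩ := exists_pow_fixes σ z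
  have hpow : ∀ k : ℕ, σ ^ k ∈ A.decompositionSubgroup F₀ := fun k => pow_mem hσ k
  have step : ∀ k : ℕ, (σ ^ (k + 1)) z = (σ ^ k) (σ z) := by
    intro k
    rw [pow_succ, AlgEquiv.mul_apply]
  rcases lt_trichotomy (A.valuation (σ z)) (A.valuation z) with h | h | h
  · exfalso
    have key : ∀ k : ℕ, A.valuation ((σ ^ (k + 1)) z) < A.valuation z := by
      intro k
      induction k with
      | zero => simpa using h
      | succ k ih =>
        have h1 := decomp_lt A (hpow (k + 1)) h
        rw [← step (k + 1)] at h1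
        exact h1.trans ih
    have := key (m - 1)
    rw [show m - 1 + 1 = m by omega, e] at this
    exact lt_irrefl _ this
  · exact h
  · exfalso
    have key : ∀ k : ℕ, A.valuation z < A.valuation ((σ ^ (k + 1)) z) := by
      intro k
      induction k with
      | zero => simpa using h
      | succ k ih =>
        have h1 := decomp_lt A (hpow (k + 1)) h
        rw [← step (k + 1)] at h1
        exact ih.trans h1
    have := key (m - 1)
    rw [show m - 1 + 1 = m by omega, e] at this
    exact lt_irrefl _ this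

/-- quotient form -/
theorem div_mem_of_decomp [Algebra.IsAlgebraic F₀ K] {σ : K ≃ₐ[F₀] K}
    (hσ : σ ∈ A.decompositionSubgroup F₀) {c : K} (hc : c ≠ 0) :
    σ c / c ∈ A ∧ c / σ c ∈ A := by
  have h := val_decomp_eq A hσ c
  have hv : A.valuation c ≠ 0 := (Valuation.ne_zero_iff _).2 hc
  constructor
  · rw [← A.valuation_le_one_iff, map_div₀, h, div_self hv]
  · rw [← A.valuation_le_one_iff, map_div₀, h, div_self hv]

end Val

/-! ### the instance of `Compat2` -/

section Compat

variable (A : ValuationSubring Qb) {N ℓ : ℕ} [NeZero ℓ] (hℓ : ℓ.Prime) (hN : ¬ ℓ ∣ N)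
variable {Fk₁ Fk₂ : Type*}

/-- **C4**: an element of the inertia group of `A` acts trivially on the special fibre: for any
pair of reduction relations which are the Gauss reductions of `x` and of `w x`, and any
Galois-stable divisor `D` (for instance the polar divisor of `j`, of `w j`, or their sum) -/
theorem compat2_inertia (ι₁ : Fk₁ → LaurentSeries (IsLocalRing.ResidueField A))
    (ι₂ : Fk₂ → LaurentSeries (IsLocalRing.ResidueField A))
    (Red₁ : modularFunctionFieldBar (N * ℓ) → Fk₁ → Prop)
    (Red₂ : modularFunctionFieldBar (N * ℓ) → Fk₂ → Prop)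
    (hRed₁ : ∀ x a, Red₁ x a ↔ Red A (x : Ω) (ι₁ a))
    (hRed₂ : ∀ x a, Red₂ x a ↔
      Red A ((wAL hℓ hN x : modularFunctionFieldBar (N * ℓ)) : Ω) (ι₂ a))
    (D : Divisor Qb (modularFunctionFieldBar (N * ℓ)))
    (hD : ∀ σ : Gal, arithmeticGalois (modularFunctionFieldFull (N * ℓ)) σ • D = D)
    {σ : Gal} (hσ : σ ∈ A.inertiaSubgroupIn ℚ) :
    Fermat.Agent.S34.Compat2 A Red₁ Red₂ D
      (arithmeticGalois (modularFunctionFieldFull (N * ℓ)) σ) where
  red₁ := fun x a h => (hRed₁ _ _).2 (red_inertia A (N * ℓ) hσ ((hRed₁ _ _).1 h))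
  red₂ := fun x a h => (hRed₂ _ _).2 (red_wAL_inertia A hℓ hN hσ ((hRed₂ _ _).1 h))
  red₁_inv := fun x a h => by
    rw [← map_inv]
    exact (hRed₁ _ _).2
      (red_inertia A (N * ℓ) ((A.inertiaSubgroupIn ℚ).inv_mem hσ) ((hRed₁ _ _).1 h))
  red₂_inv := fun x a h => by
    rw [← map_inv]
    exact (hRed₂ _ _).2
      (red_wAL_inertia A hℓ hN ((A.inertiaSubgroupIn ℚ).inv_mem hσ) ((hRed₂ _ _).1 h))
  val := fun c hc => by
    haveI : Algebra.IsAlgebraic ℚ Qb := AlgebraicClosure.isAlgebraic ℚ
    rw [baseAut_arithmeticGalois]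
    exact div_mem_of_decomp A (Fermat.Agent.S05.inertiaSubgroupIn_le_decomposition A hσ) hc
  fixD := hD σ

end Compat

end Fermat.Agent.S34.Equiv
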