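import Mathlib
import Fermat.Agent.S31.MainCore
import Fermat.Agent.S31.MainAlg
import Fermat.Agent.S31.MainTrace
import Fermat.Agent.S31.LatRes
import Fermat.Prelude.Def_GaloisRep_LocalConditions

/-!
# C83 (S34), piece (T): transfer from the torsion of `J₀(N)` to a Hecke–Galois datum

Hypothesis `(G)` (`InertiaSq N q p`): for every valuation `P` of `ℚ̄` over `q`, every `h` in its
inertia group and every point `x` of `p`-power order of `J₀(N)(ℚ̄)`: `(h - 1)² x = 0`.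

Result (`unipotent_of_inertiaSq`): under `(G)` the representation of every Hecke–Galois datum of
level `N` is unipotent on inertia at `q` (`q ≠ p`).

Method: as in S31.  For `g` arbitrary approximate `g`, `g h`, `g h h` by powers of Frobenius
elements at primes outside `S`; on the `p ^ n`-torsion a power `s` of a Frobenius element satisfies
`V(T_ℓ) = s + e s⁻¹`; `(G)` gives `V₃ - 2 V₂ + V₁ = 0` on the `p ^ n`-torsion, saturation of the
Hecke algebra gives `tr ρ(g h h) - 2 tr ρ(g h) + tr ρ(g) = 0`.  With `g = h⁻¹` and `det ρ(h) = 1`: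
`2 (tr ρ(h) - 2) = 0`.
-/

set_option autoImplicit false
set_option linter.unusedSectionVars false
set_option linter.unusedVariables false
set_option linter.style.haveILetI false

noncomputable section

namespace Fermat.Agent.S34.Tr

open Polynomial ModularCurve Fermat.Agent.S31.Lat Fermat.Agent.S31.Main

local notation "Qb" => AlgebraicClosure ℚ
local notation "Gal" => (AlgebraicClosure ℚ ≃ₐ[ℚ] AlgebraicClosure ℚ)

/-- **hypothesis (G)**: inertia at `q` acts on the `p`-power torsion of `J₀(N)` through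
endomorphisms `h` with `(h - 1)² = 0` -/
def InertiaSq (N q p : ℕ) [NeZero N] : Prop :=
  ∀ P : ValuationSubring Qb, P.LiesOverPrime q → ∀ h ∈ P.inertiaSubgroupIn ℚ,
    ∀ x : JZero N, (∃ n : ℕ, p ^ n • x = 0) → h • h • x - 2 • (h • x) + x = 0

/-- the two-inertia-elements form of (G) implies (G) -/
theorem inertiaSq_of_pair {N q p : ℕ} [NeZero N]
    (hG : ∀ P : ValuationSubring Qb, P.LiesOverPrime q → ∀ h ∈ P.inertiaSubgroupIn ℚ,
      ∀ h' ∈ P.inertiaSubgroupIn ℚ, ∀ x : JZero N, (∃ n : ℕ, p ^ n • x = 0) →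
        h' • (h • x - x) - (h • x - x) = 0) : InertiaSq N q p := by
  intro P hP h hh x hx
  have := hG P hP h hh h hh x hx
  rw [smul_sub] at this
  rw [← this]
  rw [two_smul]
  abel

section Algebra

/-- the trace form of the quadratic relation -/
theorem hecke_eq_trace_form {J : Type*} [AddCommGroup J] {G : Type*} [Group G]
    [DistribMulAction G J] (g s : G) (τ : Module.End ℤ J) (e : ℤ) (y : J)
    (h1 : s • s • y - τ (s • y) + e • y = 0)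
    (hs : s • y = g • y) (hs2 : s • (g • y) = g • g • y)
    (hτ : τ (g • y) = g • τ y) : τ y = g • y + e • (g⁻¹ • y) := by
  rw [hs, hs2, hτ] at h1
  have e1 : g • τ y = g • g • y + e • y := by
    rw [sub_add_eq_add_sub, sub_eq_zero] at h1
    exact h1.symm
  have hz : g • (e • (g⁻¹ • y)) = e • y := by
    have := map_zsmul (DistribSMul.toAddMonoidHom J g) e (g⁻¹ • y)
    rw [DistribSMul.toAddMonoidHom_apply, DistribSMul.toAddMonoidHom_apply,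
      smul_inv_smul] at this
    exact this
  have e2 : g • τ y = g • (g • y + e • (g⁻¹ • y)) := by
    rw [e1, smul_add, hz]
  exact MulAction.injective g e2

/-- multiples by integers which agree modulo `m` agree on `m`-torsion -/
theorem zsmul_eq_of_zmod_eq {J : Type*} [AddCommGroup J] {m : ℕ} {e e' : ℤ}
    (he : (e : ZMod m) = (e' : ZMod m)) {z : J} (hz : m • z = 0) : e • z = e' • z := by
  have hd : (m : ℤ) ∣ e - e' := by
    rw [← ZMod.intCast_zmod_eq_zero_iff_dvd]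
    push_cast
    rw [sub_eq_zero]
    exact he
  obtain ⟨k, hk⟩ := hd
  have : (e - e') • z = 0 := by
    rw [hk, mul_comm, mul_smul, natCast_zsmul, hz, smul_zero]
  rw [sub_smul, sub_eq_zero] at this
  exact this

/-- natural multiples commute with a distributive action -/
theorem smul_comm_nat {J : Type*} [AddCommGroup J] {G : Type*} [Group G]
    [DistribMulAction G J] (g : G) (m : ℕ) (z : J) : g • (m • z) = m • (g • z) :=
  map_nsmul (DistribSMul.toAddMonoidHom J g) m z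

/-- the combination of three trace forms under `(h - 1)² = 0` -/
theorem combine_rel {J : Type*} [AddCommGroup J] {G : Type*} [Group G]
    [DistribMulAction G J] (g h : G) (e₁ e₂ e₃ : ℤ) (y t₁ t₂ t₃ : J)
    (h₁ : t₁ = g • y + e₁ • (g⁻¹ • y))
    (h₂ : t₂ = (g * h) • y + e₂ • ((g * h)⁻¹ • y))
    (h₃ : t₃ = (g * h * h) • y + e₃ • ((g * h * h)⁻¹ • y))
    (he₂ : e₂ • ((g * h)⁻¹ • y) = e₁ • ((g * h)⁻¹ • y))
    (he₃ : e₃ • ((g * h * h)⁻¹ • y) = e₁ • ((g * h * h)⁻¹ • y))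
    (hGy : h • h • y - 2 • (h • y) + y = 0)
    (hGw : h • h • ((g * h * h)⁻¹ • y) - 2 • (h • ((g * h * h)⁻¹ • y))
      + (g * h * h)⁻¹ • y = 0) :
    t₃ - 2 • t₂ + t₁ = 0 := by
  rw [h₁, h₂, h₃, he₂, he₃]
  set w := (g * h * h)⁻¹ • y with hw
  have hw1 : (g * h)⁻¹ • y = h • w := by
    rw [hw, ← mul_smul]
    congr 1
    group
  have hw2 : g⁻¹ • y = h • h • w := by
    rw [hw, ← mul_smul, ← mul_smul]
    congr 1
    group
  have a1 : g • (h • h • y - 2 • (h • y) + y) = g • h • h • y - 2 • (g • h • y) + g • y := by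
    rw [smul_add, smul_sub, smul_comm_nat]
  have a2 : e₁ • (h • h • w - 2 • (h • w) + w)
      = e₁ • h • h • w - 2 • (e₁ • h • w) + e₁ • w := by
    rw [smul_add, smul_sub, smul_comm e₁ (2 : ℕ)]
  have a3 : 2 • ((g * h) • y + e₁ • (g * h)⁻¹ • y) = 2 • (g • h • y) + 2 • (e₁ • h • w) := by
    rw [hw1, mul_smul, smul_add]
  have e : (g * h * h) • y + e₁ • w - 2 • ((g * h) • y + e₁ • (g * h)⁻¹ • y)
      + (g • y + e₁ • g⁻¹ • y)
      = g • (h • h • y - 2 • (h • y) + y) + e₁ • (h • h • w - 2 • (h • w) + w) := by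
    rw [a1, a2, a3, hw2, mul_smul, mul_smul]
    abel
  rw [e, hGy, hGw, smul_zero, smul_zero, add_zero]

end Algebra

section Approx

variable {N : ℕ} [NeZero N] {p : ℕ} {S : Finset ℕ}
  {𝒪 : Type} [CommRing 𝒪] [IsDomain 𝒪] [IsDiscreteValuationRing 𝒪]
  [IsAdicComplete (IsLocalRing.maximalIdeal 𝒪) 𝒪]
  {θ : CuspForm.heckeAlgebra N 2 (↑S : Set ℕ) →+* IsLocalRing.ResidueField 𝒪}
  {T : Type} [CommRing T] [IsLocalRing T] [IsNoetherianRing T]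
  [IsAdicComplete (IsLocalRing.maximalIdeal T) T] [Algebra 𝒪 T] [IsLocalHom (algebraMap 𝒪 T)]
  [Module.Finite 𝒪 T] [Module.Free 𝒪 T]

open CuspForm

/-- the determinant of an endomorphism with given characteristic polynomial -/
theorem det_of_charpoly {V : Type*} [AddCommGroup V] [Module T V]
    [Module.Free T V] [Module.Finite T V] (f : Module.End T V) (t d : T)
    (hrank : Module.finrank T V = 2)
    (hf : LinearMap.charpoly f = X ^ 2 - C t * X + C d) : LinearMap.det f = d := by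
  classical
  let b := Module.finBasisOfFinrankEq T V hrank
  rw [← LinearMap.det_toMatrix b, Matrix.det_eq_sign_charpoly_coeff,
    LinearMap.charpoly_toMatrix f b, hf]
  simp [coeff_C]

/-- **approximation of one element by a power of a Frobenius element**, with the trace form of
the Eichler–Shimura relation on the `p ^ n`-torsion classes `Θ c` -/
theorem exists_frob_approx (hp : p.Prime) (hpS : p ∈ S)
    (hNS : ∀ q : ℕ, q.Prime → q ∣ N → q ∈ S)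
    (H : CuspForm.HeckeGaloisRepDatum N (↑S : Set ℕ) 𝒪 θ T)
    (n : ℕ) [NeZero (p ^ n)] (Θ : Lam N →+ JZero N) (hΘ1 : ∀ c, p ^ n • Θ c = 0)
    (hΘ3 : ∀ (ℓ : ℕ) (hℓ : ℓ.Prime) (hℓN : ¬ ℓ ∣ N) (c : Lam N),
        Θ (Tpar hℓ hℓN c) = heckeOperatorBar N ⟨ℓ, hℓ⟩ (Θ c))
    (K₁ K₂ K : IntermediateField ℚ Qb) (hK : FiniteDimensional ℚ K) (hK₁K : K₁ ≤ K)
    (hK₂K : K₂ ≤ K)
    (hfix : ∀ u : Gal, (∀ x ∈ K₁, u x = x) → ∀ (c : Lam N) (τ : Gal),
      u • (τ • Θ c) = τ • Θ c)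
    (hχ : ∀ σ : Gal, (∀ x ∈ K₂, σ x = x) → Fermat.Agent.S31.Cyc.chiM (p ^ n) σ = 1)
    (g : Gal) :
    ∃ (F : FreeAlgebra ℤ (HIdx N (↑S : Set ℕ))) (s : Gal) (e : ℤ),
      (∀ x ∈ K, g x = s x) ∧ H.ρ.trace s = H.π (evT N (↑S : Set ℕ) F) ∧
      LinearMap.det (H.ρ.ρ s) = (e : T) ∧
      (((Fermat.Agent.S31.Cyc.chiM (p ^ n) g : (ZMod (p ^ n))ˣ) : ZMod (p ^ n)) = (e : ZMod (p ^ n))) ∧
      ∀ c : Lam N, Θ (evPar N (↑S : Set ℕ) F c) = g • Θ c + e • (g⁻¹ • Θ c) := by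
  classical
  obtain ⟨ℓ, A, σ, a, hℓ, hℓS, hA, hσ, hg⟩ :=
    Fermat.Agent.Lib.FrobDensity.frobeniusGenerates _ hK S g
  have hℓN : ¬ ℓ ∣ N := fun hd => hℓS (hNS ℓ hℓ hd)
  have hnp : ¬ ℓ ∣ p := by
    intro hd
    have := (Nat.prime_dvd_prime_iff_eq hℓ hp).mp hd
    exact hℓS (this ▸ hpS)
  have hnNp : ¬ ℓ ∣ N * p := by
    intro hd
    rcases hℓ.dvd_mul.mp hd with h1 | h1
    · exact hℓN h1
    · exact hnp h1
  have hnpn : ¬ ℓ ∣ p ^ n := fun hd => hnp (hℓ.dvd_of_dvd_pow hd)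
  have hi : ℓ.Prime ∧ ¬ ℓ ∣ N ∧ ℓ ∉ (↑S : Set ℕ) := ⟨hℓ, hℓN, hℓS⟩
  have hPpar : evPar N (↑S : Set ℕ)
      (aeval (FreeAlgebra.ι ℤ (⟨ℓ, hi⟩ : HIdx N (↑S : Set ℕ))) (lucasV (ℓ : ℤ) a))
      = aeval (Tpar hℓ hℓN) (lucasV (ℓ : ℤ) a) := by
    rw [← Polynomial.aeval_algHom_apply, evPar_ι]
    rfl
  have hPT : evT N (↑S : Set ℕ)
      (aeval (FreeAlgebra.ι ℤ (⟨ℓ, hi⟩ : HIdx N (↑S : Set ℕ))) (lucasV (ℓ : ℤ) a))
      = aeval (heckeAlgebra.T hℓ hℓN hℓS) (lucasV (ℓ : ℤ) a) := by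
    rw [← Polynomial.aeval_algHom_apply, evT_ι]
  have hf : LinearMap.charpoly (H.ρ.ρ σ) =
      X ^ 2 - C (H.π (heckeAlgebra.T hℓ hℓN hℓS)) * X + C (((ℓ : ℤ) : T)) := by
    rw [Int.cast_natCast]
    exact H.charpoly_frob ℓ hℓ hℓN hℓS A hA σ hσ
  refine ⟨aeval (FreeAlgebra.ι ℤ (⟨ℓ, hi⟩ : HIdx N (↑S : Set ℕ))) (lucasV (ℓ : ℤ) a), σ ^ a,
    (ℓ : ℤ) ^ a, hg, ?_, ?_, ?_, fun c => ?_⟩
  · have h1 := (trace_pow_eq (H.ρ.ρ σ) (H.π (heckeAlgebra.T hℓ hℓN hℓS)) (ℓ : ℤ)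
      H.ρ.finrank_eq hf a).1
    rw [hPT, map_aeval_int]
    show LinearMap.trace T H.ρ.V (H.ρ.ρ (σ ^ a)) = _
    rw [map_pow]
    exact h1
  · rw [map_pow, map_pow, det_of_charpoly (H.ρ.ρ σ) _ _ H.ρ.finrank_eq hf]
    push_cast
    rfl
  · have hc1 : Fermat.Agent.S31.Cyc.chiM (p ^ n) g = Fermat.Agent.S31.Cyc.chiM (p ^ n) (σ ^ a) :=
      chiM_eq_of_agree (p ^ n) hK₂K hχ hg
    rw [hc1, chiM_frob_pow (p ^ n) hℓ hnpn hA hσ a]
  · rw [hPpar, aeval_intertwine Θ (Tpar hℓ hℓN) (heckeOperatorBar N ⟨ℓ, hℓ⟩) (hΘ3 ℓ hℓ hℓN)]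
    have hy : ∃ k : ℕ, p ^ k • Θ c = 0 := ⟨n, hΘ1 c⟩
    have hs : ∀ τ : Gal, σ ^ a • (τ • Θ c) = g • (τ • Θ c) :=
      fun τ => smul_theta_eq_of_agree Θ hK₁K hfix hg c τ
    have h1 := hs 1
    rw [one_smul] at h1
    exact hecke_eq_trace_form g (σ ^ a) _ _ (Θ c)
      (frob_pow_relation p hℓ hnNp hA hσ a (Θ c) hy) h1 (hs g)
      (aeval_hecke_smul ⟨ℓ, hℓ⟩ _ g (Θ c))

/-- an endomorphism congruent to `1` modulo `I` has determinant congruent to `1` -/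
theorem det_sub_one_mem {V : Type*} [AddCommGroup V] [Module T V]
    [Module.Free T V] [Module.Finite T V] (I : Ideal T) (f : Module.End T V)
    (hrank : Module.finrank T V = 2)
    (hf : ∀ v, f v - v ∈ I • (⊤ : Submodule T V)) : LinearMap.det f - 1 ∈ I := by
  classical
  let b := Module.finBasisOfFinrankEq T V hrank
  have hn : ∀ i j : Fin 2, b.repr (f (b j) - b j) i ∈ I :=
    fun i j => repr_mem_of_mem_smul b I (hf (b j)) i
  have hM : ∀ i j : Fin 2, LinearMap.toMatrix b b f i j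
      = b.repr (f (b j) - b j) i + (if j = i then 1 else 0) := by
    intro i j
    rw [LinearMap.toMatrix_apply, map_sub, Finsupp.sub_apply, Module.Basis.repr_self,
      Finsupp.single_apply, sub_add_cancel]
  rw [← LinearMap.det_toMatrix b, Matrix.det_fin_two, hM 0 0, hM 1 1, hM 0 1, hM 1 0]
  have e : (b.repr (f (b 0) - b 0) 0 + (if (0 : Fin 2) = 0 then 1 else 0))
      * (b.repr (f (b 1) - b 1) 1 + (if (1 : Fin 2) = 1 then 1 else 0))
      - (b.repr (f (b 1) - b 1) 0 + (if (1 : Fin 2) = 0 then 1 else 0))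
        * (b.repr (f (b 0) - b 0) 1 + (if (0 : Fin 2) = 1 then 1 else 0)) - 1
      = b.repr (f (b 0) - b 0) 0 * b.repr (f (b 1) - b 1) 1 + b.repr (f (b 0) - b 0) 0
        + b.repr (f (b 1) - b 1) 1 - b.repr (f (b 1) - b 1) 0 * b.repr (f (b 0) - b 0) 1 := by
    simp only [if_true, Fin.reduceEq, if_false, add_zero]
    ring
  rw [e]
  exact I.sub_mem (I.add_mem (I.add_mem (I.mul_mem_left _ (hn 1 1)) (hn 0 0)) (hn 1 1))
    (I.mul_mem_left _ (hn 1 0))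

/-- the determinant of `ρ` is continuous -/
theorem exists_det_level (ρ : GaloisRepAdic T) (k : ℕ) :
    ∃ L : IntermediateField ℚ Qb, FiniteDimensional ℚ L ∧
      ∀ σ τ : Gal, (∀ x ∈ L, σ x = τ x) →
        LinearMap.det (ρ.ρ σ) - LinearMap.det (ρ.ρ τ) ∈ IsLocalRing.maximalIdeal T ^ k := by
  obtain ⟨L, hL, h⟩ := ρ.isAdicContinuous k
  refine ⟨L, hL, fun σ τ hστ => ?_⟩
  have hu : ∀ x ∈ L, (τ⁻¹ * σ) x = x := fun x hx => by
    show τ⁻¹ (σ x) = x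
    rw [hστ x hx]
    exact τ.symm_apply_apply x
  have e : ρ.ρ σ = ρ.ρ τ * ρ.ρ (τ⁻¹ * σ) := by
    rw [← map_mul, mul_inv_cancel_left]
  have e2 : LinearMap.det (ρ.ρ σ) - LinearMap.det (ρ.ρ τ)
      = LinearMap.det (ρ.ρ τ) * (LinearMap.det (ρ.ρ (τ⁻¹ * σ)) - 1) := by
    rw [e, map_mul, mul_sub, mul_one, ← map_mul, ← map_mul, mul_inv_cancel_left]
  rw [e2]
  exact Ideal.mul_mem_left _ _ (det_sub_one_mem _ _ ρ.finrank_eq (h _ hu))

/-- `p` lies in the maximal ideal of `T` -/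
theorem natCast_mem_maximalIdeal (hp𝒪 : (p : 𝒪) ∈ IsLocalRing.maximalIdeal 𝒪) :
    (p : T) ∈ IsLocalRing.maximalIdeal T := by
  rw [IsLocalRing.mem_maximalIdeal, mem_nonunits_iff]
  intro hu
  have h1 : IsUnit (algebraMap 𝒪 T (p : 𝒪)) := by rwa [map_natCast]
  have h2 : IsUnit (p : 𝒪) := isUnit_of_map_unit (algebraMap 𝒪 T) _ h1
  exact ((IsLocalRing.mem_maximalIdeal _).mp hp𝒪) h2

/-- **the trace relation modulo `𝔪 ^ k`** -/
theorem trace_sq_mem (hp : p.Prime) (hp𝒪 : (p : 𝒪) ∈ IsLocalRing.maximalIdeal 𝒪) (hpS : p ∈ S)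
    (hNS : ∀ q : ℕ, q.Prime → q ∣ N → q ∈ S)
    (H : CuspForm.HeckeGaloisRepDatum N (↑S : Set ℕ) 𝒪 θ T)
    {q : ℕ} (hq : q.Prime) (hqp : q ≠ p) (hG : InertiaSq N q p)
    {P : ValuationSubring Qb} (hP : P.LiesOverPrime q)
    {h : Gal} (hh : h ∈ P.inertiaSubgroupIn ℚ) (g : Gal) (k : ℕ) :
    H.ρ.trace (g * h * h) - 2 * H.ρ.trace (g * h) + H.ρ.trace g
      ∈ IsLocalRing.maximalIdeal T ^ k := by
  classical
  obtain ⟨M₀, hM₀, hsat⟩ := hecke_saturation N (↑S : Set ℕ)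
  obtain ⟨L, hL, htr⟩ := exists_trace_level H.ρ k
  set n := k + padicValNat p M₀ with hn
  haveI : NeZero (p ^ n) := ⟨pow_ne_zero _ hp.ne_zero⟩
  obtain ⟨Θ, hΘ1, hΘ2, hΘ3⟩ := Fermat.Agent.S29.ThetaJ.exists_theta_Lam N (p ^ n)
  obtain ⟨K₁, hK₁, hfix⟩ := exists_fixing_theta Θ
  obtain ⟨K₂, hK₂, hχ⟩ := Fermat.Agent.S31.Cyc.chiM_finiteLevel (p ^ n)
  haveI := hL
  haveI := hK₁
  haveI := hK₂
  have hK : FiniteDimensional ℚ (L ⊔ K₁ ⊔ K₂ : IntermediateField ℚ Qb) := inferInstance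
  have hLK : L ≤ L ⊔ K₁ ⊔ K₂ := le_sup_left.trans le_sup_left
  have hK₁K : K₁ ≤ L ⊔ K₁ ⊔ K₂ := le_sup_right.trans le_sup_left
  have hK₂K : K₂ ≤ L ⊔ K₁ ⊔ K₂ := le_sup_right
  obtain ⟨F₁, s₁, e₁, hg₁, ht₁, -, hc₁, hΘ₁⟩ :=
    exists_frob_approx hp hpS hNS H n Θ hΘ1 hΘ3 K₁ K₂ _ hK hK₁K hK₂K hfix hχ g
  obtain ⟨F₂, s₂, e₂, hg₂, ht₂, -, hc₂, hΘ₂⟩ :=
    exists_frob_approx hp hpS hNS H n Θ hΘ1 hΘ3 K₁ K₂ _ hK hK₁K hK₂K hfix hχ (g * h)
  obtain ⟨F₃, s₃, e₃, hg₃, ht₃, -, hc₃, hΘ₃⟩ :=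
    exists_frob_approx hp hpS hNS H n Θ hΘ1 hΘ3 K₁ K₂ _ hK hK₁K hK₂K hfix hχ (g * h * h)
  have hqpn : ¬ q ∣ p ^ n := by
    intro hd
    exact hqp ((Nat.prime_dvd_prime_iff_eq hq hp).mp (hq.dvd_of_dvd_pow hd))
  have hch : Fermat.Agent.S31.Cyc.chiM (p ^ n) h = 1 := by
    haveI : Fact q.Prime := ⟨hq⟩
    exact Fermat.Agent.S31.Cyc.chiM_inertia (p ^ n) P q hP hqpn h hh
  have he₂ : (e₂ : ZMod (p ^ n)) = (e₁ : ZMod (p ^ n)) := by
    rw [← hc₂, ← hc₁, map_mul, hch, mul_one]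
  have he₃ : (e₃ : ZMod (p ^ n)) = (e₁ : ZMod (p ^ n)) := by
    rw [← hc₃, ← hc₁, map_mul, map_mul, hch, mul_one, mul_one]
  -- the relation on the lattice
  have hrel : ∀ c : Lam N, ∃ c' : Lam N,
      evPar N (↑S : Set ℕ) (F₃ - 2 • F₂ + F₁) c = (p ^ n) • c' := by
    intro c
    apply hΘ2
    have hy : ∃ j : ℕ, p ^ j • Θ c = 0 := ⟨n, hΘ1 c⟩
    have htor : ∀ τ : Gal, p ^ n • (τ • Θ c) = 0 := by
      intro τ
      have := map_nsmul (galAdd N τ) (p ^ n) (Θ c)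
      rw [galAdd_apply, galAdd_apply, hΘ1 c] at this
      rw [← this]
      exact map_zero (galAdd N τ)
    rw [map_add, map_sub, map_nsmul, LinearMap.add_apply, LinearMap.sub_apply,
      LinearMap.smul_apply, map_add, map_sub, map_nsmul]
    exact combine_rel g h e₁ e₂ e₃ (Θ c) _ _ _ (hΘ₁ c) (hΘ₂ c) (hΘ₃ c)
      (zsmul_eq_of_zmod_eq he₂ (htor (g * h)⁻¹)) (zsmul_eq_of_zmod_eq he₃ (htor (g * h * h)⁻¹))
      (hG P hP h hh (Θ c) hy)
      (hG P hP h hh _ (Fermat.Agent.S29.torsion_gal_smul _ hy))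
  obtain ⟨Q, hQ⟩ := hsat (p ^ n) _ hrel
  have hpT : (p : T) ∈ IsLocalRing.maximalIdeal T := natCast_mem_maximalIdeal hp𝒪
  have key := map_mem_pow_of_nsmul_eq H.π hp hpT M₀ hM₀ k n le_rfl _ _ hQ
  rw [map_add, map_sub, map_nsmul, map_add, map_sub, map_nsmul, ← ht₁, ← ht₂, ← ht₃,
    nsmul_eq_mul] at key
  have h1 := htr (g * h * h) s₃ (fun x hx => hg₃ x (hLK hx))
  have h2 := htr (g * h) s₂ (fun x hx => hg₂ x (hLK hx))
  have h3 := htr g s₁ (fun x hx => hg₁ x (hLK hx))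
  have e : H.ρ.trace (g * h * h) - 2 * H.ρ.trace (g * h) + H.ρ.trace g
      = (H.ρ.trace (g * h * h) - H.ρ.trace s₃) - 2 * (H.ρ.trace (g * h) - H.ρ.trace s₂)
        + (H.ρ.trace g - H.ρ.trace s₁)
        + (H.ρ.trace s₃ - ((2 : ℕ) : T) * H.ρ.trace s₂ + H.ρ.trace s₁) := by
    push_cast
    ring
  rw [e]
  exact Ideal.add_mem _ (Ideal.add_mem _ (Ideal.sub_mem _ h1 (Ideal.mul_mem_left _ _ h2)) h3) key

/-- **the trace relation** `tr ρ(g h h) - 2 tr ρ(g h) + tr ρ(g) = 0` -/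
theorem trace_sq_eq (hp : p.Prime) (hp𝒪 : (p : 𝒪) ∈ IsLocalRing.maximalIdeal 𝒪) (hpS : p ∈ S)
    (hNS : ∀ q : ℕ, q.Prime → q ∣ N → q ∈ S)
    (H : CuspForm.HeckeGaloisRepDatum N (↑S : Set ℕ) 𝒪 θ T)
    {q : ℕ} (hq : q.Prime) (hqp : q ≠ p) (hG : InertiaSq N q p)
    {P : ValuationSubring Qb} (hP : P.LiesOverPrime q)
    {h : Gal} (hh : h ∈ P.inertiaSubgroupIn ℚ) (g : Gal) :
    H.ρ.trace (g * h * h) - 2 * H.ρ.trace (g * h) + H.ρ.trace g = 0 := by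
  have hbot : ⨅ k : ℕ, IsLocalRing.maximalIdeal T ^ k = ⊥ :=
    Ideal.iInf_pow_eq_bot_of_isLocalRing _ (IsLocalRing.maximalIdeal.isMaximal T).ne_top
  have hmem : H.ρ.trace (g * h * h) - 2 * H.ρ.trace (g * h) + H.ρ.trace g
      ∈ ⨅ k : ℕ, IsLocalRing.maximalIdeal T ^ k := by
    rw [Ideal.mem_iInf]
    intro k
    exact trace_sq_mem hp hp𝒪 hpS hNS H hq hqp hG hP hh g k
  rw [hbot] at hmem
  exact hmem

/-- the determinant of `ρ` is `1` on inertia at `q ≠ p`, modulo `𝔪 ^ k` -/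
theorem det_inertia_sub_one_mem (hp : p.Prime) (hp𝒪 : (p : 𝒪) ∈ IsLocalRing.maximalIdeal 𝒪)
    (hpS : p ∈ S) (hNS : ∀ q : ℕ, q.Prime → q ∣ N → q ∈ S)
    (H : CuspForm.HeckeGaloisRepDatum N (↑S : Set ℕ) 𝒪 θ T)
    {q : ℕ} (hq : q.Prime) (hqp : q ≠ p)
    {P : ValuationSubring Qb} (hP : P.LiesOverPrime q)
    {h : Gal} (hh : h ∈ P.inertiaSubgroupIn ℚ) (k : ℕ) :
    LinearMap.det (H.ρ.ρ h) - 1 ∈ IsLocalRing.maximalIdeal T ^ k := by
  classical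
  obtain ⟨L, hL, hdet⟩ := exists_det_level H.ρ k
  haveI : NeZero (p ^ k) := ⟨pow_ne_zero _ hp.ne_zero⟩
  obtain ⟨Θ, hΘ1, hΘ2, hΘ3⟩ := Fermat.Agent.S29.ThetaJ.exists_theta_Lam N (p ^ k)
  obtain ⟨K₁, hK₁, hfix⟩ := exists_fixing_theta Θ
  obtain ⟨K₂, hK₂, hχ⟩ := Fermat.Agent.S31.Cyc.chiM_finiteLevel (p ^ k)
  haveI := hL
  haveI := hK₁
  haveI := hK₂
  have hK : FiniteDimensional ℚ (L ⊔ K₁ ⊔ K₂ : IntermediateField ℚ Qb) := inferInstance
  have hLK : L ≤ L ⊔ K₁ ⊔ K₂ := le_sup_left.trans le_sup_left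
  have hK₁K : K₁ ≤ L ⊔ K₁ ⊔ K₂ := le_sup_right.trans le_sup_left
  have hK₂K : K₂ ≤ L ⊔ K₁ ⊔ K₂ := le_sup_right
  obtain ⟨F, s, e, hg, -, hd, hc, -⟩ :=
    exists_frob_approx hp hpS hNS H k Θ hΘ1 hΘ3 K₁ K₂ _ hK hK₁K hK₂K hfix hχ h
  have hqpn : ¬ q ∣ p ^ k := by
    intro hd
    exact hqp ((Nat.prime_dvd_prime_iff_eq hq hp).mp (hq.dvd_of_dvd_pow hd))
  have hch : Fermat.Agent.S31.Cyc.chiM (p ^ k) h = 1 := by
    haveI : Fact q.Prime := ⟨hq⟩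
    exact Fermat.Agent.S31.Cyc.chiM_inertia (p ^ k) P q hP hqpn h hh
  have he : (e : ZMod (p ^ k)) = 1 := by
    rw [← hc, hch, Units.val_one]
  have hdvd : ((p ^ k : ℕ) : ℤ) ∣ e - 1 := by
    rw [← ZMod.intCast_zmod_eq_zero_iff_dvd]
    push_cast
    rw [he, sub_self]
  obtain ⟨t, ht⟩ := hdvd
  have hpT : (p : T) ∈ IsLocalRing.maximalIdeal T := natCast_mem_maximalIdeal hp𝒪
  have h1 : (e : T) - 1 ∈ IsLocalRing.maximalIdeal T ^ k := by
    have e1 : (e : T) - 1 = (p : T) ^ k * (t : T) := by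
      have := congrArg (Int.cast : ℤ → T) ht
      push_cast at this
      exact this
    rw [e1]
    exact Ideal.mul_mem_right _ _ (Ideal.pow_mem_pow hpT k)
  have h2 := hdet h s (fun x hx => hg x (hLK hx))
  rw [hd] at h2
  have e2 : LinearMap.det (H.ρ.ρ h) - 1 = (LinearMap.det (H.ρ.ρ h) - (e : T)) + ((e : T) - 1) := by
    ring
  rw [e2]
  exact Ideal.add_mem _ h2 h1

/-- the determinant of `ρ` is `1` on inertia at `q ≠ p` -/
theorem det_inertia_eq_one (hp : p.Prime) (hp𝒪 : (p : 𝒪) ∈ IsLocalRing.maximalIdeal 𝒪)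
    (hpS : p ∈ S) (hNS : ∀ q : ℕ, q.Prime → q ∣ N → q ∈ S)
    (H : CuspForm.HeckeGaloisRepDatum N (↑S : Set ℕ) 𝒪 θ T)
    {q : ℕ} (hq : q.Prime) (hqp : q ≠ p)
    {P : ValuationSubring Qb} (hP : P.LiesOverPrime q)
    {h : Gal} (hh : h ∈ P.inertiaSubgroupIn ℚ) :
    LinearMap.det (H.ρ.ρ h) = 1 := by
  have hbot : ⨅ k : ℕ, IsLocalRing.maximalIdeal T ^ k = ⊥ :=
    Ideal.iInf_pow_eq_bot_of_isLocalRing _ (IsLocalRing.maximalIdeal.isMaximal T).ne_top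
  have hmem : LinearMap.det (H.ρ.ρ h) - 1 ∈ ⨅ k : ℕ, IsLocalRing.maximalIdeal T ^ k := by
    rw [Ideal.mem_iInf]
    intro k
    exact det_inertia_sub_one_mem hp hp𝒪 hpS hNS H hq hqp hP hh k
  rw [hbot] at hmem
  exact sub_eq_zero.mp hmem

/-- the characteristic polynomial of an endomorphism of a free module of rank two -/
theorem charpoly_eq_of_rank_two {V : Type*} [AddCommGroup V] [Module T V]
    [Module.Free T V] [Module.Finite T V] (f : Module.End T V)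
    (hrank : Module.finrank T V = 2) :
    LinearMap.charpoly f = X ^ 2 - C (LinearMap.trace T V f) * X + C (LinearMap.det f) := by
  classical
  let b := Module.finBasisOfFinrankEq T V hrank
  rw [← LinearMap.charpoly_toMatrix f b, Matrix.charpoly_fin_two,
    ← LinearMap.trace_eq_matrix_trace T b f, LinearMap.det_toMatrix b f]

/-- **(T)**: hypothesis (G) implies that the representation of a Hecke–Galois datum is unipotent
on inertia at `q` -/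
theorem unipotent_of_inertiaSq [CharZero 𝒪] (hp : p.Prime)
    (hp𝒪 : (p : 𝒪) ∈ IsLocalRing.maximalIdeal 𝒪) (hpS : p ∈ S)
    (hNS : ∀ q : ℕ, q.Prime → q ∣ N → q ∈ S)
    (H : CuspForm.HeckeGaloisRepDatum N (↑S : Set ℕ) 𝒪 θ T)
    (q : ℕ) (hq : q.Prime) (hqp : q ≠ p) (hG : InertiaSq N q p) :
    H.ρ.IsUnipotentOnInertiaAt q := by
  intro P hP h hh
  have hdet : LinearMap.det (H.ρ.ρ h) = 1 := det_inertia_eq_one hp hp𝒪 hpS hNS H hq hqp hP hh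
  have hcp := charpoly_eq_of_rank_two (H.ρ.ρ h) H.ρ.finrank_eq
  rw [hdet] at hcp
  have hch := cayley_hamilton_two (H.ρ.ρ h) _ _ hcp
  rw [one_smul] at hch
  -- the inverse
  have h1 : H.ρ.ρ h⁻¹ * H.ρ.ρ h = 1 := by rw [← map_mul, inv_mul_cancel, map_one]
  have h2 : H.ρ.ρ h * (LinearMap.trace T H.ρ.V (H.ρ.ρ h) • (1 : Module.End T H.ρ.V) - H.ρ.ρ h)
      = 1 := by
    rw [mul_sub, mul_smul_comm, mul_one]
    have : LinearMap.trace T H.ρ.V (H.ρ.ρ h) • H.ρ.ρ h - H.ρ.ρ h * H.ρ.ρ h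
        = 1 - (H.ρ.ρ h * H.ρ.ρ h - LinearMap.trace T H.ρ.V (H.ρ.ρ h) • H.ρ.ρ h + 1) := by abel
    rw [this, hch, sub_zero]
  have hinv : H.ρ.ρ h⁻¹
      = LinearMap.trace T H.ρ.V (H.ρ.ρ h) • (1 : Module.End T H.ρ.V) - H.ρ.ρ h := by
    calc H.ρ.ρ h⁻¹ = H.ρ.ρ h⁻¹ * (H.ρ.ρ h
          * (LinearMap.trace T H.ρ.V (H.ρ.ρ h) • (1 : Module.End T H.ρ.V) - H.ρ.ρ h)) := by
          rw [h2, mul_one]
      _ = LinearMap.trace T H.ρ.V (H.ρ.ρ h) • (1 : Module.End T H.ρ.V) - H.ρ.ρ h := by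
          rw [← mul_assoc, h1, one_mul]
  have htr1 : H.ρ.trace 1 = 2 := by
    unfold GaloisRepAdic.trace
    rw [map_one, LinearMap.trace_one, H.ρ.finrank_eq]
    norm_num
  have htinv : H.ρ.trace h⁻¹ = H.ρ.trace h := by
    unfold GaloisRepAdic.trace
    rw [hinv, map_sub, map_smul, LinearMap.trace_one, H.ρ.finrank_eq, smul_eq_mul]
    push_cast
    ring
  have hrel := trace_sq_eq hp hp𝒪 hpS hNS H hq hqp hG hP hh h⁻¹
  rw [inv_mul_cancel, one_mul, htinv, htr1] at hrel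
  have h3 : (2 : T) * (H.ρ.trace h - 2) = 0 := by
    rw [← hrel]
    ring
  have h4 : (2 : 𝒪) • (H.ρ.trace h - 2) = 0 := by
    rw [Algebra.smul_def, map_ofNat]
    exact h3
  have h5 : H.ρ.trace h = 2 := by
    rcases smul_eq_zero.mp h4 with h6 | h6
    · exact absurd h6 two_ne_zero
    · exact sub_eq_zero.mp h6
  have h6 : LinearMap.trace T H.ρ.V (H.ρ.ρ h) = 2 := h5
  rw [hcp, h6]
  rw [map_ofNat, map_one]
  ring

end Approx

end Fermat.Agent.S34.Tr
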