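import Mathlib
import Fermat.Agent.S37.FinalPkg
import Fermat.Agent.S29.ESRel
import Fermat.Agent.S34.Transfer

/-!
# C83 (S34), glue piece (LevelUp): `(G)` at level `N b b` implies `(G)` at level `N`

The Deuring machinery of S18/S37 lives at levels divisible by `4` or `9`.  The pull-back
`V_b^* ∘ V_b^* : J₀(N) → J₀(N b b)` is Galois equivariant and injective on torsion, so the
hypothesis `Tr.InertiaSq` descends from level `N b b` to level `N`.
-/

set_option autoImplicit false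
set_option linter.unusedSectionVars false
set_option linter.unusedVariables false
set_option linter.style.haveILetI false
set_option synthInstance.maxHeartbeats 400000
set_option maxHeartbeats 1000000

noncomputable section

namespace Fermat.Agent.S34.LevelUp

open AlgebraicCurve ModularCurve Fermat.Agent.S37

local notation "Qb" => AlgebraicClosure ℚ

/-- one step: `(G)` at level `N b` implies `(G)` at level `N` -/
theorem inertiaSq_of_mul (N q p b : ℕ) [NeZero N] [NeZero b] (hb : b.Prime) (hp : p ≠ 0)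
    (h : Fermat.Agent.S34.Tr.InertiaSq (N * b) q p) : Fermat.Agent.S34.Tr.InertiaSq N q p := by
  intro P hP σ hσ x hx
  obtain ⟨n, hn⟩ := hx
  let V := VI.pullPic0 (heckeBetaBar Qb N b) (H.betaInt N b) (H.fundamentalIdentity_beta N b)
  have hV : ∀ (τ : Qb ≃ₐ[ℚ] Qb) (y : JZero N), V (τ • y) = τ • V y :=
    fun τ y => Z2.pullPic0_galois N b _ _ τ y
  have hVx : ∃ k : ℕ, p ^ k • V x = 0 := ⟨n, by rw [← map_nsmul, hn, map_zero]⟩
  have h1 := h P hP σ hσ (V x) hVx
  have h2 : V (σ • σ • x - 2 • (σ • x) + x) = 0 := by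
    rw [map_add, map_sub, map_nsmul, hV, hV]
    exact h1
  have hx' : ∃ k : ℕ, p ^ k • x = 0 := ⟨n, hn⟩
  have h3 : ∃ k : ℕ, p ^ k • (σ • σ • x - 2 • (σ • x) + x) = 0 := by
    rw [sub_eq_add_neg]
    refine Fermat.Agent.S29.torsion_add (Fermat.Agent.S29.torsion_add
      (Fermat.Agent.S29.torsion_gal_smul σ (Fermat.Agent.S29.torsion_gal_smul σ hx'))
      (Fermat.Agent.S29.torsion_neg ?_)) hx'
    exact Fermat.Agent.S29.torsion_map (nsmulAddMonoidHom 2)
      (Fermat.Agent.S29.torsion_gal_smul σ hx')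
  obtain ⟨k, hk⟩ := h3
  exact VI.pullPic0_eq_zero_imp N b hb _ _ _ (p ^ k) (pow_ne_zero _ hp) hk h2

/-- `(G)` at level `N b b` implies `(G)` at level `N` -/
theorem inertiaSq_of_mul_mul (N q p b : ℕ) [NeZero N] [NeZero b] (hb : b.Prime) (hp : p ≠ 0)
    (h : Fermat.Agent.S34.Tr.InertiaSq (N * b * b) q p) :
    Fermat.Agent.S34.Tr.InertiaSq N q p :=
  inertiaSq_of_mul N q p b hb hp (inertiaSq_of_mul (N * b) q p b hb hp h)

theorem exists_aux_prime' (q : ℕ) :
    ∃ b : ℕ, b.Prime ∧ b ≠ q ∧ (b * b = 4 ∨ b * b = 9) := by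
  by_cases h : q = 2
  · exact ⟨3, Nat.prime_three, by omega, Or.inr rfl⟩
  · exact ⟨2, Nat.prime_two, fun h' => h h'.symm, Or.inl rfl⟩

/-- it suffices to prove `(G)` at levels `M` divisible by `4` or `9` (with `q ∥ M`) -/
theorem inertiaSq_of_forall (N q p : ℕ) [NeZero N] (hp : p ≠ 0) (hq : q.Prime) (hqN : q ∣ N)
    (hq2 : ¬ q ^ 2 ∣ N)
    (h : ∀ (M : ℕ) [NeZero M], (4 ∣ M ∨ 9 ∣ M) → q ∣ M → ¬ q ^ 2 ∣ M →
      Fermat.Agent.S34.Tr.InertiaSq M q p) :
    Fermat.Agent.S34.Tr.InertiaSq N q p := by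
  obtain ⟨b, hb, hbq, hbb⟩ := exists_aux_prime' q
  haveI : NeZero b := ⟨hb.ne_zero⟩
  have hcop : Nat.Coprime (q ^ 2) (b * b) := by
    apply Nat.Coprime.pow_left
    apply Nat.Coprime.mul_right <;>
      exact (Nat.coprime_primes hq hb).2 (fun h' => hbq h'.symm)
  have h49 : 4 ∣ N * b * b ∨ 9 ∣ N * b * b := by
    rcases hbb with h' | h'
    · exact Or.inl ⟨N, by rw [mul_assoc, h', mul_comm]⟩
    · exact Or.inr ⟨N, by rw [mul_assoc, h', mul_comm]⟩
  have hd : q ∣ N * b * b := by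
    rw [mul_assoc]
    exact Dvd.dvd.mul_right hqN _
  have hd2 : ¬ q ^ 2 ∣ N * b * b := by
    intro h'
    rw [mul_assoc] at h'
    exact hq2 (hcop.dvd_of_dvd_mul_right h')
  exact inertiaSq_of_mul_mul N q p b hb hp (h (N * b * b) h49 hd hd2)

end Fermat.Agent.S34.LevelUp
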