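import Fermat.Agent.S34.GlueJ
import Fermat.Agent.S34.LevelUp

/-!
# C83 (S34), glue piece (GlueFinal): the exact remaining core and the reduction of S34 to it

`Core q` is what the pieces A5 (abstract theorem) + C1–C4 (concrete inputs for `X₀(M)` at `q ∥ M`,
`4 ∣ M` or `9 ∣ M`) have to deliver.  `unipotent_of_core` is the statement of S34 from `Core q`.
-/

set_option autoImplicit false
set_option linter.unusedSectionVars false
set_option linter.unusedVariables false
set_option linter.style.haveILetI false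

open AlgebraicCurve ModularCurve IsLocalRing

namespace Fermat.Agent.S34.GlueFinal

local notation "Qb" => AlgebraicClosure ℚ

/-- **the remaining core of C83**: at every level `M` with `4 ∣ M` or `9 ∣ M` and `q ∥ M`, for every
valuation ring `P` of `ℚ̄` over `q`, there are two reduction relations on the function field of
`X₀(M)` over `ℚ̄` satisfying the abstract theorem and compatible with the inertia group of `P`. -/
def Core (q : ℕ) : Prop :=
  ∀ (M : ℕ) [NeZero M], (4 ∣ M ∨ 9 ∣ M) → q ∣ M → ¬ q ^ 2 ∣ M →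
    ∀ P : ValuationSubring Qb, P.LiesOverPrime q →
      ∃ (Fk₁ Fk₂ : Type) (_ : Field Fk₁) (_ : Field Fk₂)
        (_ : Algebra (IsLocalRing.ResidueField P) Fk₁)
        (_ : Algebra (IsLocalRing.ResidueField P) Fk₂)
        (Red₁ : modularFunctionFieldBar M → Fk₁ → Prop)
        (Red₂ : modularFunctionFieldBar M → Fk₂ → Prop)
        (D : Divisor Qb (modularFunctionFieldBar M)),
        Fermat.Agent.S34.Target P (IsLocalRing.residue P) Red₁ Red₂ D ∧
        ∀ σ ∈ P.inertiaSubgroupIn ℚ,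
          Fermat.Agent.S34.Compat2 P Red₁ Red₂ D
            (arithmeticGalois (modularFunctionFieldFull M) σ)

/-- `(G)` at every level `N` with `q ∥ N`, from the core -/
theorem inertiaSq_of_core {q : ℕ} (hC : Core q) (N p : ℕ) [NeZero N] (hp : p.Prime)
    (hq : q.Prime) (hqp : q ≠ p) (hqN : q ∣ N) (hq2 : ¬ q ^ 2 ∣ N) :
    Fermat.Agent.S34.Tr.InertiaSq N q p :=
  Fermat.Agent.S34.LevelUp.inertiaSq_of_forall N q p hp.ne_zero hq hqN hq2
    (fun M _ h49 hd hd2 =>
      Fermat.Agent.S34.GlueJ.inertiaSq_of_target M q p hp hq hqp (hC M h49 hd hd2))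

/-- **S34 from the core** -/
theorem unipotent_of_core {q : ℕ} (hC : Core q)
    {𝒪 : Type} [CommRing 𝒪] [IsDomain 𝒪] [IsDiscreteValuationRing 𝒪]
    [IsAdicComplete (maximalIdeal 𝒪) 𝒪] [Finite (ResidueField 𝒪)] [CharZero 𝒪]
    {p : ℕ} (hp : p.Prime) (hp𝒪 : (p : 𝒪) ∈ maximalIdeal 𝒪)
    {N : ℕ} [NeZero N] {S : Finset ℕ} (hpS : p ∈ S) (hNS : ∀ q : ℕ, q.Prime → q ∣ N → q ∈ S)
    {θ : CuspForm.heckeAlgebra N 2 (↑S : Set ℕ) →+* ResidueField 𝒪}
    {T : Type} [CommRing T] [IsLocalRing T] [IsNoetherianRing T]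
    [IsAdicComplete (maximalIdeal T) T] [Algebra 𝒪 T] [IsLocalHom (algebraMap 𝒪 T)]
    [Module.Finite 𝒪 T] [Module.Free 𝒪 T]
    (H : CuspForm.HeckeGaloisRepDatum N (↑S : Set ℕ) 𝒪 θ T)
    (hq : q.Prime) (hqp : q ≠ p) (hqN : q ∣ N) (hq2 : ¬ q ^ 2 ∣ N) :
    H.ρ.IsUnipotentOnInertiaAt q :=
  Fermat.Agent.S34.Tr.unipotent_of_inertiaSq hp hp𝒪 hpS hNS H q hq hqp
    (inertiaSq_of_core hC N p hp hq hqp hqN hq2)

end Fermat.Agent.S34.GlueFinal
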