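import Fermat.Agent.S18.DeuringLoc

/-!
# C83 (S34), piece A3: local tools at a smooth point of the special fibre

Port of the local part of S18 (`DeuringLoc`, `DeuringTors.local_step`, `value_integral`) to a
situation with several components: everything is formulated for ONE reduction relation `Red`
(one component, residue function field `Fk`), a specialization map `r : Place L F → β`
(`β` = the points of the special fibre) and ONE point `y : β` which "is" the place `Q` of `Fk`.

The interface `LocalAx` has three fields: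
* `ax`   : the axioms of the reduction relation;
* `r5`   : exact count over `y`: `Σ_{r P = y} ord_P x = ord_Q a` whenever `Red x a`, `a ≠ 0`;
* `unif` : a lifted uniformiser at `Q`, regular over `y`.

Results: fibre estimates, Lemma V (a lifted uniformiser is a coordinate on the tube of `y`),
the local step of the torsion argument and the normalisation of values.
-/

set_option autoImplicit false
set_option linter.unusedSectionVars false
set_option linter.style.haveILetI false
set_option linter.unusedSimpArgs false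
set_option linter.unusedTactic false
set_option linter.unusedVariables false

open AlgebraicCurve Fermat.Agent.Lib.FF Fermat.Agent.S18.Deuring
open scoped Classical

namespace Fermat.Agent.S34.NodalLoc

variable {L k F Fk : Type*} [Field L] [Field k] [Field F] [Field Fk] [Algebra L F] [Algebra k Fk]
variable {A : ValuationSubring L} {res : A →+* k} {Red : F → Fk → Prop}

/-- local data at a point `y` of the special fibre which is the place `Q` of the component with
function field `Fk` -/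
structure LocalAx (A : ValuationSubring L) (res : A →+* k) (Red : F → Fk → Prop)
    (hpf : PlaceFacts L F) {β : Type*} (r : Place L F → β) (y : β) (Q : Place k Fk) : Prop where
  ax : RedAx A res Red
  r5 : ∀ {x : F} {a : Fk}, Red x a → a ≠ 0 →
    Finsupp.mapDomain r (hpf.divOf x) y = Q.ord a
  unif : ∃ τ : F, ∃ t : Fk, Red τ t ∧ Q.ord t = 1 ∧ ∀ P, r P = y → 0 ≤ P.ord τ

variable {hpf : PlaceFacts L F} {β : Type*} {r : Place L F → β} {y : β} {Q : Place k Fk}

section R5

variable (S : LocalAx A res Red hpf r y Q)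
include S

theorem ord_le_of_fibre {x : F} {a : Fk} (hxa : Red x a) (ha : a ≠ 0)
    (hnn : ∀ P, r P = y → 0 ≤ P.ord x) {P₁ : Place L F} (hP₁ : r P₁ = y) :
    P₁.ord x ≤ Q.ord a := by
  rw [← S.r5 hxa ha]
  have := le_mapDomain_apply r (E := hpf.divOf x) (Q := y)
    (fun P hP => by rw [hpf.divOf_apply]; exact hnn P hP) hP₁
  rwa [hpf.divOf_apply] at this

theorem ord_nonneg_of_fibre {x : F} {a : Fk} (hxa : Red x a) (ha : a ≠ 0)
    (hnn : ∀ P, r P = y → 0 ≤ P.ord x) : 0 ≤ Q.ord a := by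
  rw [← S.r5 hxa ha]
  exact mapDomain_apply_nonneg r
    (fun P hP => by rw [hpf.divOf_apply]; exact hnn P hP)

theorem ord_eq_zero_of_fibre {x : F} {a : Fk} (hxa : Red x a) (ha : a ≠ 0)
    (hnn : ∀ P, r P = y → 0 ≤ P.ord x) {P₁ : Place L F} (hP₁ : r P₁ = y)
    (hle : Q.ord a ≤ P₁.ord x) {P : Place L F} (hP : r P = y) (hne : P ≠ P₁) :
    P.ord x = 0 := by
  have := eq_zero_of_mapDomain_apply_le r (E := hpf.divOf x) (Q := y)
    (fun P hP => by rw [hpf.divOf_apply]; exact hnn P hP) hP₁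
    (by rw [S.r5 hxa ha, hpf.divOf_apply]; exact hle) hP hne
  rwa [hpf.divOf_apply] at this

/-- a function with nonzero reduction which is regular and nonvanishing in reduction at `Q`
has neither zeros nor poles over `y`, provided it has no pole over `y` -/
theorem ord_eq_zero_of_ord_eq_zero {x : F} {a : Fk} (hxa : Red x a) (ha : a ≠ 0)
    (hnn : ∀ P, r P = y → 0 ≤ P.ord x) (hQ : Q.ord a = 0) {P : Place L F} (hP : r P = y) :
    P.ord x = 0 := by
  have h1 := ord_le_of_fibre S hxa ha hnn hP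
  have h2 := hnn P hP
  omega

/-- **Lemma V**: a lifted uniformiser is a coordinate on the tube of `y` -/
theorem lemmaV {τ : F} {t : Fk} (hτ : Red τ t) (ht : Q.ord t = 1)
    (hreg : ∀ P, r P = y → 0 ≤ P.ord τ) {P₁ : Place L F} (hP₁ : r P₁ = y) :
    ∃ c₁ : L, Red (τ - algebraMap L F c₁) t ∧ P₁.ord (τ - algebraMap L F c₁) = 1 ∧
      ∀ P, r P = y → P ≠ P₁ → P.ord (τ - algebraMap L F c₁) = 0 := by
  have ax := S.ax
  have ht0 : t ≠ 0 := by
    rintro rfl
    simp at ht
  have hτ0 : τ ≠ 0 := ax.ne_zero hτ ht0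
  obtain ⟨c₁, hc₁⟩ := exists_eq_or_ord_sub_pos P₁ (hpf.res P₁) τ (hreg P₁ hP₁)
  have hnot : τ ≠ algebraMap L F c₁ := by
    intro heq
    rcases ax.mem_or c₁ with ⟨u, hu⟩ | ⟨hc0, u, hu, hu0⟩
    · have h1 := ax.const u
      rw [hu, ← heq] at h1
      have := ax.unique hτ h1
      rw [this, ord_algebraMap] at ht
      omega
    · have h1 := ax.smul u hτ
      rw [hu, hu0, map_zero, zero_mul, heq, Algebra.smul_def, ← map_mul,
        inv_mul_cancel₀ hc0, map_one] at h1
      exact one_ne_zero (ax.unique ax.one h1)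
  have hpos : 0 < P₁.ord (τ - algebraMap L F c₁) := hc₁.resolve_left hnot
  set x : F := τ - algebraMap L F c₁ with hx
  have hx0 : x ≠ 0 := sub_ne_zero.mpr hnot
  have hxnn : ∀ P, r P = y → 0 ≤ P.ord x := fun P hP =>
    ord_sub_algebraMap_nonneg P (hreg P hP) c₁
  -- `c₁` is integral with residue zero
  have hc : ∃ u : A, (u : L) = c₁ ∧ res u = 0 := by
    rcases ax.mem_or c₁ with ⟨u, hu⟩ | ⟨hc0, u, hu, hu0⟩
    · refine ⟨u, hu, ?_⟩
      by_contra hne
      have h1 : Red x (t - algebraMap k Fk (res u)) := by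
        have := ax.sub hτ (ax.const u)
        rwa [hu] at this
      have hne' : algebraMap k Fk (res u) ≠ 0 := (map_ne_zero _).mpr hne
      have hord : Q.ord (t - algebraMap k Fk (res u)) = 0 := by
        have h2 : Q.ord (-algebraMap k Fk (res u)) < Q.ord t := by
          rw [ord_neg, ord_algebraMap, ht]; omega
        have := ord_add_of_lt Q h2 (neg_ne_zero.mpr hne')
        rw [ord_neg, ord_algebraMap, neg_add_eq_sub] at this
        exact this
      have hne'' : t - algebraMap k Fk (res u) ≠ 0 := by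
        intro h0
        have : t = algebraMap k Fk (res u) := sub_eq_zero.mp h0
        rw [this, ord_algebraMap] at ht
        omega
      have := ord_le_of_fibre S h1 hne'' hxnn hP₁
      omega
    · exfalso
      have hu0' : (u : L) ≠ 0 := by rw [hu]; exact inv_ne_zero hc0
      have h1 : Red (1 - (u : L) • τ) (1 - algebraMap k Fk (res u) * t) :=
        ax.sub ax.one (ax.smul u hτ)
      rw [hu0, map_zero, zero_mul, sub_zero] at h1
      have hy : 1 - (u : L) • τ = -((u : L) • x) := by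
        rw [hx, smul_sub, Algebra.smul_def (u : L) (algebraMap L F c₁), ← map_mul, hu,
          inv_mul_cancel₀ hc0, map_one]
        ring
      rw [hy] at h1
      have hord : ∀ P : Place L F, P.ord (-((u : L) • x)) = P.ord x := fun P => by
        rw [ord_neg, ord_smul_of_ne_zero P hu0']
      have := ord_le_of_fibre S h1 one_ne_zero
        (fun P hP => by rw [hord]; exact hxnn P hP) hP₁
      rw [hord, Place.ord_one] at this
      omega
  obtain ⟨u, hu, hu0⟩ := hc
  have hxt : Red x t := by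
    have := ax.sub hτ (ax.const u)
    rwa [hu, hu0, map_zero, sub_zero] at this
  have hle := ord_le_of_fibre S hxt ht0 hxnn hP₁
  have h1 : P₁.ord x = 1 := by omega
  exact ⟨c₁, hxt, h1, fun P hP hne =>
    ord_eq_zero_of_fibre S hxt ht0 hxnn hP₁ (by omega) hP hne⟩

/-- a coordinate at a given place over `y` -/
theorem exists_coordinate {P₁ : Place L F} (hP₁ : r P₁ = y) :
    ∃ (x : F) (t : Fk), Red x t ∧ Q.ord t = 1 ∧ P₁.ord x = 1 ∧
      ∀ P, r P = y → P ≠ P₁ → P.ord x = 0 := by
  obtain ⟨τ, t, hτt, ht, hreg⟩ := S.unif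
  obtain ⟨c₁, h1, h2, h3⟩ := lemmaV S hτt ht hreg hP₁
  exact ⟨_, t, h1, ht, h2, h3⟩

end R5

section Local

variable (S : LocalAx A res Red hpf r y Q)
include S

/-- **the local step** -/
theorem local_step {f₂ : F} (hf₂ : Red f₂ 1)
    {m : ℕ} (hm : (m : k) ≠ 0) {P P' : Place L F} (hP : r P = y) (hP' : r P' = y)
    (hne : P' ≠ P) (hordP : P.ord f₂ = -(m : ℤ)) (hordP' : P'.ord f₂ = m)
    (hord0 : ∀ P'', r P'' = y → P'' ≠ P → P'' ≠ P' → P''.ord f₂ = 0)
    {c' : L} {φ : Fk} (hφ : Red (c' • (f₂ - 1)) φ) (hφ0 : φ ≠ 0) : -1 ≤ Q.ord φ := by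
  have ax := S.ax
  obtain ⟨τ, t, hτt, ht, hreg⟩ := S.unif
  have ht0 : t ≠ 0 := by
    rintro rfl
    simp at ht
  obtain ⟨c₁, hx, hxP, hx0⟩ := lemmaV S hτt ht hreg hP
  obtain ⟨c₂, hx', hx'P', hx'0⟩ := lemmaV S hτt ht hreg hP'
  set x : F := τ - algebraMap L F c₁ with hxdef
  set x' : F := τ - algebraMap L F c₂ with hx'def
  have hxne : x ≠ 0 := ax.ne_zero hx ht0
  have hx'ne : x' ≠ 0 := ax.ne_zero hx' ht0
  have hf₂0 : f₂ ≠ 0 := ax.ne_zero hf₂ one_ne_zero
  have hm0 : m ≠ 0 := by
    rintro rfl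
    simp at hm
  have hc'0 : c' ≠ 0 := by
    rintro rfl
    rw [zero_smul] at hφ
    exact hφ0 (ax.unique hφ ax.zero)
  set δ : L := c₁ - c₂ with hδ
  have hxx' : x' - x = algebraMap L F δ := by
    rw [hxdef, hx'def, hδ, map_sub]; ring
  have hδ0 : δ ≠ 0 := by
    intro h0
    have heq : x' = x := by
      have := hxx'
      rw [h0, map_zero] at this
      exact sub_eq_zero.mp this
    have h1 := hx0 P' hP' hne
    rw [← heq] at h1
    omega
  have htm : t ^ m ≠ 0 := pow_ne_zero _ ht0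
  have hxm : x ^ m ≠ 0 := pow_ne_zero _ hxne
  have hx'm : x' ^ m ≠ 0 := pow_ne_zero _ hx'ne
  -- `e = x'^m / x^m`
  set e : F := x' ^ m * (x ^ m)⁻¹ with he
  have hRe : Red e 1 := by
    have := ax.mul (ax.pow hx' m) (ax.inv (ax.pow hx m) htm)
    rwa [mul_inv_cancel₀ htm] at this
  -- `U = f₂ / e`
  set U : F := f₂ * (x ^ m * (x' ^ m)⁻¹) with hU
  have hRU : Red U 1 := by
    have := ax.mul hf₂ (ax.mul (ax.pow hx m) (ax.inv (ax.pow hx' m) htm))
    rwa [mul_inv_cancel₀ htm, mul_one] at this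
  have hUe : f₂ = U * e := by
    rw [hU, he]
    field_simp
  have hU0 : U ≠ 0 := ax.ne_zero hRU one_ne_zero
  have hUord : ∀ P'', r P'' = y → P''.ord U = 0 := by
    intro P'' hP''
    have h1 : P''.ord U = P''.ord f₂ + (m * P''.ord x - m * P''.ord x') := by
      rw [hU, P''.ord_mul hf₂0 (mul_ne_zero hxm (inv_ne_zero hx'm)),
        P''.ord_mul hxm (inv_ne_zero hx'm), P''.ord_inv, ord_pow', ord_pow']
      ring
    rw [h1]
    by_cases h2 : P'' = P
    · subst h2
      rw [hordP, hxP, hx'0 _ hP'' (fun h => hne h.symm)]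
      ring
    · by_cases h3 : P'' = P'
      · subst h3
        rw [hordP', hx'P', hx0 _ hP'' h2]
        ring
      · rw [hord0 P'' hP'' h2 h3, hx0 _ hP'' h2, hx'0 _ hP'' h3]
        ring
  -- the geometric sum
  set Ρ : F := ∑ j ∈ Finset.range m, x' ^ j * x ^ (m - 1 - j) with hΡ
  have hgeom : Ρ * (x' - x) = x' ^ m - x ^ m := geom_sum₂_mul x' x m
  have hRΡ : Red Ρ ((m : Fk) * t ^ (m - 1)) := by
    have h1 := ax.sum (Finset.range m) (fun j => x' ^ j * x ^ (m - 1 - j))
      (fun j => t ^ j * t ^ (m - 1 - j)) (fun j _ => ax.mul (ax.pow hx' j) (ax.pow hx (m - 1 - j)))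
    have h2 : ∑ j ∈ Finset.range m, t ^ j * t ^ (m - 1 - j) = (m : Fk) * t ^ (m - 1) := by
      have h3 : ∀ j ∈ Finset.range m, t ^ j * t ^ (m - 1 - j) = t ^ (m - 1) := by
        intro j hj
        rw [← pow_add]
        have := Finset.mem_range.mp hj
        have h4 : j + (m - 1 - j) = m - 1 := by omega
        rw [h4]
      rw [Finset.sum_congr rfl h3, Finset.sum_const, Finset.card_range, nsmul_eq_mul]
    rwa [h2] at h1
  have hmFk : (m : Fk) ≠ 0 := by
    have : (m : Fk) = algebraMap k Fk (m : k) := by simp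
    rw [this]
    exact (map_ne_zero _).mpr hm
  set Ρ' : F := Ρ * (x ^ m)⁻¹ with hΡ'
  set ρ : Fk := (m : Fk) * t ^ (m - 1) * (t ^ m)⁻¹ with hρ
  have hRΡ' : Red Ρ' ρ := ax.mul hRΡ (ax.inv (ax.pow hx m) htm)
  have hρ0 : ρ ≠ 0 :=
    mul_ne_zero (mul_ne_zero hmFk (pow_ne_zero _ ht0)) (inv_ne_zero htm)
  have hρord : Q.ord ρ = -1 := by
    have hmord : Q.ord (m : Fk) = 0 := by
      have : (m : Fk) = algebraMap k Fk (m : k) := by simp
      rw [this, ord_algebraMap]
    rw [hρ, Q.ord_mul (mul_ne_zero hmFk (pow_ne_zero _ ht0)) (inv_ne_zero htm),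
      Q.ord_mul hmFk (pow_ne_zero _ ht0), Q.ord_inv, ord_pow', ord_pow', ht, hmord]
    have : ((m - 1 : ℕ) : ℤ) = (m : ℤ) - 1 := by omega
    rw [this]
    ring
  have he1 : e - 1 = δ • Ρ' := by
    rw [hΡ', Algebra.smul_def, ← hxx', he]
    have : x' ^ m = Ρ * (x' - x) + x ^ m := by rw [hgeom]; ring
    rw [this]
    field_simp
    ring
  have hh : f₂ - 1 = (U - 1) * e + δ • Ρ' := by
    rw [← he1, hUe]; ring
  by_cases hU1 : U = 1
  · have h1 : c' • (f₂ - 1) = (c' * δ) • Ρ' := by
      rw [hh, hU1, sub_self, zero_mul, zero_add, smul_smul]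
    rw [h1] at hφ
    obtain ⟨u, -, hu0, hφy⟩ := ax.unique_scaling hRΡ' hρ0 hφ hφ0
    rw [hφy, ord_algebraMap_mul Q hu0, hρord]
  · obtain ⟨cU, hcU, ψ, hψ0, hUψ⟩ := ax.scale (U - 1) (sub_ne_zero.mpr hU1)
    have hψord : 0 ≤ Q.ord ψ := by
      refine ord_nonneg_of_fibre S hUψ hψ0 (fun P'' hP'' => ?_)
      rw [ord_smul_of_ne_zero P'' hcU]
      exact ord_sub_one_nonneg P'' (by rw [hUord P'' hP''])
    set Ψ : F := (cU • (U - 1)) * e with hΨ
    have hRΨ : Red Ψ ψ := by
      have := ax.mul hUψ hRe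
      rwa [mul_one] at this
    have h1 : c' • (f₂ - 1) = (c' / cU) • Ψ + (c' * δ) • Ρ' := by
      have h2 : (c' / cU) • Ψ = c' • ((U - 1) * e) := by
        rw [hΨ, smul_mul_assoc, smul_smul, div_mul_cancel₀ _ hcU]
      rw [hh, h2, smul_add, smul_smul]
    rw [h1] at hφ
    exact lemmaC ax Q hRΨ hRΡ' hψ0 hψord hρ0 hρord (div_ne_zero hc'0 hcU)
      (mul_ne_zero hc'0 hδ0) hφ hφ0

/-- the reduction of `c' • (f₂ - 1)` is regular at `Q` if `f₂ ≡ 1` has neither zeros nor poles
over `y` -/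
theorem regular_step {f₂ : F} (hf₂ : Red f₂ 1)
    (hord0 : ∀ P'', r P'' = y → P''.ord f₂ = 0)
    {c' : L} {φ : Fk} (hφ : Red (c' • (f₂ - 1)) φ) (hφ0 : φ ≠ 0) : 0 ≤ Q.ord φ := by
  have ax := S.ax
  have hc'0 : c' ≠ 0 := by
    rintro rfl
    rw [zero_smul] at hφ
    exact hφ0 (ax.unique hφ ax.zero)
  refine ord_nonneg_of_fibre S hφ hφ0 (fun P'' hP'' => ?_)
  rw [ord_smul_of_ne_zero P'' hc'0]
  exact ord_sub_one_nonneg P'' (by rw [hord0 P'' hP''])

/-- normalisation of the value at a place of good position -/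
theorem value_integral {f₁ : F} (hf₁ : Red f₁ 1) {P₀ : Place L F} (hP₀ : r P₀ = y)
    (hreg : ∀ P, r P = y → P.ord f₁ = 0) {v₀ : L}
    (hpos : 0 < P₀.ord (f₁ - algebraMap L F v₀)) :
    ∃ u : A, (u : L) = v₀ ∧ res u = 1 := by
  have ax := S.ax
  have hnn : ∀ P, r P = y → 0 ≤ P.ord (f₁ - algebraMap L F v₀) := fun P hP =>
    ord_sub_algebraMap_nonneg P (by rw [hreg P hP]) v₀
  rcases ax.mem_or v₀ with ⟨u, hu⟩ | ⟨hv0, u, hu, hu0⟩
  · refine ⟨u, hu, ?_⟩
    by_contra hne
    have h1 : Red (f₁ - algebraMap L F v₀) (1 - algebraMap k Fk (res u)) := by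
      have := ax.sub hf₁ (ax.const u)
      rwa [hu] at this
    have h2 : (1 : Fk) - algebraMap k Fk (res u) = algebraMap k Fk (1 - res u) := by
      rw [map_sub, map_one]
    have h3 : (1 : k) - res u ≠ 0 := fun h => hne (sub_eq_zero.mp h).symm
    rw [h2] at h1
    have := ord_le_of_fibre S h1 ((map_ne_zero _).mpr h3) hnn (P₁ := P₀) hP₀
    rw [ord_algebraMap] at this
    omega
  · exfalso
    have hu0' : (u : L) ≠ 0 := by rw [hu]; exact inv_ne_zero hv0
    have h1 : Red (1 - (u : L) • f₁) (1 - algebraMap k Fk (res u) * 1) :=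
      ax.sub ax.one (ax.smul u hf₁)
    rw [hu0, map_zero, zero_mul, sub_zero] at h1
    have hy : 1 - (u : L) • f₁ = -((u : L) • (f₁ - algebraMap L F v₀)) := by
      rw [smul_sub, Algebra.smul_def (u : L) (algebraMap L F v₀), ← map_mul, hu,
        inv_mul_cancel₀ hv0, map_one]
      ring
    rw [hy] at h1
    have hord : ∀ P : Place L F, P.ord (-((u : L) • (f₁ - algebraMap L F v₀)))
        = P.ord (f₁ - algebraMap L F v₀) := fun P => by
      rw [ord_neg, ord_smul_of_ne_zero P hu0']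
    have := ord_le_of_fibre S h1 one_ne_zero
      (fun P hP => by rw [hord]; exact hnn P hP) (P₁ := P₀) hP₀
    rw [hord, Place.ord_one] at this
    omega

end Local

end Fermat.Agent.S34.NodalLoc
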