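import Fermat.Agent.S34.Facts
import Fermat.Agent.S34.NodalLoc

/-!
# C83 (S34), Stage 2 (Inj): the torsion step on the nodal fibre

In the situation of `Setup2` with the contract `Facts`:

* `star_nodal` : if `Red₁ f 1`, `Red₂ f 1`, `div f = m • D₀`, `(m : k) ≠ 0` and no point of `D₀`
  lies over a node, then `D₀` is principal;
* `inj_step`   : if `div f₁ = m • E`, both reductions of `f₁` are nonzero, no point of `E` lies
  over a node and `h'` acts trivially on the special fibre, then `h' • E - E` is principal.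

The proof is the torsion step of S18 (`star_of_setup`): balanced non-special sets of smooth
points `Qs₁`, `Qs₂` (`Facts.ns`), a section of `L(G₀ + D₀)` whose joint reduction is the
constant pair `(1, 1)`, a degree count which shows that the residual divisor has no point over a
node, and the local step at the points of `Qs₁`, `Qs₂`.
-/

set_option autoImplicit false
set_option linter.unusedSectionVars false
set_option linter.style.haveILetI false
set_option linter.unusedSimpArgs false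
set_option linter.unusedTactic false
set_option linter.unusedVariables false

open AlgebraicCurve Fermat.Agent.Lib.FF Fermat.Agent.S18.Deuring
open scoped Classical

namespace Fermat.Agent.S34.NodalInj

/-! ### generalities on finitely supported functions -/

section Gen

variable {α β : Type*}

/-- the sum of the coefficients -/
noncomputable def tot (E : α →₀ ℤ) : ℤ := E.sum fun _ n => n

theorem tot_mapDomain (r : α → β) (E : α →₀ ℤ) : tot (Finsupp.mapDomain r E) = tot E :=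
  Finsupp.sum_mapDomain_index (fun _ => rfl) (fun _ _ _ => rfl)

theorem tot_eq_sum (E : α →₀ ℤ) (T : Finset α) (hT : E.support ⊆ T) :
    tot E = ∑ y ∈ T, E y :=
  Finsupp.sum_of_support_subset E hT _ (fun _ _ => rfl)

theorem eq_of_le_of_tot_eq {E E' : α →₀ ℤ} (hle : E ≤ E') (h : tot E = tot E') : E = E' := by
  have h1 := tot_eq_sum E (E.support ∪ E'.support) Finset.subset_union_left
  have h2 := tot_eq_sum E' (E.support ∪ E'.support) Finset.subset_union_right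
  have h3 : ∑ y ∈ E.support ∪ E'.support, (E' y - E y) = 0 := by
    rw [Finset.sum_sub_distrib, ← h1, ← h2, h, sub_self]
  have h4 := (Finset.sum_eq_zero_iff_of_nonneg (fun y _ => by
    have := Finsupp.le_def.mp hle y
    show 0 ≤ E' y - E y
    omega)).mp h3
  ext y
  by_cases hy : y ∈ E.support ∪ E'.support
  · have := h4 y hy
    omega
  · rw [Finset.mem_union, not_or, Finsupp.notMem_support_iff, Finsupp.notMem_support_iff] at hy
    rw [hy.1, hy.2]

theorem eq_zero_of_nonneg_of_tot_eq_zero {E : α →₀ ℤ} (hE : 0 ≤ E) (h : tot E = 0) : E = 0 :=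
  (eq_of_le_of_tot_eq hE (by rw [h]; rfl)).symm

/-- the sum of the points of a finite set -/
noncomputable def sumB (T : Finset β) : β →₀ ℤ := ∑ y ∈ T, Finsupp.single y (1 : ℤ)

theorem sumB_apply (T : Finset β) (y : β) : sumB T y = if y ∈ T then 1 else 0 := by
  rw [sumB, Finsupp.finsetSum_apply]
  simp only [Finsupp.single_apply]
  rw [Finset.sum_ite_eq' T y]

theorem sumB_nonneg (T : Finset β) : 0 ≤ sumB T := by
  rw [Finsupp.le_def]
  intro y
  rw [sumB_apply]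
  split_ifs <;> simp

end Gen

section Deg

variable {K F' : Type*} [Field K] [Field F'] [Algebra K F']

theorem degree_eq_tot (hpf : PlaceFacts K F') (E : Divisor K F') : Divisor.degree E = tot E := by
  rw [degree_eq_sum_of_res hpf.res E E.support (Finset.Subset.refl _)]
  rfl

end Deg

variable {L k F Fk₁ Fk₂ : Type*} [Field L] [Field k] [Field F] [Field Fk₁] [Field Fk₂]
  [Algebra L F] [Algebra k Fk₁] [Algebra k Fk₂]
variable {A : ValuationSubring L} {res : A →+* k} {Red₁ : F → Fk₁ → Prop}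
  {Red₂ : F → Fk₂ → Prop} {D : Divisor L F} {D₁ : Divisor k Fk₁} {D₂ : Divisor k Fk₂}
  {Sg : Finset (Place k Fk₁ × Place k Fk₂)} {g g₁ g₂ : ℕ} {c c₁ c₂ : ℤ}

/-! ### joint scaling -/

/-- every nonzero function can be scaled so that it is integral for both valuations and at least
one of its two reductions is nonzero -/
theorem joint_scale (ax₁ : RedAx A res Red₁) (ax₂ : RedAx A res Red₂) {x : F} (hx : x ≠ 0) :
    ∃ c' : L, c' ≠ 0 ∧ ∃ (a₁ : Fk₁) (a₂ : Fk₂),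
      Red₁ (c' • x) a₁ ∧ Red₂ (c' • x) a₂ ∧ (a₁ ≠ 0 ∨ a₂ ≠ 0) := by
  obtain ⟨e₁, he₁, a₁, ha₁, h₁⟩ := ax₁.scale x hx
  obtain ⟨e₂, he₂, a₂, ha₂, h₂⟩ := ax₂.scale x hx
  rcases A.mem_or_inv_mem (e₂ / e₁) with hu | hu
  · refine ⟨e₂, he₂, algebraMap k Fk₁ (res ⟨_, hu⟩) * a₁, a₂, ?_, h₂, Or.inr ha₂⟩
    have := ax₁.smul ⟨_, hu⟩ h₁
    rwa [smul_smul, div_mul_cancel₀ _ he₁] at this
  · rw [inv_div] at hu
    refine ⟨e₁, he₁, a₁, algebraMap k Fk₂ (res ⟨_, hu⟩) * a₂, h₁, ?_, Or.inl ha₁⟩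
    have := ax₂.smul ⟨_, hu⟩ h₂
    rwa [smul_smul, div_mul_cancel₀ _ he₂] at this

/-! ### the points of the special fibre -/

/-- the smooth points of the special fibre -/
def IsSm (Sg : Finset (Place k Fk₁ × Place k Fk₂)) : Place k Fk₁ ⊕ Place k Fk₂ → Prop
  | Sum.inl Q => Smooth₁ Sg Q
  | Sum.inr Q => Smooth₂ Sg Q

theorem not_smooth₁ {Q : Place k Fk₁} (h : ¬ Smooth₁ Sg Q) : ∃ p ∈ Sg, p.1 = Q := by
  by_contra hcon
  exact h fun p hp hpQ => hcon ⟨p, hp, hpQ⟩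

theorem not_smooth₂ {Q : Place k Fk₂} (h : ¬ Smooth₂ Sg Q) : ∃ p ∈ Sg, p.2 = Q := by
  by_contra hcon
  exact h fun p hp hpQ => hcon ⟨p, hp, hpQ⟩

variable {S : Setup2 A res Red₁ Red₂ D D₁ D₂ Sg g g₁ g₂ c c₁ c₂}

/-- a point of the special fibre is smooth, or a node, or does not lie in the image of `sp` -/
theorem point_cases (Fc : Facts S) (y : Place k Fk₁ ⊕ Place k Fk₂) :
    IsSm Sg y ∨ (∃ p ∈ Sg, y = Sum.inl p.1) ∨ (∀ P, Fc.sp P ≠ y) := by
  rcases y with Q | Q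
  · by_cases h : Smooth₁ Sg Q
    · exact Or.inl h
    · obtain ⟨p, hp, hpQ⟩ := not_smooth₁ h
      exact Or.inr (Or.inl ⟨p, hp, by rw [hpQ]⟩)
  · by_cases h : Smooth₂ Sg Q
    · exact Or.inl h
    · obtain ⟨p, hp, hpQ⟩ := not_smooth₂ h
      refine Or.inr (Or.inr fun P => ?_)
      rw [← hpQ]
      exact Fc.sp_ne P p hp

theorem localAx₁ (Fc : Facts S) {Q : Place k Fk₁} (hQ : Smooth₁ Sg Q) (hD : D₁ Q = 0) :
    NodalLoc.LocalAx A res Red₁ S.hpf Fc.sp (Sum.inl Q) Q :=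
  ⟨S.ax₁, fun hxa ha => Fc.r5₁ hxa ha Q hQ, Fc.unif₁ Q hQ hD⟩

theorem localAx₂ (Fc : Facts S) {Q : Place k Fk₂} (hQ : Smooth₂ Sg Q) (hD : D₂ Q = 0) :
    NodalLoc.LocalAx A res Red₂ S.hpf Fc.sp (Sum.inr Q) Q :=
  ⟨S.ax₂, fun hxa ha => Fc.r5₂ hxa ha Q hQ, Fc.unif₂ Q hQ hD⟩

/-- every smooth point outside the divisor of poles is the specialisation of a place -/
theorem exists_sp_eq₁ (Fc : Facts S) {Q : Place k Fk₁} (hQ : Smooth₁ Sg Q) (hD : D₁ Q = 0) :
    ∃ P, Fc.sp P = Sum.inl Q := by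
  obtain ⟨τ, t, hτt, ht, -⟩ := Fc.unif₁ Q hQ hD
  have ht0 : t ≠ 0 := by
    rintro rfl
    simp at ht
  have h1 := Fc.r5₁ hτt ht0 Q hQ
  rw [ht] at h1
  obtain ⟨P, hP, -⟩ := exists_fibre_of_mapDomain_ne_zero Fc.sp
    (by rw [h1]; exact one_ne_zero)
  exact ⟨P, hP⟩

theorem exists_sp_eq₂ (Fc : Facts S) {Q : Place k Fk₂} (hQ : Smooth₂ Sg Q) (hD : D₂ Q = 0) :
    ∃ P, Fc.sp P = Sum.inr Q := by
  obtain ⟨τ, t, hτt, ht, -⟩ := Fc.unif₂ Q hQ hD
  have ht0 : t ≠ 0 := by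
    rintro rfl
    simp at ht
  have h1 := Fc.r5₂ hτt ht0 Q hQ
  rw [ht] at h1
  obtain ⟨P, hP, -⟩ := exists_fibre_of_mapDomain_ne_zero Fc.sp
    (by rw [h1]; exact one_ne_zero)
  exact ⟨P, hP⟩

/-- a function whose two reductions are the same nonzero constant, without poles over a smooth
point, has no zero over this point -/
theorem ord_le_pt (Fc : Facts S) {y₀ : Place k Fk₁ ⊕ Place k Fk₂} (hy₀ : IsSm Sg y₀)
    {x : F} {b : k} (hb : b ≠ 0) (h₁ : Red₁ x (algebraMap k Fk₁ b))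
    (h₂ : Red₂ x (algebraMap k Fk₂ b)) (hnn : ∀ P, Fc.sp P = y₀ → 0 ≤ P.ord x)
    {P₁ : Place L F} (hP₁ : Fc.sp P₁ = y₀) : P₁.ord x ≤ 0 := by
  have hle := le_mapDomain_apply Fc.sp (E := S.hpf.divOf x) (Q := y₀)
    (fun P hP => by rw [S.hpf.divOf_apply]; exact hnn P hP) hP₁
  rw [S.hpf.divOf_apply] at hle
  rcases y₀ with Q | Q
  · have := Fc.r5₁ h₁ ((map_ne_zero _).mpr hb) Q hy₀
    rw [ord_algebraMap] at this
    omega
  · have := Fc.r5₂ h₂ ((map_ne_zero _).mpr hb) Q hy₀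
    rw [ord_algebraMap] at this
    omega

/-! ### the nodal Riemann–Roch space of a balanced non-special set -/

theorem const_mem_rr {K F' : Type*} [Field K] [Field F'] [Algebra K F'] {E : Divisor K F'}
    (hE : 0 ≤ E) (b : K) : algebraMap K F' b ∈ riemannRochSpace E := by
  have h := Submodule.smul_mem _ b (one_mem_rrSpace_of_nonneg hE)
  rwa [Algebra.smul_def, mul_one] at h

/-- the joint reduction of a function without poles over the nodes, whose reductions have at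
most simple poles at the points of a balanced non-special set, is a constant pair -/
theorem pair_const (Fc : Facts S) {Qs₁ : Finset (Place k Fk₁)} {Qs₂ : Finset (Place k Fk₂)}
    (hrank : Module.finrank k (riemannRochSpace (sumPl Qs₂)) = 1)
    (hns : ∀ a ∈ riemannRochSpace (sumPl Qs₁), (∀ p ∈ Sg, Nodal.HasValue p.1 a 0) → a = 0)
    {x : F} {φ₁ : Fk₁} {φ₂ : Fk₂} (h₁ : Red₁ x φ₁) (h₂ : Red₂ x φ₂)
    (hnode : ∀ p ∈ Sg, ∀ P, Fc.sp P = Sum.inl p.1 → 0 ≤ P.ord x)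
    (hs₁ : φ₁ ≠ 0 → ∀ Q, Smooth₁ Sg Q → - sumPl Qs₁ Q ≤ Q.ord φ₁)
    (hs₂ : φ₂ ≠ 0 → ∀ Q, Smooth₂ Sg Q → - sumPl Qs₂ Q ≤ Q.ord φ₂) :
    ∃ b : k, φ₁ = algebraMap k Fk₁ b ∧ φ₂ = algebraMap k Fk₂ b := by
  have hmatch : ∀ p ∈ Sg, ∃ v : k, Nodal.HasValue p.1 φ₁ v ∧ Nodal.HasValue p.2 φ₂ v :=
    fun p hp => Fc.regN h₁ h₂ p hp (hnode p hp)
  have hsum₁ : ∀ Q, (0 : ℤ) ≤ sumPl Qs₁ Q := fun Q => by
    rw [sumPl_apply]; split_ifs <;> simp
  have hsum₂ : ∀ Q, (0 : ℤ) ≤ sumPl Qs₂ Q := fun Q => by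
    rw [sumPl_apply]; split_ifs <;> simp
  have hmem₁ : φ₁ ∈ riemannRochSpace (sumPl Qs₁) := by
    by_cases h0 : φ₁ = 0
    · rw [h0]; exact Submodule.zero_mem _
    rw [mem_rrSpace_iff_of_ne_zero h0]
    intro Q
    by_cases hQ : Smooth₁ Sg Q
    · exact hs₁ h0 Q hQ
    · obtain ⟨p, hp, rfl⟩ := not_smooth₁ hQ
      obtain ⟨v, hv, -⟩ := hmatch p hp
      have := hv.ord_nonneg
      have := hsum₁ p.1
      omega
  have hmem₂ : φ₂ ∈ riemannRochSpace (sumPl Qs₂) := by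
    by_cases h0 : φ₂ = 0
    · rw [h0]; exact Submodule.zero_mem _
    rw [mem_rrSpace_iff_of_ne_zero h0]
    intro Q
    by_cases hQ : Smooth₂ Sg Q
    · exact hs₂ h0 Q hQ
    · obtain ⟨p, hp, rfl⟩ := not_smooth₂ hQ
      obtain ⟨v, -, hv⟩ := hmatch p hp
      have := hv.ord_nonneg
      have := hsum₂ p.2
      omega
  obtain ⟨p₀, hp₀⟩ := S.node_nonempty
  obtain ⟨b, hb⟩ := exists_const_of_finrank_eq_one S.hpf₂ p₀.2 (sumPl_nonneg Qs₂) hrank hmem₂
  refine ⟨b, ?_, hb⟩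
  have hval : ∀ p ∈ Sg, Nodal.HasValue p.1 (φ₁ - algebraMap k Fk₁ b) 0 := by
    intro p hp
    obtain ⟨v, hv₁, hv₂⟩ := hmatch p hp
    rw [hb] at hv₂
    have hvb : v = b := hv₂.unique (Nodal.hasValue_algebraMap p.2 b)
    have := hv₁.sub (Nodal.hasValue_algebraMap p.1 b)
    rwa [hvb, sub_self] at this
  have hmem : φ₁ - algebraMap k Fk₁ b ∈ riemannRochSpace (sumPl Qs₁) :=
    Submodule.sub_mem _ hmem₁ (const_mem_rr (sumPl_nonneg Qs₁) b)
  exact sub_eq_zero.mp (hns _ hmem hval)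

/-! ### normalisation of values -/

theorem value_integral₂ (Fc : Facts S) {f₁ : F} (hf₁ : Red₁ f₁ 1) (hf₂ : Red₂ f₁ 1)
    {P₀ : Place L F} (hy₀ : IsSm Sg (Fc.sp P₀))
    (hreg : ∀ P, Fc.sp P = Fc.sp P₀ → P.ord f₁ = 0) {v₀ : L}
    (hpos : 0 < P₀.ord (f₁ - algebraMap L F v₀)) :
    ∃ u : A, (u : L) = v₀ ∧ res u = 1 := by
  have ax₁ := S.ax₁
  have ax₂ := S.ax₂
  have hnn : ∀ P, Fc.sp P = Fc.sp P₀ → 0 ≤ P.ord (f₁ - algebraMap L F v₀) := fun P hP =>
    ord_sub_algebraMap_nonneg P (by rw [hreg P hP]) v₀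
  rcases ax₁.mem_or v₀ with ⟨u, hu⟩ | ⟨hv0, u, hu, hu0⟩
  · refine ⟨u, hu, ?_⟩
    by_contra hne
    have h3 : (1 : k) - res u ≠ 0 := fun h => hne (sub_eq_zero.mp h).symm
    have h1 : Red₁ (f₁ - algebraMap L F v₀) (algebraMap k Fk₁ (1 - res u)) := by
      have := ax₁.sub hf₁ (ax₁.const u)
      rwa [hu, ← map_one (algebraMap k Fk₁), ← map_sub] at this
    have h2 : Red₂ (f₁ - algebraMap L F v₀) (algebraMap k Fk₂ (1 - res u)) := by
      have := ax₂.sub hf₂ (ax₂.const u)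
      rwa [hu, ← map_one (algebraMap k Fk₂), ← map_sub] at this
    have := ord_le_pt Fc hy₀ h3 h1 h2 hnn (P₁ := P₀) rfl
    omega
  · exfalso
    have hu0' : (u : L) ≠ 0 := by rw [hu]; exact inv_ne_zero hv0
    have hy : 1 - (u : L) • f₁ = -((u : L) • (f₁ - algebraMap L F v₀)) := by
      rw [smul_sub, Algebra.smul_def (u : L) (algebraMap L F v₀), ← map_mul, hu,
        inv_mul_cancel₀ hv0, map_one]
      ring
    have h1 : Red₁ (-((u : L) • (f₁ - algebraMap L F v₀))) (algebraMap k Fk₁ 1) := by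
      have h := ax₁.sub ax₁.one (ax₁.smul u hf₁)
      rw [hu0, map_zero, zero_mul, sub_zero, hy] at h
      rwa [map_one]
    have h2 : Red₂ (-((u : L) • (f₁ - algebraMap L F v₀))) (algebraMap k Fk₂ 1) := by
      have h := ax₂.sub ax₂.one (ax₂.smul u hf₂)
      rw [hu0, map_zero, zero_mul, sub_zero, hy] at h
      rwa [map_one]
    have hord : ∀ P : Place L F, P.ord (-((u : L) • (f₁ - algebraMap L F v₀)))
        = P.ord (f₁ - algebraMap L F v₀) := fun P => by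
      rw [ord_neg, ord_smul_of_ne_zero P hu0']
    have := ord_le_pt Fc hy₀ one_ne_zero h1 h2
      (fun P hP => by rw [hord]; exact hnn P hP) (P₁ := P₀) rfl
    rw [hord] at this
    omega

/-! ### the local bound at a point of the non-special set -/

theorem local_bound {Fk : Type*} [Field Fk] [Algebra k Fk] {Red : F → Fk → Prop}
    {hpf : PlaceFacts L F} {β : Type*} {r : Place L F → β} {y : β} {Q : Place k Fk}
    (LA : NodalLoc.LocalAx A res Red hpf r y Q) {f₂ : F} (hf₂ : Red f₂ 1) {m : ℕ}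
    (hm : (m : k) ≠ 0) {Z G₀ : Divisor L F}
    (hord : ∀ P : Place L F, P.ord f₂ = m * (Z P - G₀ P))
    (hZ : ∃ PZ, r PZ = y ∧ Z PZ = 1 ∧ ∀ P, r P = y → P ≠ PZ → Z P = 0)
    (hG : ∃ PG, r PG = y ∧ G₀ PG = 1 ∧ ∀ P, r P = y → P ≠ PG → G₀ P = 0)
    {c' : L} {φ : Fk} (hφ : Red (c' • (f₂ - 1)) φ) (hφ0 : φ ≠ 0) : -1 ≤ Q.ord φ := by
  obtain ⟨PZ, hPZ, hZPZ, hZother⟩ := hZ
  obtain ⟨PG, hPG, hGPG, hGother⟩ := hG
  by_cases hPP : PZ = PG
  · have hreg : ∀ P, r P = y → P.ord f₂ = 0 := by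
      intro P hP
      rw [hord]
      by_cases hPeq : P = PG
      · rw [hPeq, hGPG, ← hPP, hZPZ]; simp
      · rw [hGother P hP hPeq, hZother P hP (by rw [hPP]; exact hPeq)]; simp
    have := NodalLoc.regular_step LA hf₂ hreg hφ hφ0
    omega
  · refine NodalLoc.local_step LA hf₂ hm hPG hPZ hPP ?_ ?_ ?_ hφ hφ0
    · rw [hord, hGPG, hZother PG hPG (fun h => hPP h.symm)]
      ring
    · rw [hord, hZPZ, hGother PZ hPZ hPP]
      ring
    · intro P hP h1 h2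
      rw [hord, hZother P hP h2, hGother P hP h1]
      ring

/-! ### the torsion step -/

/-- **the torsion step on the nodal fibre**: `Red₁ f 1`, `Red₂ f 1`, `div f = m • D₀`,
`(m : k) ≠ 0`, no point of `D₀` over a node ⇒ `D₀` is principal -/
theorem star_nodal (Fc : Facts S) {f : F} (hf₁ : Red₁ f 1) (hf₂ : Red₂ f 1) (D₀ : Divisor L F)
    (hsm : ∀ P, D₀ P ≠ 0 → ∀ p ∈ Sg, Fc.sp P ≠ Sum.inl p.1)
    (m : ℕ) (hm : (m : k) ≠ 0) (hdiv : ∀ P, (m : ℤ) * D₀ P = P.ord f) :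
    ∃ s : F, s ≠ 0 ∧ ∀ P, D₀ P = P.ord s := by
  have ax₁ := S.ax₁
  have ax₂ := S.ax₂
  have hmN : m ≠ 0 := by
    rintro rfl
    simp at hm
  have hm0 : (m : ℤ) ≠ 0 := by exact_mod_cast hmN
  have hf0 : f ≠ 0 := ax₁.ne_zero hf₁ one_ne_zero
  have hdivf : S.hpf.divOf f = m • D₀ := by
    ext P
    rw [S.hpf.divOf_apply, Finsupp.smul_apply, nsmul_eq_mul]
    exact (hdiv P).symm
  have hdegD₀ : Divisor.degree D₀ = 0 := by
    have h1 := S.hpf.degree_divOf f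
    rw [hdivf, map_nsmul, nsmul_eq_mul] at h1
    rcases mul_eq_zero.mp h1 with h | h
    · exact absurd h hm0
    · exact h
  -- the specialisation of `D₀` vanishes
  have hrD₀ : Finsupp.mapDomain Fc.sp D₀ = 0 := by
    ext y
    rw [Finsupp.coe_zero, Pi.zero_apply]
    rcases point_cases Fc y with hy | ⟨p, hp, rfl⟩ | hy
    · have h1 : Finsupp.mapDomain Fc.sp (S.hpf.divOf f) y = 0 := by
        rcases y with Q | Q
        · have := Fc.r5₁ hf₁ one_ne_zero Q hy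
          rwa [Place.ord_one] at this
        · have := Fc.r5₂ hf₂ one_ne_zero Q hy
          rwa [Place.ord_one] at this
      rw [hdivf, Finsupp.mapDomain_smul, Finsupp.smul_apply, nsmul_eq_mul] at h1
      rcases mul_eq_zero.mp h1 with h | h
      · exact absurd h hm0
      · exact h
    · rw [mapDomain_apply_sum]
      refine Finset.sum_eq_zero fun P _ => ?_
      split_ifs with hP
      · by_contra hne
        exact hsm P hne p hp hP
      · rfl
    · rw [mapDomain_apply_sum]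
      refine Finset.sum_eq_zero fun P _ => ?_
      rw [if_neg (hy P)]
  by_cases hg : g = 0
  · -- genus zero: Riemann–Roch
    obtain ⟨s₀, hs₀, hs₀0⟩ := exists_ne_zero_mem S.hpf S.RF (E := D₀)
      (by rw [hdegD₀, hg]; simp)
    have hZnn : 0 ≤ S.hpf.divOf s₀ + D₀ := residual_nonneg S.hpf hs₀0 hs₀
    have hZ0 : S.hpf.divOf s₀ + D₀ = 0 := by
      refine eq_zero_of_nonneg_of_tot_eq_zero hZnn ?_
      rw [← degree_eq_tot S.hpf, map_add, S.hpf.degree_divOf, hdegD₀, add_zero]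
    refine ⟨s₀⁻¹, inv_ne_zero hs₀0, fun P => ?_⟩
    have h1 := congrArg (fun E : Divisor L F => E P) hZ0
    simp only [Finsupp.add_apply, S.hpf.divOf_apply, Finsupp.coe_zero, Pi.zero_apply] at h1
    rw [P.ord_inv]
    omega
  -- a place `P₀` over a smooth point
  obtain ⟨Qa, Qb, hcard0, -, -, hQa, hQb, -, -⟩ := Fc.ns ∅ ∅
  have hex : ∃ P₀, IsSm Sg (Fc.sp P₀) ∧ ∀ (Qs₁ : Finset (Place k Fk₁))
      (Qs₂ : Finset (Place k Fk₂)), Disjoint Qs₁ Qa → Disjoint Qs₂ Qb →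
        Fc.sp P₀ ∉ Qs₁.disjSum Qs₂ := by
    rcases Finset.eq_empty_or_nonempty Qa with ha | ⟨Q, hQ⟩
    · rcases Finset.eq_empty_or_nonempty Qb with hb | ⟨Q, hQ⟩
      · exfalso
        rw [ha, hb] at hcard0
        simp at hcard0
        exact hg hcard0.symm
      · obtain ⟨P, hP⟩ := exists_sp_eq₂ Fc (hQb Q hQ).1 (hQb Q hQ).2
        refine ⟨P, by rw [hP]; exact (hQb Q hQ).1, fun Qs₁ Qs₂ _ hd hmem => ?_⟩
        rw [hP, Finset.inr_mem_disjSum] at hmem
        exact Finset.disjoint_left.mp hd hmem hQ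
    · obtain ⟨P, hP⟩ := exists_sp_eq₁ Fc (hQa Q hQ).1 (hQa Q hQ).2
      refine ⟨P, by rw [hP]; exact (hQa Q hQ).1, fun Qs₁ Qs₂ hd _ hmem => ?_⟩
      rw [hP, Finset.inl_mem_disjSum] at hmem
      exact Finset.disjoint_left.mp hd hmem hQ
  obtain ⟨P₀, hP₀sm, hP₀out⟩ := hex
  -- balanced non-special sets
  obtain ⟨Qs₁, Qs₂, hcard, hdisj₁, hdisj₂, hQs₁, hQs₂, hrank, hns⟩ := Fc.ns Qa Qb
  set QsB : Finset (Place k Fk₁ ⊕ Place k Fk₂) := Qs₁.disjSum Qs₂ with hQsB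
  have hP₀Qs : Fc.sp P₀ ∉ QsB := hP₀out Qs₁ Qs₂ hdisj₁ hdisj₂
  have hnodeQs : ∀ p ∈ Sg, Sum.inl p.1 ∉ QsB := fun p hp hmem =>
    (hQs₁ p.1 (Finset.inl_mem_disjSum.mp hmem)).1 p hp rfl
  have hsumB₁ : ∀ Q, sumB QsB (Sum.inl Q) = sumPl Qs₁ Q := by
    intro Q
    rw [sumB_apply, sumPl_apply, hQsB]
    simp only [Finset.inl_mem_disjSum]
  have hsumB₂ : ∀ Q, sumB QsB (Sum.inr Q) = sumPl Qs₂ Q := by
    intro Q
    rw [sumB_apply, sumPl_apply, hQsB]
    simp only [Finset.inr_mem_disjSum]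
  have hpt : ∀ y ∈ QsB, ∃ P, Fc.sp P = y := by
    intro y hy
    rcases y with Q | Q
    · have := hQs₁ Q (Finset.inl_mem_disjSum.mp hy)
      exact exists_sp_eq₁ Fc this.1 this.2
    · have := hQs₂ Q (Finset.inr_mem_disjSum.mp hy)
      exact exists_sp_eq₂ Fc this.1 this.2
  haveI : Nonempty (Place L F) := ⟨P₀⟩
  choose! pt hpt using hpt
  set G₀ : Divisor L F := ∑ y ∈ QsB, Finsupp.single (pt y) (1 : ℤ) with hG₀
  have hG₀nn : 0 ≤ G₀ := by
    rw [hG₀]
    refine Finset.sum_nonneg fun Q _ => ?_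
    rw [Finsupp.le_def]
    intro v
    rw [Finsupp.single_apply]
    split_ifs <;> simp
  have hrG₀ : Finsupp.mapDomain Fc.sp G₀ = sumB QsB := by
    rw [hG₀, Finsupp.mapDomain_finsetSum, sumB]
    refine Finset.sum_congr rfl fun y hy => ?_
    rw [Finsupp.mapDomain_single, hpt y hy]
  have hdegG₀ : Divisor.degree G₀ = g := by
    rw [hG₀, map_sum]
    simp only [S.hpf.degree_single]
    rw [Finset.sum_const, hQsB, Finset.card_disjSum, hcard]
    simp
  obtain ⟨fsG0, fsG1⟩ := fibre_structure Fc.sp hG₀nn hrG₀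
  -- no point of `G₀ + D₀` lies over a node
  have hnodeGD : ∀ p ∈ Sg, ∀ P, Fc.sp P = Sum.inl p.1 → (G₀ + D₀) P = 0 := by
    intro p hp P hP
    have h1 : G₀ P = 0 := fsG0 P (by rw [hP, sumB_apply, if_neg (hnodeQs p hp)])
    have h2 : D₀ P = 0 := by
      by_contra hne
      exact hsm P hne p hp hP
    rw [Finsupp.add_apply, h1, h2, add_zero]
  have hregnode : ∀ x : F, x ∈ riemannRochSpace (G₀ + D₀) → ∀ p ∈ Sg, ∀ P,
      Fc.sp P = Sum.inl p.1 → 0 ≤ P.ord x := by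
    intro x hx p hp P hP
    by_cases hx0 : x = 0
    · rw [hx0, Place.ord_zero]
    · have := (mem_rrSpace_iff_of_ne_zero hx0).mp hx P
      rw [hnodeGD p hp P hP] at this
      omega
  -- Step 3: the section `s`
  obtain ⟨s₀, hs₀, hs₀0⟩ := exists_ne_zero_mem S.hpf S.RF (E := G₀ + D₀)
    (by rw [map_add, hdegG₀, hdegD₀, add_zero])
  obtain ⟨e, he, σ₁, σ₂, hσ₁, hσ₂, hσne⟩ := joint_scale ax₁ ax₂ hs₀0
  have hs₁mem : e • s₀ ∈ riemannRochSpace (G₀ + D₀) := Submodule.smul_mem _ _ hs₀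
  have hs₁0 : e • s₀ ≠ 0 := smul_ne_zero he hs₀0
  have hZ₁ : 0 ≤ S.hpf.divOf (e • s₀) + (G₀ + D₀) := residual_nonneg S.hpf hs₁0 hs₁mem
  obtain ⟨b, hb₁, hb₂⟩ := pair_const Fc hrank hns hσ₁ hσ₂ (hregnode _ hs₁mem)
    (fun h0 Q hQ => by
      have h1 := Finsupp.le_def.mp (mapDomain_nonneg Fc.sp hZ₁) (Sum.inl Q)
      rw [Finsupp.mapDomain_add, Finsupp.mapDomain_add, Finsupp.add_apply, Finsupp.add_apply,
        Fc.r5₁ hσ₁ h0 Q hQ, hrG₀, hrD₀, hsumB₁] at h1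
      simp only [Finsupp.coe_zero, Pi.zero_apply] at h1
      omega)
    (fun h0 Q hQ => by
      have h1 := Finsupp.le_def.mp (mapDomain_nonneg Fc.sp hZ₁) (Sum.inr Q)
      rw [Finsupp.mapDomain_add, Finsupp.mapDomain_add, Finsupp.add_apply, Finsupp.add_apply,
        Fc.r5₂ hσ₂ h0 Q hQ, hrG₀, hrD₀, hsumB₂] at h1
      simp only [Finsupp.coe_zero, Pi.zero_apply] at h1
      omega)
  have hb0 : b ≠ 0 := by
    rintro rfl
    rw [map_zero] at hb₁ hb₂
    rcases hσne with h | h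
    · exact h hb₁
    · exact h hb₂
  obtain ⟨u₁, hu₁⟩ := ax₁.res_surj b⁻¹
  set s : F := (u₁ : L) • (e • s₀) with hs
  have hRs₁ : Red₁ s 1 := by
    have := ax₁.smul u₁ hσ₁
    rwa [hu₁, hb₁, ← map_mul, inv_mul_cancel₀ hb0, map_one] at this
  have hRs₂ : Red₂ s 1 := by
    have := ax₂.smul u₁ hσ₂
    rwa [hu₁, hb₂, ← map_mul, inv_mul_cancel₀ hb0, map_one] at this
  have hs0 : s ≠ 0 := ax₁.ne_zero hRs₁ one_ne_zero
  have hsmem : s ∈ riemannRochSpace (G₀ + D₀) := Submodule.smul_mem _ _ hs₁mem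
  set Z : Divisor L F := S.hpf.divOf s + (G₀ + D₀) with hZ
  have hZnn : 0 ≤ Z := residual_nonneg S.hpf hs0 hsmem
  have hdegZ : Divisor.degree Z = g := by
    rw [hZ, map_add, map_add, S.hpf.degree_divOf, hdegG₀, hdegD₀]
    ring
  -- the degree count: `Z` has no point over a node
  have hrZ : Finsupp.mapDomain Fc.sp Z = sumB QsB := by
    symm
    refine eq_of_le_of_tot_eq ?_ ?_
    · rw [Finsupp.le_def]
      intro y
      rcases point_cases Fc y with hy | ⟨p, hp, rfl⟩ | hy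
      · have h1 : Finsupp.mapDomain Fc.sp (S.hpf.divOf s) y = 0 := by
          rcases y with Q | Q
          · have := Fc.r5₁ hRs₁ one_ne_zero Q hy
            rwa [Place.ord_one] at this
          · have := Fc.r5₂ hRs₂ one_ne_zero Q hy
            rwa [Place.ord_one] at this
        rw [hZ, Finsupp.mapDomain_add, Finsupp.mapDomain_add, Finsupp.add_apply,
          Finsupp.add_apply, hrG₀, hrD₀, h1]
        simp
      · rw [sumB_apply, if_neg (hnodeQs p hp)]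
        exact Finsupp.le_def.mp (mapDomain_nonneg Fc.sp hZnn) _
      · rw [sumB_apply, if_neg (fun hmem => hy (pt y) (hpt y hmem))]
        exact Finsupp.le_def.mp (mapDomain_nonneg Fc.sp hZnn) _
    · rw [← hrG₀, tot_mapDomain, tot_mapDomain, ← degree_eq_tot S.hpf, ← degree_eq_tot S.hpf,
        hdegG₀, hdegZ]
  have hZapply : ∀ P, Z P = P.ord s + (G₀ P + D₀ P) := fun P => by
    rw [hZ, Finsupp.add_apply, Finsupp.add_apply, S.hpf.divOf_apply]
  -- Step 4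
  set f₁ : F := f * s ^ m with hf₁def
  have hRf₁₁ : Red₁ f₁ 1 := by
    have := ax₁.mul hf₁ (ax₁.pow hRs₁ m)
    rwa [one_pow, mul_one] at this
  have hRf₁₂ : Red₂ f₁ 1 := by
    have := ax₂.mul hf₂ (ax₂.pow hRs₂ m)
    rwa [one_pow, mul_one] at this
  have hf₁0 : f₁ ≠ 0 := ax₁.ne_zero hRf₁₁ one_ne_zero
  have hordf₁ : ∀ P : Place L F, P.ord f₁ = m * (Z P - G₀ P) := by
    intro P
    rw [hf₁def, P.ord_mul hf0 (pow_ne_zero _ hs0), ord_pow', ← hdiv P, hZapply]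
    ring
  obtain ⟨fsZ0, fsZ1⟩ := fibre_structure Fc.sp hZnn hrZ
  have hout : ∀ P, Fc.sp P ∉ QsB → P.ord f₁ = 0 := by
    intro P hP
    have h0 : sumB QsB (Fc.sp P) = 0 := by rw [sumB_apply, if_neg hP]
    rw [hordf₁, fsZ0 P h0, fsG0 P h0]
    ring
  have hP₀reg : ∀ P, Fc.sp P = Fc.sp P₀ → P.ord f₁ = 0 := fun P hP =>
    hout P (by rw [hP]; exact hP₀Qs)
  obtain ⟨v₀, hv₀⟩ := exists_eq_or_ord_sub_pos P₀ (S.hpf.res P₀) f₁
    (by rw [hP₀reg P₀ rfl])
  rcases hv₀ with hconst | hpos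
  · -- `f₁` is constant: `Z = G₀`
    refine ⟨s⁻¹, inv_ne_zero hs0, fun P => ?_⟩
    have h1 : P.ord f₁ = 0 := by
      rw [hconst]
      exact ord_algebraMap P v₀
    rw [hordf₁] at h1
    have h2 : Z P - G₀ P = 0 := by
      rcases mul_eq_zero.mp h1 with h | h
      · exact absurd h hm0
      · exact h
    rw [hZapply] at h2
    rw [P.ord_inv]
    omega
  · exfalso
    obtain ⟨u₀, hu₀, hu₀1⟩ := value_integral₂ Fc hRf₁₁ hRf₁₂ hP₀sm hP₀reg hpos
    have hv₀0 : v₀ ≠ 0 := by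
      rintro rfl
      have : u₀ = 0 := Subtype.ext hu₀
      rw [this, map_zero] at hu₀1
      exact zero_ne_one hu₀1
    have hRv₁ : Red₁ (algebraMap L F v₀)⁻¹ 1 := by
      have h1 := ax₁.const u₀
      rw [hu₀, hu₀1, map_one] at h1
      have := ax₁.inv h1 one_ne_zero
      rwa [inv_one] at this
    have hRv₂ : Red₂ (algebraMap L F v₀)⁻¹ 1 := by
      have h1 := ax₂.const u₀
      rw [hu₀, hu₀1, map_one] at h1
      have := ax₂.inv h1 one_ne_zero
      rwa [inv_one] at this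
    set f₂ : F := (algebraMap L F v₀)⁻¹ * f₁ with hf₂def
    have hRf₂₁ : Red₁ f₂ 1 := by
      have := ax₁.mul hRv₁ hRf₁₁
      rwa [mul_one] at this
    have hRf₂₂ : Red₂ f₂ 1 := by
      have := ax₂.mul hRv₂ hRf₁₂
      rwa [mul_one] at this
    have hv₀F : (algebraMap L F v₀)⁻¹ ≠ 0 := inv_ne_zero ((map_ne_zero _).mpr hv₀0)
    have hordf₂ : ∀ P : Place L F, P.ord f₂ = P.ord f₁ := by
      intro P
      rw [hf₂def, P.ord_mul hv₀F hf₁0, P.ord_inv, ord_algebraMap]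
      ring
    have hf₂1 : f₂ - 1 = (algebraMap L F v₀)⁻¹ * (f₁ - algebraMap L F v₀) := by
      rw [hf₂def, mul_sub, inv_mul_cancel₀ ((map_ne_zero _).mpr hv₀0)]
    have hsub0 : f₁ - algebraMap L F v₀ ≠ 0 := by
      intro h0
      rw [h0] at hpos
      simp at hpos
    have hf₂10 : f₂ - 1 ≠ 0 := by
      rw [hf₂1]
      exact mul_ne_zero hv₀F hsub0
    have hposf₂ : 0 < P₀.ord (f₂ - 1) := by
      rw [hf₂1, P₀.ord_mul hv₀F hsub0, P₀.ord_inv, ord_algebraMap]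
      omega
    obtain ⟨c', hc', φ₁, φ₂, hRφ₁, hRφ₂, hφne⟩ := joint_scale ax₁ ax₂ hf₂10
    have hordc' : ∀ P : Place L F, P.ord (c' • (f₂ - 1)) = P.ord (f₂ - 1) := fun P =>
      ord_smul_of_ne_zero P hc' _
    have hregout : ∀ P, Fc.sp P ∉ QsB → 0 ≤ P.ord (c' • (f₂ - 1)) := by
      intro P hP
      rw [hordc']
      refine ord_sub_one_nonneg P ?_
      rw [hordf₂, hout P hP]
    have hordf₂' : ∀ P : Place L F, P.ord f₂ = m * (Z P - G₀ P) := fun P => by
      rw [hordf₂, hordf₁]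
    obtain ⟨b', hb'₁, hb'₂⟩ := pair_const Fc hrank hns hRφ₁ hRφ₂
      (fun p hp P hP => hregout P (by rw [hP]; exact hnodeQs p hp))
      (fun hφ0 Q hQ => by
        by_cases hQmem : Q ∈ Qs₁
        · have hy : sumB QsB (Sum.inl Q) = 1 := by rw [hsumB₁, sumPl_apply, if_pos hQmem]
          have := local_bound (localAx₁ Fc hQ (hQs₁ Q hQmem).2) hRf₂₁ hm hordf₂'
            (fsZ1 _ hy) (fsG1 _ hy) hRφ₁ hφ0
          rw [sumPl_apply, if_pos hQmem]
          exact this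
        · rw [sumPl_apply, if_neg hQmem]
          have h5 := Fc.r5₁ hRφ₁ hφ0 Q hQ
          have := mapDomain_apply_nonneg Fc.sp (E := S.hpf.divOf (c' • (f₂ - 1)))
            (Q := Sum.inl Q) (fun P hP => by
              rw [S.hpf.divOf_apply]
              exact hregout P (by rw [hP, hQsB, Finset.inl_mem_disjSum]; exact hQmem))
          rw [h5] at this
          simpa using this)
      (fun hφ0 Q hQ => by
        by_cases hQmem : Q ∈ Qs₂
        · have hy : sumB QsB (Sum.inr Q) = 1 := by rw [hsumB₂, sumPl_apply, if_pos hQmem]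
          have := local_bound (localAx₂ Fc hQ (hQs₂ Q hQmem).2) hRf₂₂ hm hordf₂'
            (fsZ1 _ hy) (fsG1 _ hy) hRφ₂ hφ0
          rw [sumPl_apply, if_pos hQmem]
          exact this
        · rw [sumPl_apply, if_neg hQmem]
          have h5 := Fc.r5₂ hRφ₂ hφ0 Q hQ
          have := mapDomain_apply_nonneg Fc.sp (E := S.hpf.divOf (c' • (f₂ - 1)))
            (Q := Sum.inr Q) (fun P hP => by
              rw [S.hpf.divOf_apply]
              exact hregout P (by rw [hP, hQsB, Finset.inr_mem_disjSum]; exact hQmem))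
          rw [h5] at this
          simpa using this)
    have hb'0 : b' ≠ 0 := by
      rintro rfl
      rw [map_zero] at hb'₁ hb'₂
      rcases hφne with h | h
      · exact h hb'₁
      · exact h hb'₂
    rw [hb'₁] at hRφ₁
    rw [hb'₂] at hRφ₂
    have := ord_le_pt Fc hP₀sm hb'0 hRφ₁ hRφ₂
      (fun P hP => hregout P (by rw [hP]; exact hP₀Qs)) (P₁ := P₀) rfl
    rw [hordc'] at this
    omega

/-- **Stage 2 (Inj)**: if `div f₁ = m • E`, both reductions of `f₁` are nonzero, no point of `E`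
lies over a node, and `h'` acts trivially on the special fibre, then `h' • E - E` is principal -/
theorem inj_step (Fc : Facts S) {h' : SemilinearAut L F} (hc : Compat2 A Red₁ Red₂ D h')
    {m : ℕ} (hm : (m : k) ≠ 0) {f₁ : F} {a₁ : Fk₁} {a₂ : Fk₂} (h₁ : Red₁ f₁ a₁)
    (h₂ : Red₂ f₁ a₂) (ha₁ : a₁ ≠ 0) (ha₂ : a₂ ≠ 0) (E : Divisor L F)
    (hE : ∀ P, E P ≠ 0 → ∀ p ∈ Sg, Fc.sp P ≠ Sum.inl p.1)
    (hdiv : ∀ P, (m : ℤ) * E P = P.ord f₁) :
    ∃ s : F, s ≠ 0 ∧ ∀ P, (h' • E - E) P = P.ord s := by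
  have ax₁ := S.ax₁
  have ax₂ := S.ax₂
  have hf₁0 : f₁ ≠ 0 := ax₁.ne_zero h₁ ha₁
  have hhf0 : h' • f₁ ≠ 0 := (smul_ne_zero_iff_ne h').mpr hf₁0
  have hw₁ : Red₁ ((h' • f₁) * f₁⁻¹) 1 := by
    have := ax₁.mul (hc.red₁ _ _ h₁) (ax₁.inv h₁ ha₁)
    rwa [mul_inv_cancel₀ ha₁] at this
  have hw₂ : Red₂ ((h' • f₁) * f₁⁻¹) 1 := by
    have := ax₂.mul (hc.red₂ _ _ h₂) (ax₂.inv h₂ ha₂)
    rwa [mul_inv_cancel₀ ha₂] at this
  refine star_nodal Fc hw₁ hw₂ (h' • E - E) ?_ m hm ?_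
  · intro P hP p hp
    rw [Finsupp.sub_apply, SemilinearAut.divisor_smul_apply] at hP
    by_cases h1 : E P = 0
    · have h2 : E (h'⁻¹ • P) ≠ 0 := by
        intro h
        apply hP
        rw [h, h1, sub_zero]
      have := hE _ h2 p hp
      rwa [← Fc.sp_smul h' hc (h'⁻¹ • P), smul_inv_smul] at this
    · exact hE P h1 p hp
  · intro P
    have h3 := SemilinearAut.ord_smul h' (h'⁻¹ • P) f₁
    rw [smul_inv_smul] at h3
    rw [P.ord_mul hhf0 (inv_ne_zero hf₁0), P.ord_inv, Finsupp.sub_apply,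
      SemilinearAut.divisor_smul_apply, mul_sub, hdiv, hdiv, h3]
    ring

end Fermat.Agent.S34.NodalInj
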