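import Fermat.Agent.S34.NodalMov
import Fermat.Agent.S34.NodalInj

/-!
# C83 (S34), piece A5: the abstract theorem `Facts → Target`

Stage 1 (`Mov.stage1`) and Stage 2 (`NodalInj.inj_step`) together: for `div f = m • D₀`,
`(m : k) ≠ 0` and `h`, `h'` acting trivially on the special fibre, `(h' - 1)(h - 1) D₀` is
principal.
-/

set_option autoImplicit false
set_option linter.unusedSectionVars false
set_option linter.style.haveILetI false
set_option linter.unusedVariables false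

open AlgebraicCurve Fermat.Agent.Lib.FF Fermat.Agent.S18.Deuring

namespace Fermat.Agent.S34

variable {L k F Fk₁ Fk₂ : Type*} [Field L] [Field k] [Field F] [Field Fk₁] [Field Fk₂]
  [Algebra L F] [Algebra k Fk₁] [Algebra k Fk₂]
variable {A : ValuationSubring L} {res : A →+* k} {Red₁ : F → Fk₁ → Prop}
  {Red₂ : F → Fk₂ → Prop} {D : Divisor L F} {D₁ : Divisor k Fk₁} {D₂ : Divisor k Fk₂}
  {Sg : Finset (Place k Fk₁ × Place k Fk₂)} {g g₁ g₂ : ℕ} {c c₁ c₂ : ℤ}

/-- **the abstract theorem**: the contract `Facts` implies `Target` -/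
theorem target_of_facts (S : Setup2 A res Red₁ Red₂ D D₁ D₂ Sg g g₁ g₂ c c₁ c₂) (Fc : Facts S) :
    Target A res Red₁ Red₂ D := by
  intro h h' hh hh' m hm f hf D₀ hdiv
  obtain ⟨E, f₁, s, a₁, a₂, hs0, hf₁0, hE, hEnode, hdivE, hR₁, hR₂, ha₁, ha₂⟩ :=
    Mov.stage1 S Fc hh hm hf hdiv
  obtain ⟨s₂, hs₂0, hs₂⟩ := NodalInj.inj_step Fc hh' hm hR₁ hR₂ ha₁ ha₂ E
    (fun P hP p hp hsp => hP (hEnode P p hp hsp)) hdivE
  have hhs0 : h' • s ≠ 0 := by
    rw [Ne, Fermat.Agent.S37.G.smul_eq_zero_iff']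
    exact hs0
  refine ⟨s₂ * (s * (h' • s)⁻¹), mul_ne_zero hs₂0 (mul_ne_zero hs0 (inv_ne_zero hhs0)),
    fun P => ?_⟩
  have h1 := SemilinearAut.ord_smul h' (h'⁻¹ • P) s
  rw [smul_inv_smul] at h1
  have h2 := hs₂ P
  rw [Finsupp.sub_apply, SemilinearAut.divisor_smul_apply] at h2
  have h3 := hE P
  have h4 := hE (h'⁻¹ • P)
  rw [Finsupp.sub_apply, SemilinearAut.divisor_smul_apply,
    P.ord_mul hs₂0 (mul_ne_zero hs0 (inv_ne_zero hhs0)), P.ord_mul hs0 (inv_ne_zero hhs0),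
    P.ord_inv, h1, ← h2]
  linarith

end Fermat.Agent.S34
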