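import Mathlib
import Fermat.Agent.S34.GlueFinal
import Fermat.Agent.S34.NodalTarget
import Fermat.Agent.S34.Equiv

/-!
# C83 (S34), piece `CoreAsm`: assembly of `GlueFinal.Core q`

`Core q` quantifies over the levels `M` with `q ∥ M` and (`4 ∣ M` or `9 ∣ M`).  The concrete side
works at the level written `M' * q`, `q ∤ M'` (as the Atkin–Lehner involution `wAL` of S37).

* `Input hq M' hM' P`: what the concrete side (C1–C3) and the abstract side (A1–A3) deliver at the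
  level `M' * q` and the valuation ring `P` of `ℚ̄` over `q`: carriers `Fk₁`, `Fk₂` mapping to
  `k((q))`, two relations `Red₁`, `Red₂` which are the Gauss reductions of `x` and of `w x`,
  a Galois-stable divisor `D`, an instance `S` of `Setup2`, and the contract `Facts S`;
* `core_of_input`: `Core q` from `Input` at all `(M', P)` with `q ∤ M'`, `4 ∣ M'` or `9 ∣ M'`
  (the transport `M = M' * q`, the abstract theorem `target_of_facts` and `compat2_inertia`);
* `unipotent_of_input`: the statement of S34 from the same hypothesis.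
-/

set_option autoImplicit false
set_option linter.unusedSectionVars false
set_option linter.unusedVariables false
set_option linter.style.haveILetI false

noncomputable section

namespace Fermat.Agent.S34.CoreAsm

open ModularCurve AlgebraicCurve Fermat.Agent.Lib.FF
open Fermat.Agent.S37.AL Fermat.Agent.S18.GV Fermat.Agent.S18 Fermat.Agent

local notation "Qb" => AlgebraicClosure ℚ
local notation "Gal" => (AlgebraicClosure ℚ ≃ₐ[ℚ] AlgebraicClosure ℚ)
local notation "Ω" => LaurentSeries (AlgebraicClosure ℚ)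

/-- **the input of the assembly** at the level `M' * q` and the valuation ring `P` -/
def Input {q : ℕ} [NeZero q] (hq : q.Prime) (M' : ℕ) [NeZero (M' * q)] (hM' : ¬ q ∣ M')
    (P : ValuationSubring Qb) : Prop :=
  ∃ (Fk₁ Fk₂ : Type) (_ : Field Fk₁) (_ : Field Fk₂)
    (_ : Algebra (IsLocalRing.ResidueField P) Fk₁)
    (_ : Algebra (IsLocalRing.ResidueField P) Fk₂)
    (ι₁ : Fk₁ → LaurentSeries (IsLocalRing.ResidueField P))
    (ι₂ : Fk₂ → LaurentSeries (IsLocalRing.ResidueField P))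
    (Red₁ : modularFunctionFieldBar (M' * q) → Fk₁ → Prop)
    (Red₂ : modularFunctionFieldBar (M' * q) → Fk₂ → Prop)
    (D : Divisor Qb (modularFunctionFieldBar (M' * q)))
    (D₁ : Divisor (IsLocalRing.ResidueField P) Fk₁)
    (D₂ : Divisor (IsLocalRing.ResidueField P) Fk₂)
    (Sg : Finset (Place (IsLocalRing.ResidueField P) Fk₁ ×
      Place (IsLocalRing.ResidueField P) Fk₂))
    (g g₁ g₂ : ℕ) (c c₁ c₂ : ℤ)
    (S : Setup2 P (IsLocalRing.residue P) Red₁ Red₂ D D₁ D₂ Sg g g₁ g₂ c c₁ c₂),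
    Nonempty (Facts S) ∧
    (∀ x a, Red₁ x a ↔ Red P (x : Ω) (ι₁ a)) ∧
    (∀ x a, Red₂ x a ↔
      Red P ((wAL hq hM' x : modularFunctionFieldBar (M' * q)) : Ω) (ι₂ a)) ∧
    (∀ σ : Gal, arithmeticGalois (modularFunctionFieldFull (M' * q)) σ • D = D)

/-- the arithmetic of the transport: `q ∥ M' * q` gives `q ∤ M'` -/
theorem not_dvd_of_not_sq_dvd {q M' : ℕ} (h : ¬ q ^ 2 ∣ M' * q) : ¬ q ∣ M' := by
  rintro ⟨c, rfl⟩
  exact h ⟨c, by ring⟩

/-- the arithmetic of the transport: `4 ∣ M' q` or `9 ∣ M' q` with `q ∤ M'` gives the same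
for `M'` -/
theorem four_or_nine_dvd {q M' : ℕ} (hq : q.Prime) (hM' : ¬ q ∣ M')
    (h : 4 ∣ M' * q ∨ 9 ∣ M' * q) : 4 ∣ M' ∨ 9 ∣ M' := by
  have key : ∀ b : ℕ, b.Prime → b ^ 2 ∣ M' * q → b ≠ q → b ^ 2 ∣ M' := by
    intro b hb hd hbq
    have hcop : Nat.Coprime (b ^ 2) q :=
      Nat.Coprime.pow_left 2 ((Nat.coprime_primes hb hq).2 hbq)
    exact hcop.dvd_of_dvd_mul_right hd
  have key' : ∀ b : ℕ, b.Prime → b ^ 2 ∣ M' * q → b ≠ q := by
    rintro b hb hd rfl
    apply hM'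
    have : b * b ∣ M' * b := by rwa [sq] at hd
    exact Nat.dvd_of_mul_dvd_mul_right hb.pos this
  rcases h with h | h
  · left
    have h' : 2 ^ 2 ∣ M' * q := by norm_num; exact h
    have := key 2 Nat.prime_two h' (key' 2 Nat.prime_two h')
    norm_num at this; exact this
  · right
    have h' : 3 ^ 2 ∣ M' * q := by norm_num; exact h
    have := key 3 Nat.prime_three h' (key' 3 Nat.prime_three h')
    norm_num at this; exact this

/-- **the assembly**: `Core q` from the input at all levels `M' * q` -/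
theorem core_of_input {q : ℕ} (hq : q.Prime)
    (H : ∀ (M' : ℕ) (i : NeZero (M' * q)) (hM' : ¬ q ∣ M'), (4 ∣ M' ∨ 9 ∣ M') →
      ∀ P : ValuationSubring Qb, P.LiesOverPrime q →
        @Input q ⟨hq.ne_zero⟩ hq M' i hM' P) :
    Fermat.Agent.S34.GlueFinal.Core q := by
  intro M iM h49 hqM hq2 P hP
  obtain ⟨M', hM⟩ := hqM
  have e : M = M' * q := by rw [hM, mul_comm]
  subst e
  haveI : NeZero q := ⟨hq.ne_zero⟩
  have hM' : ¬ q ∣ M' := not_dvd_of_not_sq_dvd hq2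
  obtain ⟨Fk₁, Fk₂, i1, i2, i3, i4, ι₁, ι₂, Red₁, Red₂, D, D₁, D₂, Sg, g, g₁, g₂, c, c₁, c₂, S,
    ⟨Fc⟩, hR₁, hR₂, hD⟩ := H M' iM hM' (four_or_nine_dvd hq hM' h49) P hP
  exact ⟨Fk₁, Fk₂, i1, i2, i3, i4, Red₁, Red₂, D, target_of_facts S Fc,
    fun σ hσ => Fermat.Agent.S34.Equiv.compat2_inertia P hq hM' ι₁ ι₂ Red₁ Red₂ hR₁ hR₂ D hD hσ⟩

/-- **the statement of S34** from the input at all levels `M' * q` -/
theorem unipotent_of_input {q : ℕ} (hq : q.Prime)
    (H : ∀ (M' : ℕ) (i : NeZero (M' * q)) (hM' : ¬ q ∣ M'), (4 ∣ M' ∨ 9 ∣ M') →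
      ∀ P : ValuationSubring Qb, P.LiesOverPrime q →
        @Input q ⟨hq.ne_zero⟩ hq M' i hM' P)
    {𝒪 : Type} [CommRing 𝒪] [IsDomain 𝒪] [IsDiscreteValuationRing 𝒪]
    [IsAdicComplete (IsLocalRing.maximalIdeal 𝒪) 𝒪] [Finite (IsLocalRing.ResidueField 𝒪)]
    [CharZero 𝒪]
    {p : ℕ} (hp : p.Prime) (hp𝒪 : (p : 𝒪) ∈ IsLocalRing.maximalIdeal 𝒪)
    {N : ℕ} [NeZero N] {S : Finset ℕ} (hpS : p ∈ S) (hNS : ∀ q : ℕ, q.Prime → q ∣ N → q ∈ S)
    {θ : CuspForm.heckeAlgebra N 2 (↑S : Set ℕ) →+* IsLocalRing.ResidueField 𝒪}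
    {T : Type} [CommRing T] [IsLocalRing T] [IsNoetherianRing T]
    [IsAdicComplete (IsLocalRing.maximalIdeal T) T] [Algebra 𝒪 T]
    [IsLocalHom (algebraMap 𝒪 T)] [Module.Finite 𝒪 T] [Module.Free 𝒪 T]
    (Hd : CuspForm.HeckeGaloisRepDatum N (↑S : Set ℕ) 𝒪 θ T)
    (hqp : q ≠ p) (hqN : q ∣ N) (hq2 : ¬ q ^ 2 ∣ N) :
    Hd.ρ.IsUnipotentOnInertiaAt q :=
  Fermat.Agent.S34.GlueFinal.unipotent_of_core (core_of_input hq H) hp hp𝒪 hpS hNS Hd hq hqp
    hqN hq2

end Fermat.Agent.S34.CoreAsm
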