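import Fermat.Agent.S34.Setup2

/-!
# C83 (S34), piece A0 (second part): the contract between A1–A3 (producers) and A5 (consumer)

`Facts S` collects what the torsion argument (Stage 1 `Mov` + Stage 2 `Inj`) uses:

* `sp`      : the specialisation of places to the points of the special fibre; the points over a
              node `(x₁, x₂) ∈ Sg` are sent to `Sum.inl x₁` (never to `Sum.inr x₂`);
* `r5₁/r5₂` : the exact count at the SMOOTH points of each component, for ONE valuation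
              (`Red_i x a`, `a ≠ 0` ⇒ `∑_{sp P = Q} ord_P x = ord_Q a`);
* `regN`    : regularity and matching at a node for functions integral for BOTH valuations and
              without poles over the node (zero reductions allowed);
* `unif₁/₂` : lifted uniformisers at the smooth points outside `D_i`;
* `sp_smul` : automorphisms acting trivially on the special fibre preserve `sp`;
* `ns`      : balanced non-special sets of smooth points.
-/

set_option autoImplicit false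
set_option linter.unusedSectionVars false
set_option linter.style.haveILetI false

open AlgebraicCurve Fermat.Agent.Lib.FF Fermat.Agent.S18.Deuring

namespace Fermat.Agent.S34

variable {L k F Fk₁ Fk₂ : Type*} [Field L] [Field k] [Field F] [Field Fk₁] [Field Fk₂]
  [Algebra L F] [Algebra k Fk₁] [Algebra k Fk₂]
variable {A : ValuationSubring L} {res : A →+* k} {Red₁ : F → Fk₁ → Prop}
  {Red₂ : F → Fk₂ → Prop} {D : Divisor L F} {D₁ : Divisor k Fk₁} {D₂ : Divisor k Fk₂}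
  {Sg : Finset (Place k Fk₁ × Place k Fk₂)} {g g₁ g₂ : ℕ} {c c₁ c₂ : ℤ}

/-- `Q` is a smooth point of the first component (not a branch of a node) -/
def Smooth₁ (Sg : Finset (Place k Fk₁ × Place k Fk₂)) (Q : Place k Fk₁) : Prop :=
  ∀ p ∈ Sg, p.1 ≠ Q

/-- `Q` is a smooth point of the second component -/
def Smooth₂ (Sg : Finset (Place k Fk₁ × Place k Fk₂)) (Q : Place k Fk₂) : Prop :=
  ∀ p ∈ Sg, p.2 ≠ Q

/-- **the contract**: what A1–A3 prove from `Setup2` and what A5 uses -/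
structure Facts (S : Setup2 A res Red₁ Red₂ D D₁ D₂ Sg g g₁ g₂ c c₁ c₂) where
  /-- the specialisation of places -/
  sp : Place L F → Place k Fk₁ ⊕ Place k Fk₂
  /-- the points over a node are recorded on the first branch -/
  sp_ne : ∀ P, ∀ p ∈ Sg, sp P ≠ Sum.inr p.2
  /-- (R5) at the smooth points of the first component -/
  r5₁ : ∀ {x : F} {a : Fk₁}, Red₁ x a → a ≠ 0 → ∀ Q : Place k Fk₁, Smooth₁ Sg Q →
    Finsupp.mapDomain sp (S.hpf.divOf x) (Sum.inl Q) = Q.ord a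
  /-- (R5) at the smooth points of the second component -/
  r5₂ : ∀ {x : F} {a : Fk₂}, Red₂ x a → a ≠ 0 → ∀ Q : Place k Fk₂, Smooth₂ Sg Q →
    Finsupp.mapDomain sp (S.hpf.divOf x) (Sum.inr Q) = Q.ord a
  /-- (Reg) at the nodes -/
  regN : ∀ {x : F} {a₁ : Fk₁} {a₂ : Fk₂}, Red₁ x a₁ → Red₂ x a₂ → ∀ p ∈ Sg,
    (∀ P, sp P = Sum.inl p.1 → 0 ≤ P.ord x) →
      ∃ v : k, Nodal.HasValue p.1 a₁ v ∧ Nodal.HasValue p.2 a₂ v
  /-- lifted uniformisers, first component -/
  unif₁ : ∀ Q : Place k Fk₁, Smooth₁ Sg Q → D₁ Q = 0 →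
    ∃ τ : F, ∃ t : Fk₁, Red₁ τ t ∧ Q.ord t = 1 ∧ ∀ P, sp P = Sum.inl Q → 0 ≤ P.ord τ
  /-- lifted uniformisers, second component -/
  unif₂ : ∀ Q : Place k Fk₂, Smooth₂ Sg Q → D₂ Q = 0 →
    ∃ τ : F, ∃ t : Fk₂, Red₂ τ t ∧ Q.ord t = 1 ∧ ∀ P, sp P = Sum.inr Q → 0 ≤ P.ord τ
  /-- equivariance of the specialisation -/
  sp_smul : ∀ h : SemilinearAut L F, Compat2 A Red₁ Red₂ D h → ∀ P, sp (h • P) = sp P
  /-- balanced non-special sets: `L₂(∑ Qs₂) = k` and `L₁(∑ Qs₁ - nodes) = 0`, `|Qs₁| + |Qs₂| = g` -/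
  ns : ∀ (T₁ : Finset (Place k Fk₁)) (T₂ : Finset (Place k Fk₂)),
    ∃ (Qs₁ : Finset (Place k Fk₁)) (Qs₂ : Finset (Place k Fk₂)),
      Qs₁.card + Qs₂.card = g ∧ Disjoint Qs₁ T₁ ∧ Disjoint Qs₂ T₂ ∧
      (∀ Q ∈ Qs₁, Smooth₁ Sg Q ∧ D₁ Q = 0) ∧ (∀ Q ∈ Qs₂, Smooth₂ Sg Q ∧ D₂ Q = 0) ∧
      Module.finrank k (riemannRochSpace (sumPl Qs₂)) = 1 ∧
      (∀ a ∈ riemannRochSpace (sumPl Qs₁), (∀ p ∈ Sg, Nodal.HasValue p.1 a 0) → a = 0)

end Fermat.Agent.S34
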