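import Fermat.Agent.S18.DeuringNS

/-!
# S34 (C83), piece A1b: balanced non-special sets of places on the nodal curve `C₁ ∪ C₂`

Pure Riemann theory (`RThm`) on the two components.

* `exists_general_position`: for a divisor `E₀` with `ℓ(E₀) = d₀` and
  `deg E₀ + i + 1 ≤ d₀ + g` there are `i` places outside a given finite set such that
  `ℓ(E₀ + ΣQ) = d₀` (generalises `S18.Deuring.exists_nonspecial`);
* `exists_balanced₂`: `g₂` places `Qs₂` with `L(ΣQs₂) = k`;
* `exists_balanced₁`: `g₁ + δ - 1` places `Qs₁` with `L(ΣQs₁ - ΣX₁) = 0` (`X₁` a set of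
  `δ ≥ 1` places: the nodes on `C₁`);
* `balanced_const`: a pair `(a₁, a₂) ∈ L(ΣQs₁) × L(ΣQs₂)` which matches at all nodes is a pair
  of equal constants.
-/

set_option autoImplicit false
set_option linter.unusedSectionVars false
set_option linter.style.haveILetI false
set_option linter.unusedVariables false

open AlgebraicCurve Fermat.Agent.Lib.FF Fermat.Agent.S18.Deuring
open scoped Classical

namespace Fermat.Agent.S34.NodalNS

section General

variable {K F : Type*} [Field K] [Field F] [Algebra K F] (hpf : PlaceFacts K F)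
include hpf

/-- **general position**: adding `i` general places does not increase `ℓ` as long as
`deg E₀ + i + 1 ≤ ℓ(E₀) + g` -/
theorem exists_general_position [Infinite K] {g : ℕ} {c : ℤ} (hR : RThm K F g c)
    (P₀ : Place K F) (T : Finset (Place K F)) (E₀ : Divisor K F) :
    ∀ i : ℕ, Divisor.degree E₀ + i + 1 ≤ (Module.finrank K (riemannRochSpace E₀) : ℤ) + g →
      ∃ Qs : Finset (Place K F), Qs.card = i ∧ Disjoint Qs T ∧ (∀ Q ∈ Qs, E₀ Q = 0) ∧
        Module.finrank K (riemannRochSpace (E₀ + sumPl Qs))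
          = Module.finrank K (riemannRochSpace E₀) := by
  haveI := infinite_place hpf hR P₀
  intro i
  induction i with
  | zero =>
    intro _
    exact ⟨∅, rfl, Finset.disjoint_empty_left _, fun Q hQ => absurd hQ (Finset.notMem_empty Q),
      by rw [sumPl_empty, add_zero]⟩
  | succ i ih =>
    intro hi
    obtain ⟨Qs, hcard, hdisj, hzero, hrank⟩ := ih (by push_cast at hi; omega)
    by_contra hcon
    set U : Finset (Place K F) := Qs ∪ T ∪ E₀.support with hU
    -- every place outside `U` is a jump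
    have hjump : ∀ Q : Place K F, Q ∉ U →
        ∃ f ∈ riemannRochSpace (E₀ + sumPl Qs + Finsupp.single Q 1),
          f ∉ riemannRochSpace (E₀ + sumPl Qs) := by
      intro Q hQ
      by_contra hno
      apply hcon
      have hQs : Q ∉ Qs := fun h =>
        hQ (Finset.mem_union_left _ (Finset.mem_union_left _ h))
      have hQT : Q ∉ T := fun h =>
        hQ (Finset.mem_union_left _ (Finset.mem_union_right _ h))
      have hQE : E₀ Q = 0 := by
        by_contra hne
        exact hQ (Finset.mem_union_right _ (Finsupp.mem_support_iff.mpr hne))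
      refine ⟨insert Q Qs, by rw [Finset.card_insert_of_notMem hQs, hcard], ?_, ?_, ?_⟩
      · rw [Finset.disjoint_insert_left]
        exact ⟨hQT, hdisj⟩
      · intro Q' hQ'
        rcases Finset.mem_insert.mp hQ' with rfl | h
        · exact hQE
        · exact hzero Q' h
      · rw [sumPl_insert hQs, ← add_assoc]
        have hle : riemannRochSpace (E₀ + sumPl Qs + Finsupp.single Q 1)
            ≤ riemannRochSpace (E₀ + sumPl Qs) := by
          intro f hf
          by_contra hfn
          exact hno ⟨f, hf, hfn⟩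
        rw [le_antisymm hle (rrSpace_mono (le_add_single _ _)), hrank]
    -- choose many places outside
    set N : ℕ := (c - Divisor.degree E₀ - i).toNat + 1 with hN
    obtain ⟨t, hsub, htcard⟩ := Infinite.exists_superset_card_eq U (U.card + N)
      (Nat.le_add_right _ _)
    set Y : Finset (Place K F) := t \ U with hY
    have hYcard : Y.card = N := by
      rw [hY, Finset.card_sdiff_of_subset hsub, htcard]
      omega
    have hYout : ∀ Q ∈ Y, Q ∉ U := fun Q hQ => (Finset.mem_sdiff.mp hQ).2
    have h1 := finrank_add_sumPl_of_jumps hpf P₀ (E₀ + sumPl Qs) Y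
      (fun Q hQ => by
        have hQU := hYout Q hQ
        have hQs : Q ∉ Qs := fun h =>
          hQU (Finset.mem_union_left _ (Finset.mem_union_left _ h))
        have hQE : E₀ Q = 0 := by
          by_contra hne
          exact hQU (Finset.mem_union_right _ (Finsupp.mem_support_iff.mpr hne))
        rw [Finsupp.add_apply, hQE, sumPl_apply, if_neg hQs, add_zero])
      (fun Q hQ => hjump Q (hYout Q hQ))
    have h2 := hR.eq (E₀ + sumPl Qs + sumPl Y) (by
      rw [map_add, map_add, degree_sumPl hpf, degree_sumPl hpf, hcard, hYcard, hN]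
      have : c - Divisor.degree E₀ - i ≤ ((c - Divisor.degree E₀ - i).toNat : ℤ) :=
        Int.self_le_toNat _
      push_cast
      omega)
    rw [map_add, map_add, degree_sumPl hpf, degree_sumPl hpf, hcard, hYcard, h1, hrank] at h2
    push_cast at h2 hi
    omega

/-- `g₂` general places are non-special: `L(ΣQs) = K` -/
theorem exists_balanced₂ [Infinite K] {g : ℕ} {c : ℤ} (hR : RThm K F g c)
    (P₀ : Place K F) (T : Finset (Place K F)) :
    ∃ Qs : Finset (Place K F), Qs.card = g ∧ Disjoint Qs T ∧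
      ∀ a ∈ riemannRochSpace (sumPl Qs), ∃ v : K, a = algebraMap K F v := by
  obtain ⟨Qs, hcard, hdisj, hrank⟩ := exists_nonspecial hpf hR P₀ T g le_rfl
  exact ⟨Qs, hcard, hdisj, fun a ha =>
    exists_const_of_finrank_eq_one hpf P₀ (sumPl_nonneg Qs) hrank ha⟩

/-- `g₁ + δ - 1` general places `Qs` with `L(ΣQs - ΣX) = 0`, for a set `X` of `δ ≥ 1` places -/
theorem exists_balanced₁ [Infinite K] {g : ℕ} {c : ℤ} (hR : RThm K F g c)
    (P₀ : Place K F) (T X : Finset (Place K F)) (hX : X.Nonempty) :
    ∃ Qs : Finset (Place K F), Qs.card + 1 = g + X.card ∧ Disjoint Qs T ∧ Disjoint Qs X ∧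
      riemannRochSpace (sumPl Qs - sumPl X) = ⊥ := by
  have hdeg : Divisor.degree (-sumPl X : Divisor K F) < 0 := by
    rw [map_neg, degree_sumPl hpf]
    have := hX.card_pos
    omega
  have hbot := rrSpace_eq_bot_of_degree_neg hpf hdeg
  have hfr : Module.finrank K (riemannRochSpace (-sumPl X : Divisor K F)) = 0 := by
    rw [hbot, finrank_bot]
  have hXpos := hX.card_pos
  obtain ⟨Qs, hcard, hdisj, hzero, hrank⟩ := exists_general_position hpf hR P₀ (T ∪ X)
    (-sumPl X) (g + X.card - 1) (by
      rw [hfr, map_neg, degree_sumPl hpf]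
      push_cast
      omega)
  have hfin := finite_rrSpace hpf P₀ (-sumPl X + sumPl Qs)
  refine ⟨Qs, by omega, ?_, ?_, ?_⟩
  · exact Finset.disjoint_of_subset_right Finset.subset_union_left hdisj
  · exact Finset.disjoint_of_subset_right Finset.subset_union_right hdisj
  · rw [hfr] at hrank
    have := (Submodule.finrank_eq_zero (R := K)).mp hrank
    rwa [neg_add_eq_sub] at this

end General

section Pair

variable {K F₁ F₂ : Type*} [Field K] [Field F₁] [Field F₂] [Algebra K F₁] [Algebra K F₂]

/-- **balanced pairs are constant**: if `L₂(ΣQs₂) = K`, `L₁(ΣQs₁ - ΣX₁) = 0`, then a pair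
`(a₁, a₂) ∈ L₁(ΣQs₁) × L₂(ΣQs₂)` such that at every node `x = (x₁, x₂)` the two functions have
the same value (`a₂(x₂) = v ⇒ a₁(x₁) = v`) consists of two equal constants.
"`a(x) = v`" is written `a = v ∨ 0 < ord_x (a - v)`. -/
theorem balanced_const (Qs₁ X₁ : Finset (Place K F₁)) (Qs₂ : Finset (Place K F₂))
    (hdisj : Disjoint Qs₁ X₁)
    (h₂ : ∀ a ∈ riemannRochSpace (sumPl Qs₂), ∃ v : K, a = algebraMap K F₂ v)
    (h₁ : riemannRochSpace (sumPl Qs₁ - sumPl X₁) = ⊥)
    {a₁ : F₁} {a₂ : F₂} (ha₁ : a₁ ∈ riemannRochSpace (sumPl Qs₁))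
    (ha₂ : a₂ ∈ riemannRochSpace (sumPl Qs₂))
    (hmatch : ∀ v : K, a₂ = algebraMap K F₂ v →
      ∀ x₁ ∈ X₁, a₁ = algebraMap K F₁ v ∨ 0 < x₁.ord (a₁ - algebraMap K F₁ v)) :
    ∃ v : K, a₁ = algebraMap K F₁ v ∧ a₂ = algebraMap K F₂ v := by
  obtain ⟨v, hv⟩ := h₂ a₂ ha₂
  refine ⟨v, ?_, hv⟩
  by_contra hne
  have hd0 : a₁ - algebraMap K F₁ v ≠ 0 := sub_ne_zero.mpr hne
  have hmem : a₁ - algebraMap K F₁ v ∈ riemannRochSpace (sumPl Qs₁ - sumPl X₁) := by
    rw [mem_rrSpace_iff_of_ne_zero hd0]
    intro Q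
    rw [Finsupp.sub_apply, sumPl_apply, sumPl_apply]
    have hconst : algebraMap K F₁ v ∈ riemannRochSpace (sumPl Qs₁) := by
      have h1 : (1 : F₁) ∈ riemannRochSpace (sumPl Qs₁) :=
        one_mem_rrSpace_of_nonneg (sumPl_nonneg Qs₁)
      have := (riemannRochSpace (sumPl Qs₁)).smul_mem v h1
      rwa [Algebra.smul_def, mul_one] at this
    have hsub : a₁ - algebraMap K F₁ v ∈ riemannRochSpace (sumPl Qs₁) :=
      Submodule.sub_mem _ ha₁ hconst
    have hord := (mem_rrSpace_iff_of_ne_zero hd0).mp hsub Q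
    rw [sumPl_apply] at hord
    by_cases hQX : Q ∈ X₁
    · have hQQ : Q ∉ Qs₁ := fun h => Finset.disjoint_left.mp hdisj h hQX
      rw [if_neg hQQ, if_pos hQX]
      rcases hmatch v hv Q hQX with h | h
      · exact absurd h hne
      · omega
    · rw [if_neg hQX]
      omega
  rw [h₁, Submodule.mem_bot] at hmem
  exact hd0 hmem

end Pair

end Fermat.Agent.S34.NodalNS
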