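import Fermat.Agent.S34.Facts
import Fermat.Agent.S34.NodalNS

/-!
# S34 (C83): the contract field `Facts.ns` (balanced non-special sets) from `Setup2`

`facts_ns S : ∀ T₁ T₂, ∃ Qs₁ Qs₂, …` is literally the field `ns` of `Facts S`.
-/

set_option autoImplicit false
set_option linter.unusedSectionVars false
set_option linter.style.haveILetI false
set_option linter.unusedVariables false

open AlgebraicCurve Fermat.Agent.Lib.FF Fermat.Agent.S18.Deuring
open scoped Classical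

namespace Fermat.Agent.S34

variable {L k F Fk₁ Fk₂ : Type*} [Field L] [Field k] [Field F] [Field Fk₁] [Field Fk₂]
  [Algebra L F] [Algebra k Fk₁] [Algebra k Fk₂]
variable {A : ValuationSubring L} {res : A →+* k} {Red₁ : F → Fk₁ → Prop}
  {Red₂ : F → Fk₂ → Prop} {D : Divisor L F} {D₁ : Divisor k Fk₁} {D₂ : Divisor k Fk₂}
  {Sg : Finset (Place k Fk₁ × Place k Fk₂)} {g g₁ g₂ : ℕ} {c c₁ c₂ : ℤ}

/-- the first branches of the nodes -/
noncomputable def nodes₁ (Sg : Finset (Place k Fk₁ × Place k Fk₂)) : Finset (Place k Fk₁) :=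
  Sg.image Prod.fst

/-- the second branches of the nodes -/
noncomputable def nodes₂ (Sg : Finset (Place k Fk₁ × Place k Fk₂)) : Finset (Place k Fk₂) :=
  Sg.image Prod.snd

theorem mem_nodes₁ {Q : Place k Fk₁} : Q ∈ nodes₁ Sg ↔ ∃ p ∈ Sg, p.1 = Q := by
  rw [nodes₁, Finset.mem_image]

theorem mem_nodes₂ {Q : Place k Fk₂} : Q ∈ nodes₂ Sg ↔ ∃ p ∈ Sg, p.2 = Q := by
  rw [nodes₂, Finset.mem_image]

theorem smooth₁_iff {Q : Place k Fk₁} : Smooth₁ Sg Q ↔ Q ∉ nodes₁ Sg := by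
  rw [mem_nodes₁, Smooth₁]
  push_neg
  rfl

theorem smooth₂_iff {Q : Place k Fk₂} : Smooth₂ Sg Q ↔ Q ∉ nodes₂ Sg := by
  rw [mem_nodes₂, Smooth₂]
  push_neg
  rfl

theorem Setup2.card_nodes₁ (S : Setup2 A res Red₁ Red₂ D D₁ D₂ Sg g g₁ g₂ c c₁ c₂) :
    (nodes₁ Sg).card = Sg.card := by
  rw [nodes₁]
  exact Finset.card_image_of_injOn fun p hp p' hp' h => S.node_inj₁ p hp p' hp' h

theorem Setup2.nodes₁_nonempty (S : Setup2 A res Red₁ Red₂ D D₁ D₂ Sg g g₁ g₂ c c₁ c₂) :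
    (nodes₁ Sg).Nonempty := by
  rw [nodes₁]
  exact S.node_nonempty.image _

/-- **the contract field `Facts.ns`**: balanced non-special sets of smooth points -/
theorem facts_ns [Infinite k] (S : Setup2 A res Red₁ Red₂ D D₁ D₂ Sg g g₁ g₂ c c₁ c₂)
    (T₁ : Finset (Place k Fk₁)) (T₂ : Finset (Place k Fk₂)) :
    ∃ (Qs₁ : Finset (Place k Fk₁)) (Qs₂ : Finset (Place k Fk₂)),
      Qs₁.card + Qs₂.card = g ∧ Disjoint Qs₁ T₁ ∧ Disjoint Qs₂ T₂ ∧
      (∀ Q ∈ Qs₁, Smooth₁ Sg Q ∧ D₁ Q = 0) ∧ (∀ Q ∈ Qs₂, Smooth₂ Sg Q ∧ D₂ Q = 0) ∧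
      Module.finrank k (riemannRochSpace (sumPl Qs₂)) = 1 ∧
      (∀ a ∈ riemannRochSpace (sumPl Qs₁), (∀ p ∈ Sg, Nodal.HasValue p.1 a 0) → a = 0) := by
  obtain ⟨P₁⟩ := exists_place_of_degree_pos S.deg₁_pos
  obtain ⟨P₂⟩ := exists_place_of_degree_pos S.deg₂_pos
  -- second component
  obtain ⟨Qs₂, hcard₂, hdisj₂, hrank₂⟩ :=
    exists_nonspecial S.hpf₂ S.RF₂ P₂ (T₂ ∪ nodes₂ Sg ∪ D₂.support) g₂ le_rfl
  -- first component
  obtain ⟨Qs₁, hcard₁, hdisj₁, hdisjX, hbot⟩ :=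
    NodalNS.exists_balanced₁ S.hpf₁ S.RF₁ P₁ (T₁ ∪ D₁.support) (nodes₁ Sg) S.nodes₁_nonempty
  refine ⟨Qs₁, Qs₂, ?_, ?_, ?_, ?_, ?_, hrank₂, ?_⟩
  · have := S.genus_eq
    rw [S.card_nodes₁] at hcard₁
    omega
  · exact Finset.disjoint_of_subset_right Finset.subset_union_left hdisj₁
  · exact Finset.disjoint_of_subset_right
      (Finset.subset_union_left.trans Finset.subset_union_left) hdisj₂
  · intro Q hQ
    refine ⟨smooth₁_iff.mpr fun h => Finset.disjoint_left.mp hdisjX hQ h, ?_⟩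
    by_contra hne
    exact Finset.disjoint_left.mp hdisj₁ hQ
      (Finset.mem_union_right _ (Finsupp.mem_support_iff.mpr hne))
  · intro Q hQ
    refine ⟨smooth₂_iff.mpr fun h => Finset.disjoint_left.mp hdisj₂ hQ
      (Finset.mem_union_left _ (Finset.mem_union_right _ h)), ?_⟩
    by_contra hne
    exact Finset.disjoint_left.mp hdisj₂ hQ
      (Finset.mem_union_right _ (Finsupp.mem_support_iff.mpr hne))
  · intro a ha hval
    by_contra ha0
    have hmem : a ∈ riemannRochSpace (sumPl Qs₁ - sumPl (nodes₁ Sg)) := by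
      rw [mem_rrSpace_iff_of_ne_zero ha0]
      intro Q
      rw [Finsupp.sub_apply, sumPl_apply, sumPl_apply]
      have hord := (mem_rrSpace_iff_of_ne_zero ha0).mp ha Q
      rw [sumPl_apply] at hord
      by_cases hQX : Q ∈ nodes₁ Sg
      · have hQQ : Q ∉ Qs₁ := fun h => Finset.disjoint_left.mp hdisjX h hQX
        rw [if_neg hQQ, if_pos hQX]
        obtain ⟨p, hp, rfl⟩ := mem_nodes₁.mp hQX
        rcases Nodal.hasValue_zero_iff.mp (hval p hp) with h | h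
        · exact absurd h ha0
        · omega
      · rw [if_neg hQX]
        omega
    rw [hbot, Submodule.mem_bot] at hmem
    exact ha0 hmem

end Fermat.Agent.S34
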