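import Fermat.Agent.S34.Setup2

/-!
# C83 (S34), glue piece (GlueAbs): from `Target` to the statement on `Pic⁰`

If `Target A res Red₁ Red₂ D` holds, `h, h'` are semilinear automorphisms compatible with the
two reductions and `x ∈ Pic⁰(F)` is killed by `m` with `m ≠ 0` in `k`, then
`h' • (h • x - x) - (h • x - x) = 0`.
-/

set_option autoImplicit false
set_option linter.unusedSectionVars false
set_option linter.unusedVariables false
set_option linter.style.haveILetI false

open AlgebraicCurve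

namespace Fermat.Agent.S34.GlueAbs

variable {L k F Fk₁ Fk₂ : Type*} [Field L] [Field k] [Field F] [Field Fk₁] [Field Fk₂]
  [Algebra L F] [Algebra k Fk₁] [Algebra k Fk₂]
variable {A : ValuationSubring L} {res : A →+* k} {Red₁ : F → Fk₁ → Prop}
  {Red₂ : F → Fk₂ → Prop} {D : Divisor L F}

/-- the pair form of `(G)` on `Pic⁰`, from the abstract theorem -/
theorem pair_of_target (hT : Fermat.Agent.S34.Target A res Red₁ Red₂ D)
    (h h' : SemilinearAut L F) (hh : Fermat.Agent.S34.Compat2 A Red₁ Red₂ D h)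
    (hh' : Fermat.Agent.S34.Compat2 A Red₁ Red₂ D h') (m : ℕ) (hm : (m : k) ≠ 0)
    (x : Pic0 L F) (hx : m • x = 0) :
    h' • (h • x - x) - (h • x - x) = 0 := by
  obtain ⟨D₀, rfl⟩ := Pic0.mk_surjective x
  -- `m • D₀` is principal
  have h1 : (m • D₀ : Divisor.degZero (K := L) (F := F)) ∈
      (Divisor.principal (K := L) (F := F)).addSubgroupOf
        (Divisor.degZero (K := L) (F := F)) := by
    have : Pic0.mk (m • D₀) = (0 : Pic0 L F) := hx
    exact (QuotientAddGroup.eq_zero_iff _).1 this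
  rw [AddSubgroup.mem_addSubgroupOf, AddSubgroupClass.coe_nsmul] at h1
  obtain ⟨f, hf, hfD⟩ := h1
  have hfD' : ∀ P : Place L F, (m : ℤ) * (D₀ : Divisor L F) P = P.ord f := by
    intro P
    rw [← hfD P, Finsupp.smul_apply, nsmul_eq_mul]
  obtain ⟨s, hs, hsD⟩ := hT h h' hh hh' m hm f hf (D₀ : Divisor L F) hfD'
  -- the class
  have e : h' • (h • Pic0.mk D₀ - Pic0.mk D₀) - (h • Pic0.mk D₀ - Pic0.mk D₀)
      = Pic0.mk (SemilinearAut.degZeroSMulHom h' (SemilinearAut.degZeroSMulHom h D₀ - D₀)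
          - (SemilinearAut.degZeroSMulHom h D₀ - D₀)) := by
    rw [SemilinearAut.pic0_smul_mk]
    show h' • (Pic0.mk (SemilinearAut.degZeroSMulHom h D₀ - D₀))
      - Pic0.mk (SemilinearAut.degZeroSMulHom h D₀ - D₀) = _
    rw [SemilinearAut.pic0_smul_mk]
    rfl
  rw [e]
  apply (QuotientAddGroup.eq_zero_iff _).2
  rw [AddSubgroup.mem_addSubgroupOf]
  refine ⟨s, hs, fun P => ?_⟩
  rw [← hsD P]
  rfl

end Fermat.Agent.S34.GlueAbs
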