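import Fermat.Agent.S34.GlueAbs
import Fermat.Agent.S34.Transfer
import Fermat.Agent.S18.GVModular

/-!
# C83 (S34), glue piece (GlueJ): from `Target` + `Compat2` for inertia to `Tr.InertiaSq`

If for every valuation ring `P` of `ℚ̄` over `q` there are two reduction relations on the function
field of `X₀(N)` over `ℚ̄` for which the abstract theorem `Target` holds and with which every
element of the inertia group of `P` is compatible, then `Tr.InertiaSq N q p` holds (`q ≠ p`).
-/

set_option autoImplicit false
set_option linter.unusedSectionVars false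
set_option linter.unusedVariables false
set_option linter.style.haveILetI false

open AlgebraicCurve ModularCurve

namespace Fermat.Agent.S34.GlueJ

local notation "Qb" => AlgebraicClosure ℚ

/-- a prime power is nonzero in a field of a different characteristic -/
theorem natCast_pow_ne_zero {k : Type*} [Field k] {q p : ℕ} (hq : q.Prime) (hp : p.Prime)
    (hqp : q ≠ p) [CharP k q] (n : ℕ) : ((p ^ n : ℕ) : k) ≠ 0 := by
  rw [Nat.cast_pow]
  apply pow_ne_zero
  intro h0
  have hd : q ∣ p := (CharP.cast_eq_zero_iff k q p).1 h0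
  exact hqp ((Nat.prime_dvd_prime_iff_eq hq hp).1 hd)

/-- **the glue**: `Target` and `Compat2` for the inertia group give `(G)` -/
theorem inertiaSq_of_target (N q p : ℕ) [NeZero N] (hp : p.Prime) (hq : q.Prime) (hqp : q ≠ p)
    (H : ∀ P : ValuationSubring Qb, P.LiesOverPrime q →
      ∃ (Fk₁ Fk₂ : Type) (_ : Field Fk₁) (_ : Field Fk₂)
        (_ : Algebra (IsLocalRing.ResidueField P) Fk₁)
        (_ : Algebra (IsLocalRing.ResidueField P) Fk₂)
        (Red₁ : modularFunctionFieldBar N → Fk₁ → Prop)
        (Red₂ : modularFunctionFieldBar N → Fk₂ → Prop)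
        (D : Divisor Qb (modularFunctionFieldBar N)),
        Fermat.Agent.S34.Target P (IsLocalRing.residue P) Red₁ Red₂ D ∧
        ∀ σ ∈ P.inertiaSubgroupIn ℚ,
          Fermat.Agent.S34.Compat2 P Red₁ Red₂ D
            (arithmeticGalois (modularFunctionFieldFull N) σ)) :
    Fermat.Agent.S34.Tr.InertiaSq N q p := by
  apply Fermat.Agent.S34.Tr.inertiaSq_of_pair
  intro P hP h hh h' hh' x hx
  obtain ⟨Fk₁, Fk₂, _, _, _, _, Red₁, Red₂, D, hT, hC⟩ := H P hP
  haveI : Fact q.Prime := ⟨hq⟩
  haveI := Fermat.Agent.S18.GV.charP_residueField P q hP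
  obtain ⟨n, hn⟩ := hx
  have hm : ((p ^ n : ℕ) : IsLocalRing.ResidueField P) ≠ 0 :=
    natCast_pow_ne_zero hq hp hqp n
  have key := Fermat.Agent.S34.GlueAbs.pair_of_target hT
    (arithmeticGalois (modularFunctionFieldFull N) h)
    (arithmeticGalois (modularFunctionFieldFull N) h') (hC h hh) (hC h' hh') (p ^ n) hm x hn
  exact key

end Fermat.Agent.S34.GlueJ
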