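import Fermat.Agent.S18.GVFin

/-!
# C83 (S34), piece C1 (0): valuation rings of `ℚ̄` over a prime have rank one

`arch`: for `c ≠ 0` and `d` in the maximal ideal, some power of `d` is divisible by `c`.
This is the field `arch` of `Setup2`.
-/

set_option autoImplicit false
set_option linter.unusedSectionVars false

noncomputable section

namespace Fermat.Agent.S34.Joint

open Fermat.Agent.S18.GV Polynomial

variable {L : Type*} [Field L] [Algebra ℚ L] [Algebra.IsAlgebraic ℚ L]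
variable (A : ValuationSubring L) (ℓ : ℕ) [hℓ : Fact ℓ.Prime]

/-- every nonzero element has a power whose valuation is an integral power of `v(ℓ)` -/
theorem exists_val_pow_eq (hA : A.LiesOverPrime ℓ) (c : L) (hc : c ≠ 0) :
    ∃ i : ℕ, 0 < i ∧ ∃ m : ℤ, A.valuation c ^ i = A.valuation (ℓ : L) ^ m := by
  have hint : IsIntegral ℚ c := (Algebra.IsAlgebraic.isAlgebraic c).isIntegral
  have hp0 : minpoly ℚ c ≠ 0 := minpoly.ne_zero hint
  have hroot : Polynomial.aeval c (minpoly ℚ c) = 0 := minpoly.aeval ℚ c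
  obtain ⟨i, hi0, -, m, hm⟩ := exists_pow_val_eq A ℓ hA c hc _ hp0 hroot
  exact ⟨i, hi0, m, hm⟩

/-- **rank one**: the value group of a valuation ring of `ℚ̄` over `ℓ` is Archimedean -/
theorem arch (hA : A.LiesOverPrime ℓ) (c d : L) (hc : c ≠ 0) (hd : d⁻¹ ∉ A) :
    ∃ N : ℕ, d ^ N / c ∈ A := by
  have hd0 : d ≠ 0 := by
    rintro rfl
    rw [inv_zero] at hd
    exact hd A.zero_mem
  have hvd : A.valuation d < 1 := by
    have h1 : ¬ A.valuation d⁻¹ ≤ 1 := fun h => hd ((A.valuation_le_one_iff _).1 h)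
    rw [not_le, map_inv₀] at h1
    have hvd0 : A.valuation d ≠ 0 := by rwa [Ne, map_eq_zero]
    by_contra hcon
    rw [not_lt] at hcon
    exact absurd (inv_le_one_of_one_le₀ hcon) (not_le.2 h1)
  have hvl : A.valuation (ℓ : L) < 1 := val_ell_lt_one A ℓ hA
  have hvl0 : A.valuation (ℓ : L) ≠ 0 := val_ell_ne_zero A ℓ
  have hvl0' : 0 < A.valuation (ℓ : L) := zero_lt_iff.2 hvl0
  obtain ⟨i, hi0, m, hm⟩ := exists_val_pow_eq A ℓ hA c hc
  obtain ⟨i', hi'0, m', hm'⟩ := exists_val_pow_eq A ℓ hA d hd0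
  -- `m' > 0`
  have hm'pos : 0 < m' := by
    by_contra hcon
    rw [not_lt] at hcon
    have h1 : A.valuation d ^ i' < 1 := pow_lt_one₀ zero_le hvd hi'0.ne'
    rw [hm'] at h1
    have h2 : (1 : A.ValueGroup) ≤ A.valuation (ℓ : L) ^ m' := by
      obtain ⟨n, hn⟩ := Int.exists_eq_neg_ofNat hcon
      rw [hn, zpow_neg, zpow_natCast]
      exact (one_le_inv₀ (pow_pos hvl0' n)).2 (pow_le_one₀ zero_le hvl.le)
    exact absurd h2 (not_le.2 h1)
  refine ⟨i' * m.toNat, ?_⟩
  rw [← A.valuation_le_one_iff, map_div₀, map_pow]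
  have hvc0 : A.valuation c ≠ 0 := by rwa [Ne, map_eq_zero]
  rw [div_le_one₀ (zero_lt_iff.2 hvc0)]
  -- compare the `i`-th powers
  have hkey : (A.valuation d ^ (i' * m.toNat)) ^ i ≤ A.valuation c ^ i := by
    have e : (A.valuation d ^ (i' * m.toNat)) ^ i
        = A.valuation (ℓ : L) ^ (m' * (m.toNat : ℤ) * (i : ℤ)) := by
      rw [pow_mul, hm', zpow_mul, zpow_mul, zpow_natCast, zpow_natCast]
    rw [e, hm]
    apply zpow_le_zpow_right_of_le_one₀ hvl0' hvl.le
    have h1 : m ≤ (m.toNat : ℤ) := Int.self_le_toNat m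
    have h2 : (0 : ℤ) ≤ (m.toNat : ℤ) := Int.natCast_nonneg _
    have h3 : (1 : ℤ) ≤ (i : ℤ) := by exact_mod_cast hi0
    have h4 : (1 : ℤ) ≤ m' := hm'pos
    nlinarith [mul_nonneg h2 (sub_nonneg.2 h3), mul_nonneg (sub_nonneg.2 h4) (mul_nonneg h2 (le_trans zero_le_one h3))]
  by_contra hcon
  rw [not_le] at hcon
  have := pow_lt_pow_left₀ hcon zero_le hi0.ne'
  exact absurd hkey (not_le.2 this)

end Fermat.Agent.S34.Joint
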