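import Fermat.Agent.S34.JointDefs
import Fermat.Agent.S34.JointArch

/-!
# C83 (S34), piece C1 (2): the two reductions of `F(Mq)` at `q` and the joint orthonormal basis

Level `M * q`, `q` prime, `q ∤ M`, `A` a valuation ring of `ℚ̄` over `q`, `k` its residue field,
`F = F(Mq)`, `w` the Atkin–Lehner involution.

* `Red1 x a` : the Gauss reduction of the `𝐪`-expansion, with values in `F_k(M)`;
* `Red2 x a := Red1 (w x) a`;
* `Bf` : the joint orthonormal basis `b i * j_q ^ e`, `b i * (j - j_q ^ q)` of `F / ℚ̄(j)`;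
* `joint_repr`, `joint_integral`, `joint_basis`.
-/

set_option autoImplicit false
set_option linter.unusedSectionVars false
set_option linter.unusedVariables false
set_option linter.style.haveILetI false
set_option synthInstance.maxHeartbeats 400000
set_option maxHeartbeats 1000000

noncomputable section

namespace Fermat.Agent.S34.Joint

open ModularCurve IntermediateField Fermat.Agent.S18.GV Fermat.Agent.S18.Deuring
open Fermat.Agent.S37

local notation "Qb" => AlgebraicClosure ℚ

local instance isAlgebraicQbJoint : Algebra.IsAlgebraic ℚ (AlgebraicClosure ℚ) :=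
  AlgebraicClosure.isAlgebraic ℚ

variable (A : ValuationSubring (AlgebraicClosure ℚ)) (q : ℕ) [hq : Fact q.Prime]
variable (hA : A.LiesOverPrime q) (M : ℕ) [NeZero M] (hM : ¬ q ∣ M)

attribute [local instance] neZero_prime

/-! ### The joint basis -/

section Basis

variable {n : ℕ} (b : Fin n → modularFunctionFieldBar M)

/-- the joint basis: `b i * j_q ^ e` (`e < q`) and `b i * (j - j_q ^ q)` -/
def Bf : JIdx n q → modularFunctionFieldBar (M * q)
  | Sum.inl ie => heckeAlphaBar Qb M q (b ie.1) * C3.jq q M ^ (ie.2 : ℕ)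
  | Sum.inr i => heckeAlphaBar Qb M q (b i) * (Fermat.Agent.S24.jBar (M * q) - C3.jq q M ^ q)

theorem coe_Bf (x : JIdx n q) :
    ((Bf q M b x : modularFunctionFieldBar (M * q)) : LaurentSeries Qb)
      = fam1 q (fun i => ((b i : modularFunctionFieldBar M) : LaurentSeries Qb)) x := by
  rcases x with ⟨i, e⟩ | i
  · show ((heckeAlphaBar Qb M q (b i) * C3.jq q M ^ (e : ℕ) :
      modularFunctionFieldBar (M * q)) : LaurentSeries Qb) = _
    rw [IntermediateField.coe_mul, IntermediateField.coe_pow, coe_heckeAlphaBar, C3.coe_jq]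
    rfl
  · show ((heckeAlphaBar Qb M q (b i) * (Fermat.Agent.S24.jBar (M * q) - C3.jq q M ^ q) :
      modularFunctionFieldBar (M * q)) : LaurentSeries Qb) = _
    rw [IntermediateField.coe_mul, AddSubgroupClass.coe_sub, IntermediateField.coe_pow,
      coe_heckeAlphaBar, C3.coe_jq, coe_jBar_level]
    rfl

theorem coe_wAL_Bf (x : JIdx n q) :
    ((AL.wAL hq.out hM (Bf q M b x) : modularFunctionFieldBar (M * q)) : LaurentSeries Qb)
      = fam2 q (fun i => ((b i : modularFunctionFieldBar M) : LaurentSeries Qb)) x := by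
  rcases x with ⟨i, e⟩ | i
  · show ((AL.wAL hq.out hM (heckeAlphaBar Qb M q (b i) * C3.jq q M ^ (e : ℕ)) :
      modularFunctionFieldBar (M * q)) : LaurentSeries Qb) = _
    rw [map_mul, map_pow, AL.wAL_alpha, C3.wAL_jq q M hM, IntermediateField.coe_mul,
      IntermediateField.coe_pow, coe_heckeBetaBar, coe_jBar_level]
    rfl
  · show ((AL.wAL hq.out hM (heckeAlphaBar Qb M q (b i) *
      (Fermat.Agent.S24.jBar (M * q) - C3.jq q M ^ q)) :
      modularFunctionFieldBar (M * q)) : LaurentSeries Qb) = _
    rw [map_mul, map_sub, map_pow, AL.wAL_alpha, C3.wAL_jq q M hM, C3.wAL_jBar q M hM,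
      IntermediateField.coe_mul, AddSubgroupClass.coe_sub, IntermediateField.coe_pow,
      coe_heckeBetaBar, coe_jBar_level, C3.coe_jq]
    rfl

end Basis

/-! ### Independence and representation -/

section Repr

variable {n : ℕ} (b : Fin n → modularFunctionFieldBar M)
  (β : Fin n → LaurentSeries (IsLocalRing.ResidueField A))
  (hb : ∀ i, Red A ((b i : modularFunctionFieldBar M) : LaurentSeries Qb) (β i))
  (hβ : LinearIndependent
    (IsLocalRing.ResidueField A)⟮jqModC (IsLocalRing.ResidueField A)⟯ β)

theorem coe_sum_smul (g : JIdx n q → Qb⟮Fermat.Agent.S24.jBar (M * q)⟯) :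
    ((∑ x, g x • Bf q M b x : modularFunctionFieldBar (M * q)) : LaurentSeries Qb)
      = ∑ x, (((g x : modularFunctionFieldBar (M * q)) : LaurentSeries Qb)) *
          fam1 q (fun i => ((b i : modularFunctionFieldBar M) : LaurentSeries Qb)) x := by
  rw [AddSubmonoidClass.coe_finsetSum]
  refine Finset.sum_congr rfl fun x _ => ?_
  rw [← coe_Bf]
  rfl

theorem coe_wAL_sum_smul (g : JIdx n q → Qb⟮Fermat.Agent.S24.jBar (M * q)⟯) :
    ((AL.wAL hq.out hM (∑ x, g x • Bf q M b x) : modularFunctionFieldBar (M * q)) :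
        LaurentSeries Qb)
      = ∑ x, qExpand Qb q (((g x : modularFunctionFieldBar (M * q)) : LaurentSeries Qb)) *
          fam2 q (fun i => ((b i : modularFunctionFieldBar M) : LaurentSeries Qb)) x := by
  rw [map_sum, AddSubmonoidClass.coe_finsetSum]
  refine Finset.sum_congr rfl fun x _ => ?_
  have e : g x • Bf q M b x = (g x : modularFunctionFieldBar (M * q)) * Bf q M b x := rfl
  rw [e, map_mul, IntermediateField.coe_mul, coe_wAL_Bf,
    coe_wAL_of_mem_adjoin q M hM _ (coe_mem_adjoin_j (M * q) (g x).2)]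

include hA hb hβ hM in
/-- the joint basis is linearly independent over `ℚ̄(j)` -/
theorem linearIndependent_Bf :
    LinearIndependent Qb⟮Fermat.Agent.S24.jBar (M * q)⟯ (Bf q M b) := by
  rw [Fintype.linearIndependent_iff]
  intro g hg
  by_contra hcon
  simp only [not_forall] at hcon
  obtain ⟨x₀, hx₀⟩ := hcon
  have hne : ∃ x, ((g x : modularFunctionFieldBar (M * q)) : LaurentSeries Qb) ≠ 0 := by
    refine ⟨x₀, fun h => hx₀ ?_⟩
    apply Subtype.ext
    apply Subtype.ext
    exact h
  obtain ⟨c, hc, γ, hγ, hγmem, hsum, hred1, hred2⟩ :=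
    joint_ortho A q hA hb hβ Fermat.Agent.S28.transcendental_jqModC'
      (fun x => ((g x : modularFunctionFieldBar (M * q)) : LaurentSeries Qb))
      (fun x => coe_mem_adjoin_j (M * q) (g x).2) hne
  have h1 := coe_sum_smul q M b g
  have h2 := coe_wAL_sum_smul q M hM b g
  rw [hg] at h1 h2
  rw [map_zero] at h2
  simp only [ZeroMemClass.coe_zero] at h1 h2
  rw [← h1, mul_zero] at hred1
  rw [← h2, mul_zero] at hred2
  rcases hsum with h | h
  · exact h (hred1.unique A (red_zero A))
  · exact h (hred2.unique A (red_zero A))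

theorem card_JIdx (n : ℕ) : Fintype.card (JIdx n q) = n * (q + 1) := by
  rw [Fintype.card_sum, Fintype.card_prod, Fintype.card_fin, Fintype.card_fin]
  ring

end Repr

section Repr2

variable (b : Fin (dedekindPsi M) → modularFunctionFieldBar M)
  (β : Fin (dedekindPsi M) → LaurentSeries (IsLocalRing.ResidueField A))
  (hb : ∀ i, Red A ((b i : modularFunctionFieldBar M) : LaurentSeries Qb) (β i))
  (hβ : LinearIndependent
    (IsLocalRing.ResidueField A)⟮jqModC (IsLocalRing.ResidueField A)⟯ β)

include hA hb hβ hM in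
/-- **every element of `F(Mq)` is a `ℚ̄(j)`-combination of the joint basis** -/
theorem joint_repr (y : modularFunctionFieldBar (M * q)) :
    ∃ g : JIdx (dedekindPsi M) q → modularFunctionFieldBar (M * q),
      (∀ x, g x ∈ Qb⟮Fermat.Agent.S24.jBar (M * q)⟯) ∧ y = ∑ x, g x * Bf q M b x := by
  have hli := linearIndependent_Bf A q hA M hM b β hb hβ
  have : FiniteDimensional Qb⟮Fermat.Agent.S24.jBar (M * q)⟯ (modularFunctionFieldBar (M * q)) :=
    (Fermat.Agent.S24.isFF1_jBar (M * q)).finite
  have hcard : Fintype.card (JIdx (dedekindPsi M) q)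
      = Module.finrank Qb⟮Fermat.Agent.S24.jBar (M * q)⟯ (modularFunctionFieldBar (M * q)) := by
    rw [card_JIdx, Fermat.Agent.S24.finrank_jBar, C3.dedekindPsi_mul_prime q M hM]
  have hspan := hli.span_eq_top_of_card_eq_finrank' hcard
  have hys : y ∈ Submodule.span Qb⟮Fermat.Agent.S24.jBar (M * q)⟯
      (Set.range (Bf q M b)) := by
    rw [hspan]; exact Submodule.mem_top
  rw [Submodule.mem_span_range_iff_exists_fun] at hys
  obtain ⟨g, hg⟩ := hys
  refine ⟨fun x => (g x : modularFunctionFieldBar (M * q)), fun x => (g x).2, ?_⟩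
  rw [← hg]
  rfl

include hA hb hβ hM in
/-- **joint integrality**: the coordinates of a jointly integral element are integral, and its
first residue is the combination of the first residues -/
theorem joint_integral (y : modularFunctionFieldBar (M * q))
    (h1 : (y : LaurentSeries Qb) ∈ gaussRing A)
    (h2 : ((AL.wAL hq.out hM y : modularFunctionFieldBar (M * q)) : LaurentSeries Qb)
      ∈ gaussRing A) :
    ∃ (g : JIdx (dedekindPsi M) q → modularFunctionFieldBar (M * q))
      (φ : JIdx (dedekindPsi M) q → LaurentSeries (IsLocalRing.ResidueField A)),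
      (∀ x, g x ∈ Qb⟮Fermat.Agent.S24.jBar (M * q)⟯) ∧ y = ∑ x, g x * Bf q M b x ∧
      (∀ x, Red A ((g x : modularFunctionFieldBar (M * q)) : LaurentSeries Qb) (φ x)) ∧
      (∀ x, φ x ∈ (IsLocalRing.ResidueField A)⟮jqModC (IsLocalRing.ResidueField A)⟯) ∧
      Red A (y : LaurentSeries Qb) (∑ x, φ x * fam1 q β x) ∧
      Red A ((AL.wAL hq.out hM y : modularFunctionFieldBar (M * q)) : LaurentSeries Qb)
        (∑ x, qExpand (IsLocalRing.ResidueField A) q (φ x) * fam2 q β x) := by
  obtain ⟨g, hg, hy⟩ := joint_repr A q hA M hM b β hb hβ y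
  have e1 : (y : LaurentSeries Qb)
      = ∑ x, ((g x : modularFunctionFieldBar (M * q)) : LaurentSeries Qb) *
          fam1 q (fun i => ((b i : modularFunctionFieldBar M) : LaurentSeries Qb)) x := by
    conv_lhs => rw [hy]
    rw [AddSubmonoidClass.coe_finsetSum]
    refine Finset.sum_congr rfl fun x _ => ?_
    rw [IntermediateField.coe_mul, coe_Bf]
  have e2 : ((AL.wAL hq.out hM y : modularFunctionFieldBar (M * q)) : LaurentSeries Qb)
      = ∑ x, qExpand Qb q ((g x : modularFunctionFieldBar (M * q)) : LaurentSeries Qb) *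
          fam2 q (fun i => ((b i : modularFunctionFieldBar M) : LaurentSeries Qb)) x := by
    conv_lhs => rw [hy]
    rw [map_sum, AddSubmonoidClass.coe_finsetSum]
    refine Finset.sum_congr rfl fun x _ => ?_
    rw [map_mul, IntermediateField.coe_mul, coe_wAL_Bf,
      coe_wAL_of_mem_adjoin q M hM _ (coe_mem_adjoin_j (M * q) (hg x))]
  rw [e1] at h1
  rw [e2] at h2
  obtain ⟨φ, hφ, hφmem, hr1, hr2⟩ := joint_ortho_red A q hA hb hβ
    Fermat.Agent.S28.transcendental_jqModC'
    (fun x => ((g x : modularFunctionFieldBar (M * q)) : LaurentSeries Qb))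
    (fun x => coe_mem_adjoin_j (M * q) (hg x)) h1 h2
  refine ⟨g, φ, hg, hy, hφ, hφmem, ?_, ?_⟩
  · rw [e1]; exact hr1
  · rw [e2]; exact hr2

end Repr2

/-! ### The residue field of the first valuation is `F_k(M)`; the reduction axioms -/

section Scale

/-- the function `X = j - j_q ^ q`: `red₁ X = J - J^{q²} ≠ 0`, `red₂ X = 0` -/
def Xf : modularFunctionFieldBar (M * q) := Fermat.Agent.S24.jBar (M * q) - C3.jq q M ^ q

/-- `e = X / (X + w X)`: `red₁ e = 1`, `red₂ e = 0` -/
def ef : modularFunctionFieldBar (M * q) :=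
  Xf q M * (Xf q M + AL.wAL hq.out hM (Xf q M))⁻¹

theorem wAL_Xf : AL.wAL hq.out hM (Xf q M) = C3.jq q M - Fermat.Agent.S24.jBar (M * q) ^ q := by
  unfold Xf
  rw [map_sub, map_pow, C3.wAL_jBar q M hM, C3.wAL_jq q M hM]

include hA in
theorem red_Xf :
    Red A ((Xf q M : modularFunctionFieldBar (M * q)) : LaurentSeries Qb)
      (jqModC (IsLocalRing.ResidueField A) - jqModC (IsLocalRing.ResidueField A) ^ (q * q)) := by
  haveI := charP_residueField A q hA
  unfold Xf
  rw [AddSubgroupClass.coe_sub, IntermediateField.coe_pow, C3.coe_jq, coe_jBar_level]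
  have h := (red_jL A).sub A ((red_jqL A q).pow A q)
  rw [qExpand_jqModC_char (k := IsLocalRing.ResidueField A), ← pow_mul] at h
  exact h

include hA in
theorem red_wAL_Xf :
    Red A ((AL.wAL hq.out hM (Xf q M) : modularFunctionFieldBar (M * q)) : LaurentSeries Qb)
      0 := by
  haveI := charP_residueField A q hA
  rw [wAL_Xf, AddSubgroupClass.coe_sub, IntermediateField.coe_pow, C3.coe_jq, coe_jBar_level]
  have h := (red_jqL A q).sub A ((red_jL A).pow A q)
  rw [qExpand_jqModC_char (k := IsLocalRing.ResidueField A), sub_self] at h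
  exact h

include hA in
theorem red_ef :
    Red A ((ef q M hM : modularFunctionFieldBar (M * q)) : LaurentSeries Qb) 1 := by
  have hX := red_Xf A q hA M
  have hY := red_wAL_Xf A q hA M hM
  have hne : jqModC (IsLocalRing.ResidueField A)
      - jqModC (IsLocalRing.ResidueField A) ^ (q * q) ≠ 0 := by
    apply jqModC_sub_pow_ne_zero
    have := hq.out.one_lt
    nlinarith
  have hsum := hX.add A hY
  rw [add_zero] at hsum
  have hinv := hsum.inv A hne
  have := hX.mul A hinv
  rw [mul_inv_cancel₀ hne] at this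
  unfold ef
  rw [IntermediateField.coe_mul, IntermediateField.coe_inv, AddMemClass.coe_add]
  exact this

include hA in
theorem red_wAL_ef :
    Red A ((AL.wAL hq.out hM (ef q M hM) : modularFunctionFieldBar (M * q)) :
      LaurentSeries Qb) 0 := by
  have hX := red_Xf A q hA M
  have hY := red_wAL_Xf A q hA M hM
  have hne : jqModC (IsLocalRing.ResidueField A)
      - jqModC (IsLocalRing.ResidueField A) ^ (q * q) ≠ 0 := by
    apply jqModC_sub_pow_ne_zero
    have := hq.out.one_lt
    nlinarith
  have hsum := hY.add A hX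
  rw [zero_add] at hsum
  have hinv := hsum.inv A hne
  have := hY.mul A hinv
  rw [zero_mul] at this
  unfold ef
  rw [map_mul, map_inv₀, map_add, AL.wAL_wAL, IntermediateField.coe_mul,
    IntermediateField.coe_inv, AddMemClass.coe_add]
  exact this

end Scale

section Mem

variable (k : Type*) [Field k] [CharP k q] {n : ℕ} {β : Fin n → LaurentSeries k}

theorem fam1_mem_ffC (hβ : ∀ i, β i ∈ modularFunctionFieldFullC k M) (x : JIdx n q) :
    fam1 q β x ∈ modularFunctionFieldFullC k M := by
  have hJ : jqModC k ∈ modularFunctionFieldFullC k M := jqModC_mem_full k M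
  have hJq : qExpand k q (jqModC k) ∈ modularFunctionFieldFullC k M :=
    qExpand_mem_ffC q M k hJ
  rcases x with ⟨i, e⟩ | i
  · exact mul_mem (hβ i) (pow_mem hJq _)
  · exact mul_mem (hβ i) (sub_mem hJ (pow_mem hJq _))

theorem fam2_mem_ffC (hβ : ∀ i, β i ∈ modularFunctionFieldFullC k M) (x : JIdx n q) :
    fam2 q β x ∈ modularFunctionFieldFullC k M := by
  have hJ : jqModC k ∈ modularFunctionFieldFullC k M := jqModC_mem_full k M
  have hJq : qExpand k q (jqModC k) ∈ modularFunctionFieldFullC k M :=
    qExpand_mem_ffC q M k hJ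
  rcases x with ⟨i, e⟩ | i
  · exact mul_mem (qExpand_mem_ffC q M k (hβ i)) (pow_mem hJ _)
  · exact mul_mem (qExpand_mem_ffC q M k (hβ i)) (sub_mem hJq (pow_mem hJ _))

theorem adjoin_J_le : k⟮jqModC k⟯ ≤ modularFunctionFieldFullC k M := by
  rw [IntermediateField.adjoin_simple_le_iff]
  exact jqModC_mem_full _ M

end Mem

section RedAx

include hA hM in
/-- **the residue field of the first valuation on `F(Mq)` is `F_k(M)`** -/
theorem red1_mem_ffC (x : modularFunctionFieldBar (M * q))
    {a : LaurentSeries (IsLocalRing.ResidueField A)}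
    (hxa : Red A (x : LaurentSeries Qb) a) :
    a ∈ modularFunctionFieldFullC (IsLocalRing.ResidueField A) M := by
  haveI := charP_residueField A q hA
  by_cases ha0 : a = 0
  · rw [ha0]; exact zero_mem _
  obtain ⟨b₀, β, hbmem, hβmem, hb, hβ⟩ := exists_ortho_basis A q hA M hM
  have hx0 : x ≠ 0 := by
    rintro rfl
    exact ha0 (hxa.unique A (red_zero A))
  -- `w e = d u` with `v(d) < 1`
  obtain ⟨d, u, hu, hd, hed⟩ := (red_zero_iff A q hA).1 (red_wAL_ef A q hA M hM)
  have hd0 : (d : Qb) ≠ 0 := by
    intro h0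
    rw [h0, map_zero, zero_mul] at hed
    have h1 : AL.wAL hq.out hM (ef q M hM) = 0 := Subtype.ext hed
    have h2 : ef q M hM = 0 := by
      have := congrArg (AL.wAL hq.out hM) h1
      rwa [AL.wAL_wAL, map_zero] at this
    have h3 := red_ef A q hA M hM
    rw [h2] at h3
    exact one_ne_zero ((red_zero A).unique A h3).symm
  have hdinv : (d : Qb)⁻¹ ∉ A := by
    intro h
    have h1 := (A.valuation_le_one_iff _).2 h
    rw [map_inv₀] at h1
    have hv0 : A.valuation (d : Qb) ≠ 0 := by rwa [Ne, map_eq_zero]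
    have h2 : (1 : A.ValueGroup) ≤ A.valuation (d : Qb) := by
      rwa [inv_le_one₀ (zero_lt_iff.2 hv0)] at h1
    exact absurd hd (not_lt.2 h2)
  -- `w x = c' u'`
  have hwx0 : ((AL.wAL hq.out hM x : modularFunctionFieldBar (M * q)) : LaurentSeries Qb) ≠ 0 := by
    intro h0
    have h1 : AL.wAL hq.out hM x = 0 := Subtype.ext h0
    apply hx0
    have := congrArg (AL.wAL hq.out hM) h1
    rwa [AL.wAL_wAL, map_zero] at this
  obtain ⟨c', u', hc', hu', hwx⟩ := exists_unit_form A q hA
    (mem_gaussField_of_mem_ff A (M * q) (AL.wAL hq.out hM x).2) hwx0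
  obtain ⟨N, hN⟩ := arch A q hA c'⁻¹ (d : Qb) (inv_ne_zero hc') hdinv
  -- `z = x e^N` is jointly integral with the same first residue
  have hz1 : Red A ((x * ef q M hM ^ N : modularFunctionFieldBar (M * q)) : LaurentSeries Qb)
      a := by
    rw [IntermediateField.coe_mul, IntermediateField.coe_pow]
    have := hxa.mul A ((red_ef A q hA M hM).pow A N)
    rwa [one_pow, mul_one] at this
  have hz2 : ((AL.wAL hq.out hM (x * ef q M hM ^ N) : modularFunctionFieldBar (M * q)) :
      LaurentSeries Qb) ∈ gaussRing A := by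
    rw [map_mul, map_pow, IntermediateField.coe_mul, IntermediateField.coe_pow, hwx, hed]
    have e : (HahnSeries.C c' : LaurentSeries Qb) * (u' : LaurentSeries Qb) *
        ((HahnSeries.C (d : Qb) : LaurentSeries Qb) * u) ^ N
        = HahnSeries.C ((d : Qb) ^ N / c'⁻¹) * ((u' : LaurentSeries Qb) * u ^ N) := by
      rw [mul_pow, div_inv_eq_mul, map_mul, map_pow]
      ring
    rw [e]
    exact (gaussRing A).mul_mem (C_mem_gaussRing A ⟨_, hN⟩)
      ((gaussRing A).mul_mem u'.2 ((gaussRing A).pow_mem hu N))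
  obtain ⟨g, φ, hg, hy, hφ, hφmem, hr1, hr2⟩ := joint_integral A q hA M hM
    (fun i => (⟨b₀ i, hbmem i⟩ : modularFunctionFieldBar M)) β hb hβ _ hz1.mem hz2
  rw [hz1.unique A hr1]
  exact sum_mem fun x _ => mul_mem (adjoin_J_le M _ (hφmem x))
    (fam1_mem_ffC q M _ hβmem x)

include hA hM in
/-- **the reduction axioms for the first valuation** -/
theorem redAx1 : RedAx A (IsLocalRing.residue A) (Red1 A q M) where
  res_surj := IsLocalRing.residue_surjective
  unique := fun h1 h2 => Subtype.ext (Red.unique A h1 h2)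
  add := fun h1 h2 => Red.add A h1 h2
  mul := fun h1 h2 => Red.mul A h1 h2
  const := fun c => by
    show Red A _ _
    rw [coe_algebraMap_ff, coe_algebraMap_ffC]
    exact red_const A c
  inv := fun h1 h0 => by
    show Red A _ _
    rw [IntermediateField.coe_inv, IntermediateField.coe_inv]
    exact Red.inv A h1 (fun h => h0 (Subtype.ext h))
  scale := fun x hx => by
    have hx0 : (x : LaurentSeries Qb) ≠ 0 := fun h => hx (Subtype.ext h)
    obtain ⟨c, hc, a, ha, hred⟩ := exists_red_smul A q hA
      (mem_gaussField_of_mem_ff A (M * q) x.2) hx0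
    have hred' : Red A ((c • x : modularFunctionFieldBar (M * q)) : LaurentSeries Qb) a := by
      rw [coe_smul_eq]
      exact hred
    refine ⟨c, hc, ⟨a, red1_mem_ffC A q hA M hM (c • x) hred'⟩,
      fun h => ha (congrArg Subtype.val h), hred'⟩

include hA hM in
/-- **the reduction axioms for the second valuation** -/
theorem redAx2 : RedAx A (IsLocalRing.residue A) (Red2 A q M hM) where
  res_surj := IsLocalRing.residue_surjective
  unique := fun h1 h2 => (redAx1 A q hA M hM).unique h1 h2
  add := fun {x y a b} h1 h2 => by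
    show Red1 A q M _ _
    rw [map_add]
    exact (redAx1 A q hA M hM).add h1 h2
  mul := fun {x y a b} h1 h2 => by
    show Red1 A q M _ _
    rw [map_mul]
    exact (redAx1 A q hA M hM).mul h1 h2
  const := fun c => by
    show Red1 A q M _ _
    rw [AL.wAL_algebraMap]
    exact (redAx1 A q hA M hM).const c
  inv := fun {x a} h1 h0 => by
    show Red1 A q M _ _
    rw [map_inv₀]
    exact (redAx1 A q hA M hM).inv h1 h0
  scale := fun x hx => by
    have hwx : AL.wAL hq.out hM x ≠ 0 := by
      intro h0
      apply hx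
      have := congrArg (AL.wAL hq.out hM) h0
      rwa [AL.wAL_wAL, map_zero] at this
    obtain ⟨c, hc, a, ha, hred⟩ := (redAx1 A q hA M hM).scale _ hwx
    refine ⟨c, hc, a, ha, ?_⟩
    show Red1 A q M _ _
    have e : AL.wAL hq.out hM (c • x) = c • AL.wAL hq.out hM x := by
      rw [Algebra.smul_def, Algebra.smul_def, map_mul, AL.wAL_algebraMap]
    rw [e]
    exact hred

end RedAx

end Fermat.Agent.S34.Joint
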