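import Fermat.Agent.S34.JointSeries
import Fermat.Agent.S34.C3Num
import Fermat.Agent.S18.GVSetup

/-!
# C83 (S34), piece C1 (2a): the two reductions of `F(Mq)` at `q`

Level `M * q`, `q` prime, `q ∤ M`, `A` a valuation ring of `ℚ̄` over `q`, `k` its residue field,
`F = F(Mq)`, `w` the Atkin–Lehner involution.

* `Red1 x a` : the Gauss reduction of the `𝐪`-expansion, with values in `F_k(M)`;
* `Red2 x a := Red1 (w x) a`;
* `Vk` : the `k`-algebra endomorphism `𝐪 ↦ 𝐪^q` of `F_k(M)` (`Vk a = (τ a)^q`, `τ` the inverse
  coefficient Frobenius);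
* the explicit reductions `red1_alpha`, `red1_beta`, `red2_alpha`, `red2_beta`:
  `red (α b) = (β, V β)`, `red (β b) = (V β, β)`.
-/

set_option autoImplicit false
set_option linter.unusedSectionVars false
set_option linter.unusedVariables false
set_option linter.style.haveILetI false
set_option synthInstance.maxHeartbeats 400000
set_option maxHeartbeats 1000000

noncomputable section

namespace Fermat.Agent.S34.Joint

open ModularCurve IntermediateField Fermat.Agent.S18.GV Fermat.Agent.S18.Deuring
open Fermat.Agent.S37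

local notation "Qb" => AlgebraicClosure ℚ

local instance isAlgebraicQbJointD : Algebra.IsAlgebraic ℚ (AlgebraicClosure ℚ) :=
  AlgebraicClosure.isAlgebraic ℚ

variable (A : ValuationSubring (AlgebraicClosure ℚ)) (q : ℕ) [hq : Fact q.Prime]
variable (hA : A.LiesOverPrime q) (M : ℕ) [NeZero M] (hM : ¬ q ∣ M)

attribute [local instance] neZero_prime

/-- the reduction of `F(Mq)` at the cusp `∞` (Gauss valuation of the `𝐪`-expansion) -/
def Red1 (x : modularFunctionFieldBar (M * q))
    (a : modularFunctionFieldFullC (IsLocalRing.ResidueField A) M) : Prop :=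
  Red A (x : LaurentSeries Qb) (a : LaurentSeries (IsLocalRing.ResidueField A))

/-- the reduction of `F(Mq)` at the cusp `0`: the first one composed with Atkin–Lehner -/
def Red2 (x : modularFunctionFieldBar (M * q))
    (a : modularFunctionFieldFullC (IsLocalRing.ResidueField A) M) : Prop :=
  Red1 A q M (AL.wAL hq.out hM x) a

theorem red1_iff (x : modularFunctionFieldBar (M * q))
    (a : modularFunctionFieldFullC (IsLocalRing.ResidueField A) M) :
    Red1 A q M x a ↔
      Red A (x : LaurentSeries Qb) (a : LaurentSeries (IsLocalRing.ResidueField A)) := Iff.rfl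

theorem red2_iff (x : modularFunctionFieldBar (M * q))
    (a : modularFunctionFieldFullC (IsLocalRing.ResidueField A) M) :
    Red2 A q M hM x a ↔
      Red A ((AL.wAL hq.out hM x : modularFunctionFieldBar (M * q)) : LaurentSeries Qb)
        (a : LaurentSeries (IsLocalRing.ResidueField A)) := Iff.rfl

/-! ### Atkin–Lehner on `𝐪`-expansions -/

theorem ffM_le : modularFunctionFieldBar M ≤ modularFunctionFieldBar (M * q) := by
  intro x hx
  exact (heckeAlphaBar Qb M q ⟨x, hx⟩).2

/-- on the old part `F(M)`, `w` is `𝐪 ↦ 𝐪^q` -/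
theorem coe_wAL_of_mem (f : modularFunctionFieldBar (M * q))
    (hf : (f : LaurentSeries Qb) ∈ modularFunctionFieldBar M) :
    ((AL.wAL hq.out hM f : modularFunctionFieldBar (M * q)) : LaurentSeries Qb)
      = qExpand Qb q (f : LaurentSeries Qb) := by
  have e : f = heckeAlphaBar Qb M q ⟨f, hf⟩ := Subtype.ext (by rw [coe_heckeAlphaBar])
  calc ((AL.wAL hq.out hM f : modularFunctionFieldBar (M * q)) : LaurentSeries Qb)
      = ((AL.wAL hq.out hM (heckeAlphaBar Qb M q ⟨f, hf⟩) :
          modularFunctionFieldBar (M * q)) : LaurentSeries Qb) := by rw [← e]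
    _ = qExpand Qb q (f : LaurentSeries Qb) := by
        rw [AL.wAL_alpha, coe_heckeBetaBar]

/-- `ℚ̄(j) ⊆ F(M)` on the level of Laurent series -/
theorem adjoin_j_le : Qb⟮jqModC Qb⟯ ≤ modularFunctionFieldBar M := by
  rw [IntermediateField.adjoin_simple_le_iff, ← coe_jBar M]
  exact (Fermat.Agent.S24.jBar M).2

/-- `w` on the coefficient field `ℚ̄(j)` -/
theorem coe_wAL_of_mem_adjoin (f : modularFunctionFieldBar (M * q))
    (hf : (f : LaurentSeries Qb) ∈ Qb⟮jqModC Qb⟯) :
    ((AL.wAL hq.out hM f : modularFunctionFieldBar (M * q)) : LaurentSeries Qb)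
      = qExpand Qb q (f : LaurentSeries Qb) :=
  coe_wAL_of_mem q M hM f (adjoin_j_le M hf)

theorem coe_jBar_level :
    ((Fermat.Agent.S24.jBar (M * q) : modularFunctionFieldBar (M * q)) : LaurentSeries Qb)
      = jqModC Qb := coe_jBar (M * q)

theorem coe_wAL_jBar :
    ((AL.wAL hq.out hM (Fermat.Agent.S24.jBar (M * q)) : modularFunctionFieldBar (M * q)) :
      LaurentSeries Qb) = qExpand Qb q (jqModC Qb) := by
  rw [C3.wAL_jBar q M hM, C3.coe_jq]

theorem coe_wAL_jq :
    ((AL.wAL hq.out hM (C3.jq q M) : modularFunctionFieldBar (M * q)) :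
      LaurentSeries Qb) = jqModC Qb := by
  rw [C3.wAL_jq q M hM, coe_jBar_level]

/-! ### The endomorphism `V : 𝐪 ↦ 𝐪^q` of `F_k(M)` -/

section Vk

variable (k : Type*) [Field k] [CharP k q]

/-- the generators of `F_k(M)` are raised to the `q`-th power by `𝐪 ↦ 𝐪^q` -/
theorem qExpand_gen_char (d : ℕ) [NeZero d] :
    qExpand k q (qExpand k d (jqModC k)) = (qExpand k d (jqModC k)) ^ q := by
  have h := Fermat.Agent.S37.Kron.laurent_pow_char (k := k) q (qExpand k d (jqModC k))
  rw [ModularCurve.coeffMap_qExpand, coeffMap_jqModC] at h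
  exact h.symm

/-- `𝐪 ↦ 𝐪^q` preserves `F_k(M)` in characteristic `q` -/
theorem qExpand_mem_ffC {a : LaurentSeries k} (ha : a ∈ modularFunctionFieldFullC k M) :
    qExpand k q a ∈ modularFunctionFieldFullC k M := by
  induction ha using IntermediateField.adjoin_induction with
  | mem z hz =>
    obtain ⟨d, hne, hdvd, rfl⟩ := hz
    rw [qExpand_gen_char]
    exact pow_mem (jqModCd_mem_full k M hdvd) _
  | algebraMap c =>
    have := (qExpandAlgHomC k q).commutes c
    rw [qExpandAlgHomC_apply] at this
    rw [this]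
    exact IntermediateField.algebraMap_mem _ _
  | add y z _ _ hy hz => rw [map_add]; exact add_mem hy hz
  | inv y _ hy => rw [map_inv₀]; exact inv_mem hy
  | mul y z _ _ hy hz => rw [map_mul]; exact mul_mem hy hz

/-- **`V`**: the endomorphism `𝐪 ↦ 𝐪^q` of `F_k(M)` -/
def Vk : modularFunctionFieldFullC k M →ₐ[k] modularFunctionFieldFullC k M where
  toFun a := ⟨qExpand k q (a : LaurentSeries k), qExpand_mem_ffC q M k a.2⟩
  map_one' := Subtype.ext (map_one (qExpand k q))
  map_mul' _ _ := Subtype.ext (map_mul (qExpand k q) _ _)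
  map_zero' := Subtype.ext (map_zero (qExpand k q))
  map_add' _ _ := Subtype.ext (map_add (qExpand k q) _ _)
  commutes' c := Subtype.ext <| by
    have := (qExpandAlgHomC k q).commutes c
    rwa [qExpandAlgHomC_apply] at this

@[simp] theorem coe_Vk (a : modularFunctionFieldFullC k M) :
    ((Vk q M k a : modularFunctionFieldFullC k M) : LaurentSeries k)
      = qExpand k q (a : LaurentSeries k) := rfl

theorem Vk_injective : Function.Injective (Vk q M k) := (Vk q M k).toRingHom.injective

/-- `V J = J ^ q` -/
theorem Vk_jK : Vk q M k (jK k M) = jK k M ^ q := by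
  apply Subtype.ext
  rw [coe_Vk, IntermediateField.coe_pow]
  show qExpand k q (jqModC k) = jqModC k ^ q
  exact qExpand_jqModC_char q

/-- `a ^ q = V (φ a)`, `φ` the coefficient Frobenius: every `q`-th power is in the image of `V` -/
theorem pow_q_eq_qExpand (a : modularFunctionFieldFullC k M) :
    ((a ^ q : modularFunctionFieldFullC k M) : LaurentSeries k)
      = qExpand k q (coeffMap (frobenius k q) (a : LaurentSeries k)) := by
  rw [IntermediateField.coe_pow]
  exact Fermat.Agent.S37.Kron.laurent_pow_char (k := k) q _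

end Vk

/-! ### The explicit reductions of the old functions -/

section Explicit

variable {b : modularFunctionFieldBar M}
  {β : modularFunctionFieldFullC (IsLocalRing.ResidueField A) M}

/-- `red₁ (α b) = β` -/
theorem red1_alpha (h : RedF A M b β) : Red1 A q M (heckeAlphaBar Qb M q b) β := by
  show Red A _ _
  rw [coe_heckeAlphaBar]
  exact h

include hA in
/-- `red₁ (β b) = V β` -/
theorem red1_beta (h : RedF A M b β) :
    haveI := charP_residueField A q hA
    Red1 A q M (heckeBetaBar Qb M q b) (Vk q M (IsLocalRing.ResidueField A) β) := by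
  haveI := charP_residueField A q hA
  show Red A _ _
  rw [coe_heckeBetaBar, coe_Vk]
  exact Fermat.Agent.S18.Desc.red_qExpand A q h

include hA in
/-- `red₂ (α b) = V β` -/
theorem red2_alpha (h : RedF A M b β) :
    haveI := charP_residueField A q hA
    Red2 A q M hM (heckeAlphaBar Qb M q b) (Vk q M (IsLocalRing.ResidueField A) β) := by
  haveI := charP_residueField A q hA
  show Red1 A q M _ _
  rw [AL.wAL_alpha]
  exact red1_beta A q hA M h

/-- `red₂ (β b) = β` -/
theorem red2_beta (h : RedF A M b β) : Red2 A q M hM (heckeBetaBar Qb M q b) β := by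
  show Red1 A q M _ _
  rw [AL.wAL_beta]
  exact red1_alpha A q M h

/-- `red₁ j = J` -/
theorem red1_jBar : Red1 A q M (Fermat.Agent.S24.jBar (M * q))
    (jK (IsLocalRing.ResidueField A) M) := by
  show Red A _ _
  rw [coe_jBar_level]
  exact red_j A

include hA in
/-- `red₂ j = J ^ q` -/
theorem red2_jBar : Red2 A q M hM (Fermat.Agent.S24.jBar (M * q))
    (jK (IsLocalRing.ResidueField A) M ^ q) := by
  haveI := charP_residueField A q hA
  show Red A _ _
  rw [coe_wAL_jBar, IntermediateField.coe_pow]
  have := red_jqL A q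
  rw [qExpand_jqModC_char (k := IsLocalRing.ResidueField A)] at this
  exact this

include hA in
/-- `red₁ j_q = J ^ q` -/
theorem red1_jq : Red1 A q M (C3.jq q M) (jK (IsLocalRing.ResidueField A) M ^ q) := by
  haveI := charP_residueField A q hA
  show Red A _ _
  rw [C3.coe_jq, IntermediateField.coe_pow]
  have := red_jqL A q
  rw [qExpand_jqModC_char (k := IsLocalRing.ResidueField A)] at this
  exact this

/-- `red₂ j_q = J` -/
theorem red2_jq : Red2 A q M hM (C3.jq q M) (jK (IsLocalRing.ResidueField A) M) := by
  show Red A _ _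
  rw [coe_wAL_jq]
  exact red_j A

end Explicit

end Fermat.Agent.S34.Joint
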