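import Fermat.Agent.S18.GVArith

/-!
# C83 (S34), piece C2, part 4: the numerics `2 g(M) ≤ g(Mq)`

For a prime `q ∤ M` and `4 ∣ M` or `9 ∣ M`:
`g(Mq) - 2 g(M) + 1 = (q - 1) ψ(M) / 12 > 0`, the number of nodes of the special fibre.

* `cuspCount_mul_prime` : `c(Mq) = 2 c(M)`;
* `genusFormula_mul_prime` : `g(Mq) + 1 = 2 g(M) + (q - 1) ψ(M) / 12`;
* `two_mul_genus_le` : `2 g₁ ≤ g` for natural numbers `g`, `g₁` with these values.
-/

set_option autoImplicit false
set_option linter.unusedVariables false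

namespace Fermat.Agent.S34.NC

open ModularCurve

theorem cuspCount_mul_prime {M q : ℕ} (hq : q.Prime) (hqM : ¬ q ∣ M) (hM : M ≠ 0) :
    cuspCount (M * q) = 2 * cuspCount M := by
  classical
  have hcop : M.Coprime q := ((Nat.Prime.coprime_iff_not_dvd hq).2 hqM).symm
  have hinj := hcop.mul_injOn_divisors
  have himg : (M * q).divisors
      = (M.divisors ×ˢ q.divisors).image (fun p : ℕ × ℕ => p.1 * p.2) := by
    rw [Nat.divisors_mul, Finset.mul_def]
  rw [cuspCount, himg, Finset.sum_image (fun x hx y hy h => hinj hx hy h),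
    Finset.sum_product, cuspCount, Finset.mul_sum]
  refine Finset.sum_congr rfl (fun a ha => ?_)
  have haM : a ∣ M := Nat.dvd_of_mem_divisors ha
  have ha0 : 0 < a := Nat.pos_of_mem_divisors ha
  have hq1 : (1 : ℕ) ≠ q := hq.one_lt.ne
  rw [hq.divisors, Finset.sum_pair hq1]
  have h1 : Nat.gcd (a * 1) (M * q / (a * 1)) = Nat.gcd a (M / a) := by
    rw [mul_one, Nat.mul_comm M q, Nat.mul_div_assoc q haM, Nat.mul_comm q]
    have hc : Nat.Coprime q a := (Nat.Coprime.coprime_dvd_left haM hcop).symm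
    exact Nat.Coprime.gcd_mul_right_cancel_right (M / a) hc
  have h2 : Nat.gcd (a * q) (M * q / (a * q)) = Nat.gcd a (M / a) := by
    rw [Nat.mul_div_mul_right _ _ hq.pos]
    have hc : Nat.Coprime q (M / a) :=
      (Nat.Coprime.coprime_dvd_left (Nat.div_dvd_of_dvd haM) hcop).symm
    exact Nat.Coprime.gcd_mul_right_cancel a hc
  rw [h1, h2]
  ring

/-- `ν₂ = ν₃ = 0` for levels divisible by `4` or by `9` -/
theorem nu_eq_zero_of_h49 {M : ℕ} (h : 4 ∣ M ∨ 9 ∣ M) : nuTwo M = 0 ∧ nuThree M = 0 := by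
  rcases h with h | h
  · exact ⟨Fermat.Agent.S18.GV.nuTwo_eq_zero_of_four_dvd h,
      Fermat.Agent.S18.GV.nuThree_eq_zero_of_two_dvd (Dvd.dvd.trans (by norm_num) h)⟩
  · exact ⟨Fermat.Agent.S18.GV.nuTwo_eq_zero_of_three_dvd (Dvd.dvd.trans (by norm_num) h),
      Fermat.Agent.S18.GV.nuThree_eq_zero_of_nine_dvd h⟩

/-- the number of nodes: `g(Mq) + 1 = 2 g(M) + (q - 1) ψ(M) / 12` -/
theorem genusFormula_mul_prime {M q : ℕ} (hq : q.Prime) (hqM : ¬ q ∣ M) (hM : M ≠ 0)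
    (h : 4 ∣ M ∨ 9 ∣ M) :
    genusFormula (M * q) + 1 = 2 * genusFormula M + ((q : ℚ) - 1) * dedekindPsi M / 12 := by
  have hcop : M.Coprime q := ((Nat.Prime.coprime_iff_not_dvd hq).2 hqM).symm
  have h' : 4 ∣ M * q ∨ 9 ∣ M * q := by
    rcases h with h | h
    · exact Or.inl (Dvd.dvd.mul_right h q)
    · exact Or.inr (Dvd.dvd.mul_right h q)
  obtain ⟨a2, a3⟩ := nu_eq_zero_of_h49 h
  obtain ⟨b2, b3⟩ := nu_eq_zero_of_h49 h'
  have hψ : dedekindPsi (M * q) = dedekindPsi M * (q + 1) := by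
    rw [Fermat.Agent.Lib.Gamma0Count.dedekindPsi_mul hcop]
    have hp := Fermat.Agent.Lib.Gamma0Count.dedekindPsi_prime_pow (p := q) (k := 1) hq
      Nat.one_pos
    rw [pow_one, Nat.sub_self, pow_zero] at hp
    rw [hp]
  rw [genusFormula, genusFormula, a2, a3, b2, b3, hψ, cuspCount_mul_prime hq hqM hM]
  push_cast
  ring

/-- `2 g(M) ≤ g(Mq)` -/
theorem two_mul_genus_le {M q : ℕ} (hq : q.Prime) (hqM : ¬ q ∣ M) (hM : M ≠ 0)
    (h : 4 ∣ M ∨ 9 ∣ M) {g g₁ : ℕ} (hg : (g : ℚ) = genusFormula (M * q))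
    (hg₁ : (g₁ : ℚ) = genusFormula M) : g₁ + g₁ ≤ g := by
  have key := genusFormula_mul_prime hq hqM hM h
  rw [← hg, ← hg₁] at key
  have hψ : (0 : ℚ) ≤ ((q : ℚ) - 1) * dedekindPsi M / 12 := by
    have h1 : (1 : ℚ) ≤ q := by exact_mod_cast hq.one_lt.le
    have h2 : (0 : ℚ) ≤ dedekindPsi M := by positivity
    have h3 : (0 : ℚ) ≤ (q : ℚ) - 1 := by linarith
    positivity
  have hlt : (2 * g₁ : ℚ) < (g : ℚ) + 1 + 0 + 1 := by linarith
  have : 2 * g₁ < g + 1 + 0 + 1 := by exact_mod_cast hlt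
  -- `2 g₁ ≤ g + 1`; exclude `2 g₁ = g + 1` by positivity of `ψ`
  by_contra hcon
  have he : 2 * g₁ = g + 1 := by omega
  have he' : (2 * g₁ : ℚ) = (g : ℚ) + 1 := by exact_mod_cast he
  have hz : ((q : ℚ) - 1) * dedekindPsi M / 12 = 0 := by linarith
  have hq1 : (0 : ℚ) < (q : ℚ) - 1 := by
    have : (1 : ℚ) < q := by exact_mod_cast hq.one_lt
    linarith
  have hψpos : (0 : ℚ) < dedekindPsi M := by
    have : 0 < dedekindPsi M := by
      rw [dedekindPsi]
      apply Finset.sum_pos'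
      · intro i _; exact Nat.zero_le _
      · refine ⟨1, ?_, ?_⟩
        · rw [Finset.mem_filter]
          exact ⟨Nat.one_mem_divisors.mpr hM, squarefree_one⟩
        · rw [Nat.div_one]; exact Nat.pos_of_ne_zero hM
    exact_mod_cast this
  have : (0 : ℚ) < ((q : ℚ) - 1) * dedekindPsi M / 12 := by positivity
  linarith

end Fermat.Agent.S34.NC
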