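import Fermat.Agent.S34.NodalConc
import Fermat.Agent.S34.JointDefs
import Fermat.Agent.S34.C3H2
import Fermat.Agent.S34.NodalGenus

/-!
# C83 (S34), piece C2, part 7: `ProdFacts` for the concrete reductions `Joint.Red1`, `Joint.Red2`

* `prodFacts` : `NConc.ProdFacts` for `Red1`, `Red2` from `C3.JointFin` (helper9's explicit
  reductions and helper1's `h2_first`, `h2_second`);
* `exists_setup2_joint` : `Setup2` for `Red1`, `Red2` from `PreSetup2`, `JointFin`, the conductor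
  hypothesis and `g₁ + g₂ ≤ g`.
-/

set_option autoImplicit false
set_option linter.unusedSectionVars false
set_option linter.unusedVariables false
set_option linter.style.haveILetI false
set_option synthInstance.maxHeartbeats 400000
set_option maxHeartbeats 1000000

noncomputable section

open AlgebraicCurve ModularCurve IntermediateField Fermat.Agent.Lib.FF
open Fermat.Agent.S18 Fermat.Agent.S18.Deuring Fermat.Agent.S34.Nodal

namespace Fermat.Agent.S34.NConc

local notation "Qb" => AlgebraicClosure ℚ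

variable (A : ValuationSubring (AlgebraicClosure ℚ)) (q : ℕ) [hq : Fact q.Prime]
variable (hA : A.LiesOverPrime q) (M : ℕ) [NeZero M] (hqM : ¬ q ∣ M)

attribute [local instance] Fermat.Agent.S34.C3.neZero_q

include hA in
/-- `ProdFacts` for the concrete reductions -/
theorem prodFacts (hJF : Fermat.Agent.S34.C3.JointFin A q M hqM)
    (hpf : PlaceFacts Qb (modularFunctionFieldBar (M * q)))
    (hpfk : PlaceFacts (IsLocalRing.ResidueField A)
      (modularFunctionFieldFullC (IsLocalRing.ResidueField A) M)) :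
    ProdFacts A q M (Fermat.Agent.S34.Joint.Red1 A q M) (Fermat.Agent.S34.Joint.Red2 A q M hqM)
      hpf hpfk where
  alpha₁ := fun f a h => Fermat.Agent.S34.Joint.red1_alpha A q M h
  alpha₂ := fun f a h => ⟨_, Fermat.Agent.S34.Joint.red2_alpha A q hA M hqM h⟩
  beta₁ := fun f a h => ⟨_, Fermat.Agent.S34.Joint.red1_beta A q hA M h⟩
  beta₂ := fun f a h => Fermat.Agent.S34.Joint.red2_beta A q M hqM h
  j₁ := Fermat.Agent.S34.Joint.red1_jBar A q M
  jq₁ := Fermat.Agent.S34.Joint.red1_jq A q hA M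
  jq₂ := Fermat.Agent.S34.Joint.red2_jq A q M hqM
  j₂' := Fermat.Agent.S34.Joint.red2_jBar A q hA M hqM
  H2a := fun c x a₁ a₂ hx h₁ h₂ =>
    Fermat.Agent.S34.C3.h2_first A q hA M hqM hJF hpf hpfk c x a₁ hx h₁ (GV.Red.mem A h₂)
  H2b := fun c x a₁ a₂ hx h₁ h₂ =>
    Fermat.Agent.S34.C3.h2_second A q hA M hqM hJF hpf hpfk c x a₂ hx h₂ (GV.Red.mem A h₁)

include hA hqM in
/-- Riemann's theorem for `F(Mq)` and `F_k(M)` with genera `g`, `g₁` such that `2 g₁ ≤ g` -/
theorem exists_rthm (h49 : 4 ∣ M ∨ 9 ∣ M) :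
    ∃ (g g₁ : ℕ) (c c₁ : ℤ), (g : ℚ) = genusFormula (M * q) ∧ (g₁ : ℚ) = genusFormula M ∧
      RThm Qb (modularFunctionFieldBar (M * q)) g c ∧
      RThm (IsLocalRing.ResidueField A)
        (modularFunctionFieldFullC (IsLocalRing.ResidueField A) M) g₁ c₁ ∧
      g₁ + g₁ ≤ g := by
  obtain ⟨g, c, hg, hRF⟩ := Fermat.Agent.S34.C3.rthm_N q M
  obtain ⟨g₁, c₀, hg₁, S⟩ := Fermat.Agent.S37.R.exists_setup A q hA M hqM h49
  obtain ⟨c₁, hRk⟩ := S.rthm_k
  exact ⟨g, g₁, c, c₁, hg, hg₁, hRF, hRk,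
    Fermat.Agent.S34.NC.two_mul_genus_le hq.out hqM (NeZero.ne M) h49 hg hg₁⟩

include hA hqM in
/-- **`Setup2` for the concrete reductions `Red1`, `Red2` of `X₀(Mq)` at `q`** from `PreSetup2`,
`JointFin`, and the conductor hypothesis -/
theorem exists_setup2_joint {g g₁ g₂ : ℕ} {c c₁ c₂ : ℤ}
    (hpf : PlaceFacts Qb (modularFunctionFieldBar (M * q)))
    (hpfk : PlaceFacts (IsLocalRing.ResidueField A)
      (modularFunctionFieldFullC (IsLocalRing.ResidueField A) M))
    (S : Fermat.Agent.S34.NC.PreSetup2 A (IsLocalRing.residue A)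
      (Fermat.Agent.S34.Joint.Red1 A q M) (Fermat.Agent.S34.Joint.Red2 A q M hqM)
      (hpf.poleDiv (Fermat.Agent.S24.jBar (M * q)) + hpf.poleDiv (Fermat.Agent.S34.C3.jq q M))
      ((1 + q) • hpfk.poleDiv (GV.jK (IsLocalRing.ResidueField A) M))
      ((1 + q) • hpfk.poleDiv (GV.jK (IsLocalRing.ResidueField A) M)) g g₁ g₂ c c₁ c₂)
    (hJF : Fermat.Agent.S34.C3.JointFin A q M hqM) (h49 : 4 ∣ M ∨ 9 ∣ M)
    (Y₁ Y₂ : Finset (Place (IsLocalRing.ResidueField A)
      (modularFunctionFieldFullC (IsLocalRing.ResidueField A) M)))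
    (off₁ : ∀ y ∈ Y₁, hpfk.poleDiv (GV.jK (IsLocalRing.ResidueField A) M) y = 0)
    (off₂ : ∀ y ∈ Y₂, hpfk.poleDiv (GV.jK (IsLocalRing.ResidueField A) M) y = 0)
    (cond : ∀ (n : ℕ) (c₁ c₂ : modularFunctionFieldFullC (IsLocalRing.ResidueField A) M),
      c₁ ∈ riemannRochSpace (n • ((1 + q) •
        hpfk.poleDiv (GV.jK (IsLocalRing.ResidueField A) M))) →
      c₂ ∈ riemannRochSpace (n • ((1 + q) •
        hpfk.poleDiv (GV.jK (IsLocalRing.ResidueField A) M))) →
      (∀ y ∈ Y₁, HasValue y c₁ 0) → (∀ y ∈ Y₂, HasValue y c₂ 0) → ∃ m : ℕ, (c₁, c₂) ∈ S.B m)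
    (hg : g₁ + g₂ ≤ g) :
    ∃ Sg : Finset (Place (IsLocalRing.ResidueField A)
        (modularFunctionFieldFullC (IsLocalRing.ResidueField A) M) ×
        Place (IsLocalRing.ResidueField A)
        (modularFunctionFieldFullC (IsLocalRing.ResidueField A) M)),
      (∀ p ∈ Sg, p.1 ∈ Y₁ ∧ p.2 ∈ Y₂) ∧
        Fermat.Agent.S34.Setup2 A (IsLocalRing.residue A)
          (Fermat.Agent.S34.Joint.Red1 A q M) (Fermat.Agent.S34.Joint.Red2 A q M hqM)
          (hpf.poleDiv (Fermat.Agent.S24.jBar (M * q))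
            + hpf.poleDiv (Fermat.Agent.S34.C3.jq q M))
          ((1 + q) • hpfk.poleDiv (GV.jK (IsLocalRing.ResidueField A) M))
          ((1 + q) • hpfk.poleDiv (GV.jK (IsLocalRing.ResidueField A) M)) Sg
          g g₁ g₂ c c₁ c₂ :=
  exists_setup2 hA hqM S (prodFacts A q hA M hqM hJF hpf hpfk) h49 Y₁ Y₂ off₁ off₂ cond hg

end Fermat.Agent.S34.NConc
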