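import Fermat.Agent.S34.Setup2
import Fermat.Agent.S34.NodalRR

/-!
# C83 (S34), piece A1 (d): `bar_zero`

In the situation of `Setup2`: for `n ≫ 0` the joint reduction of `L(n • D)` is the whole nodal
Riemann–Roch space `LX Sg (n • D₁) (n • D₂)`.
-/

set_option autoImplicit false
set_option linter.unusedSectionVars false
set_option linter.style.haveILetI false
set_option linter.unusedVariables false

open AlgebraicCurve Fermat.Agent.Lib.FF Fermat.Agent.S18.Deuring Fermat.Agent.S34.Nodal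
open scoped Classical

namespace Fermat.Agent.S34.Nodal

variable {L k F Fk₁ Fk₂ : Type*} [Field L] [Field k] [Field F] [Field Fk₁] [Field Fk₂]
  [Algebra L F] [Algebra k Fk₁] [Algebra k Fk₂]
variable {A : ValuationSubring L} {res : A →+* k} {Red₁ : F → Fk₁ → Prop}
  {Red₂ : F → Fk₂ → Prop} {D : Divisor L F} {D₁ : Divisor k Fk₁} {D₂ : Divisor k Fk₂}
  {Sg : Finset (Place k Fk₁ × Place k Fk₂)} {g g₁ g₂ : ℕ} {c c₁ c₂ : ℤ}

variable (S : Setup2 A res Red₁ Red₂ D D₁ D₂ Sg g g₁ g₂ c c₁ c₂)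
include S

theorem bz_exists_node : ∃ p, p ∈ Sg := S.node_nonempty

theorem bz_deg_pos : 0 < Divisor.degree D := by
  rw [S.deg_eq]
  have := S.deg₁_pos
  have := S.deg₂_pos
  omega

theorem bz_exists_place : Nonempty (Place L F) := by
  by_contra h
  rw [not_nonempty_iff] at h
  have : D = 0 := by
    ext v
    exact (h.false v).elim
  have hp := bz_deg_pos S
  rw [this, map_zero] at hp
  exact lt_irrefl _ hp

/-- the joint reduction of `L(n • D)` lies in the nodal Riemann–Roch space -/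
theorem redSpace₂_le_LX (n : ℕ) :
    redSpace₂ S.ax₁ S.ax₂ (riemannRochSpace (n • D)) ≤ LX Sg (n • D₁) (n • D₂) := by
  rintro a ⟨x, hx, h1, h2⟩
  exact S.H2 n x a.1 a.2 hx h1 h2

omit S in
theorem nsmul_node_off {K' F' : Type*} [Field K'] [Field F'] [Algebra K' F']
    {E : Divisor K' F'} {z : Place K' F'} (h : E z = 0) (n : ℕ) : (n • E) z = 0 := by
  rw [Finsupp.smul_apply, h, smul_zero]

omit S in
/-- a threshold: `b ≤ n * ψ` for `n ≥ N` -/
theorem exists_threshold' {ψ : ℤ} (hψ : 0 < ψ) (b : ℤ) : ∃ N : ℕ, ∀ n : ℕ, N ≤ n → b ≤ n * ψ := by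
  refine ⟨b.toNat, fun n hn => ?_⟩
  have h1 : b ≤ (b.toNat : ℤ) := Int.self_le_toNat b
  have h2 : (b.toNat : ℤ) ≤ n := by exact_mod_cast hn
  have h3 : (0 : ℤ) ≤ n := by positivity
  nlinarith

/-- the dimension of `LX Sg (n • D₁) (n • D₂)` for `n ≫ 0` -/
theorem finrank_LX_nsmul :
    ∃ N₀ : ℕ, ∀ n : ℕ, N₀ ≤ n →
      (Module.finrank k (LX Sg (n • D₁) (n • D₂)) : ℤ) + g = n * Divisor.degree D + 1 := by
  obtain ⟨p, hp⟩ := bz_exists_node S
  obtain ⟨N₁, hN₁⟩ := exists_threshold' S.deg₁_pos (c₁ + Sg.card)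
  obtain ⟨N₂, hN₂⟩ := exists_threshold' S.deg₂_pos c₂
  refine ⟨max N₁ N₂, fun n hn => ?_⟩
  have h1 := hN₁ n (le_trans (le_max_left _ _) hn)
  have h2 := hN₂ n (le_trans (le_max_right _ _) hn)
  have key := finrank_LX (N := Sg) S.hpf₁ S.hpf₂ S.RF₁ S.RF₂ p.1 p.2 S.node_inj₁
    (E₁ := n • D₁) (E₂ := n • D₂)
    (fun q hq => nsmul_node_off (S.node_off₁ q hq) n)
    (fun q hq => nsmul_node_off (S.node_off₂ q hq) n)
    (by rw [map_nsmul, nsmul_eq_mul]; exact h1)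
    (by rw [map_nsmul, nsmul_eq_mul]; exact h2)
  rw [map_nsmul, map_nsmul, nsmul_eq_mul, nsmul_eq_mul] at key
  have hg := S.genus_eq
  have hd := S.deg_eq
  have hg' : (g : ℤ) + 1 = g₁ + g₂ + Sg.card := by exact_mod_cast hg
  rw [hd]
  linarith

/-- **`bar_zero`**: for `n ≫ 0` the joint reduction of `L(n • D)` is `LX Sg (n • D₁) (n • D₂)` -/
theorem bar_zero :
    ∃ N₀ : ℕ, ∀ n : ℕ, N₀ ≤ n →
      redSpace₂ S.ax₁ S.ax₂ (riemannRochSpace (n • D)) = LX Sg (n • D₁) (n • D₂) := by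
  obtain ⟨p, hp⟩ := bz_exists_node S
  obtain ⟨P₀⟩ := bz_exists_place S
  obtain ⟨N₁, hN₁⟩ := finrank_LX_nsmul S
  obtain ⟨N₂, hN₂⟩ := exists_threshold' (bz_deg_pos S) c
  refine ⟨max N₁ N₂, fun n hn => ?_⟩
  have h1 := hN₁ n (le_trans (le_max_left _ _) hn)
  have h2 := hN₂ n (le_trans (le_max_right _ _) hn)
  haveI := finite_LX (N := Sg) S.hpf₁ S.hpf₂ p.1 p.2 (n • D₁) (n • D₂)
  refine Submodule.eq_of_le_of_finrank_eq (redSpace₂_le_LX S n) ?_
  rw [S.H1 _ (finite_rrSpace S.hpf P₀ (n • D))]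
  have h3 := S.RF.eq (n • D) (by rw [map_nsmul, nsmul_eq_mul]; exact h2)
  rw [map_nsmul, nsmul_eq_mul] at h3
  have : (Module.finrank L (riemannRochSpace (n • D)) : ℤ)
      = Module.finrank k (LX Sg (n • D₁) (n • D₂)) := by linarith
  exact_mod_cast this

end Fermat.Agent.S34.Nodal
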