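import Fermat.Agent.S34.NodalSp
import Fermat.Agent.S34.NodalBarZero
import Fermat.Agent.S34.FactsNS

/-!
# C83 (S34), piece A2 (third part): (R5) and lifted uniformisers at the smooth points

`BarAx S sp` = `SpAx S sp` + the theorem of the reduction of `L(n D - 𝔞)` for effective divisors
`𝔞` without points over the nodes (`bar_smooth`).  From `BarAx` we derive the fields
`r5₁`, `r5₂`, `unif₁`, `unif₂` of the contract `Facts`.

The exact count (R5) is proved for functions which are integral for ONE valuation only: the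
function is multiplied by a power of a section with reduction `(ε, 0)` (resp. `(0, ε)`), which
makes it integral for the other valuation as well (`Setup2.arch`).
-/

set_option autoImplicit false
set_option linter.unusedSectionVars false
set_option linter.style.haveILetI false
set_option linter.unusedSimpArgs false
set_option linter.unusedTactic false
set_option linter.unusedVariables false

open AlgebraicCurve Fermat.Agent.Lib.FF Fermat.Agent.S18.Deuring Fermat.Agent.S34.Nodal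
open Fermat.Agent.S34.NodalSp
open scoped Classical

namespace Fermat.Agent.S34.NodalR5

variable {L k F Fk₁ Fk₂ : Type*} [Field L] [Field k] [Field F] [Field Fk₁] [Field Fk₂]
  [Algebra L F] [Algebra k Fk₁] [Algebra k Fk₂]
variable {A : ValuationSubring L} {res : A →+* k} {Red₁ : F → Fk₁ → Prop}
  {Red₂ : F → Fk₂ → Prop} {D : Divisor L F} {D₁ : Divisor k Fk₁} {D₂ : Divisor k Fk₂}
  {Sg : Finset (Place k Fk₁ × Place k Fk₂)} {g g₁ g₂ : ℕ} {c c₁ c₂ : ℤ}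

/-- **the interface**: the specialisation map together with the reduction of `L(n D - 𝔞)` for
effective divisors `𝔞` without points over the nodes -/
structure BarAx (S : Setup2 A res Red₁ Red₂ D D₁ D₂ Sg g g₁ g₂ c c₁ c₂)
    (sp : Place L F → Place k Fk₁ ⊕ Place k Fk₂) : Prop where
  spAx : SpAx S sp
  bar : ∀ 𝔞 : Divisor L F, 0 ≤ 𝔞 → (∀ P, 𝔞 P ≠ 0 → ∀ p ∈ Sg, sp P ≠ Sum.inl p.1) →
    ∀ (𝔟₁ : Divisor k Fk₁) (𝔟₂ : Divisor k Fk₂),
      (∀ Q, 𝔟₁ Q = Finsupp.mapDomain sp 𝔞 (Sum.inl Q)) →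
      (∀ Q, 𝔟₂ Q = Finsupp.mapDomain sp 𝔞 (Sum.inr Q)) →
        ∃ N : ℕ, ∀ n, N ≤ n →
          redSpace₂ S.ax₁ S.ax₂ (riemannRochSpace (n • D - 𝔞))
            = LX Sg (n • D₁ - 𝔟₁) (n • D₂ - 𝔟₂)

variable {S : Setup2 A res Red₁ Red₂ D D₁ D₂ Sg g g₁ g₂ c c₁ c₂}
  {sp : Place L F → Place k Fk₁ ⊕ Place k Fk₂}

/-! ### thresholds and lifts -/

/-- arbitrarily large `n` above given bounds -/
theorem exists_large (S : Setup2 A res Red₁ Red₂ D D₁ D₂ Sg g g₁ g₂ c c₁ c₂) (N : ℕ)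
    (b₁ b₂ : ℤ) :
    ∃ n : ℕ, N ≤ n ∧ b₁ ≤ n * Divisor.degree D₁ ∧ b₂ ≤ n * Divisor.degree D₂ := by
  obtain ⟨N₁, hN₁⟩ := exists_threshold' S.deg₁_pos b₁
  obtain ⟨N₂, hN₂⟩ := exists_threshold' S.deg₂_pos b₂
  exact ⟨max N (max N₁ N₂), le_max_left _ _,
    hN₁ _ (le_trans (le_max_left _ _) (le_max_right _ _)),
    hN₂ _ (le_trans (le_max_right _ _) (le_max_right _ _))⟩

/-- lifting the elements of the nodal Riemann–Roch space -/
theorem exists_lift_LX (S : Setup2 A res Red₁ Red₂ D D₁ D₂ Sg g g₁ g₂ c c₁ c₂) :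
    ∃ N₀ : ℕ, ∀ n, N₀ ≤ n → ∀ φ ∈ LX Sg (n • D₁) (n • D₂),
      ∃ x ∈ riemannRochSpace (n • D), Red₁ x φ.1 ∧ Red₂ x φ.2 := by
  obtain ⟨N₀, hN₀⟩ := bar_zero S
  refine ⟨N₀, fun n hn φ hφ => ?_⟩
  rw [← hN₀ n hn] at hφ
  exact hφ

/-- a place over a point outside `D₁` lies outside `D` -/
theorem D_eq_zero_of_sp₁ (h : SpAx S sp) {P : Place L F} {Q : Place k Fk₁}
    (hP : sp P = Sum.inl Q) (hQ : D₁ Q = 0) : D P = 0 := by
  by_contra hne
  have hDP : 1 ≤ D P := by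
    have := Finsupp.le_def.mp S.D_nonneg P
    simp only [Finsupp.coe_zero, Pi.zero_apply] at this
    omega
  have h1 : (1 : F) ∈ riemannRochSpace ((1 : ℕ) • D - Finsupp.single P 1) := by
    rw [mem_rrSpace_iff_of_ne_zero one_ne_zero]
    intro P'
    rw [Place.ord_one, one_smul, Finsupp.sub_apply, Finsupp.single_apply]
    have := Finsupp.le_def.mp S.D_nonneg P'
    simp only [Finsupp.coe_zero, Pi.zero_apply] at this
    split_ifs with hPP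
    · rw [← hPP]; omega
    · omega
  have h2 := h.van₁ hP h1 S.ax₁.one S.ax₂.one
  have h3 := (mem_rrSpace_iff_of_ne_zero one_ne_zero).mp h2 Q
  rw [Place.ord_one, one_smul, Finsupp.sub_apply, Finsupp.single_eq_same, hQ] at h3
  omega

theorem D_eq_zero_of_sp₂ (h : SpAx S sp) {P : Place L F} {Q : Place k Fk₂}
    (hP : sp P = Sum.inr Q) (hQ : D₂ Q = 0) : D P = 0 := by
  by_contra hne
  have hDP : 1 ≤ D P := by
    have := Finsupp.le_def.mp S.D_nonneg P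
    simp only [Finsupp.coe_zero, Pi.zero_apply] at this
    omega
  have h1 : (1 : F) ∈ riemannRochSpace ((1 : ℕ) • D - Finsupp.single P 1) := by
    rw [mem_rrSpace_iff_of_ne_zero one_ne_zero]
    intro P'
    rw [Place.ord_one, one_smul, Finsupp.sub_apply, Finsupp.single_apply]
    have := Finsupp.le_def.mp S.D_nonneg P'
    simp only [Finsupp.coe_zero, Pi.zero_apply] at this
    split_ifs with hPP
    · rw [← hPP]; omega
    · omega
  have h2 := h.van₂ hP h1 S.ax₁.one S.ax₂.one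
  have h3 := (mem_rrSpace_iff_of_ne_zero one_ne_zero).mp h2 Q
  rw [Place.ord_one, one_smul, Finsupp.sub_apply, Finsupp.single_eq_same, hQ] at h3
  omega

theorem single_node_off₁ {Q : Place k Fk₁} (hQ : Smooth₁ Sg Q) (p : Place k Fk₁ × Place k Fk₂)
    (hp : p ∈ Sg) (m : ℤ) : (Finsupp.single Q m : Divisor k Fk₁) p.1 = 0 :=
  Finsupp.single_eq_of_ne (hQ p hp)

/-! ### lifted uniformisers -/

theorem unif₁ [Infinite k] (h : SpAx S sp) (Q : Place k Fk₁) (hQ : Smooth₁ Sg Q)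
    (hD : D₁ Q = 0) :
    ∃ τ : F, ∃ t : Fk₁, Red₁ τ t ∧ Q.ord t = 1 ∧ ∀ P, sp P = Sum.inl Q → 0 ≤ P.ord τ := by
  obtain ⟨N₀, hN₀⟩ := exists_lift_LX S
  obtain ⟨n, hn, hb₁, hb₂⟩ := exists_large S N₀ (c₁ + Sg.card + 2) (c₂ + Sg.card + 1)
  obtain ⟨φ, hφ, hex, -⟩ := exists_LX_exact (N := Sg) S.hpf₁ S.hpf₂ S.RF₁ S.RF₂ S.node_inj₁
    S.node_inj₂ (E₁ := n • D₁ - Finsupp.single Q 1) (E₂ := n • D₂)
    (fun p hp => by
      rw [Finsupp.sub_apply, nsmul_node_off (S.node_off₁ p hp) n,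
        Finsupp.single_eq_of_ne (hQ p hp), sub_zero])
    (fun p hp => nsmul_node_off (S.node_off₂ p hp) n)
    (by rw [map_sub, map_nsmul, nsmul_eq_mul, S.hpf₁.degree_single]; omega)
    (by rw [map_nsmul, nsmul_eq_mul]; omega) {Q} ∅
  obtain ⟨hφ0, hord⟩ := hex Q (Finset.mem_singleton_self Q)
  rw [Finsupp.sub_apply, Finsupp.smul_apply, hD, smul_zero, Finsupp.single_eq_same] at hord
  have hφ' : φ ∈ LX Sg (n • D₁) (n • D₂) :=
    LX_mono (sub_single_le _ _) (le_refl _) hφ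
  obtain ⟨τ, hτ, hτ₁, -⟩ := hN₀ n hn φ hφ'
  refine ⟨τ, φ.1, hτ₁, by rw [hord]; ring, fun P hP => ?_⟩
  by_cases hτ0 : τ = 0
  · rw [hτ0, Place.ord_zero]
  have := (mem_rrSpace_iff_of_ne_zero hτ0).mp hτ P
  rw [Finsupp.smul_apply, D_eq_zero_of_sp₁ h hP hD, smul_zero] at this
  omega

theorem unif₂ [Infinite k] (h : SpAx S sp) (Q : Place k Fk₂) (hQ : Smooth₂ Sg Q)
    (hD : D₂ Q = 0) :
    ∃ τ : F, ∃ t : Fk₂, Red₂ τ t ∧ Q.ord t = 1 ∧ ∀ P, sp P = Sum.inr Q → 0 ≤ P.ord τ := by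
  obtain ⟨N₀, hN₀⟩ := exists_lift_LX S
  obtain ⟨n, hn, hb₁, hb₂⟩ := exists_large S N₀ (c₁ + Sg.card + 1) (c₂ + Sg.card + 2)
  obtain ⟨φ, hφ, -, hex⟩ := exists_LX_exact (N := Sg) S.hpf₁ S.hpf₂ S.RF₁ S.RF₂ S.node_inj₁
    S.node_inj₂ (E₁ := n • D₁) (E₂ := n • D₂ - Finsupp.single Q 1)
    (fun p hp => nsmul_node_off (S.node_off₁ p hp) n)
    (fun p hp => by
      rw [Finsupp.sub_apply, nsmul_node_off (S.node_off₂ p hp) n,
        Finsupp.single_eq_of_ne (hQ p hp), sub_zero])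
    (by rw [map_nsmul, nsmul_eq_mul]; omega)
    (by rw [map_sub, map_nsmul, nsmul_eq_mul, S.hpf₂.degree_single]; omega) ∅ {Q}
  obtain ⟨hφ0, hord⟩ := hex Q (Finset.mem_singleton_self Q)
  rw [Finsupp.sub_apply, Finsupp.smul_apply, hD, smul_zero, Finsupp.single_eq_same] at hord
  have hφ' : φ ∈ LX Sg (n • D₁) (n • D₂) :=
    LX_mono (le_refl _) (sub_single_le _ _) hφ
  obtain ⟨τ, hτ, -, hτ₂⟩ := hN₀ n hn φ hφ'
  refine ⟨τ, φ.2, hτ₂, by rw [hord]; ring, fun P hP => ?_⟩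
  by_cases hτ0 : τ = 0
  · rw [hτ0, Place.ord_zero]
  have := (mem_rrSpace_iff_of_ne_zero hτ0).mp hτ P
  rw [Finsupp.smul_apply, D_eq_zero_of_sp₂ h hP hD, smul_zero] at this
  omega

/-! ### orders of reductions at a point of the special fibre -/

/-- the smooth points of the special fibre -/
def SmPt (Sg : Finset (Place k Fk₁ × Place k Fk₂)) (y : Place k Fk₁ ⊕ Place k Fk₂) : Prop :=
  ∀ p ∈ Sg, y ≠ Sum.inl p.1 ∧ y ≠ Sum.inr p.2

/-- `x` is integral for both valuations -/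
def JointInt (Red₁ : F → Fk₁ → Prop) (Red₂ : F → Fk₂ → Prop) (x : F) : Prop :=
  ∃ (a₁ : Fk₁) (a₂ : Fk₂), Red₁ x a₁ ∧ Red₂ x a₂

/-- `x` is integral for the valuation of the component of `y`, its reduction is nonzero and has
order `v` at `y` -/
def OrdRed (Red₁ : F → Fk₁ → Prop) (Red₂ : F → Fk₂ → Prop) (y : Place k Fk₁ ⊕ Place k Fk₂)
    (x : F) (v : ℤ) : Prop :=
  Sum.elim (fun Q => ∃ a : Fk₁, Red₁ x a ∧ a ≠ 0 ∧ Q.ord a = v)
    (fun Q => ∃ a : Fk₂, Red₂ x a ∧ a ≠ 0 ∧ Q.ord a = v) y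

/-- `e` has reduction zero on the component which does not contain `y` -/
def OtherZero (Red₁ : F → Fk₁ → Prop) (Red₂ : F → Fk₂ → Prop) (y : Place k Fk₁ ⊕ Place k Fk₂)
    (e : F) : Prop :=
  Sum.elim (fun _ => Red₂ e 0) (fun _ => Red₁ e 0) y

/-- the multiplicity of `D₁` resp. `D₂` at the point `y` -/
def DPt (D₁ : Divisor k Fk₁) (D₂ : Divisor k Fk₂) (y : Place k Fk₁ ⊕ Place k Fk₂) : ℤ :=
  Sum.elim (fun Q => D₁ Q) (fun Q => D₂ Q) y

section OrdRed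

variable (ax₁ : RedAx A res Red₁) (ax₂ : RedAx A res Red₂)
include ax₁ ax₂

theorem JointInt.mul {x x' : F} (h : JointInt Red₁ Red₂ x) (h' : JointInt Red₁ Red₂ x') :
    JointInt Red₁ Red₂ (x * x') := by
  obtain ⟨a₁, a₂, h₁, h₂⟩ := h
  obtain ⟨a₁', a₂', h₁', h₂'⟩ := h'
  exact ⟨_, _, ax₁.mul h₁ h₁', ax₂.mul h₂ h₂'⟩

theorem OrdRed.ne_zero {y : Place k Fk₁ ⊕ Place k Fk₂} {x : F} {v : ℤ}
    (h : OrdRed Red₁ Red₂ y x v) : x ≠ 0 := by
  rcases y with Q | Q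
  · obtain ⟨a, ha, ha0, -⟩ := h
    exact ax₁.ne_zero ha ha0
  · obtain ⟨a, ha, ha0, -⟩ := h
    exact ax₂.ne_zero ha ha0

theorem OrdRed.mul {y : Place k Fk₁ ⊕ Place k Fk₂} {x x' : F} {v v' : ℤ}
    (h : OrdRed Red₁ Red₂ y x v) (h' : OrdRed Red₁ Red₂ y x' v') :
    OrdRed Red₁ Red₂ y (x * x') (v + v') := by
  rcases y with Q | Q
  · obtain ⟨a, ha, ha0, hv⟩ := h
    obtain ⟨a', ha', ha0', hv'⟩ := h'
    exact ⟨a * a', ax₁.mul ha ha', mul_ne_zero ha0 ha0', by rw [Q.ord_mul ha0 ha0', hv, hv']⟩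
  · obtain ⟨a, ha, ha0, hv⟩ := h
    obtain ⟨a', ha', ha0', hv'⟩ := h'
    exact ⟨a * a', ax₂.mul ha ha', mul_ne_zero ha0 ha0', by rw [Q.ord_mul ha0 ha0', hv, hv']⟩

theorem OrdRed.pow {y : Place k Fk₁ ⊕ Place k Fk₂} {x : F} {v : ℤ}
    (h : OrdRed Red₁ Red₂ y x v) (N : ℕ) : OrdRed Red₁ Red₂ y (x ^ N) (N * v) := by
  rcases y with Q | Q
  · obtain ⟨a, ha, ha0, hv⟩ := h
    exact ⟨a ^ N, ax₁.pow ha N, pow_ne_zero _ ha0, by rw [ord_pow', hv]⟩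
  · obtain ⟨a, ha, ha0, hv⟩ := h
    exact ⟨a ^ N, ax₂.pow ha N, pow_ne_zero _ ha0, by rw [ord_pow', hv]⟩

theorem OrdRed.inv {y : Place k Fk₁ ⊕ Place k Fk₂} {x : F} {v : ℤ}
    (h : OrdRed Red₁ Red₂ y x v) : OrdRed Red₁ Red₂ y x⁻¹ (-v) := by
  rcases y with Q | Q
  · obtain ⟨a, ha, ha0, hv⟩ := h
    exact ⟨a⁻¹, ax₁.inv ha ha0, inv_ne_zero ha0, by rw [Q.ord_inv, hv]⟩
  · obtain ⟨a, ha, ha0, hv⟩ := h
    exact ⟨a⁻¹, ax₂.inv ha ha0, inv_ne_zero ha0, by rw [Q.ord_inv, hv]⟩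

omit ax₁ ax₂ in
theorem ordRed_of_exactPt {y : Place k Fk₁ ⊕ Place k Fk₂} {n : ℕ} {b : F} {β₁ : Fk₁} {β₂ : Fk₂}
    (h₁ : Red₁ b β₁) (h₂ : Red₂ b β₂) (hex : ExactPt D₁ D₂ y n β₁ β₂) :
    OrdRed Red₁ Red₂ y b (-(n * DPt D₁ D₂ y)) := by
  rcases y with Q | Q
  · exact ⟨β₁, h₁, hex.1, by rw [hex.2, Finsupp.smul_apply, nsmul_eq_mul]; rfl⟩
  · exact ⟨β₂, h₂, hex.1, by rw [hex.2, Finsupp.smul_apply, nsmul_eq_mul]; rfl⟩

end OrdRed

/-! ### pushforward of divisors -/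

section Push

variable {α β : Type*} (r : α → β)

theorem mapDomain_congr_fibre {E E' : α →₀ ℤ} {y : β} (h : ∀ P, r P = y → E P = E' P) :
    Finsupp.mapDomain r E y = Finsupp.mapDomain r E' y := by
  have h1 : Finsupp.mapDomain r (E - E') y = 0 := by
    rw [mapDomain_apply_sum]
    refine Finset.sum_eq_zero fun P _ => ?_
    split_ifs with hP
    · rw [Finsupp.sub_apply, h P hP, sub_self]
    · rfl
  have h2 : Finsupp.mapDomain r (E - E') = Finsupp.mapDomain r E - Finsupp.mapDomain r E' :=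
    map_sub (Finsupp.mapDomain.addMonoidHom r) E E'
  rw [h2, Finsupp.sub_apply] at h1
  omega

theorem mapDomain_neg' (E : α →₀ ℤ) :
    Finsupp.mapDomain r (-E) = -Finsupp.mapDomain r E :=
  map_neg (Finsupp.mapDomain.addMonoidHom r) E

theorem mapDomain_eq_zero_of_fibre {E : α →₀ ℤ} {y : β} (h : ∀ P, r P = y → E P = 0) :
    Finsupp.mapDomain r E y = 0 := by
  rw [mapDomain_apply_sum]
  refine Finset.sum_eq_zero fun P _ => ?_
  split_ifs with hP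
  · exact h P hP
  · rfl

end Push

variable {S : Setup2 A res Red₁ Red₂ D D₁ D₂ Sg g g₁ g₂ c c₁ c₂}
  {sp : Place L F → Place k Fk₁ ⊕ Place k Fk₂}

theorem smPt_inl {Q : Place k Fk₁} (hy : SmPt Sg (Sum.inl Q)) : Smooth₁ Sg Q :=
  fun p hp hpQ => (hy p hp).1 (by rw [hpQ])

theorem smPt_inr {Q : Place k Fk₂} (hy : SmPt Sg (Sum.inr Q)) : Smooth₂ Sg Q :=
  fun p hp hpQ => (hy p hp).2 (by rw [hpQ])

theorem smPt_of_smooth₁ {Q : Place k Fk₁} (hQ : Smooth₁ Sg Q) : SmPt Sg (Sum.inl Q) :=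
  fun p hp => ⟨fun h => hQ p hp (Sum.inl_injective h).symm, Sum.inl_ne_inr⟩

theorem smPt_of_smooth₂ {Q : Place k Fk₂} (hQ : Smooth₂ Sg Q) : SmPt Sg (Sum.inr Q) :=
  fun p hp => ⟨Sum.inr_ne_inl, fun h => hQ p hp (Sum.inr_injective h).symm⟩

/-- the pushforward of a divisor to the first component -/
noncomputable def push₁ (sp : Place L F → Place k Fk₁ ⊕ Place k Fk₂) (𝔞 : Divisor L F) :
    Divisor k Fk₁ :=
  Finsupp.comapDomain Sum.inl (Finsupp.mapDomain sp 𝔞) Sum.inl_injective.injOn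

/-- the pushforward of a divisor to the second component -/
noncomputable def push₂ (sp : Place L F → Place k Fk₁ ⊕ Place k Fk₂) (𝔞 : Divisor L F) :
    Divisor k Fk₂ :=
  Finsupp.comapDomain Sum.inr (Finsupp.mapDomain sp 𝔞) Sum.inr_injective.injOn

theorem push₁_apply (𝔞 : Divisor L F) (Q : Place k Fk₁) :
    push₁ sp 𝔞 Q = Finsupp.mapDomain sp 𝔞 (Sum.inl Q) := rfl

theorem push₂_apply (𝔞 : Divisor L F) (Q : Place k Fk₂) :
    push₂ sp 𝔞 Q = Finsupp.mapDomain sp 𝔞 (Sum.inr Q) := rfl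

theorem push₁_node (h : SpAx S sp) {𝔞 : Divisor L F}
    (hsm : ∀ P, 𝔞 P ≠ 0 → ∀ p ∈ Sg, sp P ≠ Sum.inl p.1) (p : Place k Fk₁ × Place k Fk₂)
    (hp : p ∈ Sg) : push₁ sp 𝔞 p.1 = 0 := by
  rw [push₁_apply]
  refine mapDomain_eq_zero_of_fibre sp fun P hP => ?_
  by_contra hne
  exact hsm P hne p hp hP

theorem push₂_node (h : SpAx S sp) (𝔞 : Divisor L F) (p : Place k Fk₁ × Place k Fk₂)
    (hp : p ∈ Sg) : push₂ sp 𝔞 p.2 = 0 := by
  rw [push₂_apply]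
  exact mapDomain_eq_zero_of_fibre sp fun P hP => absurd hP (h.sp_ne P p hp)

/-! ### exact sections -/

/-- jointly integral sections of `L(n D)`, `n ≫ 0`, exact at a given point -/
theorem exists_exact_section [Infinite k] (S : Setup2 A res Red₁ Red₂ D D₁ D₂ Sg g g₁ g₂ c c₁ c₂)
    (y : Place k Fk₁ ⊕ Place k Fk₂) (N : ℕ) :
    ∃ (n : ℕ) (u : F), N ≤ n ∧ u ∈ riemannRochSpace (n • D) ∧ JointInt Red₁ Red₂ u ∧
      OrdRed Red₁ Red₂ y u (-(n * DPt D₁ D₂ y)) := by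
  obtain ⟨N₀, hN₀⟩ := exists_lift_LX S
  obtain ⟨n, hn, hb₁, hb₂⟩ := exists_large S (max N N₀) (c₁ + Sg.card + 1) (c₂ + Sg.card + 1)
  have key := exists_LX_exact (N := Sg) S.hpf₁ S.hpf₂ S.RF₁ S.RF₂ S.node_inj₁
    S.node_inj₂ (E₁ := n • D₁) (E₂ := n • D₂)
    (fun p hp => nsmul_node_off (S.node_off₁ p hp) n)
    (fun p hp => nsmul_node_off (S.node_off₂ p hp) n)
    (by rw [map_nsmul, nsmul_eq_mul]; omega)
    (by rw [map_nsmul, nsmul_eq_mul]; omega)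
  rcases y with Q | Q
  · obtain ⟨φ, hφ, hex, -⟩ := key {Q} ∅
    obtain ⟨u, hu, hu₁, hu₂⟩ := hN₀ n (le_trans (le_max_right _ _) hn) φ hφ
    obtain ⟨h0, hord⟩ := hex Q (Finset.mem_singleton_self Q)
    exact ⟨n, u, le_trans (le_max_left _ _) hn, hu, ⟨_, _, hu₁, hu₂⟩,
      ⟨φ.1, hu₁, h0, by rw [hord, Finsupp.smul_apply, nsmul_eq_mul]; rfl⟩⟩
  · obtain ⟨φ, hφ, -, hex⟩ := key ∅ {Q}
    obtain ⟨u, hu, hu₁, hu₂⟩ := hN₀ n (le_trans (le_max_right _ _) hn) φ hφ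
    obtain ⟨h0, hord⟩ := hex Q (Finset.mem_singleton_self Q)
    exact ⟨n, u, le_trans (le_max_left _ _) hn, hu, ⟨_, _, hu₁, hu₂⟩,
      ⟨φ.2, hu₂, h0, by rw [hord, Finsupp.smul_apply, nsmul_eq_mul]; rfl⟩⟩

/-! ### (V): the vanishing direction -/

theorem bar_van [Infinite k] (h : BarAx S sp) {y : Place k Fk₁ ⊕ Place k Fk₂}
    {𝔞 : Divisor L F} (h𝔞 : 0 ≤ 𝔞) (hsm : ∀ P, 𝔞 P ≠ 0 → ∀ p ∈ Sg, sp P ≠ Sum.inl p.1)
    {M : ℕ} {z : F} (hz : z ∈ riemannRochSpace (M • D - 𝔞)) (hj : JointInt Red₁ Red₂ z)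
    {v : ℤ} (hv : OrdRed Red₁ Red₂ y z v) :
    -(M * DPt D₁ D₂ y) + Finsupp.mapDomain sp 𝔞 y ≤ v := by
  have ax₁ := S.ax₁
  have ax₂ := S.ax₂
  obtain ⟨N, hN⟩ := h.bar 𝔞 h𝔞 hsm (push₁ sp 𝔞) (push₂ sp 𝔞) (fun _ => rfl) (fun _ => rfl)
  obtain ⟨n', u, hn', hu, ⟨υ₁, υ₂, hu₁, hu₂⟩, hou⟩ := exists_exact_section S y N
  obtain ⟨ζ₁, ζ₂, hz₁, hz₂⟩ := hj
  have hzu : z * u ∈ riemannRochSpace ((M + n') • D - 𝔞) := by
    have := mul_mem_rrSpace hz hu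
    have e : M • D - 𝔞 + n' • D = (M + n') • D - 𝔞 := by
      rw [add_smul]; abel
    rwa [e] at this
  have hmem : ((ζ₁ * υ₁, ζ₂ * υ₂) : Fk₁ × Fk₂)
      ∈ redSpace₂ S.ax₁ S.ax₂ (riemannRochSpace ((M + n') • D - 𝔞)) :=
    ⟨z * u, hzu, ax₁.mul hz₁ hu₁, ax₂.mul hz₂ hu₂⟩
  rw [hN (M + n') (by omega)] at hmem
  obtain ⟨hm₁, hm₂, -⟩ := hmem
  rcases y with Q | Q
  · obtain ⟨a, ha, ha0, hav⟩ := hv
    obtain ⟨b, hb, hb0, hbv⟩ := hou
    rw [ax₁.unique hz₁ ha, ax₁.unique hu₁ hb] at hm₁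
    have := (mem_rrSpace_iff_of_ne_zero (mul_ne_zero ha0 hb0)).mp hm₁ Q
    rw [Q.ord_mul ha0 hb0, hav, hbv, Finsupp.sub_apply, Finsupp.smul_apply, nsmul_eq_mul,
      push₁_apply] at this
    simp only [DPt, Sum.elim_inl] at this ⊢
    push_cast at this
    linarith
  · obtain ⟨a, ha, ha0, hav⟩ := hv
    obtain ⟨b, hb, hb0, hbv⟩ := hou
    rw [ax₂.unique hz₂ ha, ax₂.unique hu₂ hb] at hm₂
    have := (mem_rrSpace_iff_of_ne_zero (mul_ne_zero ha0 hb0)).mp hm₂ Q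
    rw [Q.ord_mul ha0 hb0, hav, hbv, Finsupp.sub_apply, Finsupp.smul_apply, nsmul_eq_mul,
      push₂_apply] at this
    simp only [DPt, Sum.elim_inr] at this ⊢
    push_cast at this
    linarith

/-! ### (E): exact sections of `L(n D - 𝔟)` -/

theorem bar_ex [Infinite k] (h : BarAx S sp) (y : Place k Fk₁ ⊕ Place k Fk₂)
    {𝔟 : Divisor L F} (h𝔟 : 0 ≤ 𝔟) (hsm : ∀ P, 𝔟 P ≠ 0 → ∀ p ∈ Sg, sp P ≠ Sum.inl p.1) :
    ∃ (n : ℕ) (y₀ : F), y₀ ∈ riemannRochSpace (n • D - 𝔟) ∧ JointInt Red₁ Red₂ y₀ ∧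
      OrdRed Red₁ Red₂ y y₀ (-(n * DPt D₁ D₂ y) + Finsupp.mapDomain sp 𝔟 y) := by
  obtain ⟨N, hN⟩ := h.bar 𝔟 h𝔟 hsm (push₁ sp 𝔟) (push₂ sp 𝔟) (fun _ => rfl) (fun _ => rfl)
  obtain ⟨n, hn, hb₁, hb₂⟩ := exists_large S N
    (c₁ + Sg.card + 1 + Divisor.degree (push₁ sp 𝔟))
    (c₂ + Sg.card + 1 + Divisor.degree (push₂ sp 𝔟))
  have key := exists_LX_exact (N := Sg) S.hpf₁ S.hpf₂ S.RF₁ S.RF₂ S.node_inj₁
    S.node_inj₂ (E₁ := n • D₁ - push₁ sp 𝔟) (E₂ := n • D₂ - push₂ sp 𝔟)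
    (fun p hp => by
      rw [Finsupp.sub_apply, nsmul_node_off (S.node_off₁ p hp) n, push₁_node h.spAx hsm p hp,
        sub_zero])
    (fun p hp => by
      rw [Finsupp.sub_apply, nsmul_node_off (S.node_off₂ p hp) n, push₂_node h.spAx 𝔟 p hp,
        sub_zero])
    (by rw [map_sub, map_nsmul, nsmul_eq_mul]; omega)
    (by rw [map_sub, map_nsmul, nsmul_eq_mul]; omega)
  rcases y with Q | Q
  · obtain ⟨φ, hφ, hex, -⟩ := key {Q} ∅
    rw [← hN n hn] at hφ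
    obtain ⟨y₀, hy₀, hy₁, hy₂⟩ := hφ
    obtain ⟨h0, hord⟩ := hex Q (Finset.mem_singleton_self Q)
    refine ⟨n, y₀, hy₀, ⟨_, _, hy₁, hy₂⟩, ⟨φ.1, hy₁, h0, ?_⟩⟩
    rw [hord, Finsupp.sub_apply, Finsupp.smul_apply, nsmul_eq_mul, push₁_apply]
    simp only [DPt, Sum.elim_inl]
    ring
  · obtain ⟨φ, hφ, -, hex⟩ := key ∅ {Q}
    rw [← hN n hn] at hφ
    obtain ⟨y₀, hy₀, hy₁, hy₂⟩ := hφ
    obtain ⟨h0, hord⟩ := hex Q (Finset.mem_singleton_self Q)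
    refine ⟨n, y₀, hy₀, ⟨_, _, hy₁, hy₂⟩, ⟨φ.2, hy₂, h0, ?_⟩⟩
    rw [hord, Finsupp.sub_apply, Finsupp.smul_apply, nsmul_eq_mul, push₂_apply]
    simp only [DPt, Sum.elim_inr]
    ring

/-! ### (C): clearing poles away from `y` -/

theorem exists_clearing' (h : SpAx S sp) {y : Place k Fk₁ ⊕ Place k Fk₂}
    (hy : ∀ p ∈ Sg, y ≠ Sum.inr p.2) (e : Place L F → ℕ) (T : Finset (Place L F))
    (hT : ∀ P ∈ T, sp P ≠ y) :
    ∃ (n : ℕ) (b : F), b ≠ 0 ∧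
      (∀ P' : Place L F, -((n : ℤ) * D P') + (if P' ∈ T then (e P' : ℤ) else 0) ≤ P'.ord b) ∧
      JointInt Red₁ Red₂ b ∧ OrdRed Red₁ Red₂ y b (-(n * DPt D₁ D₂ y)) := by
  have ax₁ := S.ax₁
  have ax₂ := S.ax₂
  induction T using Finset.induction_on with
  | empty =>
    refine ⟨0, 1, one_ne_zero, fun P' => ?_, ⟨1, 1, ax₁.one, ax₂.one⟩, ?_⟩
    · rw [Place.ord_one]; simp
    · have := ordRed_of_exactPt (D₁ := D₁) (D₂ := D₂) ax₁.one ax₂.one (exactPt_one y)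
      simpa using this
  | insert P T hPT ih =>
    obtain ⟨n, b, hb0, hord, hbj, hbo⟩ :=
      ih fun P' hP' => hT P' (Finset.mem_insert_of_mem hP')
    obtain ⟨nP, bP, γ₁, γ₂, hbP, hγ₁, hγ₂, hexP⟩ :=
      h.sep hy (hT P (Finset.mem_insert_self _ _))
    have hbPo := ordRed_of_exactPt hγ₁ hγ₂ hexP
    have hbP0 : bP ≠ 0 := hbPo.ne_zero ax₁ ax₂
    refine ⟨n + e P * nP, b * bP ^ e P, mul_ne_zero hb0 (pow_ne_zero _ hbP0), fun P' => ?_,
      hbj.mul ax₁ ax₂ ⟨_, _, ax₁.pow hγ₁ _, ax₂.pow hγ₂ _⟩, ?_⟩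
    · rw [P'.ord_mul hb0 (pow_ne_zero _ hbP0), ord_pow']
      have h1 := hord P'
      have h2 := (mem_rrSpace_iff_of_ne_zero hbP0).mp hbP P'
      rw [Finsupp.sub_apply, Finsupp.smul_apply, nsmul_eq_mul, Finsupp.single_apply] at h2
      have he : (0 : ℤ) ≤ (e P : ℤ) := by positivity
      by_cases hPP : P' = P
      · rw [if_pos hPP.symm] at h2
        rw [if_pos (by rw [hPP]; exact Finset.mem_insert_self _ _)]
        rw [if_neg (by rw [hPP]; exact hPT)] at h1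
        have h3 : (e P : ℤ) * (-((nP : ℤ) * D P') + 1) ≤ (e P : ℤ) * P'.ord bP :=
          mul_le_mul_of_nonneg_left (by linarith) he
        rw [hPP] at h1 h3 ⊢
        push_cast
        linarith
      · rw [if_neg (fun hh => hPP hh.symm)] at h2
        have h3 : (e P : ℤ) * (-((nP : ℤ) * D P')) ≤ (e P : ℤ) * P'.ord bP :=
          mul_le_mul_of_nonneg_left (by linarith) he
        have h4 : (if P' ∈ insert P T then (e P' : ℤ) else 0)
            = (if P' ∈ T then (e P' : ℤ) else 0) := by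
          by_cases hmem : P' ∈ T
          · rw [if_pos hmem, if_pos (Finset.mem_insert_of_mem hmem)]
          · rw [if_neg hmem, if_neg (fun hh => by
              rcases Finset.mem_insert.mp hh with hh | hh
              · exact hPP hh
              · exact hmem hh)]
        rw [h4]
        push_cast
        linarith
    · have := hbo.mul ax₁ ax₂ (hbPo.pow ax₁ ax₂ (e P))
      have e1 : -((n : ℤ) * DPt D₁ D₂ y) + (e P : ℤ) * -((nP : ℤ) * DPt D₁ D₂ y)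
          = -(((n + e P * nP : ℕ) : ℤ) * DPt D₁ D₂ y) := by
        push_cast; ring
      rwa [e1] at this

/-! ### (d): one-sided sections -/

theorem exists_oneSided_lift [Infinite k] (S : Setup2 A res Red₁ Red₂ D D₁ D₂ Sg g g₁ g₂ c c₁ c₂)
    {y : Place k Fk₁ ⊕ Place k Fk₂} (hy : SmPt Sg y) :
    ∃ (n₀ : ℕ) (e : F), e ∈ riemannRochSpace (n₀ • D) ∧ OtherZero Red₁ Red₂ y e ∧
      OrdRed Red₁ Red₂ y e (-(n₀ * DPt D₁ D₂ y)) := by
  obtain ⟨N₀, hN₀⟩ := exists_lift_LX S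
  obtain ⟨n, hn, hb₁, hb₂⟩ := exists_large S N₀ (c₁ + Sg.card + 1) (c₂ + Sg.card + 1)
  rcases y with Q | Q
  · have hQ : Q ∉ Nodal.nodes₁ Sg := by
      rw [Nodal.mem_nodes₁]
      rintro ⟨p, hp, hpQ⟩
      exact smPt_inl hy p hp hpQ
    obtain ⟨φ₁, -, hφ, hex⟩ := exists_oneSided_exact₁ (N := Sg) S.hpf₁ S.RF₁ S.node_inj₁
      (E₁ := n • D₁) (n • D₂) (fun p hp => nsmul_node_off (S.node_off₁ p hp) n)
      (by rw [map_nsmul, nsmul_eq_mul]; omega) {Q}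
      (fun Q' hQ' => by rw [Finset.mem_singleton.mp hQ']; exact hQ)
    obtain ⟨e, he, he₁, he₂⟩ := hN₀ n hn _ hφ
    obtain ⟨h0, hord⟩ := hex Q (Finset.mem_singleton_self Q)
    exact ⟨n, e, he, he₂, ⟨φ₁, he₁, h0, by rw [hord, Finsupp.smul_apply, nsmul_eq_mul]; rfl⟩⟩
  · have hQ : Q ∉ Nodal.nodes₂ Sg := by
      rw [Nodal.mem_nodes₂]
      rintro ⟨p, hp, hpQ⟩
      exact smPt_inr hy p hp hpQ
    obtain ⟨φ₂, -, hφ, hex⟩ := exists_oneSided_exact₂ (N := Sg) S.hpf₂ S.RF₂ S.node_inj₂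
      (n • D₁) (E₂ := n • D₂) (fun p hp => nsmul_node_off (S.node_off₂ p hp) n)
      (by rw [map_nsmul, nsmul_eq_mul]; omega) {Q}
      (fun Q' hQ' => by rw [Finset.mem_singleton.mp hQ']; exact hQ)
    obtain ⟨e, he, he₁, he₂⟩ := hN₀ n hn _ hφ
    obtain ⟨h0, hord⟩ := hex Q (Finset.mem_singleton_self Q)
    exact ⟨n, e, he, he₁, ⟨φ₂, he₂, h0, by rw [hord, Finsupp.smul_apply, nsmul_eq_mul]; rfl⟩⟩

/-! ### (e): from one valuation to both -/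

/-- if `Red e 0` then `w * e ^ N` is integral for `N ≫ 0` -/
theorem exists_pow_integral {Fk : Type*} [Field Fk] [Algebra k Fk] {Red : F → Fk → Prop}
    (ax : RedAx A res Red)
    (arch : ∀ c d : L, c ≠ 0 → d⁻¹ ∉ A → ∃ N : ℕ, d ^ N / c ∈ A)
    {w e : F} (hw0 : w ≠ 0) (he0 : e ≠ 0) (he : Red e 0) :
    ∃ (N : ℕ) (a : Fk), Red (w * e ^ N) a := by
  obtain ⟨cw, hcw, ω, hω0, hω⟩ := ax.scale w hw0
  obtain ⟨ce, hce, ε', hε0, hε⟩ := ax.scale e he0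
  have hceA : ce ∉ A := by
    intro hmem
    have := ax.smul ⟨ce, hmem⟩ he
    rw [mul_zero] at this
    exact hε0 (ax.unique hε this)
  obtain ⟨N, hN⟩ := arch cw ce⁻¹ hcw (by rwa [inv_inv])
  have key := ax.smul ⟨_, hN⟩ (ax.mul hω (ax.pow hε N))
  have e1 : ((⟨ce⁻¹ ^ N / cw, hN⟩ : A) : L) • (cw • w * (ce • e) ^ N) = w * e ^ N := by
    show (ce⁻¹ ^ N / cw) • (cw • w * (ce • e) ^ N) = w * e ^ N
    rw [smul_pow, smul_mul_smul_comm, smul_smul]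
    have : ce⁻¹ ^ N / cw * (cw * ce ^ N) = 1 := by
      rw [inv_pow]
      field_simp
    rw [this, one_smul]
  rw [e1] at key
  exact ⟨N, _, key⟩

theorem joint_of_oneSided (S : Setup2 A res Red₁ Red₂ D D₁ D₂ Sg g g₁ g₂ c c₁ c₂)
    {y : Place k Fk₁ ⊕ Place k Fk₂} {w e : F} {v ve : ℤ}
    (hw : OrdRed Red₁ Red₂ y w v) (hz : OtherZero Red₁ Red₂ y e)
    (he : OrdRed Red₁ Red₂ y e ve) : ∃ N : ℕ, JointInt Red₁ Red₂ (w * e ^ N) := by
  have ax₁ := S.ax₁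
  have ax₂ := S.ax₂
  have hw0 := hw.ne_zero ax₁ ax₂
  have he0 := he.ne_zero ax₁ ax₂
  rcases y with Q | Q
  · obtain ⟨N, a₂, ha₂⟩ := exists_pow_integral ax₂ S.arch hw0 he0 hz
    obtain ⟨a, ha, -, -⟩ := hw
    obtain ⟨ε, hε, -, -⟩ := he
    exact ⟨N, _, _, ax₁.mul ha (ax₁.pow hε N), ha₂⟩
  · obtain ⟨N, a₁, ha₁⟩ := exists_pow_integral ax₁ S.arch hw0 he0 hz
    obtain ⟨a, ha, -, -⟩ := hw
    obtain ⟨ε, hε, -, -⟩ := he
    exact ⟨N, _, _, ha₁, ax₂.mul ha (ax₂.pow hε N)⟩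

/-! ### the inequality and the exact count -/

/-- **the inequality**: `∑_{sp P = y} ord_P x ≤ ord_y (reduction of x)` at a smooth point `y`,
for `x` integral for the valuation of the component of `y`, with nonzero reduction -/
theorem ineq [Infinite k] (h : BarAx S sp) {y : Place k Fk₁ ⊕ Place k Fk₂} (hy : SmPt Sg y)
    {x : F} {v : ℤ} (hx : OrdRed Red₁ Red₂ y x v) :
    Finsupp.mapDomain sp (S.hpf.divOf x) y ≤ v := by
  have ax₁ := S.ax₁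
  have ax₂ := S.ax₂
  have hx0 : x ≠ 0 := hx.ne_zero ax₁ ax₂
  have hyr : ∀ p ∈ Sg, y ≠ Sum.inr p.2 := fun p hp => (hy p hp).2
  -- zeros and poles over `y`
  set 𝔞 : Divisor L F := (S.hpf.divOf x).filter (fun P => sp P = y ∧ 0 < P.ord x) with h𝔞def
  set 𝔟 : Divisor L F := (-(S.hpf.divOf x)).filter (fun P => sp P = y ∧ P.ord x < 0)
    with h𝔟def
  have h𝔞app : ∀ P, 𝔞 P = if sp P = y ∧ 0 < P.ord x then P.ord x else 0 := by
    intro P
    rw [h𝔞def, Finsupp.filter_apply, S.hpf.divOf_apply]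
  have h𝔟app : ∀ P, 𝔟 P = if sp P = y ∧ P.ord x < 0 then -(P.ord x) else 0 := by
    intro P
    rw [h𝔟def, Finsupp.filter_apply, Finsupp.neg_apply, S.hpf.divOf_apply]
  have h𝔞nn : 0 ≤ 𝔞 := by
    rw [Finsupp.le_def]
    intro P
    rw [h𝔞app]
    simp only [Finsupp.coe_zero, Pi.zero_apply]
    split_ifs with hh
    · exact hh.2.le
    · exact le_refl _
  have h𝔟nn : 0 ≤ 𝔟 := by
    rw [Finsupp.le_def]
    intro P
    rw [h𝔟app]
    simp only [Finsupp.coe_zero, Pi.zero_apply]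
    split_ifs with hh
    · have := hh.2
      omega
    · exact le_refl _
  have h𝔞sm : ∀ P, 𝔞 P ≠ 0 → ∀ p ∈ Sg, sp P ≠ Sum.inl p.1 := by
    intro P hP p hp hsp
    rw [h𝔞app] at hP
    split_ifs at hP with hh
    · exact (hy p hp).1 (hh.1.symm.trans hsp)
    · exact hP rfl
  have h𝔟sm : ∀ P, 𝔟 P ≠ 0 → ∀ p ∈ Sg, sp P ≠ Sum.inl p.1 := by
    intro P hP p hp hsp
    rw [h𝔟app] at hP
    split_ifs at hP with hh
    · exact (hy p hp).1 (hh.1.symm.trans hsp)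
    · exact hP rfl
  have hdiff : ∀ P, sp P = y → 𝔞 P - 𝔟 P = P.ord x := by
    intro P hP
    rw [h𝔞app, h𝔟app]
    by_cases h1 : 0 < P.ord x
    · rw [if_pos ⟨hP, h1⟩, if_neg (fun hh => by have := hh.2; omega)]
      ring
    · by_cases h2 : P.ord x < 0
      · rw [if_neg (fun hh => h1 hh.2), if_pos ⟨hP, h2⟩]
        ring
      · rw [if_neg (fun hh => h1 hh.2), if_neg (fun hh => h2 hh.2)]
        omega
  have hfib : Finsupp.mapDomain sp (S.hpf.divOf x) y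
      = Finsupp.mapDomain sp 𝔞 y - Finsupp.mapDomain sp 𝔟 y := by
    have h1 := mapDomain_congr_fibre sp (E := S.hpf.divOf x) (E' := 𝔞 - 𝔟) (y := y)
      (fun P hP => by rw [Finsupp.sub_apply, hdiff P hP, S.hpf.divOf_apply])
    have h2 : Finsupp.mapDomain sp (𝔞 - 𝔟)
        = Finsupp.mapDomain sp 𝔞 - Finsupp.mapDomain sp 𝔟 :=
      map_sub (Finsupp.mapDomain.addMonoidHom sp) 𝔞 𝔟
    rw [h1, h2, Finsupp.sub_apply]
  -- (E): an exact section of `L(n D - 𝔟)`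
  obtain ⟨n, y₀, hy₀, hy₀j, hy₀o⟩ := bar_ex h y h𝔟nn h𝔟sm
  have hy₀0 : y₀ ≠ 0 := hy₀o.ne_zero ax₁ ax₂
  have hw₀o := hx.mul ax₁ ax₂ hy₀o
  have hw₀0 : x * y₀ ≠ 0 := mul_ne_zero hx0 hy₀0
  -- (C): clearing the other poles
  set T : Finset (Place L F) :=
    ((S.hpf.finite_ord_ne_zero (x * y₀) hw₀0).toFinset ∪ D.support).filter
      (fun P => sp P ≠ y ∧ P.ord (x * y₀) < -((n : ℤ) * D P)) with hTdef
  obtain ⟨n', b, hb0, hbord, hbj, hbo⟩ := exists_clearing' h.spAx hyr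
    (fun P => (-((n : ℤ) * D P) - P.ord (x * y₀)).toNat) T (fun P hP => by
      rw [hTdef, Finset.mem_filter] at hP
      exact hP.2.1)
  have hw₁o := hw₀o.mul ax₁ ax₂ hbo
  have hw₁ : x * y₀ * b ∈ riemannRochSpace ((n + n') • D - 𝔞) := by
    rw [mem_rrSpace_iff_of_ne_zero (mul_ne_zero hw₀0 hb0)]
    intro P'
    rw [P'.ord_mul hw₀0 hb0, Finsupp.sub_apply, Finsupp.smul_apply, nsmul_eq_mul]
    have hb' := hbord P'
    have hy' := (mem_rrSpace_iff_of_ne_zero hy₀0).mp hy₀ P'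
    rw [Finsupp.sub_apply, Finsupp.smul_apply, nsmul_eq_mul] at hy'
    have hxy : P'.ord (x * y₀) = P'.ord x + P'.ord y₀ := P'.ord_mul hx0 hy₀0
    by_cases hsp : sp P' = y
    · have hT' : P' ∉ T := by
        rw [hTdef, Finset.mem_filter]
        exact fun hh => hh.2.1 hsp
      rw [if_neg hT'] at hb'
      have h3 := hdiff P' hsp
      push_cast
      linarith
    · have h1 : 𝔞 P' = 0 := by rw [h𝔞app, if_neg (fun hh => hsp hh.1)]
      by_cases hlt : P'.ord (x * y₀) < -((n : ℤ) * D P')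
      · have hPT : P' ∈ T := by
          rw [hTdef, Finset.mem_filter, Finset.mem_union, Set.Finite.mem_toFinset]
          refine ⟨?_, hsp, hlt⟩
          by_cases hD : D P' = 0
          · left
            show P'.ord (x * y₀) ≠ 0
            rw [hD, mul_zero, neg_zero] at hlt
            omega
          · right
            exact Finsupp.mem_support_iff.mpr hD
        rw [if_pos hPT] at hb'
        have := Int.self_le_toNat (-((n : ℤ) * D P') - P'.ord (x * y₀))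
        push_cast
        rw [h1]
        linarith
      · have h4 : (0 : ℤ) ≤ (if P' ∈ T then
            (((-((n : ℤ) * D P') - P'.ord (x * y₀)).toNat : ℕ) : ℤ) else 0) := by
          split_ifs
          · positivity
          · exact le_refl _
        push_cast
        rw [h1]
        linarith
  -- (d), (e): the other valuation
  obtain ⟨n₀, e, he, hez, heo⟩ := exists_oneSided_lift S hy
  obtain ⟨N, hNj⟩ := joint_of_oneSided S hw₁o hez heo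
  have hzo := hw₁o.mul ax₁ ax₂ (heo.pow ax₁ ax₂ N)
  have hzmem : x * y₀ * b * e ^ N ∈ riemannRochSpace ((n + n' + N * n₀) • D - 𝔞) := by
    have := mul_mem_rrSpace hw₁ (pow_mem_rrSpace he N)
    have e1 : (n + n') • D - 𝔞 + N • n₀ • D = (n + n' + N * n₀) • D - 𝔞 := by
      rw [smul_smul, add_smul (n + n')]
      abel
    rwa [e1] at this
  -- (V)
  have hV := bar_van h h𝔞nn h𝔞sm hzmem hNj hzo
  rw [hfib]
  push_cast at hV
  linarith

/-- **(R5)**: the exact count at the smooth points -/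
theorem r5 [Infinite k] (h : BarAx S sp) {y : Place k Fk₁ ⊕ Place k Fk₂} (hy : SmPt Sg y)
    {x : F} {v : ℤ} (hx : OrdRed Red₁ Red₂ y x v) :
    Finsupp.mapDomain sp (S.hpf.divOf x) y = v := by
  refine le_antisymm (ineq h hy hx) ?_
  have h1 := ineq h hy (hx.inv S.ax₁ S.ax₂)
  have h2 : S.hpf.divOf x⁻¹ = -(S.hpf.divOf x) := by
    ext P
    rw [Finsupp.neg_apply, S.hpf.divOf_apply, S.hpf.divOf_apply, P.ord_inv]
  rw [h2, mapDomain_neg', Finsupp.neg_apply] at h1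
  omega

theorem r5₁ [Infinite k] (h : BarAx S sp) {x : F} {a : Fk₁} (hxa : Red₁ x a) (ha : a ≠ 0)
    (Q : Place k Fk₁) (hQ : Smooth₁ Sg Q) :
    Finsupp.mapDomain sp (S.hpf.divOf x) (Sum.inl Q) = Q.ord a :=
  r5 h (smPt_of_smooth₁ hQ) (x := x) ⟨a, hxa, ha, rfl⟩

theorem r5₂ [Infinite k] (h : BarAx S sp) {x : F} {a : Fk₂} (hxa : Red₂ x a) (ha : a ≠ 0)
    (Q : Place k Fk₂) (hQ : Smooth₂ Sg Q) :
    Finsupp.mapDomain sp (S.hpf.divOf x) (Sum.inr Q) = Q.ord a :=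
  r5 h (smPt_of_smooth₂ hQ) (x := x) ⟨a, hxa, ha, rfl⟩

/-! ### the contract -/

/-- **the contract `Facts` from `BarAx`** -/
noncomputable def factsOfBarAx [Infinite k] (h : BarAx S sp) : Facts S where
  sp := sp
  sp_ne := h.spAx.sp_ne
  r5₁ := fun hxa ha Q hQ => r5₁ h hxa ha Q hQ
  r5₂ := fun hxa ha Q hQ => r5₂ h hxa ha Q hQ
  regN := fun h₁ h₂ p hp hreg => NodalSp.regN h.spAx h₁ h₂ p hp hreg
  unif₁ := fun Q hQ hD => unif₁ h.spAx Q hQ hD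
  unif₂ := fun Q hQ hD => unif₂ h.spAx Q hQ hD
  sp_smul := fun h' hc P => NodalSp.sp_smul h.spAx h' hc P
  ns := fun T₁ T₂ => facts_ns S T₁ T₂

theorem factsOfBarAx_sp [Infinite k] (h : BarAx S sp) : (factsOfBarAx h).sp = sp := rfl

end Fermat.Agent.S34.NodalR5
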