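import Fermat.Agent.S34.NodalBar
import Fermat.Agent.S34.NodalR5
import Fermat.Agent.S34.NodalTarget

/-!
# C83 (S34): the abstract side, assembled

`Setup2` (with an infinite residue field) implies the contract `Facts` and the `Target`:

* `barAx S`            : `NodalR5.BarAx S (sp S)` (from `NodalBar`: `spAx`, `bar_smooth`);
* `factsOfSetup2 S`    : `Facts S`;
* `target_of_setup2 S` : `Target A res Red₁ Red₂ D`.
-/

set_option autoImplicit false
set_option linter.unusedSectionVars false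

open AlgebraicCurve Fermat.Agent.Lib.FF Fermat.Agent.S18.Deuring

namespace Fermat.Agent.S34.Nodal

variable {L k F Fk₁ Fk₂ : Type*} [Field L] [Field k] [Field F] [Field Fk₁] [Field Fk₂]
  [Algebra L F] [Algebra k Fk₁] [Algebra k Fk₂]
variable {A : ValuationSubring L} {res : A →+* k} {Red₁ : F → Fk₁ → Prop}
  {Red₂ : F → Fk₂ → Prop} {D : Divisor L F} {D₁ : Divisor k Fk₁} {D₂ : Divisor k Fk₂}
  {Sg : Finset (Place k Fk₁ × Place k Fk₂)} {g g₁ g₂ : ℕ} {c c₁ c₂ : ℤ}

variable [Infinite k]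

/-- the interface `BarAx` holds for the specialisation map `sp S` -/
theorem barAx (S : Setup2 A res Red₁ Red₂ D D₁ D₂ Sg g g₁ g₂ c c₁ c₂) :
    NodalR5.BarAx S (sp S) where
  spAx := spAx S
  bar := bar_smooth S

/-- **the contract `Facts` from `Setup2`** -/
noncomputable def factsOfSetup2 (S : Setup2 A res Red₁ Red₂ D D₁ D₂ Sg g g₁ g₂ c c₁ c₂) :
    Facts S := NodalR5.factsOfBarAx (barAx S)

theorem nonempty_facts (S : Setup2 A res Red₁ Red₂ D D₁ D₂ Sg g g₁ g₂ c c₁ c₂) :
    Nonempty (Facts S) := ⟨factsOfSetup2 S⟩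

/-- **the abstract theorem**: `Setup2` implies `Target` -/
theorem target_of_setup2 (S : Setup2 A res Red₁ Red₂ D D₁ D₂ Sg g g₁ g₂ c c₁ c₂) :
    Target A res Red₁ Red₂ D :=
  target_of_facts S (factsOfSetup2 S)

end Fermat.Agent.S34.Nodal
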