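import Fermat.Agent.S34.CoreAsm
import Fermat.Agent.S34.NodalFacts
import Fermat.Agent.S34.NodalConcInst
import Fermat.Agent.S34.C3Deg
import Fermat.Agent.S34.JointOrtho
import Fermat.Agent.S34.JointArch

/-!
# C83 (S34): the final concrete glue

Level `M * q`, `q` prime, `q ∤ M`, `4 ∣ M` or `9 ∣ M`, `A` a valuation ring of `ℚ̄` over `q`.
From the pieces of the concrete side which are still open, taken as NAMED hypotheses,

* `H1`    : the joint reduction preserves dimensions (C1);
* `hJF`   : `C3.JointFin` (C1);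
* `hcond` : the conductor (`CondInput`: two finite sets of places outside the cusps and the
            conductor property, C2 (e)),

we build the instance of `PreSetup2`, then `Setup2` (`NConc.exists_setup2_joint`), the contract
`Facts` (`Nodal.nonempty_facts`) and finally `CoreAsm.Input`.
-/

set_option autoImplicit false
set_option linter.unusedSectionVars false
set_option linter.unusedVariables false
set_option linter.style.haveILetI false
set_option synthInstance.maxHeartbeats 400000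
set_option maxHeartbeats 1000000

noncomputable section

namespace Fermat.Agent.S34.InputAsm

open AlgebraicCurve ModularCurve Fermat.Agent.Lib.FF Fermat.Agent.S18 Fermat.Agent.S18.GV
open Fermat.Agent.S18.Deuring Fermat.Agent.S34.Nodal

local notation "Qb" => AlgebraicClosure ℚ
local notation "Gal" => (AlgebraicClosure ℚ ≃ₐ[ℚ] AlgebraicClosure ℚ)

local instance isAlgebraicQbInputAsm : Algebra.IsAlgebraic ℚ (AlgebraicClosure ℚ) :=
  AlgebraicClosure.isAlgebraic ℚ

variable (A : ValuationSubring (AlgebraicClosure ℚ)) (q : ℕ) [hq : Fact q.Prime]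
variable (hA : A.LiesOverPrime q) (M : ℕ) [NeZero M] (hqM : ¬ q ∣ M)

attribute [local instance] C3.neZero_q

/-- the divisor `D = Pol(j) + Pol(j_q)` of `F(Mq)` -/
def Dsym : Divisor Qb (modularFunctionFieldBar (M * q)) :=
  (C3.placeFacts_N q M).poleDiv (Fermat.Agent.S24.jBar (M * q))
    + (C3.placeFacts_N q M).poleDiv (C3.jq q M)

/-- the divisor `E = Pol(J)` of `F_k(M)` -/
def EJ : Divisor (IsLocalRing.ResidueField A)
    (modularFunctionFieldFullC (IsLocalRing.ResidueField A) M) :=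
  (C3.placeFacts_k A q hA M).poleDiv (jK (IsLocalRing.ResidueField A) M)

/-- the joint reduction of a subspace of `F(Mq)` -/
def JRed (V : Submodule Qb (modularFunctionFieldBar (M * q))) :
    Submodule (IsLocalRing.ResidueField A)
      (modularFunctionFieldFullC (IsLocalRing.ResidueField A) M ×
        modularFunctionFieldFullC (IsLocalRing.ResidueField A) M) :=
  redSpace₂ (Joint.redAx1 A q hA M hqM) (Joint.redAx2 A q hA M hqM) V

/-- **the hypothesis (H1)**: the joint reduction preserves dimensions -/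
def H1Input : Prop :=
  ∀ V : Submodule Qb (modularFunctionFieldBar (M * q)), Module.Finite Qb V →
    Module.finrank (IsLocalRing.ResidueField A) (JRed A q hA M hqM V) = Module.finrank Qb V

/-- **the hypothesis (cond)**: two finite sets of places of `F_k(M)` outside the cusps such that
the pairs of functions vanishing on them are joint reductions -/
def CondInput : Prop :=
  ∃ (Y₁ Y₂ : Finset (Place (IsLocalRing.ResidueField A)
      (modularFunctionFieldFullC (IsLocalRing.ResidueField A) M))),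
    (∀ y ∈ Y₁, EJ A q hA M y = 0) ∧ (∀ y ∈ Y₂, EJ A q hA M y = 0) ∧
    ∀ (n : ℕ) (c₁ c₂ : modularFunctionFieldFullC (IsLocalRing.ResidueField A) M),
      c₁ ∈ riemannRochSpace (n • ((1 + q) • EJ A q hA M)) →
      c₂ ∈ riemannRochSpace (n • ((1 + q) • EJ A q hA M)) →
      (∀ y ∈ Y₁, HasValue y c₁ 0) → (∀ y ∈ Y₂, HasValue y c₂ 0) →
        ∃ m : ℕ, (c₁, c₂) ∈ JRed A q hA M hqM (riemannRochSpace (m • Dsym q M))

/-! ### the instance of `PreSetup2` -/

include hA hqM in
theorem exists_preSetup2 (h49 : 4 ∣ M ∨ 9 ∣ M) (H1 : H1Input A q hA M hqM)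
    (hJF : C3.JointFin A q M hqM) :
    ∃ (g g₁ : ℕ) (c c₁ : ℤ), g₁ + g₁ ≤ g ∧
      NC.PreSetup2 A (IsLocalRing.residue A) (Joint.Red1 A q M) (Joint.Red2 A q M hqM)
        (Dsym q M) ((1 + q) • EJ A q hA M) ((1 + q) • EJ A q hA M) g g₁ g₁ c c₁ c₁ := by
  obtain ⟨g, g₁, c, c₁, hg, hg₁, hRF, hRk, hle⟩ := NConc.exists_rthm A q hA M hqM h49
  refine ⟨g, g₁, c, c₁, hle, ?_⟩
  exact
    { hpf := C3.placeFacts_N q M
      hpf₁ := C3.placeFacts_k A q hA M
      hpf₂ := C3.placeFacts_k A q hA M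
      ax₁ := Joint.redAx1 A q hA M hqM
      ax₂ := Joint.redAx2 A q hA M hqM
      RF := hRF
      RF₁ := hRk
      RF₂ := hRk
      D_nonneg := C3.Dsym_nonneg q M (C3.placeFacts_N q M)
      D₁_nonneg := C3.D1_nonneg q M (C3.placeFacts_k A q hA M)
      D₂_nonneg := C3.D1_nonneg q M (C3.placeFacts_k A q hA M)
      deg_eq := C3.degree_Dsym_eq A q hA M hqM (C3.placeFacts_N q M) (C3.placeFacts_k A q hA M)
      deg₁_pos := C3.degree_D1_pos A q hA M hqM (C3.placeFacts_k A q hA M)
      deg₂_pos := C3.degree_D1_pos A q hA M hqM (C3.placeFacts_k A q hA M)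
      H1 := H1
      H2p := fun n x a₁ a₂ hx h1 h2 =>
        C3.h2_pole A q hA M hqM hJF (C3.placeFacts_N q M) (C3.placeFacts_k A q hA M)
          n x a₁ a₂ hx h1 h2
      arch := Joint.arch A q hA }

/-! ### the instance of `Setup2` -/

include hA hqM in
theorem exists_setup2 (h49 : 4 ∣ M ∨ 9 ∣ M) (H1 : H1Input A q hA M hqM)
    (hJF : C3.JointFin A q M hqM) (hcond : CondInput A q hA M hqM) :
    ∃ (Sg : Finset (Place (IsLocalRing.ResidueField A)
        (modularFunctionFieldFullC (IsLocalRing.ResidueField A) M) ×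
        Place (IsLocalRing.ResidueField A)
        (modularFunctionFieldFullC (IsLocalRing.ResidueField A) M)))
      (g g₁ : ℕ) (c c₁ : ℤ),
      Nonempty (Setup2 A (IsLocalRing.residue A) (Joint.Red1 A q M) (Joint.Red2 A q M hqM)
        (Dsym q M) ((1 + q) • EJ A q hA M) ((1 + q) • EJ A q hA M) Sg g g₁ g₁ c c₁ c₁) := by
  obtain ⟨g, g₁, c, c₁, hg, S⟩ := exists_preSetup2 A q hA M hqM h49 H1 hJF
  obtain ⟨Y₁, Y₂, off₁, off₂, cond⟩ := hcond
  obtain ⟨Sg, -, S2⟩ := NConc.exists_setup2_joint A q hA M hqM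
    (C3.placeFacts_N q M) (C3.placeFacts_k A q hA M) S hJF h49 Y₁ Y₂ off₁ off₂ cond hg
  exact ⟨Sg, g, g₁, c, c₁, ⟨S2⟩⟩

/-! ### the Galois stability of the divisor -/

include hqM in
theorem galois_smul_dsym (σ : Gal) :
    arithmeticGalois (modularFunctionFieldFull (M * q)) σ • Dsym q M = Dsym q M := by
  have h1 := Fermat.Agent.S34.Equiv.galois_smul_poleDiv_j (M * q) (C3.placeFacts_N q M) σ
  have h2 := Fermat.Agent.S34.Equiv.galois_smul_poleDiv_wj hq.out hqM (C3.placeFacts_N q M) σ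
  rw [C3.wAL_jBar q M hqM] at h2
  rw [Dsym, smul_add, h1, h2]

/-! ### the input of the assembly -/

include hA hqM in
/-- **the input of `CoreAsm`** at the level `M * q` and the valuation ring `A`, from the three
open pieces of the concrete side -/
theorem input_of_pieces (h49 : 4 ∣ M ∨ 9 ∣ M) (H1 : H1Input A q hA M hqM)
    (hJF : C3.JointFin A q M hqM) (hcond : CondInput A q hA M hqM) :
    CoreAsm.Input hq.out M hqM A := by
  obtain ⟨Sg, g, g₁, c, c₁, ⟨S2⟩⟩ := exists_setup2 A q hA M hqM h49 H1 hJF hcond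
  haveI : IsAlgClosed (IsLocalRing.ResidueField A) :=
    Fermat.Agent.S18.ResClosed.isAlgClosed_residueField A
  haveI : Infinite (IsLocalRing.ResidueField A) := IsAlgClosed.instInfinite
  refine ⟨modularFunctionFieldFullC (IsLocalRing.ResidueField A) M,
    modularFunctionFieldFullC (IsLocalRing.ResidueField A) M, inferInstance, inferInstance,
    inferInstance, inferInstance,
    fun a => (a : LaurentSeries (IsLocalRing.ResidueField A)),
    fun a => (a : LaurentSeries (IsLocalRing.ResidueField A)),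
    Joint.Red1 A q M, Joint.Red2 A q M hqM, Dsym q M, (1 + q) • EJ A q hA M,
    (1 + q) • EJ A q hA M, Sg, g, g₁, g₁, c, c₁, c₁, S2, Nodal.nonempty_facts S2, ?_, ?_, ?_⟩
  · intro x a
    exact Iff.rfl
  · intro x a
    exact Iff.rfl
  · exact galois_smul_dsym q M hqM

/-! ### the statement of S34 from the three open pieces -/

/-- the three open pieces of the concrete side at the level `M * q` and the valuation ring `A` -/
def Pieces : Prop :=
  H1Input A q hA M hqM ∧ C3.JointFin A q M hqM ∧ CondInput A q hA M hqM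

/-- the input of `CoreAsm` at all levels, from the pieces at all levels -/
theorem input_all {q : ℕ} (hq : q.Prime)
    (H : ∀ (A : ValuationSubring Qb) (hA : A.LiesOverPrime q) (M : ℕ) (i : NeZero M)
      (hqM : ¬ q ∣ M), (4 ∣ M ∨ 9 ∣ M) → @Pieces A q ⟨hq⟩ hA M i hqM)
    (M' : ℕ) (i : NeZero (M' * q)) (hM' : ¬ q ∣ M') (h49 : 4 ∣ M' ∨ 9 ∣ M')
    (P : ValuationSubring Qb) (hP : P.LiesOverPrime q) :
    @CoreAsm.Input q ⟨hq.ne_zero⟩ hq M' i hM' P := by
  haveI : Fact q.Prime := ⟨hq⟩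
  haveI iM : NeZero M' := ⟨left_ne_zero_of_mul i.out⟩
  obtain ⟨H1, hJF, hcond⟩ := H P hP M' iM hM' h49
  exact input_of_pieces P q hP M' hM' h49 H1 hJF hcond

/-- **the statement of S34** from the pieces at all levels -/
theorem unipotent_of_pieces {q : ℕ} (hq : q.Prime)
    (H : ∀ (A : ValuationSubring Qb) (hA : A.LiesOverPrime q) (M : ℕ) (i : NeZero M)
      (hqM : ¬ q ∣ M), (4 ∣ M ∨ 9 ∣ M) → @Pieces A q ⟨hq⟩ hA M i hqM)
    {𝒪 : Type} [CommRing 𝒪] [IsDomain 𝒪] [IsDiscreteValuationRing 𝒪]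
    [IsAdicComplete (IsLocalRing.maximalIdeal 𝒪) 𝒪] [Finite (IsLocalRing.ResidueField 𝒪)]
    [CharZero 𝒪]
    {p : ℕ} (hp : p.Prime) (hp𝒪 : (p : 𝒪) ∈ IsLocalRing.maximalIdeal 𝒪)
    {N : ℕ} [NeZero N] {S : Finset ℕ} (hpS : p ∈ S) (hNS : ∀ q : ℕ, q.Prime → q ∣ N → q ∈ S)
    {θ : CuspForm.heckeAlgebra N 2 (↑S : Set ℕ) →+* IsLocalRing.ResidueField 𝒪}
    {T : Type} [CommRing T] [IsLocalRing T] [IsNoetherianRing T]
    [IsAdicComplete (IsLocalRing.maximalIdeal T) T] [Algebra 𝒪 T]
    [IsLocalHom (algebraMap 𝒪 T)] [Module.Finite 𝒪 T] [Module.Free 𝒪 T]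
    (Hd : CuspForm.HeckeGaloisRepDatum N (↑S : Set ℕ) 𝒪 θ T)
    (hqp : q ≠ p) (hqN : q ∣ N) (hq2 : ¬ q ^ 2 ∣ N) :
    Hd.ρ.IsUnipotentOnInertiaAt q :=
  CoreAsm.unipotent_of_input hq (input_all hq H) hp hp𝒪 hpS hNS Hd hqp hqN hq2

end Fermat.Agent.S34.InputAsm
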