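import Fermat.Agent.S34.InputFin

/-!
# C83 (S34): the two projections of the reduction ring are onto

`surj₁`, `surj₂`: the first two components of `InputFin.WInput`, from `NConc.exists_mem_redSpace₂`.
-/

set_option autoImplicit false
set_option linter.unusedSectionVars false
set_option linter.unusedVariables false
set_option linter.style.haveILetI false
set_option synthInstance.maxHeartbeats 400000
set_option maxHeartbeats 1000000

noncomputable section

namespace Fermat.Agent.S34.InputFin

open AlgebraicCurve ModularCurve Fermat.Agent.Lib.FF Fermat.Agent.S18 Fermat.Agent.S18.GV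
open Fermat.Agent.S18.Deuring Fermat.Agent.S34.Nodal Fermat.Agent.S34.InputAsm

local notation "Qb" => AlgebraicClosure ℚ

variable (A : ValuationSubring (AlgebraicClosure ℚ)) (q : ℕ) [hq : Fact q.Prime]
variable (hA : A.LiesOverPrime q) (M : ℕ) [NeZero M] (hqM : ¬ q ∣ M)

attribute [local instance] C3.neZero_q

include hA hqM in
/-- every function of the coordinate ring is the first, and the second, coordinate of a joint
reduction -/
theorem surj_both (h49 : 4 ∣ M ∨ 9 ∣ M)
    (a : modularFunctionFieldFullC (IsLocalRing.ResidueField A) M)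
    (ha : a ∈ CoordJ A q hA M) :
    (∃ a', InB A q hA M hqM (a, a')) ∧ (∃ a', InB A q hA M hqM (a', a)) := by
  have PF := NConc.prodFacts A q hA M hqM (Joint.jointFin A q hA M hqM)
    (C3.placeFacts_N q M) (C3.placeFacts_k A q hA M)
  obtain ⟨a₀, hred⟩ := NConc.exists_mem_redSpace₂ hA hqM PF
    (Joint.redAx1 A q hA M hqM) (Joint.redAx2 A q hA M hqM) h49
  obtain ⟨n, hn⟩ := ha
  have hE : 0 ≤ EJ A q hA M := C3.poleDiv_nonneg' _ _
  have hmem : a ∈ riemannRochSpace ((max (n * (1 + q)) a₀) • EJ A q hA M) := by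
    rw [← mul_smul] at hn
    exact NC.rrSpace_nsmul_mono hE (le_max_left _ _) hn
  obtain ⟨⟨b, hb, hb1⟩, ⟨b', hb', hb2⟩⟩ := hred _ (le_max_right (n * (1 + q)) a₀) a hmem
  refine ⟨⟨b.2, max (n * (1 + q)) a₀, ?_⟩, ⟨b'.1, max (n * (1 + q)) a₀, ?_⟩⟩
  · have : (a, b.2) = b := by rw [← hb1]
    rw [this]
    exact hb
  · have : (b'.1, a) = b' := by rw [← hb2]
    rw [this]
    exact hb'

end Fermat.Agent.S34.InputFin
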