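import Fermat.Agent.S18.GVPivot
import Fermat.Agent.S18.GVModular
import Fermat.Agent.S18.Descend
import Fermat.Agent.S37.KronFrob
import Fermat.Agent.S28.OrderLemma

/-!
# C83 (S34), piece C1 (1): the joint orthonormal family, on the level of Laurent series

`L ⊇ A` a valued field over the prime `q` with residue field `k`, `t = j`, `T = J`,
`V = (𝐪 ↦ 𝐪^q)`, `b i` with residues `β i` linearly independent over `k(J)`.
Index set `ι = (Fin n × Fin q) ⊕ Fin n`; the two families

* `B1 (inl (i, e)) = b i * (V t) ^ e`,     `B1 (inr i) = b i * (t - (V t) ^ q)`,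
* `B2 (inl (i, e)) = V (b i) * t ^ e`,     `B2 (inr i) = V (b i) * (V t - t ^ q)`

(`B2 = w B1` for the Atkin–Lehner involution `w`) are JOINTLY orthonormal over `L(t)`, where
`f ∈ L(t)` acts on the first family by `f` and on the second one by `V f`:

* `joint_indep`     : the residues are jointly linearly independent over `k(J)`;
* `joint_ortho`     : a nonzero coefficient vector can be scaled so that it becomes integral
  and one of the two sums has a nonzero residue;
* `joint_ortho_red` : if both sums are integral, all coefficients are integral.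
-/

set_option autoImplicit false
set_option linter.unusedSectionVars false
set_option linter.unusedVariables false

noncomputable section

namespace Fermat.Agent.S34.Joint

open ModularCurve Polynomial IntermediateField Fermat.Agent.S18.GV

/-! ### Characteristic `q`: `J(𝐪^q) = J^q`, independence of `1, J, …, J^{q-1}` over `k((𝐪^q))` -/

section CharQ

variable {k : Type*} [Field k] (q : ℕ) [hq : Fact q.Prime]

/-- the index set of the joint basis -/
abbrev JIdx (n q : ℕ) : Type := (Fin n × Fin q) ⊕ Fin n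

theorem neZero_prime : NeZero q := ⟨hq.out.ne_zero⟩

attribute [local instance] neZero_prime

/-- **`J(𝐪^q) = J^q`** in characteristic `q` -/
theorem qExpand_jqModC_char [CharP k q] : qExpand k q (jqModC k) = jqModC k ^ q := by
  have h := Fermat.Agent.S37.Kron.laurent_pow_char (k := k) q (jqModC k)
  rw [coeffMap_jqModC] at h
  exact h.symm

/-- `1, J, …, J^{q-1}` are linearly independent over `k((𝐪^q))` -/
theorem eq_zero_of_sum_qExpand_mul_pow (d : Fin q → LaurentSeries k)
    (h : ∑ e : Fin q, qExpand k q (d e) * jqModC k ^ (e : ℕ) = 0) : ∀ e, d e = 0 := by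
  classical
  set R : Polynomial (LaurentSeries k) := ∑ e : Fin q, Polynomial.C (d e) * Polynomial.X ^ (e : ℕ)
    with hR
  have hcoeff : ∀ e : Fin q, R.coeff (e : ℕ) = d e := by
    intro e
    rw [hR, Polynomial.finsetSum_coeff]
    rw [Finset.sum_eq_single e]
    · rw [Polynomial.coeff_C_mul, Polynomial.coeff_X_pow, if_pos rfl, mul_one]
    · intro e' _ hne
      rw [Polynomial.coeff_C_mul, Polynomial.coeff_X_pow, if_neg, mul_zero]
      intro h'
      exact hne (Fin.ext h'.symm)
    · intro h'
      exact absurd (Finset.mem_univ e) h'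
  have hdeg : R = 0 ∨ R.natDegree < q := by
    by_cases hR0 : R = 0
    · exact Or.inl hR0
    · right
      rw [hR]
      refine lt_of_le_of_lt (Polynomial.natDegree_sum_le _ _) ?_
      rw [Finset.fold_max_lt]
      refine ⟨hq.out.pos, fun e _ => ?_⟩
      refine lt_of_le_of_lt (Polynomial.natDegree_C_mul_le _ _) ?_
      refine lt_of_le_of_lt (Polynomial.natDegree_X_pow_le _) e.2
  have heval : (R.map (qExpand k q)).eval (jqModC k) = 0 := by
    rw [hR, Polynomial.map_sum, Polynomial.eval_finsetSum, ← h]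
    refine Finset.sum_congr rfl fun e _ => ?_
    rw [Polynomial.map_mul, Polynomial.map_C, Polynomial.map_pow, Polynomial.map_X,
      Polynomial.eval_mul, Polynomial.eval_C, Polynomial.eval_pow, Polynomial.eval_X]
  have hR0 : R = 0 := by
    rcases hdeg with h0 | hlt
    · exact h0
    · by_contra hne
      refine Fermat.Agent.S28.P6.eval_map_qExpand_ne_zero q hne hlt ?_ heval
      rw [Fermat.Agent.S28.FrobDescent.order_jqModC_eq k]
      intro hdvd
      have h2 : (q : ℤ) ∣ 1 := by
        have := (Int.dvd_neg).1 hdvd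
        simpa using this
      have h3 := Int.eq_one_of_dvd_one (by positivity) h2
      have h4 : q = 1 := by exact_mod_cast h3
      exact hq.out.one_lt.ne' h4
  intro e
  rw [← hcoeff e, hR0, Polynomial.coeff_zero]

theorem jqModC_sub_pow_ne_zero {m : ℕ} (hm : 1 < m) : jqModC k - jqModC k ^ m ≠ 0 := by
  intro h
  have h1 : jqModC k = jqModC k ^ m := sub_eq_zero.1 h
  have h2 := congrArg HahnSeries.order h1
  rw [HahnSeries.order_pow, Fermat.Agent.S28.FrobDescent.order_jqModC_eq k] at h2
  simp only [nsmul_eq_mul, mul_neg, mul_one, neg_inj] at h2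
  have h3 : (m : ℤ) = 1 := h2.symm
  have h4 : m = 1 := by exact_mod_cast h3
  omega

end CharQ

/-! ### The two families and the joint independence of their residues -/

section Families

variable {K : Type*} [Field K] (q : ℕ) [hq : Fact q.Prime] {n : ℕ}

attribute [local instance] neZero_prime

/-- the first family: `b i * j_q ^ e` (`e < q`) and `b i * (j - j_q ^ q)` -/
def fam1 (b : Fin n → LaurentSeries K) : JIdx n q → LaurentSeries K
  | Sum.inl ie => b ie.1 * (qExpand K q (jqModC K)) ^ (ie.2 : ℕ)
  | Sum.inr i => b i * (jqModC K - (qExpand K q (jqModC K)) ^ q)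

/-- the second family (the Atkin–Lehner transform of the first):
`V (b i) * j ^ e` (`e < q`) and `V (b i) * (j_q - j ^ q)` -/
def fam2 (b : Fin n → LaurentSeries K) : JIdx n q → LaurentSeries K
  | Sum.inl ie => qExpand K q (b ie.1) * jqModC K ^ (ie.2 : ℕ)
  | Sum.inr i => qExpand K q (b i) * (qExpand K q (jqModC K) - jqModC K ^ q)

theorem fam2_inr_char [CharP K q] (b : Fin n → LaurentSeries K) (i : Fin n) :
    fam2 q b (Sum.inr i) = 0 := by
  show qExpand K q (b i) * (qExpand K q (jqModC K) - jqModC K ^ q) = 0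
  rw [qExpand_jqModC_char, sub_self, mul_zero]

/-- **joint independence of the residues** -/
theorem joint_indep [CharP K q] {β : Fin n → LaurentSeries K}
    (hβ : LinearIndependent K⟮jqModC K⟯ β) (γ : JIdx n q → LaurentSeries K)
    (hγ : ∀ x, γ x ∈ K⟮jqModC K⟯)
    (h1 : ∑ x, γ x * fam1 q β x = 0) (h2 : ∑ x, qExpand K q (γ x) * fam2 q β x = 0) :
    ∀ x, γ x = 0 := by
  classical
  rw [Fintype.linearIndependent_iff] at hβ
  -- the second coordinate
  have hl : ∀ i e, γ (Sum.inl (i, e)) = 0 := by
    have h2' : ∑ e : Fin q, qExpand K q (∑ i, γ (Sum.inl (i, e)) * β i) * jqModC K ^ (e : ℕ)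
        = 0 := by
      rw [← h2, Fintype.sum_sum_type, Fintype.sum_prod_type, Finset.sum_comm]
      have hz : ∑ i : Fin n, qExpand K q (γ (Sum.inr i)) * fam2 q β (Sum.inr i) = 0 :=
        Finset.sum_eq_zero fun i _ => by rw [fam2_inr_char, mul_zero]
      rw [hz, add_zero]
      refine Finset.sum_congr rfl fun e _ => ?_
      rw [map_sum, Finset.sum_mul]
      refine Finset.sum_congr rfl fun i _ => ?_
      show _ = qExpand K q (γ (Sum.inl (i, e))) * (qExpand K q (β i) * jqModC K ^ (e : ℕ))
      rw [map_mul, mul_assoc]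
    have hd := eq_zero_of_sum_qExpand_mul_pow q _ h2'
    intro i e
    have := hβ (fun i => ⟨γ (Sum.inl (i, e)), hγ _⟩) (hd e) i
    exact congrArg Subtype.val this
  -- the first coordinate
  have hJ : jqModC K ∈ K⟮jqModC K⟯ := IntermediateField.mem_adjoin_simple_self K _
  have hmem : ∀ i, γ (Sum.inr i) * (jqModC K - (qExpand K q (jqModC K)) ^ q) ∈ K⟮jqModC K⟯ := by
    intro i
    refine mul_mem (hγ _) (sub_mem hJ (pow_mem ?_ _))
    rw [qExpand_jqModC_char]
    exact pow_mem hJ _
  have h1' : ∑ i, (γ (Sum.inr i) * (jqModC K - (qExpand K q (jqModC K)) ^ q)) * β i = 0 := by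
    rw [← h1, Fintype.sum_sum_type]
    have hz : ∑ x : Fin n × Fin q, γ (Sum.inl x) * fam1 q β (Sum.inl x) = 0 :=
      Finset.sum_eq_zero fun x _ => by rw [hl x.1 x.2, zero_mul]
    rw [hz, zero_add]
    refine Finset.sum_congr rfl fun i _ => ?_
    show _ = γ (Sum.inr i) * (β i * (jqModC K - (qExpand K q (jqModC K)) ^ q))
    ring
  have hr : ∀ i, γ (Sum.inr i) = 0 := by
    intro i
    have := congrArg Subtype.val (hβ (fun i => ⟨_, hmem i⟩) h1' i)
    simp only [ZeroMemClass.coe_zero] at this
    rcases mul_eq_zero.1 this with h | h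
    · exact h
    · exfalso
      rw [qExpand_jqModC_char, ← pow_mul] at h
      refine jqModC_sub_pow_ne_zero (k := K) (m := q * q) ?_ h
      have := hq.out.one_lt
      nlinarith
  rintro (⟨i, e⟩ | i)
  · exact hl i e
  · exact hr i

end Families

/-! ### Joint orthonormality -/

section Ortho

variable {L : Type*} [Field L] [Algebra ℚ L] [Algebra.IsAlgebraic ℚ L] (A : ValuationSubring L)
variable (q : ℕ) [hq : Fact q.Prime] (hA : A.LiesOverPrime q) {n : ℕ}
variable {b : Fin n → LaurentSeries L} {β : Fin n → LaurentSeries (IsLocalRing.ResidueField A)}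

attribute [local instance] neZero_prime

/-- `ρ(j) = J` for any coefficient field -/
theorem red_jL : Red A (jqModC L) (jqModC (IsLocalRing.ResidueField A)) := by
  have := red_jqN A 1
  rwa [jqNModC_one, jqNModC_one] at this

/-- `ρ(j_q) = J_q` -/
theorem red_jqL : Red A (qExpand L q (jqModC L))
    (qExpand (IsLocalRing.ResidueField A) q (jqModC (IsLocalRing.ResidueField A))) :=
  Fermat.Agent.S18.Desc.red_qExpand A q (red_jL A)

theorem red_fam1 (hb : ∀ i, Red A (b i) (β i)) (x : JIdx n q) :
    Red A (fam1 q b x) (fam1 q β x) := by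
  rcases x with ⟨i, e⟩ | i
  · exact (hb i).mul A ((red_jqL A q).pow A _)
  · exact (hb i).mul A ((red_jL A).sub A ((red_jqL A q).pow A _))

theorem red_fam2 (hb : ∀ i, Red A (b i) (β i)) (x : JIdx n q) :
    Red A (fam2 q b x) (fam2 q β x) := by
  rcases x with ⟨i, e⟩ | i
  · exact (Fermat.Agent.S18.Desc.red_qExpand A q (hb i)).mul A ((red_jL A).pow A _)
  · exact (Fermat.Agent.S18.Desc.red_qExpand A q (hb i)).mul A
      ((red_jqL A q).sub A ((red_jL A).pow A _))

theorem qExpand_hC {K : Type*} [Field K] (c : K) :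
    qExpand K q (HahnSeries.C c : LaurentSeries K) = HahnSeries.C c := by
  have := (qExpandAlgHomC K q).commutes c
  rwa [algebraMap_eq_hC, qExpandAlgHomC_apply] at this

variable (hb : ∀ i, Red A (b i) (β i))
  (hβ : LinearIndependent
    (IsLocalRing.ResidueField A)⟮jqModC (IsLocalRing.ResidueField A)⟯ β)
  (hT : Transcendental (IsLocalRing.ResidueField A) (jqModC (IsLocalRing.ResidueField A)))

include hA hb hβ hT

/-- **joint orthonormality** -/
theorem joint_ortho (f : JIdx n q → LaurentSeries L) (hf : ∀ x, f x ∈ L⟮jqModC L⟯)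
    (hne : ∃ x, f x ≠ 0) :
    ∃ c : L, c ≠ 0 ∧ ∃ γ : JIdx n q → LaurentSeries (IsLocalRing.ResidueField A),
      (∀ x, Red A (HahnSeries.C c⁻¹ * f x) (γ x)) ∧
      (∀ x, γ x ∈ (IsLocalRing.ResidueField A)⟮jqModC (IsLocalRing.ResidueField A)⟯) ∧
      (∑ x, γ x * fam1 q β x ≠ 0 ∨
        ∑ x, qExpand (IsLocalRing.ResidueField A) q (γ x) * fam2 q β x ≠ 0) ∧
      Red A (HahnSeries.C c⁻¹ * ∑ x, f x * fam1 q b x) (∑ x, γ x * fam1 q β x) ∧
      Red A (HahnSeries.C c⁻¹ * ∑ x, qExpand L q (f x) * fam2 q b x)
        (∑ x, qExpand (IsLocalRing.ResidueField A) q (γ x) * fam2 q β x) := by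
  haveI := charP_residueField A q hA
  have hfg : ∀ x, f x ∈ gaussField A := fun x =>
    adjoin_simple_le_gaussIF A (gaussRing_le_gaussField A (red_jL A).mem) (hf x)
  obtain ⟨c, hc, γ, hγ, x₀, hx₀⟩ := exists_normalization A q hA f hfg hne
  have hγmem : ∀ x, γ x ∈ (IsLocalRing.ResidueField A)⟮jqModC (IsLocalRing.ResidueField A)⟯ := by
    intro x
    refine red_mem_adjoin_simple A q hA (red_jL A) hT ?_ (hγ x)
    refine mul_mem ?_ (hf x)
    rw [← algebraMap_eq_hC]
    exact IntermediateField.algebraMap_mem _ _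
  refine ⟨c, hc, γ, hγ, hγmem, ?_, ?_, ?_⟩
  · by_contra hcon
    rw [not_or, not_not, not_not] at hcon
    exact hx₀ (joint_indep q hβ γ hγmem hcon.1 hcon.2 x₀)
  · rw [Finset.mul_sum]
    refine Red.sum A _ fun x _ => ?_
    rw [← mul_assoc]
    exact (hγ x).mul A (red_fam1 A q hb x)
  · rw [Finset.mul_sum]
    refine Red.sum A _ fun x _ => ?_
    rw [← mul_assoc]
    refine Red.mul A ?_ (red_fam2 A q hb x)
    have := Fermat.Agent.S18.Desc.red_qExpand A q (hγ x)
    rwa [map_mul, qExpand_hC] at this

/-- **integrality and residues of a jointly integral linear combination** -/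
theorem joint_ortho_red (f : JIdx n q → LaurentSeries L) (hf : ∀ x, f x ∈ L⟮jqModC L⟯)
    (h1 : ∑ x, f x * fam1 q b x ∈ gaussRing A)
    (h2 : ∑ x, qExpand L q (f x) * fam2 q b x ∈ gaussRing A) :
    ∃ φ : JIdx n q → LaurentSeries (IsLocalRing.ResidueField A),
      (∀ x, Red A (f x) (φ x)) ∧
      (∀ x, φ x ∈ (IsLocalRing.ResidueField A)⟮jqModC (IsLocalRing.ResidueField A)⟯) ∧
      Red A (∑ x, f x * fam1 q b x) (∑ x, φ x * fam1 q β x) ∧
      Red A (∑ x, qExpand L q (f x) * fam2 q b x)
        (∑ x, qExpand (IsLocalRing.ResidueField A) q (φ x) * fam2 q β x) := by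
  by_cases hne : ∃ x, f x ≠ 0
  · obtain ⟨c, hc, γ, hγ, hγmem, hsum, hred1, hred2⟩ := joint_ortho A q hA hb hβ hT f hf hne
    have hcf : ∀ x : LaurentSeries L, x = HahnSeries.C c * (HahnSeries.C c⁻¹ * x) := by
      intro x
      rw [← mul_assoc, ← map_mul, mul_inv_cancel₀ hc, map_one, one_mul]
    have hcA : c ∈ A := by
      rcases hsum with hs | hs
      · refine mem_of_C_mul_mem A q hA hred1 hs ?_
        rw [← hcf]
        exact h1
      · refine mem_of_C_mul_mem A q hA hred2 hs ?_
        rw [← hcf]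
        exact h2
    refine ⟨fun x => HahnSeries.C (IsLocalRing.residue A ⟨c, hcA⟩) * γ x, fun x => ?_,
      fun x => ?_, ?_, ?_⟩
    · rw [hcf (f x)]
      exact (red_const A ⟨c, hcA⟩).mul A (hγ x)
    · refine mul_mem ?_ (hγmem x)
      rw [← algebraMap_eq_hC]
      exact IntermediateField.algebraMap_mem _ _
    · rw [hcf (∑ x, f x * fam1 q b x)]
      have := (red_const A ⟨c, hcA⟩).mul A hred1
      convert this using 1
      rw [Finset.mul_sum]
      refine Finset.sum_congr rfl fun x _ => ?_
      rw [mul_assoc]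
    · rw [hcf (∑ x, qExpand L q (f x) * fam2 q b x)]
      have := (red_const A ⟨c, hcA⟩).mul A hred2
      convert this using 1
      rw [Finset.mul_sum]
      refine Finset.sum_congr rfl fun x _ => ?_
      rw [map_mul, qExpand_hC, mul_assoc]
  · simp only [not_exists, not_not] at hne
    refine ⟨fun _ => 0, fun x => ?_, fun x => zero_mem _, ?_, ?_⟩
    · rw [hne x]; exact red_zero A
    · simp only [hne, zero_mul, Finset.sum_const_zero]
      exact red_zero A
    · simp only [hne, map_zero, zero_mul, Finset.sum_const_zero]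
      exact red_zero A

end Ortho

end Fermat.Agent.S34.Joint
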