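import Fermat.Agent.S34.NodalRR
import Fermat.Agent.S18.DeuringBar

/-!
# C83 (S34), piece A2 (first part): the hyperplane lemma on the nodal fibre

`k` infinite, `F₁`, `F₂` function fields with Riemann's theorem, `N` the nodes.
A multiplicatively stable family of proper subspaces `H n ⊂ LX N (n D₁ + B₁) (n D₂ + B₂)` has a
base point: a place `Q` of `F₁` with `φ.1 ∈ L(n D₁ + B₁ - Q)` for all `φ ∈ H n`, or a place `Q` of
`F₂` with `φ.2 ∈ L(n D₂ + B₂ - Q)` for all `φ ∈ H n`.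

* `pencil_span`     : `L(E) · L(E')` spans `L(E + E')` (large degrees);
* `eventually_full` : a multiplicatively stable family without base point on ONE curve is
                      eventually everything;
* `nodal_hyperplane`: the hyperplane lemma on `C₁ ∪ C₂`.
-/

set_option autoImplicit false
set_option linter.unusedSectionVars false
set_option linter.style.haveILetI false
set_option linter.unusedVariables false
set_option linter.unusedSimpArgs false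
set_option linter.unusedTactic false

open AlgebraicCurve Fermat.Agent.Lib.FF Fermat.Agent.S18.Deuring
open scoped Classical

namespace Fermat.Agent.S34.NodalHP

open Fermat.Agent.S34.Nodal

section One

variable {K F : Type*} [Field K] [Field F] [Algebra K F]

/-- **the pencil trick**: products of sections span -/
theorem pencil_span [Infinite K] (hpf : PlaceFacts K F) {g : ℕ} {c : ℤ} (hR : RThm K F g c)
    (P₀ : Place K F) {E E' : Divisor K F} (hE' : c + 1 ≤ Divisor.degree E')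
    (hE : c + Divisor.degree E' ≤ Divisor.degree E) (V : Submodule K F)
    (hV : ∀ χ ∈ riemannRochSpace E', ∀ φ ∈ riemannRochSpace E, χ * φ ∈ V) :
    riemannRochSpace (E + E') ≤ V := by
  obtain ⟨χ₁, hχ₁, hχ₁0, -⟩ := exists_ord_eq hpf hR P₀ hE'
  have hZ₁ : 0 ≤ hpf.divOf χ₁ + E' := residual_nonneg hpf hχ₁0 hχ₁
  obtain ⟨χ₂, hχ₂, hχ₂n⟩ := exists_forall_notMem hpf (riemannRochSpace E') E'
    (insert P₀ (hpf.divOf χ₁ + E').support)
    (fun Q _ => exists_notMem_sub_single hpf hR Q hE')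
  have hχ₂0 : χ₂ ≠ 0 :=
    (ord_eq_of_notMem_sub_single hχ₂ (hχ₂n P₀ (Finset.mem_insert_self _ _))).1
  have hZ₂ : 0 ≤ hpf.divOf χ₂ + E' := residual_nonneg hpf hχ₂0 hχ₂
  have hdisj : ∀ Q, (hpf.divOf χ₁ + E') Q = 0 ∨ (hpf.divOf χ₂ + E') Q = 0 := by
    intro Q
    by_cases hQ : (hpf.divOf χ₁ + E') Q = 0
    · exact Or.inl hQ
    right
    have hQT : Q ∈ insert P₀ (hpf.divOf χ₁ + E').support :=
      Finset.mem_insert_of_mem (Finsupp.mem_support_iff.mpr hQ)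
    have := (ord_eq_of_notMem_sub_single hχ₂ (hχ₂n Q hQT)).2
    rw [Finsupp.add_apply, hpf.divOf_apply, this]
    ring
  have hdeg : c ≤ Divisor.degree (E + E' - (hpf.divOf χ₁ + E') - (hpf.divOf χ₂ + E')) := by
    simp only [map_sub, map_add, hpf.degree_divOf]
    omega
  have hsup := rrSpace_sup_of_disjoint hpf hR P₀ hZ₁ hZ₂ hdisj hdeg
  rw [← hsup]
  refine sup_le ?_ ?_
  · intro h hh
    have h1 := div_mem_of_mem_sub_residual hpf hχ₁0 hh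
    rw [add_sub_cancel_right] at h1
    have := hV χ₁ hχ₁ _ h1
    rwa [mul_comm h, ← mul_assoc, mul_inv_cancel₀ hχ₁0, one_mul] at this
  · intro h hh
    have h1 := div_mem_of_mem_sub_residual hpf hχ₂0 hh
    rw [add_sub_cancel_right] at h1
    have := hV χ₂ hχ₂ _ h1
    rwa [mul_comm h, ← mul_assoc, mul_inv_cancel₀ hχ₂0, one_mul] at this

/-- a multiplicatively stable family without base point is eventually everything -/
theorem eventually_full [Infinite K] (hpf : PlaceFacts K F) {g : ℕ} {c : ℤ} (hR : RThm K F g c)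
    (Dk : Divisor K F) (hψ : 0 < Divisor.degree Dk) (B : Divisor K F) (N₀ m₀ : ℕ)
    (H : ℕ → Submodule K F)
    (h_le : ∀ n, N₀ ≤ n → H n ≤ riemannRochSpace (n • Dk + B))
    (h_mul : ∀ n m, N₀ ≤ n → m₀ ≤ m → ∀ φ ∈ H n, ∀ χ ∈ riemannRochSpace (m • Dk),
      χ * φ ∈ H (n + m))
    (h_bp : ∀ Q : Place K F, ∃ n, N₀ ≤ n ∧ ∃ φ ∈ H n,
      φ ∉ riemannRochSpace (n • Dk + B - Finsupp.single Q 1)) :
    ∃ n₀, ∀ n, n₀ ≤ n → H n = riemannRochSpace (n • Dk + B) := by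
  obtain ⟨Q₀⟩ := exists_place_of_degree_pos hψ
  obtain ⟨T₁, hT₁⟩ := exists_threshold hψ (c + 1)
  set m₁ : ℕ := max (max m₀ T₁) 1 with hm₁
  have hm₁a : m₀ ≤ m₁ := le_trans (le_max_left _ _) (le_max_left _ _)
  have hm₁b : T₁ ≤ m₁ := le_trans (le_max_right _ _) (le_max_left _ _)
  have hm₁c : 1 ≤ m₁ := le_max_right _ _
  have hdegm : ∀ m : ℕ, m₁ ≤ m → c + 1 ≤ Divisor.degree (m • Dk) := by
    intro m hm
    rw [degree_nsmul']
    exact hT₁ m (le_trans hm₁b hm)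
  -- base points push up
  have bp_up : ∀ (Q : Place K F) (N' : ℕ), ∃ n, N₀ ≤ n ∧ N' ≤ n ∧ ∃ φ ∈ H n,
      φ ∉ riemannRochSpace (n • Dk + B - Finsupp.single Q 1) := by
    intro Q N'
    obtain ⟨n, hn, φ, hφ, hφn⟩ := h_bp Q
    obtain ⟨hφ0, hφord⟩ := ord_eq_of_notMem_sub_single (h_le n hn hφ) hφn
    set m : ℕ := max m₁ N' with hm
    obtain ⟨χ, hχ, hχ0, hχord⟩ := exists_ord_eq hpf hR (E := m • Dk) Q
      (hdegm m (le_max_left _ _))
    refine ⟨n + m, by omega, by have := le_max_right m₁ N'; omega, χ * φ,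
      h_mul n m hn (le_trans hm₁a (le_max_left _ _)) φ hφ χ hχ,
      notMem_sub_single_of_ord_eq (mul_ne_zero hχ0 hφ0) ?_⟩
    rw [Q.ord_mul hχ0 hφ0, hχord, hφord]
    simp only [Finsupp.add_apply, Finsupp.smul_apply, nsmul_eq_mul]
    push_cast
    ring
  -- full infinitely often
  have hinf : ∀ N', ∃ n, N₀ ≤ n ∧ N' ≤ n ∧ H n = riemannRochSpace (n • Dk + B) := by
    intro N'
    by_contra hcon
    have hne : ∀ n, max N₀ N' ≤ n → H n ≠ riemannRochSpace (n • Dk + B) := by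
      intro n hn heq
      exact hcon ⟨n, le_trans (le_max_left _ _) hn, le_trans (le_max_right _ _) hn, heq⟩
    have hnz : ∃ n₁, max N₀ N' ≤ n₁ ∧ H n₁ ≠ ⊥ := by
      obtain ⟨n, hn, hn', φ, hφ, hφn⟩ := bp_up Q₀ N'
      refine ⟨n, max_le hn hn', fun hbot => ?_⟩
      rw [hbot, Submodule.mem_bot] at hφ
      rw [hφ] at hφn
      exact hφn (Submodule.zero_mem _)
    obtain ⟨Q, hQ⟩ := hyperplane_base_point hpf hR Dk hψ B (max N₀ N') m₀ H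
      (fun n hn => h_le n (le_trans (le_max_left _ _) hn)) hne hnz
      (fun n m hn hm => h_mul n m (le_trans (le_max_left _ _) hn) hm)
    obtain ⟨n, hn, hn', φ, hφ, hφn⟩ := bp_up Q N'
    exact hφn (hQ n (max_le hn hn') hφ)
  -- propagation
  set ψ : ℤ := Divisor.degree Dk with hψdef
  obtain ⟨N₁, hN₁⟩ := exists_threshold hψ (c + 2 * m₁ * ψ - Divisor.degree B)
  obtain ⟨n₁, hn₁0, hn₁1, hn₁⟩ := hinf N₁
  have step : ∀ n m, n₁ ≤ n → m₁ ≤ m → m ≤ 2 * m₁ → H n = riemannRochSpace (n • Dk + B) →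
      H (n + m) = riemannRochSpace ((n + m) • Dk + B) := by
    intro n m hn hm hm2 hfull
    refine le_antisymm (h_le _ (by omega)) ?_
    have hEE : (n + m) • Dk + B = (n • Dk + B) + m • Dk := by
      rw [add_smul]; abel
    rw [hEE]
    refine pencil_span hpf hR Q₀ (hdegm m hm) ?_ (H (n + m)) ?_
    · rw [map_add, degree_nsmul', degree_nsmul']
      have h1 := hN₁ n (le_trans hn₁1 hn)
      have h2 : (m : ℤ) * ψ ≤ 2 * m₁ * ψ := by
        have : (m : ℤ) ≤ 2 * m₁ := by exact_mod_cast hm2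
        nlinarith
      linarith
    · intro χ hχ φ hφ
      rw [← hfull] at hφ
      exact h_mul n m (le_trans hn₁0 hn) (le_trans hm₁a hm) φ hφ χ hχ
  refine ⟨n₁ + m₁, fun n => ?_⟩
  induction n using Nat.strong_induction_on with
  | _ n ih =>
    intro hn
    by_cases hlt : n < n₁ + 2 * m₁
    · have := step n₁ (n - n₁) (le_refl _) (by omega) (by omega) hn₁
      have e : n₁ + (n - n₁) = n := by omega
      rwa [e] at this
    · have h1 := ih (n - m₁) (by omega) (by omega)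
      have := step (n - m₁) m₁ (by omega) (le_refl _) (by omega) h1
      have e : n - m₁ + m₁ = n := by omega
      rwa [e] at this

end One

section Two

variable {k F₁ F₂ : Type*} [Field k] [Field F₁] [Field F₂] [Algebra k F₁] [Algebra k F₂]
variable {N : Finset (Place k F₁ × Place k F₂)}

/-- one-sided sections on the first component -/
theorem oneSided_mem₁ {E₁ : Divisor k F₁} (E₂ : Divisor k F₂) (hE₁ : ∀ p ∈ N, E₁ p.1 = 0)
    {φ₁ : F₁} (h : φ₁ ∈ riemannRochSpace (E₁ - sumPl (nodes₁ N))) :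
    ((φ₁, (0 : F₂)) : F₁ × F₂) ∈ LX N E₁ E₂ := by
  have hEZ : ∀ z ∈ nodes₁ N, E₁ z = 0 := by
    intro z hz
    obtain ⟨p, hp, rfl⟩ := mem_nodes₁.mp hz
    exact hE₁ p hp
  obtain ⟨hφE, hval⟩ := (mem_rrSpace_sub_sumPl_iff hEZ).mp h
  exact ⟨hφE, Submodule.zero_mem _, fun p hp =>
    ⟨0, hval p.1 (mem_nodes₁.mpr ⟨p, hp, rfl⟩), hasValue_zero' p.2⟩⟩

/-- one-sided sections on the second component -/
theorem oneSided_mem₂ (E₁ : Divisor k F₁) {E₂ : Divisor k F₂} (hE₂ : ∀ p ∈ N, E₂ p.2 = 0)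
    {φ₂ : F₂} (h : φ₂ ∈ riemannRochSpace (E₂ - sumPl (nodes₂ N))) :
    (((0 : F₁), φ₂) : F₁ × F₂) ∈ LX N E₁ E₂ := by
  have hEZ : ∀ z ∈ nodes₂ N, E₂ z = 0 := by
    intro z hz
    obtain ⟨p, hp, rfl⟩ := mem_nodes₂.mp hz
    exact hE₂ p hp
  obtain ⟨hφE, hval⟩ := (mem_rrSpace_sub_sumPl_iff hEZ).mp h
  exact ⟨Submodule.zero_mem _, hφE, fun p hp =>
    ⟨0, hasValue_zero' p.1, hval p.2 (mem_nodes₂.mpr ⟨p, hp, rfl⟩)⟩⟩

/-- sections vanishing at all nodes, first component -/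
theorem fst_mem_sub_nodes {E₁ : Divisor k F₁} {E₂ : Divisor k F₂} (hE₁ : ∀ p ∈ N, E₁ p.1 = 0)
    {φ : F₁ × F₂} (hφ : φ ∈ LX N E₁ E₂) (h0 : ∀ p ∈ N, HasValue p.1 φ.1 0) :
    φ.1 ∈ riemannRochSpace (E₁ - sumPl (nodes₁ N)) := by
  have hEZ : ∀ z ∈ nodes₁ N, E₁ z = 0 := by
    intro z hz
    obtain ⟨p, hp, rfl⟩ := mem_nodes₁.mp hz
    exact hE₁ p hp
  rw [mem_rrSpace_sub_sumPl_iff hEZ]
  refine ⟨hφ.1, fun z hz => ?_⟩
  obtain ⟨p, hp, rfl⟩ := mem_nodes₁.mp hz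
  exact h0 p hp

/-- sections vanishing at all nodes, second component -/
theorem snd_mem_sub_nodes {E₁ : Divisor k F₁} {E₂ : Divisor k F₂} (hE₂ : ∀ p ∈ N, E₂ p.2 = 0)
    {φ : F₁ × F₂} (hφ : φ ∈ LX N E₁ E₂) (h0 : ∀ p ∈ N, HasValue p.2 φ.2 0) :
    φ.2 ∈ riemannRochSpace (E₂ - sumPl (nodes₂ N)) := by
  have hEZ : ∀ z ∈ nodes₂ N, E₂ z = 0 := by
    intro z hz
    obtain ⟨p, hp, rfl⟩ := mem_nodes₂.mp hz
    exact hE₂ p hp
  rw [mem_rrSpace_sub_sumPl_iff hEZ]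
  refine ⟨hφ.2.1, fun z hz => ?_⟩
  obtain ⟨p, hp, rfl⟩ := mem_nodes₂.mp hz
  exact h0 p hp

variable (hpf₁ : PlaceFacts k F₁) (hpf₂ : PlaceFacts k F₂)
variable {g₁ g₂ : ℕ} {c₁ c₂ : ℤ} (hR₁ : RThm k F₁ g₁ c₁) (hR₂ : RThm k F₂ g₂ c₂)

include hpf₁ hpf₂ hR₂ in
/-- every section on `C₁` extends to a matching pair -/
theorem exists_snd_of_fst (hinj₂ : ∀ p ∈ N, ∀ p' ∈ N, p.2 = p'.2 → p = p')
    {E₁ : Divisor k F₁} {E₂ : Divisor k F₂} (hE₁ : ∀ p ∈ N, E₁ p.1 = 0)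
    (hE₂ : ∀ p ∈ N, E₂ p.2 = 0) (hdeg₂ : c₂ + N.card ≤ Divisor.degree E₂)
    {φ₁ : F₁} (hφ₁ : φ₁ ∈ riemannRochSpace E₁) :
    ∃ φ₂ : F₂, (φ₁, φ₂) ∈ LX N E₁ E₂ := by
  have hEZ : ∀ z ∈ nodes₂ N, E₂ z = 0 := by
    intro z hz
    obtain ⟨p, hp, rfl⟩ := mem_nodes₂.mp hz
    exact hE₂ p hp
  have hdeg : c₂ + (nodes₂ N).card ≤ Divisor.degree E₂ := by
    rw [card_nodes₂ hinj₂]; exact hdeg₂
  let a : Place k F₂ → k := fun z =>
    if h : ∃ p ∈ N, p.2 = z then valueAt h.choose.1 φ₁ else 0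
  obtain ⟨φ₂, hφ₂, hval⟩ := exists_interp hpf₂ hR₂ hEZ hdeg a
  refine ⟨φ₂, hφ₁, hφ₂, fun p hp => ?_⟩
  have hex : ∃ p' ∈ N, p'.2 = p.2 := ⟨p, hp, rfl⟩
  have hch : hex.choose = p := hinj₂ _ hex.choose_spec.1 _ hp hex.choose_spec.2
  have ha : a p.2 = valueAt p.1 φ₁ := by
    show (if h : ∃ p' ∈ N, p'.2 = p.2 then valueAt h.choose.1 φ₁ else 0) = _
    rw [dif_pos hex, hch]
  refine ⟨a p.2, ?_, hval p.2 (mem_nodes₂.mpr ⟨p, hp, rfl⟩)⟩
  rw [ha]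
  exact hasValue_valueAt (hpf₁.res p.1) (mem_valuationSubring_of_mem_rrSpace hφ₁ (hE₁ p hp))

include hpf₁ hpf₂ hR₁ hR₂ in
/-- the conductor part on the first component is eventually everything -/
theorem cond_full₁ [Infinite k]
    (hinj₁ : ∀ p ∈ N, ∀ p' ∈ N, p.1 = p'.1 → p = p')
    (hinj₂ : ∀ p ∈ N, ∀ p' ∈ N, p.2 = p'.2 → p = p')
    (D₁ : Divisor k F₁) (D₂ : Divisor k F₂)
    (hψ₁ : 0 < Divisor.degree D₁) (hψ₂ : 0 < Divisor.degree D₂)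
    (hD₁ : ∀ p ∈ N, D₁ p.1 = 0) (hD₂ : ∀ p ∈ N, D₂ p.2 = 0)
    (B₁ : Divisor k F₁) (B₂ : Divisor k F₂)
    (N₀ m₀ : ℕ) (H : ℕ → Submodule k (F₁ × F₂))
    (h_le : ∀ n, N₀ ≤ n → H n ≤ LX N (n • D₁ + B₁) (n • D₂ + B₂))
    (h_mul : ∀ n m, N₀ ≤ n → m₀ ≤ m → ∀ φ ∈ H n, ∀ χ ∈ LX N (m • D₁) (m • D₂),
      χ * φ ∈ H (n + m))
    (hQ₁ : ∀ Q : Place k F₁, ∃ n, N₀ ≤ n ∧ ∃ φ ∈ H n,
      φ.1 ∉ riemannRochSpace (n • D₁ + B₁ - Finsupp.single Q 1)) :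
    ∃ n₀, ∀ n, n₀ ≤ n → ∀ φ₁ ∈ riemannRochSpace (n • D₁ + B₁ - sumPl (nodes₁ N)),
      ((φ₁, (0 : F₂)) : F₁ × F₂) ∈ H n := by
  obtain ⟨T₁, hT₁⟩ := exists_threshold hψ₁ (c₁ + N.card + 1)
  obtain ⟨T₂, hT₂⟩ := exists_threshold hψ₂ (c₂ + N.card + 1)
  set m₁ : ℕ := max m₀ (max T₁ T₂) with hm₁
  have hm₁a : m₀ ≤ m₁ := le_max_left _ _
  have hdeg₁ : ∀ m : ℕ, m₁ ≤ m → c₁ + N.card + 1 ≤ Divisor.degree (m • D₁) := by
    intro m hm
    rw [degree_nsmul']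
    exact hT₁ m (le_trans (le_trans (le_max_left _ _) (le_max_right _ _)) hm)
  have hdeg₂ : ∀ m : ℕ, m₁ ≤ m → c₂ + N.card + 1 ≤ Divisor.degree (m • D₂) := by
    intro m hm
    rw [degree_nsmul']
    exact hT₂ m (le_trans (le_trans (le_max_right _ _) (le_max_right _ _)) hm)
  have hmD₁ : ∀ m : ℕ, ∀ p ∈ N, (m • D₁) p.1 = 0 := by
    intro m p hp
    rw [Finsupp.smul_apply, hD₁ p hp, smul_zero]
  have hmD₂ : ∀ m : ℕ, ∀ p ∈ N, (m • D₂) p.2 = 0 := by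
    intro m p hp
    rw [Finsupp.smul_apply, hD₂ p hp, smul_zero]
  set K₁ : ℕ → Submodule k F₁ := fun n =>
    riemannRochSpace (n • D₁ + (B₁ - sumPl (nodes₁ N))) ⊓
      (H n).comap (LinearMap.inl k F₁ F₂) with hK₁
  have hfull : ∃ n₀, ∀ n, n₀ ≤ n →
      K₁ n = riemannRochSpace (n • D₁ + (B₁ - sumPl (nodes₁ N))) := by
    refine eventually_full hpf₁ hR₁ D₁ hψ₁ (B₁ - sumPl (nodes₁ N)) N₀ m₁ K₁
      (fun n _ => inf_le_left) ?_ ?_
    · intro n m hn hm φ hφ χ hχ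
      obtain ⟨χ₂, hχ₂⟩ := exists_snd_of_fst hpf₁ hpf₂ hR₂ hinj₂ (hmD₁ m) (hmD₂ m)
        (by have := hdeg₂ m hm; omega) hχ
      refine ⟨?_, ?_⟩
      · have := mul_mem_rrSpace hχ hφ.1
        have e : m • D₁ + (n • D₁ + (B₁ - sumPl (nodes₁ N)))
            = (n + m) • D₁ + (B₁ - sumPl (nodes₁ N)) := by
          rw [add_smul]; abel
        rwa [e] at this
      · show ((χ * φ, (0 : F₂)) : F₁ × F₂) ∈ H (n + m)
        have h1 : ((φ, (0 : F₂)) : F₁ × F₂) ∈ H n := hφ.2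
        have := h_mul n m hn (le_trans hm₁a hm) (φ, 0) h1 (χ, χ₂) hχ₂
        have e : ((χ, χ₂) : F₁ × F₂) * (φ, 0) = (χ * φ, 0) := by
          ext
          · rfl
          · exact mul_zero _
        rwa [e] at this
    · intro Q
      obtain ⟨n, hn, φ, hφ, hφn⟩ := hQ₁ Q
      have hφL := h_le n hn hφ
      obtain ⟨hφ0, hφord⟩ := ord_eq_of_notMem_sub_single hφL.1 hφn
      obtain ⟨ψ₁, hψ₁m, hψ₁0, hψ₁ord⟩ := exists_ord_eq hpf₁ hR₁
        (E := m₁ • D₁ - sumPl (nodes₁ N)) Q (by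
          rw [map_sub, degree_sumPl hpf₁, card_nodes₁ hinj₁]
          have := hdeg₁ m₁ le_rfl
          omega)
      have hmem := oneSided_mem₁ (N := N) (m₁ • D₂) (hmD₁ m₁) hψ₁m
      have hprod := h_mul n m₁ hn hm₁a φ hφ (ψ₁, 0) hmem
      refine ⟨n + m₁, by omega, ψ₁ * φ.1, ⟨?_, ?_⟩, ?_⟩
      · have := mul_mem_rrSpace hψ₁m hφL.1
        have e : m₁ • D₁ - sumPl (nodes₁ N) + (n • D₁ + B₁)
            = (n + m₁) • D₁ + (B₁ - sumPl (nodes₁ N)) := by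
          rw [add_smul]; abel
        rwa [e] at this
      · show ((ψ₁ * φ.1, (0 : F₂)) : F₁ × F₂) ∈ H (n + m₁)
        have e : ((ψ₁, (0 : F₂)) : F₁ × F₂) * φ = (ψ₁ * φ.1, 0) := by
          ext
          · rfl
          · exact zero_mul _
        rwa [e] at hprod
      · refine notMem_sub_single_of_ord_eq (mul_ne_zero hψ₁0 hφ0) ?_
        rw [Q.ord_mul hψ₁0 hφ0, hψ₁ord, hφord]
        simp only [Finsupp.add_apply, Finsupp.sub_apply, Finsupp.smul_apply, nsmul_eq_mul]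
        push_cast
        ring
  obtain ⟨n₀, hn₀⟩ := hfull
  refine ⟨n₀, fun n hn φ₁ hφ₁ => ?_⟩
  have h1 : φ₁ ∈ K₁ n := by
    rw [hn₀ n hn, ← add_sub_assoc]
    exact hφ₁
  exact h1.2

include hpf₁ hpf₂ hR₁ hR₂ in
/-- the conductor part on the second component is eventually everything -/
theorem cond_full₂ [Infinite k]
    (hinj₁ : ∀ p ∈ N, ∀ p' ∈ N, p.1 = p'.1 → p = p')
    (hinj₂ : ∀ p ∈ N, ∀ p' ∈ N, p.2 = p'.2 → p = p')
    (D₁ : Divisor k F₁) (D₂ : Divisor k F₂)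
    (hψ₁ : 0 < Divisor.degree D₁) (hψ₂ : 0 < Divisor.degree D₂)
    (hD₁ : ∀ p ∈ N, D₁ p.1 = 0) (hD₂ : ∀ p ∈ N, D₂ p.2 = 0)
    (B₁ : Divisor k F₁) (B₂ : Divisor k F₂)
    (N₀ m₀ : ℕ) (H : ℕ → Submodule k (F₁ × F₂))
    (h_le : ∀ n, N₀ ≤ n → H n ≤ LX N (n • D₁ + B₁) (n • D₂ + B₂))
    (h_mul : ∀ n m, N₀ ≤ n → m₀ ≤ m → ∀ φ ∈ H n, ∀ χ ∈ LX N (m • D₁) (m • D₂),
      χ * φ ∈ H (n + m))
    (hQ₂ : ∀ Q : Place k F₂, ∃ n, N₀ ≤ n ∧ ∃ φ ∈ H n,
      φ.2 ∉ riemannRochSpace (n • D₂ + B₂ - Finsupp.single Q 1)) :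
    ∃ n₀, ∀ n, n₀ ≤ n → ∀ φ₂ ∈ riemannRochSpace (n • D₂ + B₂ - sumPl (nodes₂ N)),
      (((0 : F₁), φ₂) : F₁ × F₂) ∈ H n := by
  obtain ⟨T₁, hT₁⟩ := exists_threshold hψ₁ (c₁ + N.card + 1)
  obtain ⟨T₂, hT₂⟩ := exists_threshold hψ₂ (c₂ + N.card + 1)
  set m₁ : ℕ := max m₀ (max T₁ T₂) with hm₁
  have hm₁a : m₀ ≤ m₁ := le_max_left _ _
  have hdeg₁ : ∀ m : ℕ, m₁ ≤ m → c₁ + N.card + 1 ≤ Divisor.degree (m • D₁) := by
    intro m hm
    rw [degree_nsmul']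
    exact hT₁ m (le_trans (le_trans (le_max_left _ _) (le_max_right _ _)) hm)
  have hdeg₂ : ∀ m : ℕ, m₁ ≤ m → c₂ + N.card + 1 ≤ Divisor.degree (m • D₂) := by
    intro m hm
    rw [degree_nsmul']
    exact hT₂ m (le_trans (le_trans (le_max_right _ _) (le_max_right _ _)) hm)
  have hmD₁ : ∀ m : ℕ, ∀ p ∈ N, (m • D₁) p.1 = 0 := by
    intro m p hp
    rw [Finsupp.smul_apply, hD₁ p hp, smul_zero]
  have hmD₂ : ∀ m : ℕ, ∀ p ∈ N, (m • D₂) p.2 = 0 := by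
    intro m p hp
    rw [Finsupp.smul_apply, hD₂ p hp, smul_zero]
  set K₂ : ℕ → Submodule k F₂ := fun n =>
    riemannRochSpace (n • D₂ + (B₂ - sumPl (nodes₂ N))) ⊓
      (H n).comap (LinearMap.inr k F₁ F₂) with hK₂
  have hfull : ∃ n₀, ∀ n, n₀ ≤ n →
      K₂ n = riemannRochSpace (n • D₂ + (B₂ - sumPl (nodes₂ N))) := by
    refine eventually_full hpf₂ hR₂ D₂ hψ₂ (B₂ - sumPl (nodes₂ N)) N₀ m₁ K₂
      (fun n _ => inf_le_left) ?_ ?_
    · intro n m hn hm φ hφ χ hχ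
      obtain ⟨χ₁, hχ₁⟩ := exists_fst_of_snd hpf₁ hpf₂ hR₁ hinj₁ (hmD₁ m) (hmD₂ m)
        (by have := hdeg₁ m hm; omega) hχ
      refine ⟨?_, ?_⟩
      · have := mul_mem_rrSpace hχ hφ.1
        have e : m • D₂ + (n • D₂ + (B₂ - sumPl (nodes₂ N)))
            = (n + m) • D₂ + (B₂ - sumPl (nodes₂ N)) := by
          rw [add_smul]; abel
        rwa [e] at this
      · show (((0 : F₁), χ * φ) : F₁ × F₂) ∈ H (n + m)
        have h1 : (((0 : F₁), φ) : F₁ × F₂) ∈ H n := hφ.2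
        have := h_mul n m hn (le_trans hm₁a hm) (0, φ) h1 (χ₁, χ) hχ₁
        have e : ((χ₁, χ) : F₁ × F₂) * (0, φ) = (0, χ * φ) := by
          ext
          · exact mul_zero _
          · rfl
        rwa [e] at this
    · intro Q
      obtain ⟨n, hn, φ, hφ, hφn⟩ := hQ₂ Q
      have hφL := h_le n hn hφ
      obtain ⟨hφ0, hφord⟩ := ord_eq_of_notMem_sub_single hφL.2.1 hφn
      obtain ⟨ψ₂, hψ₂m, hψ₂0, hψ₂ord⟩ := exists_ord_eq hpf₂ hR₂
        (E := m₁ • D₂ - sumPl (nodes₂ N)) Q (by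
          rw [map_sub, degree_sumPl hpf₂, card_nodes₂ hinj₂]
          have := hdeg₂ m₁ le_rfl
          omega)
      have hmem := oneSided_mem₂ (N := N) (m₁ • D₁) (hmD₂ m₁) hψ₂m
      have hprod := h_mul n m₁ hn hm₁a φ hφ (0, ψ₂) hmem
      refine ⟨n + m₁, by omega, ψ₂ * φ.2, ⟨?_, ?_⟩, ?_⟩
      · have := mul_mem_rrSpace hψ₂m hφL.2.1
        have e : m₁ • D₂ - sumPl (nodes₂ N) + (n • D₂ + B₂)
            = (n + m₁) • D₂ + (B₂ - sumPl (nodes₂ N)) := by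
          rw [add_smul]; abel
        rwa [e] at this
      · show (((0 : F₁), ψ₂ * φ.2) : F₁ × F₂) ∈ H (n + m₁)
        have e : (((0 : F₁), ψ₂) : F₁ × F₂) * φ = (0, ψ₂ * φ.2) := by
          ext
          · exact zero_mul _
          · rfl
        rwa [e] at hprod
      · refine notMem_sub_single_of_ord_eq (mul_ne_zero hψ₂0 hφ0) ?_
        rw [Q.ord_mul hψ₂0 hφ0, hψ₂ord, hφord]
        simp only [Finsupp.add_apply, Finsupp.sub_apply, Finsupp.smul_apply, nsmul_eq_mul]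
        push_cast
        ring
  obtain ⟨n₀, hn₀⟩ := hfull
  refine ⟨n₀, fun n hn φ₂ hφ₂ => ?_⟩
  have h1 : φ₂ ∈ K₂ n := by
    rw [hn₀ n hn, ← add_sub_assoc]
    exact hφ₂
  exact h1.2

include hpf₁ hpf₂ hR₁ hR₂ in
/-- **the hyperplane lemma on the nodal fibre** `C₁ ∪ C₂` -/
theorem _root_.Fermat.Agent.S34.Nodal.nodal_hyperplane [Infinite k]
    (hinj₁ : ∀ p ∈ N, ∀ p' ∈ N, p.1 = p'.1 → p = p')
    (hinj₂ : ∀ p ∈ N, ∀ p' ∈ N, p.2 = p'.2 → p = p')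
    (D₁ : Divisor k F₁) (D₂ : Divisor k F₂)
    (hψ₁ : 0 < Divisor.degree D₁) (hψ₂ : 0 < Divisor.degree D₂)
    (hD₁ : ∀ p ∈ N, D₁ p.1 = 0) (hD₂ : ∀ p ∈ N, D₂ p.2 = 0)
    (B₁ : Divisor k F₁) (B₂ : Divisor k F₂)
    (hB₁ : ∀ p ∈ N, B₁ p.1 = 0) (hB₂ : ∀ p ∈ N, B₂ p.2 = 0)
    (N₀ m₀ : ℕ) (H : ℕ → Submodule k (F₁ × F₂))
    (h_le : ∀ n, N₀ ≤ n → H n ≤ LX N (n • D₁ + B₁) (n • D₂ + B₂))
    (h_ne : ∀ n, N₀ ≤ n → H n ≠ LX N (n • D₁ + B₁) (n • D₂ + B₂))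
    (h_mul : ∀ n m, N₀ ≤ n → m₀ ≤ m → ∀ φ ∈ H n, ∀ χ ∈ LX N (m • D₁) (m • D₂),
      χ * φ ∈ H (n + m)) :
    (∃ Q : Place k F₁, ∀ n, N₀ ≤ n → ∀ φ ∈ H n,
        φ.1 ∈ riemannRochSpace (n • D₁ + B₁ - Finsupp.single Q 1)) ∨
    (∃ Q : Place k F₂, ∀ n, N₀ ≤ n → ∀ φ ∈ H n,
        φ.2 ∈ riemannRochSpace (n • D₂ + B₂ - Finsupp.single Q 1)) := by
  by_contra hcon
  rw [not_or] at hcon
  obtain ⟨hc₁, hc₂⟩ := hcon
  have hQ₁ : ∀ Q : Place k F₁, ∃ n, N₀ ≤ n ∧ ∃ φ ∈ H n,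
      φ.1 ∉ riemannRochSpace (n • D₁ + B₁ - Finsupp.single Q 1) := by
    intro Q
    by_contra hn
    apply hc₁
    refine ⟨Q, fun n hn' φ hφ => ?_⟩
    by_contra hφn
    exact hn ⟨n, hn', φ, hφ, hφn⟩
  have hQ₂ : ∀ Q : Place k F₂, ∃ n, N₀ ≤ n ∧ ∃ φ ∈ H n,
      φ.2 ∉ riemannRochSpace (n • D₂ + B₂ - Finsupp.single Q 1) := by
    intro Q
    by_contra hn
    apply hc₂
    refine ⟨Q, fun n hn' φ hφ => ?_⟩
    by_contra hφn
    exact hn ⟨n, hn', φ, hφ, hφn⟩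
  obtain ⟨a₁, ha₁⟩ := cond_full₁ hpf₁ hpf₂ hR₁ hR₂ hinj₁ hinj₂ D₁ D₂ hψ₁ hψ₂ hD₁ hD₂ B₁ B₂
    N₀ m₀ H h_le h_mul hQ₁
  obtain ⟨a₂, ha₂⟩ := cond_full₂ hpf₁ hpf₂ hR₁ hR₂ hinj₁ hinj₂ D₁ D₂ hψ₁ hψ₂ hD₁ hD₂ B₁ B₂
    N₀ m₀ H h_le h_mul hQ₂
  choose nQ hnQ φQ hφQ hφQn using hQ₁
  obtain ⟨T₁, hT₁⟩ := exists_threshold hψ₁ (c₁ + N.card)
  obtain ⟨T₂, hT₂⟩ := exists_threshold hψ₂ (c₂ + N.card)
  set m₁ : ℕ := max m₀ (max T₁ T₂) with hm₁
  have hm₁a : m₀ ≤ m₁ := le_max_left _ _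
  have hdeg₁ : ∀ m : ℕ, m₁ ≤ m → c₁ + N.card ≤ Divisor.degree (m • D₁) := by
    intro m hm
    rw [degree_nsmul']
    exact hT₁ m (le_trans (le_trans (le_max_left _ _) (le_max_right _ _)) hm)
  have hdeg₂ : ∀ m : ℕ, m₁ ≤ m → c₂ + N.card ≤ Divisor.degree (m • D₂) := by
    intro m hm
    rw [degree_nsmul']
    exact hT₂ m (le_trans (le_trans (le_max_right _ _) (le_max_right _ _)) hm)
  have hmD₁ : ∀ m : ℕ, ∀ p ∈ N, (m • D₁) p.1 = 0 := by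
    intro m p hp
    rw [Finsupp.smul_apply, hD₁ p hp, smul_zero]
  have hmD₂ : ∀ m : ℕ, ∀ p ∈ N, (m • D₂) p.2 = 0 := by
    intro m p hp
    rw [Finsupp.smul_apply, hD₂ p hp, smul_zero]
  set n : ℕ := max N₀ (max a₁ a₂) + (∑ p ∈ N, nQ p.1) + m₁ with hn
  have hnp : ∀ p ∈ N, nQ p.1 + m₁ ≤ n := by
    intro p hp
    have := Finset.single_le_sum (f := fun p : Place k F₁ × Place k F₂ => nQ p.1)
      (fun i _ => Nat.zero_le _) hp
    omega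
  have hnN : N₀ ≤ n := by
    have := le_max_left N₀ (max a₁ a₂)
    omega
  have hna₁ : a₁ ≤ n := by
    have := le_trans (le_max_left a₁ a₂) (le_max_right N₀ (max a₁ a₂))
    omega
  have hna₂ : a₂ ≤ n := by
    have := le_trans (le_max_right a₁ a₂) (le_max_right N₀ (max a₁ a₂))
    omega
  have hnE₁ : ∀ p ∈ N, (n • D₁ + B₁) p.1 = 0 := by
    intro p hp
    rw [Finsupp.add_apply, hmD₁ n p hp, hB₁ p hp, add_zero]
  have hnE₂ : ∀ p ∈ N, (n • D₂ + B₂) p.2 = 0 := by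
    intro p hp
    rw [Finsupp.add_apply, hmD₂ n p hp, hB₂ p hp, add_zero]
  -- node deltas in `H n`
  have hE : ∀ p : Place k F₁ × Place k F₂, ∃ e : F₁ × F₂, p ∈ N →
      (e ∈ H n ∧ HasValue p.1 e.1 1 ∧ HasValue p.2 e.2 1 ∧
        ∀ p' ∈ N, p' ≠ p → HasValue p'.1 e.1 0 ∧ HasValue p'.2 e.2 0) := by
    intro p
    by_cases hp : p ∈ N
    swap
    · exact ⟨0, fun h => absurd h hp⟩
    have hφL := h_le _ (hnQ p.1) (hφQ p.1)
    obtain ⟨hφ0, hφord⟩ := ord_eq_of_notMem_sub_single hφL.1 (hφQn p.1)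
    obtain ⟨v, hv1, hv2⟩ := hφL.2.2 p hp
    have hv0 : v ≠ 0 := by
      rintro rfl
      rcases hasValue_zero_iff.mp hv1 with h | h
      · exact hφ0 h
      · rw [hφord, Finsupp.add_apply, hmD₁ _ p hp, hB₁ p hp, add_zero, neg_zero] at h
        exact lt_irrefl _ h
    have hge : m₁ ≤ n - nQ p.1 := by
      have := hnp p hp
      omega
    obtain ⟨δ, hδ, hδ1, hδ2, hδo⟩ := exists_node_delta hpf₁ hpf₂ hR₁ hR₂ hinj₁ hinj₂
      (hmD₁ (n - nQ p.1)) (hmD₂ (n - nQ p.1)) (hdeg₁ _ hge) (hdeg₂ _ hge) hp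
    have hmem := h_mul (nQ p.1) (n - nQ p.1) (hnQ p.1) (le_trans hm₁a hge) (φQ p.1) (hφQ p.1)
      δ hδ
    have e : nQ p.1 + (n - nQ p.1) = n := by
      have := hnp p hp
      omega
    rw [e] at hmem
    refine ⟨v⁻¹ • (δ * φQ p.1), fun _ => ⟨Submodule.smul_mem _ _ hmem, ?_, ?_, ?_⟩⟩
    · have := (hδ1.mul hv1).smul v⁻¹
      rwa [one_mul, inv_mul_cancel₀ hv0] at this
    · have := (hδ2.mul hv2).smul v⁻¹
      rwa [one_mul, inv_mul_cancel₀ hv0] at this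
    · intro p' hp' hne
      obtain ⟨w, hw1, hw2⟩ := hφL.2.2 p' hp'
      obtain ⟨h1, h2⟩ := hδo p' hp' hne
      constructor
      · have := (h1.mul hw1).smul v⁻¹
        rwa [zero_mul, mul_zero] at this
      · have := (h2.mul hw2).smul v⁻¹
        rwa [zero_mul, mul_zero] at this
  choose e he using hE
  -- every section is in `H n`
  have hfin : LX N (n • D₁ + B₁) (n • D₂ + B₂) ≤ H n := by
    intro ψ hψ
    have hcv : ∀ p : Place k F₁ × Place k F₂, ∃ cv : k, p ∈ N →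
        (HasValue p.1 ψ.1 cv ∧ HasValue p.2 ψ.2 cv) := by
      intro p
      by_cases hp : p ∈ N
      · obtain ⟨c, h1, h2⟩ := hψ.2.2 p hp
        exact ⟨c, fun _ => ⟨h1, h2⟩⟩
      · exact ⟨0, fun h => absurd h hp⟩
    choose cv hcv using hcv
    set s : F₁ × F₂ := ∑ p ∈ N, cv p • e p with hs
    have hsH : s ∈ H n :=
      Submodule.sum_mem _ fun p hp => Submodule.smul_mem _ _ (he p hp).1
    have hsL : s ∈ LX N (n • D₁ + B₁) (n • D₂ + B₂) := h_le n hnN hsH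
    have hdiff : ψ - s ∈ LX N (n • D₁ + B₁) (n • D₂ + B₂) := Submodule.sub_mem _ hψ hsL
    have hs1 : ∀ p' ∈ N, HasValue p'.1 s.1 (cv p') := by
      intro p' hp'
      have h1 : ∀ p ∈ N, HasValue p'.1 (cv p • e p).1 (if p = p' then cv p' else 0) := by
        intro p hp
        by_cases hpp : p = p'
        · subst hpp
          rw [if_pos rfl]
          have := (he p hp).2.1.smul (cv p)
          rwa [mul_one] at this
        · rw [if_neg hpp]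
          have := ((he p hp).2.2.2 p' hp' (fun h => hpp h.symm)).1.smul (cv p)
          rwa [mul_zero] at this
      have h2 := HasValue.sum N p'.1 (fun p => (cv p • e p).1)
        (fun p => if p = p' then cv p' else 0) h1
      rw [Finset.sum_ite_eq' N p', if_pos hp'] at h2
      rw [hs, Prod.fst_sum]
      exact h2
    have hs2 : ∀ p' ∈ N, HasValue p'.2 s.2 (cv p') := by
      intro p' hp'
      have h1 : ∀ p ∈ N, HasValue p'.2 (cv p • e p).2 (if p = p' then cv p' else 0) := by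
        intro p hp
        by_cases hpp : p = p'
        · subst hpp
          rw [if_pos rfl]
          have := (he p hp).2.2.1.smul (cv p)
          rwa [mul_one] at this
        · rw [if_neg hpp]
          have := ((he p hp).2.2.2 p' hp' (fun h => hpp h.symm)).2.smul (cv p)
          rwa [mul_zero] at this
      have h2 := HasValue.sum N p'.2 (fun p => (cv p • e p).2)
        (fun p => if p = p' then cv p' else 0) h1
      rw [Finset.sum_ite_eq' N p', if_pos hp'] at h2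
      rw [hs, Prod.snd_sum]
      exact h2
    have hd1 : ∀ p ∈ N, HasValue p.1 (ψ - s).1 0 := by
      intro p hp
      have := (hcv p hp).1.sub (hs1 p hp)
      rwa [sub_self] at this
    have hd2 : ∀ p ∈ N, HasValue p.2 (ψ - s).2 0 := by
      intro p hp
      have := (hcv p hp).2.sub (hs2 p hp)
      rwa [sub_self] at this
    have hm1 := fst_mem_sub_nodes hnE₁ hdiff hd1
    have hm2 := snd_mem_sub_nodes hnE₂ hdiff hd2
    have hH1 := ha₁ n hna₁ _ hm1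
    have hH2 := ha₂ n hna₂ _ hm2
    have hsum : ψ - s ∈ H n := by
      have := Submodule.add_mem _ hH1 hH2
      have e' : (((ψ - s).1, (0 : F₂)) : F₁ × F₂) + (0, (ψ - s).2) = ψ - s := by
        ext <;> simp
      rwa [e'] at this
    have := Submodule.add_mem _ hsum hsH
    rwa [sub_add_cancel] at this
  exact h_ne n hnN (le_antisymm (h_le n hnN) hfin)

end Two

end Fermat.Agent.S34.NodalHP
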