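import Fermat.Agent.S34.Facts

/-!
# C83 (S34), piece A2 (second half): consequences of the specialisation map

`SpAx S sp` is the interface between the hyperplane lemma (which constructs the specialisation
`sp` of places, piece A2 first half) and the contract `Facts`:

* `van₁/van₂` : the reductions of the sections of `L(n D - P)` vanish at `sp P`;
* `sep₁/sep₂` : for every other point `y` of the special fibre there is a section of some
  `L(n D - P)` whose reduction does not vanish at `y`.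

From `SpAx` we derive

* `regN`    : regularity and matching at the nodes (the field `Facts.regN`);
* `sp_smul` : equivariance of `sp` (the field `Facts.sp_smul`).
-/

set_option autoImplicit false
set_option linter.unusedSectionVars false
set_option linter.style.haveILetI false
set_option linter.unusedSimpArgs false
set_option linter.unusedTactic false
set_option linter.unusedVariables false

open AlgebraicCurve Fermat.Agent.Lib.FF Fermat.Agent.S18.Deuring
open scoped Classical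

namespace Fermat.Agent.S34.NodalSp

/-! ### values of quotients -/

section Val

variable {K F' : Type*} [Field K] [Field F'] [Algebra K F']

theorem hasValue_inv {x : Place K F'} {φ : F'} {c : K} (h : Nodal.HasValue x φ c) (hc : c ≠ 0) :
    Nodal.HasValue x φ⁻¹ c⁻¹ := by
  obtain ⟨hφ0, hord⟩ := h.ord_eq_zero hc
  rw [Nodal.hasValue_iff] at h ⊢
  rcases h with h | h
  · left
    rw [h, map_inv₀]
  · by_cases he : φ⁻¹ - algebraMap K F' c⁻¹ = 0
    · left
      exact sub_eq_zero.mp he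
    right
    have hcF : algebraMap K F' c ≠ 0 := (map_ne_zero _).mpr hc
    have hsub0 : φ - algebraMap K F' c ≠ 0 := by
      intro h0
      rw [h0] at h
      simp at h
    have key : φ⁻¹ - algebraMap K F' c⁻¹
        = -((φ - algebraMap K F' c) * (φ⁻¹ * (algebraMap K F' c)⁻¹)) := by
      rw [map_inv₀]
      field_simp
      ring
    rw [key, ord_neg, x.ord_mul hsub0 (mul_ne_zero (inv_ne_zero hφ0) (inv_ne_zero hcF)),
      x.ord_mul (inv_ne_zero hφ0) (inv_ne_zero hcF), x.ord_inv, x.ord_inv, hord,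
      ord_algebraMap]
    omega

theorem hasValue_div {x : Place K F'} {α β : F'} {c c' : K} (hβ : Nodal.HasValue x β c)
    (hc : c ≠ 0) (hαβ : Nodal.HasValue x (α * β) c') : Nodal.HasValue x α (c' * c⁻¹) := by
  obtain ⟨hβ0, -⟩ := hβ.ord_eq_zero hc
  have := hαβ.mul (hasValue_inv hβ hc)
  rwa [mul_assoc, mul_inv_cancel₀ hβ0, mul_one] at this

theorem pow_mem_rrSpace {E : Divisor K F'} {φ : F'} (hφ : φ ∈ riemannRochSpace E) (j : ℕ) :
    φ ^ j ∈ riemannRochSpace (j • E) := by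
  induction j with
  | zero =>
    rw [pow_zero, zero_smul]
    exact one_mem_rrSpace_of_nonneg (le_refl _)
  | succ j ih =>
    rw [pow_succ, succ_nsmul]
    exact mul_mem_rrSpace ih hφ

/-- a function without poles outside the support of an effective divisor `D` lies in some
`L(M • D)` -/
theorem exists_mem_nsmul {D : Divisor K F'} (hD : 0 ≤ D) (y : F')
    (hy : ∀ P : Place K F', D P = 0 → 0 ≤ P.ord y) : ∃ M : ℕ, y ∈ riemannRochSpace (M • D) := by
  by_cases hy0 : y = 0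
  · exact ⟨0, by rw [hy0]; exact Submodule.zero_mem _⟩
  refine ⟨∑ P ∈ D.support, (-(P.ord y)).toNat, ?_⟩
  rw [mem_rrSpace_iff_of_ne_zero hy0]
  intro P
  rw [Finsupp.smul_apply, nsmul_eq_mul]
  by_cases hP : D P = 0
  · rw [hP, mul_zero]
    have := hy P hP
    omega
  · have hmem : P ∈ D.support := Finsupp.mem_support_iff.mpr hP
    have h1 : (-(P.ord y)).toNat ≤ ∑ P ∈ D.support, (-(P.ord y)).toNat :=
      Finset.single_le_sum (f := fun P : Place K F' => (-(P.ord y)).toNat)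
        (fun _ _ => Nat.zero_le _) hmem
    have h2 : (1 : ℤ) ≤ D P := by
      have := Finsupp.le_def.mp hD P
      simp only [Finsupp.coe_zero, Pi.zero_apply] at this
      omega
    have h3 : ((∑ P ∈ D.support, (-(P.ord y)).toNat : ℕ) : ℤ)
        ≤ ((∑ P ∈ D.support, (-(P.ord y)).toNat : ℕ) : ℤ) * D P :=
      le_mul_of_one_le_right (by positivity) h2
    have h4 : -(P.ord y) ≤ ((-(P.ord y)).toNat : ℤ) := Int.self_le_toNat _
    have h5 : (((-(P.ord y)).toNat : ℕ) : ℤ) ≤ ((∑ P ∈ D.support, (-(P.ord y)).toNat : ℕ) : ℤ) := by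
      exact_mod_cast h1
    omega

end Val

variable {L k F Fk₁ Fk₂ : Type*} [Field L] [Field k] [Field F] [Field Fk₁] [Field Fk₂]
  [Algebra L F] [Algebra k Fk₁] [Algebra k Fk₂]
variable {A : ValuationSubring L} {res : A →+* k} {Red₁ : F → Fk₁ → Prop}
  {Red₂ : F → Fk₂ → Prop} {D : Divisor L F} {D₁ : Divisor k Fk₁} {D₂ : Divisor k Fk₂}
  {Sg : Finset (Place k Fk₁ × Place k Fk₂)} {g g₁ g₂ : ℕ} {c c₁ c₂ : ℤ}

/-- **the interface**: what the hyperplane lemma gives for the specialisation map -/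
structure SpAx (S : Setup2 A res Red₁ Red₂ D D₁ D₂ Sg g g₁ g₂ c c₁ c₂)
    (sp : Place L F → Place k Fk₁ ⊕ Place k Fk₂) : Prop where
  sp_ne : ∀ P, ∀ p ∈ Sg, sp P ≠ Sum.inr p.2
  van₁ : ∀ {P : Place L F} {Q : Place k Fk₁}, sp P = Sum.inl Q → ∀ {n : ℕ} {x : F} {a₁ : Fk₁}
    {a₂ : Fk₂}, x ∈ riemannRochSpace (n • D - Finsupp.single P 1) → Red₁ x a₁ → Red₂ x a₂ →
      a₁ ∈ riemannRochSpace (n • D₁ - Finsupp.single Q 1)
  van₂ : ∀ {P : Place L F} {Q : Place k Fk₂}, sp P = Sum.inr Q → ∀ {n : ℕ} {x : F} {a₁ : Fk₁}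
    {a₂ : Fk₂}, x ∈ riemannRochSpace (n • D - Finsupp.single P 1) → Red₁ x a₁ → Red₂ x a₂ →
      a₂ ∈ riemannRochSpace (n • D₂ - Finsupp.single Q 1)
  sep₁ : ∀ {P : Place L F} {Q : Place k Fk₁}, sp P ≠ Sum.inl Q →
    ∃ (n : ℕ) (x : F) (a₁ : Fk₁) (a₂ : Fk₂),
      x ∈ riemannRochSpace (n • D - Finsupp.single P 1) ∧ Red₁ x a₁ ∧ Red₂ x a₂ ∧
        a₁ ∉ riemannRochSpace (n • D₁ - Finsupp.single Q 1)
  sep₂ : ∀ {P : Place L F} {Q : Place k Fk₂}, Smooth₂ Sg Q → sp P ≠ Sum.inr Q →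
    ∃ (n : ℕ) (x : F) (a₁ : Fk₁) (a₂ : Fk₂),
      x ∈ riemannRochSpace (n • D - Finsupp.single P 1) ∧ Red₁ x a₁ ∧ Red₂ x a₂ ∧
        a₂ ∉ riemannRochSpace (n • D₂ - Finsupp.single Q 1)

/-! ### exactness at a point of the special fibre -/

/-- the pair `(β₁, β₂)`, reduction of a section of `L(n D)`, has exact order at the point `y` -/
def ExactPt (D₁ : Divisor k Fk₁) (D₂ : Divisor k Fk₂) (y : Place k Fk₁ ⊕ Place k Fk₂) (n : ℕ)
    (β₁ : Fk₁) (β₂ : Fk₂) : Prop :=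
  Sum.elim (fun Q => β₁ ≠ 0 ∧ Q.ord β₁ = -((n • D₁) Q))
    (fun Q => β₂ ≠ 0 ∧ Q.ord β₂ = -((n • D₂) Q)) y

theorem exactPt_one (y : Place k Fk₁ ⊕ Place k Fk₂) : ExactPt D₁ D₂ y 0 (1 : Fk₁) (1 : Fk₂) := by
  rcases y with Q | Q
  · exact ⟨one_ne_zero, by rw [Place.ord_one, zero_smul]; simp⟩
  · exact ⟨one_ne_zero, by rw [Place.ord_one, zero_smul]; simp⟩

theorem ExactPt.mul {y : Place k Fk₁ ⊕ Place k Fk₂} {n n' : ℕ} {β₁ β₁' : Fk₁} {β₂ β₂' : Fk₂}
    (h : ExactPt D₁ D₂ y n β₁ β₂) (h' : ExactPt D₁ D₂ y n' β₁' β₂') :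
    ExactPt D₁ D₂ y (n + n') (β₁ * β₁') (β₂ * β₂') := by
  rcases y with Q | Q
  · obtain ⟨h0, h1⟩ := h
    obtain ⟨h0', h1'⟩ := h'
    refine ⟨mul_ne_zero h0 h0', ?_⟩
    rw [Q.ord_mul h0 h0', h1, h1', add_smul, Finsupp.add_apply]
    ring
  · obtain ⟨h0, h1⟩ := h
    obtain ⟨h0', h1'⟩ := h'
    refine ⟨mul_ne_zero h0 h0', ?_⟩
    rw [Q.ord_mul h0 h0', h1, h1', add_smul, Finsupp.add_apply]
    ring

theorem ExactPt.pow {y : Place k Fk₁ ⊕ Place k Fk₂} {n : ℕ} {β₁ : Fk₁} {β₂ : Fk₂}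
    (h : ExactPt D₁ D₂ y n β₁ β₂) (j : ℕ) : ExactPt D₁ D₂ y (j * n) (β₁ ^ j) (β₂ ^ j) := by
  induction j with
  | zero =>
    rw [zero_mul, pow_zero, pow_zero]
    exact exactPt_one y
  | succ j ih =>
    rw [pow_succ, pow_succ, add_mul, one_mul]
    exact ih.mul h

variable {S : Setup2 A res Red₁ Red₂ D D₁ D₂ Sg g g₁ g₂ c c₁ c₂}
  {sp : Place L F → Place k Fk₁ ⊕ Place k Fk₂}

theorem sub_single_le_self (E : Divisor L F) (P : Place L F) :
    riemannRochSpace (E - Finsupp.single P 1) ≤ riemannRochSpace E :=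
  rrSpace_mono (sub_single_le E P)

/-- separation, in terms of exactness -/
theorem SpAx.sep (h : SpAx S sp) {P : Place L F} {y : Place k Fk₁ ⊕ Place k Fk₂}
    (hy : ∀ p ∈ Sg, y ≠ Sum.inr p.2) (hne : sp P ≠ y) :
    ∃ (n : ℕ) (x : F) (a₁ : Fk₁) (a₂ : Fk₂),
      x ∈ riemannRochSpace (n • D - Finsupp.single P 1) ∧ Red₁ x a₁ ∧ Red₂ x a₂ ∧
        ExactPt D₁ D₂ y n a₁ a₂ := by
  rcases y with Q | Q
  · obtain ⟨n, x, a₁, a₂, hx, h₁, h₂, hn⟩ := h.sep₁ hne
    obtain ⟨m₁, -, -⟩ := S.H2 n x a₁ a₂ (sub_single_le_self _ _ hx) h₁ h₂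
    exact ⟨n, x, a₁, a₂, hx, h₁, h₂, ord_eq_of_notMem_sub_single m₁ hn⟩
  · have hQ : Smooth₂ Sg Q := fun p hp hpQ => hy p hp (by rw [hpQ])
    obtain ⟨n, x, a₁, a₂, hx, h₁, h₂, hn⟩ := h.sep₂ hQ hne
    obtain ⟨-, m₂, -⟩ := S.H2 n x a₁ a₂ (sub_single_le_self _ _ hx) h₁ h₂
    exact ⟨n, x, a₁, a₂, hx, h₁, h₂, ord_eq_of_notMem_sub_single m₂ hn⟩

/-- vanishing, in terms of exactness -/
theorem SpAx.van (h : SpAx S sp) {P : Place L F} {n : ℕ} {x : F} {a₁ : Fk₁} {a₂ : Fk₂}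
    (hx : x ∈ riemannRochSpace (n • D - Finsupp.single P 1)) (h₁ : Red₁ x a₁) (h₂ : Red₂ x a₂) :
    ¬ ExactPt D₁ D₂ (sp P) n a₁ a₂ := by
  intro hex
  rcases hsp : sp P with Q | Q
  · rw [hsp] at hex
    exact notMem_sub_single_of_ord_eq hex.1 hex.2 (h.van₁ hsp hx h₁ h₂)
  · rw [hsp] at hex
    exact notMem_sub_single_of_ord_eq hex.1 hex.2 (h.van₂ hsp hx h₁ h₂)

/-! ### clearing poles by sections which are units at a given point -/

/-- for finitely many places not specialising to `y` there is a jointly integral section of some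
`L(n D)` with zeros of prescribed order at these places, whose reduction is exact at `y` -/
theorem exists_clearing (h : SpAx S sp) {y : Place k Fk₁ ⊕ Place k Fk₂}
    (hy : ∀ p ∈ Sg, y ≠ Sum.inr p.2) (e : Place L F → ℕ) (T : Finset (Place L F))
    (hT : ∀ P ∈ T, sp P ≠ y) :
    ∃ (n : ℕ) (b : F) (β₁ : Fk₁) (β₂ : Fk₂), b ≠ 0 ∧ b ∈ riemannRochSpace (n • D) ∧
      (∀ P ∈ T, D P = 0 → (e P : ℤ) ≤ P.ord b) ∧ Red₁ b β₁ ∧ Red₂ b β₂ ∧
        ExactPt D₁ D₂ y n β₁ β₂ := by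
  have ax₁ := S.ax₁
  have ax₂ := S.ax₂
  induction T using Finset.induction_on with
  | empty =>
    refine ⟨0, 1, 1, 1, one_ne_zero, ?_, ?_, ax₁.one, ax₂.one, exactPt_one y⟩
    · rw [zero_smul]
      exact one_mem_rrSpace_of_nonneg (le_refl _)
    · intro P hP
      simp at hP
  | insert P T hPT ih =>
    obtain ⟨n, b, β₁, β₂, hb0, hb, hord, hβ₁, hβ₂, hex⟩ :=
      ih fun P' hP' => hT P' (Finset.mem_insert_of_mem hP')
    obtain ⟨nP, bP, γ₁, γ₂, hbP, hγ₁, hγ₂, hexP⟩ :=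
      h.sep hy (hT P (Finset.mem_insert_self _ _))
    have hbP0 : bP ≠ 0 := by
      rcases y with Q | Q
      · exact ax₁.ne_zero hγ₁ hexP.1
      · exact ax₂.ne_zero hγ₂ hexP.1
    have hbP' : bP ∈ riemannRochSpace (nP • D) := sub_single_le_self _ _ hbP
    have hpow : bP ^ e P ∈ riemannRochSpace ((e P * nP) • D) := by
      have := pow_mem_rrSpace hbP' (e P)
      rwa [smul_smul] at this
    refine ⟨n + e P * nP, b * bP ^ e P, β₁ * γ₁ ^ e P, β₂ * γ₂ ^ e P,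
      mul_ne_zero hb0 (pow_ne_zero _ hbP0), ?_, ?_, ax₁.mul hβ₁ (ax₁.pow hγ₁ _),
      ax₂.mul hβ₂ (ax₂.pow hγ₂ _), hex.mul (hexP.pow _)⟩
    · rw [add_smul]
      exact mul_mem_rrSpace hb hpow
    · intro P' hP' hD
      rw [P'.ord_mul hb0 (pow_ne_zero _ hbP0), ord_pow']
      have h1 : 0 ≤ P'.ord b := by
        have := (mem_rrSpace_iff_of_ne_zero hb0).mp hb P'
        rw [Finsupp.smul_apply, hD, smul_zero] at this
        omega
      have h2 := (mem_rrSpace_iff_of_ne_zero hbP0).mp hbP P'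
      rw [Finsupp.sub_apply, Finsupp.smul_apply, hD, smul_zero, Finsupp.single_apply] at h2
      rcases Finset.mem_insert.mp hP' with rfl | hP'T
      · rw [if_pos rfl] at h2
        have h3 : (e P' : ℤ) ≤ (e P' : ℤ) * P'.ord bP :=
          le_mul_of_one_le_right (by positivity) (by omega)
        omega
      · have h3 := hord P' hP'T hD
        have h4 : 0 ≤ P'.ord bP := by
          split_ifs at h2 <;> omega
        have h5 : (0 : ℤ) ≤ (e P : ℤ) * P'.ord bP := mul_nonneg (by positivity) h4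
        omega

/-- clearing the poles of a function at the places which do not specialise to `y` -/
theorem exists_clear_poles (h : SpAx S sp) {y : Place k Fk₁ ⊕ Place k Fk₂}
    (hy : ∀ p ∈ Sg, y ≠ Sum.inr p.2) {x : F} (hx0 : x ≠ 0)
    (hreg : ∀ P, sp P = y → D P = 0 → 0 ≤ P.ord x) :
    ∃ (n M : ℕ) (b : F) (β₁ : Fk₁) (β₂ : Fk₂), b ≠ 0 ∧ b ∈ riemannRochSpace (n • D) ∧
      Red₁ b β₁ ∧ Red₂ b β₂ ∧ ExactPt D₁ D₂ y n β₁ β₂ ∧ x * b ∈ riemannRochSpace (M • D) := by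
  set T : Finset (Place L F) :=
    ((S.hpf.finite_ord_ne_zero x hx0).toFinset).filter (fun P => P.ord x < 0 ∧ D P = 0) with hTdef
  have hT : ∀ P ∈ T, sp P ≠ y := by
    intro P hP hsp
    rw [hTdef, Finset.mem_filter] at hP
    have := hreg P hsp hP.2.2
    omega
  obtain ⟨n, b, β₁, β₂, hb0, hb, hord, hβ₁, hβ₂, hex⟩ :=
    exists_clearing h hy (fun P => (-(P.ord x)).toNat) T hT
  obtain ⟨M, hM⟩ := exists_mem_nsmul S.D_nonneg (x * b) (by
    intro P hD
    rw [P.ord_mul hx0 hb0]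
    have h1 : 0 ≤ P.ord b := by
      have := (mem_rrSpace_iff_of_ne_zero hb0).mp hb P
      rw [Finsupp.smul_apply, hD, smul_zero] at this
      omega
    by_cases hneg : P.ord x < 0
    · have hPT : P ∈ T := by
        rw [hTdef, Finset.mem_filter, Set.Finite.mem_toFinset]
        exact ⟨by show P.ord x ≠ 0; omega, hneg, hD⟩
      have := hord P hPT hD
      have h4 : -(P.ord x) ≤ ((-(P.ord x)).toNat : ℤ) := Int.self_le_toNat _
      omega
    · omega)
  exact ⟨n, M, b, β₁, β₂, hb0, hb, hβ₁, hβ₂, hex, hM⟩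

/-! ### regularity and matching at the nodes -/

/-- **(Reg) at the nodes**: a function which is integral for both valuations and has no pole over
a node has reductions which are regular at the two branches, with the same value -/
theorem regN (h : SpAx S sp) {x : F} {a₁ : Fk₁} {a₂ : Fk₂} (h₁ : Red₁ x a₁) (h₂ : Red₂ x a₂)
    (p : Place k Fk₁ × Place k Fk₂) (hp : p ∈ Sg)
    (hreg : ∀ P, sp P = Sum.inl p.1 → 0 ≤ P.ord x) :
    ∃ v : k, Nodal.HasValue p.1 a₁ v ∧ Nodal.HasValue p.2 a₂ v := by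
  have ax₁ := S.ax₁
  have ax₂ := S.ax₂
  by_cases hx0 : x = 0
  · rw [hx0] at h₁ h₂
    rw [ax₁.unique h₁ ax₁.zero, ax₂.unique h₂ ax₂.zero]
    exact ⟨0, Nodal.hasValue_zero' _, Nodal.hasValue_zero' _⟩
  obtain ⟨n, M, b, β₁, β₂, hb0, hb, hβ₁, hβ₂, hex, hM⟩ :=
    exists_clear_poles h (y := Sum.inl p.1) (fun _ _ => Sum.inl_ne_inr) hx0
      (fun P hP _ => hreg P hP)
  obtain ⟨-, -, hmb⟩ := S.H2 n b β₁ β₂ hb hβ₁ hβ₂
  obtain ⟨-, -, hmx⟩ := S.H2 M (x * b) (a₁ * β₁) (a₂ * β₂) hM (ax₁.mul h₁ hβ₁) (ax₂.mul h₂ hβ₂)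
  obtain ⟨cb, hcb₁, hcb₂⟩ := hmb p hp
  obtain ⟨cx, hcx₁, hcx₂⟩ := hmx p hp
  have hcb0 : cb ≠ 0 := by
    rintro rfl
    obtain ⟨hβ0, hβord⟩ := hex
    rw [Finsupp.smul_apply, S.node_off₁ p hp, smul_zero, neg_zero] at hβord
    rcases Nodal.hasValue_zero_iff.mp hcb₁ with h0 | h0
    · exact hβ0 h0
    · omega
  exact ⟨cx * cb⁻¹, hasValue_div hcb₁ hcb0 hcx₁, hasValue_div hcb₂ hcb0 hcx₂⟩

/-! ### equivariance -/

theorem smul_mem_rrSpace_sub_single {h' : SemilinearAut L F} (hD : h' • D = D) {n : ℕ}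
    {P : Place L F} {x : F} (hx : x ∈ riemannRochSpace (n • D - Finsupp.single (h' • P) 1)) :
    h'⁻¹ • x ∈ riemannRochSpace (n • D - Finsupp.single P 1) := by
  by_cases hx0 : x = 0
  · rw [hx0, smul_zero]
    exact Submodule.zero_mem _
  have hx0' : h'⁻¹ • x ≠ 0 := (smul_ne_zero_iff_ne h'⁻¹).mpr hx0
  rw [mem_rrSpace_iff_of_ne_zero hx0']
  intro P'
  have h1 := (mem_rrSpace_iff_of_ne_zero hx0).mp hx (h' • P')
  have h2 : (h' • P').ord x = P'.ord (h'⁻¹ • x) := by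
    have := SemilinearAut.ord_smul h' P' (h'⁻¹ • x)
    rwa [smul_inv_smul] at this
  have h3 : D (h' • P') = D P' := by
    have := SemilinearAut.divisor_smul_apply_smul h' D P'
    rwa [hD] at this
  rw [Finsupp.sub_apply, Finsupp.smul_apply, h3, h2, Finsupp.single_apply] at h1
  rw [Finsupp.sub_apply, Finsupp.smul_apply, Finsupp.single_apply]
  by_cases hPP : P = P'
  · rw [if_pos hPP]
    rw [if_pos (by rw [hPP])] at h1
    exact h1
  · rw [if_neg hPP]
    rw [if_neg (fun hh => hPP (MulAction.injective h' hh))] at h1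
    exact h1

/-- **equivariance of the specialisation** -/
theorem sp_smul (h : SpAx S sp) (h' : SemilinearAut L F) (hc : Compat2 A Red₁ Red₂ D h')
    (P : Place L F) : sp (h' • P) = sp P := by
  by_contra hne
  obtain ⟨n, x, a₁, a₂, hx, hx₁, hx₂, hex⟩ :=
    h.sep (y := sp P) (fun p hp => h.sp_ne P p hp) hne
  exact h.van (smul_mem_rrSpace_sub_single hc.fixD hx) (hc.red₁_inv _ _ hx₁)
    (hc.red₂_inv _ _ hx₂) hex

end Fermat.Agent.S34.NodalSp
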