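import Fermat.Agent.S34.NodalBarZero
import Fermat.Agent.S34.NodalHP
import Fermat.Agent.S34.NodalSp

/-!
# C83 (S34), piece A2 (first half): reduction of effective divisors on the nodal fibre

* `Bar₂ S 𝔞 𝔟₁ 𝔟₂` : the joint reduction of `L(n D - 𝔞)` is `LX Sg (n D₁ - 𝔟₁) (n D₂ - 𝔟₂)`, `n ≫ 0`;
* `sp S`          : the specialisation of places (a base point of the family
                    `n ↦ redSpace₂ L(n D - P)`; the points over a node `p` go to `inl p.1`);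
* `spAx`          : `SpAx S (sp S)` (helper7's interface);
* `bar_smooth`    : `Bar₂ S 𝔞 (sp_* 𝔞)` for effective `𝔞` whose points do not specialise to nodes;
* `Bar₂.eq_push`  : uniqueness.
-/

set_option autoImplicit false
set_option linter.unusedSectionVars false
set_option linter.style.haveILetI false
set_option linter.unusedVariables false
set_option linter.unusedSimpArgs false
set_option linter.unusedTactic false

open AlgebraicCurve Fermat.Agent.Lib.FF Fermat.Agent.S18.Deuring Fermat.Agent.S34.Nodal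
open scoped Classical

namespace Fermat.Agent.S34.Nodal

/-! ### more on `LX` -/

section LXmore

variable {k F₁ F₂ : Type*} [Field k] [Field F₁] [Field F₂] [Algebra k F₁] [Algebra k F₂]
variable {N : Finset (Place k F₁ × Place k F₂)}

/-- the point divisor on the first component -/
noncomputable def pt₁ (R : Place k F₁ ⊕ Place k F₂) : Divisor k F₁ :=
  Sum.elim (fun Q => Finsupp.single Q 1) (fun _ => 0) R

/-- the point divisor on the second component -/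
noncomputable def pt₂ (R : Place k F₁ ⊕ Place k F₂) : Divisor k F₂ :=
  Sum.elim (fun _ => 0) (fun Q => Finsupp.single Q 1) R

@[simp] theorem pt₁_inl (Q : Place k F₁) :
    pt₁ (Sum.inl Q : Place k F₁ ⊕ Place k F₂) = Finsupp.single Q 1 := rfl
@[simp] theorem pt₁_inr (Q : Place k F₂) :
    pt₁ (Sum.inr Q : Place k F₁ ⊕ Place k F₂) = 0 := rfl
@[simp] theorem pt₂_inl (Q : Place k F₁) :
    pt₂ (Sum.inl Q : Place k F₁ ⊕ Place k F₂) = 0 := rfl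
@[simp] theorem pt₂_inr (Q : Place k F₂) :
    pt₂ (Sum.inr Q : Place k F₁ ⊕ Place k F₂) = Finsupp.single Q 1 := rfl

/-- membership in `L(E - z)` for `E z = 0`: vanishing at `z` -/
theorem mem_rrSpace_sub_single_iff_hasValue {F : Type*} [Field F] [Algebra k F]
    {E : Divisor k F} {z : Place k F} (hz : E z = 0) {φ : F} :
    φ ∈ riemannRochSpace (E - Finsupp.single z 1) ↔
      φ ∈ riemannRochSpace E ∧ HasValue z φ 0 := by
  constructor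
  · intro h
    have h1 : φ ∈ riemannRochSpace E := rrSpace_mono (sub_single_le E z) h
    refine ⟨h1, ?_⟩
    rw [hasValue_zero_iff]
    rcases (mem_sub_single_iff h1).mp h with h0 | h0
    · exact Or.inl h0
    · right
      rw [hz] at h0
      omega
  · rintro ⟨h1, hv⟩
    rw [mem_sub_single_iff h1]
    rcases hasValue_zero_iff.mp hv with h0 | h0
    · exact Or.inl h0
    · right
      rw [hz]
      omega

/-- vanishing at a node can be imposed on either branch -/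
theorem LX_node_swap {E₁ : Divisor k F₁} {E₂ : Divisor k F₂} {p : Place k F₁ × Place k F₂}
    (hp : p ∈ N) (h₁ : E₁ p.1 = 0) (h₂ : E₂ p.2 = 0) :
    LX N (E₁ - Finsupp.single p.1 1) E₂ = LX N E₁ (E₂ - Finsupp.single p.2 1) := by
  ext φ
  constructor
  · rintro ⟨a, b, m⟩
    obtain ⟨a1, a0⟩ := (mem_rrSpace_sub_single_iff_hasValue h₁).mp a
    obtain ⟨v, hv1, hv2⟩ := m p hp
    have hv : v = 0 := hv1.unique a0
    rw [hv] at hv2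
    exact ⟨a1, (mem_rrSpace_sub_single_iff_hasValue h₂).mpr ⟨b, hv2⟩, m⟩
  · rintro ⟨a, b, m⟩
    obtain ⟨b1, b0⟩ := (mem_rrSpace_sub_single_iff_hasValue h₂).mp b
    obtain ⟨v, hv1, hv2⟩ := m p hp
    have hv : v = 0 := hv2.unique b0
    rw [hv] at hv1
    exact ⟨(mem_rrSpace_sub_single_iff_hasValue h₁).mpr ⟨a, hv1⟩, b1, m⟩

/-- vanishing at a node: remove the node and subtract both branches -/
theorem LX_erase_node {E₁ : Divisor k F₁} {E₂ : Divisor k F₂} {p : Place k F₁ × Place k F₂}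
    (hp : p ∈ N) (h₁ : E₁ p.1 = 0) (h₂ : E₂ p.2 = 0) :
    LX N (E₁ - Finsupp.single p.1 1) E₂
      = LX (N.erase p) (E₁ - Finsupp.single p.1 1) (E₂ - Finsupp.single p.2 1) := by
  ext φ
  constructor
  · rintro ⟨a, b, m⟩
    obtain ⟨a1, a0⟩ := (mem_rrSpace_sub_single_iff_hasValue h₁).mp a
    obtain ⟨v, hv1, hv2⟩ := m p hp
    have hv : v = 0 := hv1.unique a0
    rw [hv] at hv2
    exact ⟨a, (mem_rrSpace_sub_single_iff_hasValue h₂).mpr ⟨b, hv2⟩,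
      m.mono (Finset.erase_subset _ _)⟩
  · rintro ⟨a, b, m⟩
    obtain ⟨a1, a0⟩ := (mem_rrSpace_sub_single_iff_hasValue h₁).mp a
    obtain ⟨b1, b0⟩ := (mem_rrSpace_sub_single_iff_hasValue h₂).mp b
    refine ⟨a, b1, fun p' hp' => ?_⟩
    by_cases hpp : p' = p
    · subst hpp
      exact ⟨0, a0, b0⟩
    · exact m p' (Finset.mem_erase.mpr ⟨hpp, hp'⟩)

variable (hpf₁ : PlaceFacts k F₁) (hpf₂ : PlaceFacts k F₂)
variable {g₁ g₂ : ℕ} {c₁ c₂ : ℤ} (hR₁ : RThm k F₁ g₁ c₁) (hR₂ : RThm k F₂ g₂ c₂)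

include hpf₁ hpf₂ hR₁ hR₂ in
/-- generic sections of `LX` vanishing at a node `p`, exact elsewhere -/
theorem exists_LX_exact_node [Infinite k] (hinj₁ : ∀ p ∈ N, ∀ p' ∈ N, p.1 = p'.1 → p = p')
    (hinj₂ : ∀ p ∈ N, ∀ p' ∈ N, p.2 = p'.2 → p = p')
    {E₁ : Divisor k F₁} {E₂ : Divisor k F₂} (hE₁ : ∀ p ∈ N, E₁ p.1 = 0)
    (hE₂ : ∀ p ∈ N, E₂ p.2 = 0) (hdeg₁ : c₁ + N.card + 2 ≤ Divisor.degree E₁)
    (hdeg₂ : c₂ + N.card + 2 ≤ Divisor.degree E₂) {p : Place k F₁ × Place k F₂} (hp : p ∈ N)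
    (T₁ : Finset (Place k F₁)) (T₂ : Finset (Place k F₂))
    (hT₁ : ∀ Q ∈ T₁, Q ≠ p.1) (hT₂ : ∀ Q ∈ T₂, Q ≠ p.2) :
    ∃ φ ∈ LX N (E₁ - Finsupp.single p.1 1) E₂, (∀ Q ∈ T₁, φ.1 ≠ 0 ∧ Q.ord φ.1 = - E₁ Q) ∧
      (∀ Q ∈ T₂, φ.2 ≠ 0 ∧ Q.ord φ.2 = - E₂ Q) := by
  rw [LX_erase_node hp (hE₁ p hp) (hE₂ p hp)]
  have hsub : N.erase p ⊆ N := Finset.erase_subset _ _
  have hcard : ((N.erase p).card : ℤ) ≤ N.card := by
    exact_mod_cast Finset.card_le_card hsub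
  obtain ⟨φ, hφ, h1, h2⟩ := exists_LX_exact (N := N.erase p) hpf₁ hpf₂ hR₁ hR₂
    (fun a ha b hb => hinj₁ a (hsub ha) b (hsub hb))
    (fun a ha b hb => hinj₂ a (hsub ha) b (hsub hb))
    (E₁ := E₁ - Finsupp.single p.1 1) (E₂ := E₂ - Finsupp.single p.2 1)
    (fun a ha => by
      have hne : a ≠ p := (Finset.mem_erase.mp ha).1
      have h1 : a.1 ≠ p.1 := fun h => hne (hinj₁ a (hsub ha) p hp h)
      rw [Finsupp.sub_apply, hE₁ a (hsub ha), Finsupp.single_eq_of_ne h1, sub_zero])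
    (fun a ha => by
      have hne : a ≠ p := (Finset.mem_erase.mp ha).1
      have h1 : a.2 ≠ p.2 := fun h => hne (hinj₂ a (hsub ha) p hp h)
      rw [Finsupp.sub_apply, hE₂ a (hsub ha), Finsupp.single_eq_of_ne h1, sub_zero])
    (by rw [degree_sub_single hpf₁]; omega)
    (by rw [degree_sub_single hpf₂]; omega) T₁ T₂
  refine ⟨φ, hφ, fun Q hQ => ?_, fun Q hQ => ?_⟩
  · obtain ⟨h0, ho⟩ := h1 Q hQ
    refine ⟨h0, ?_⟩
    rw [ho, Finsupp.sub_apply, Finsupp.single_eq_of_ne (hT₁ Q hQ), sub_zero]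
  · obtain ⟨h0, ho⟩ := h2 Q hQ
    refine ⟨h0, ?_⟩
    rw [ho, Finsupp.sub_apply, Finsupp.single_eq_of_ne (hT₂ Q hQ), sub_zero]

include hpf₁ hpf₂ hR₁ hR₂ in
/-- **generic sections of `LX` through a point `R₀`** of the nodal fibre, exact at finitely many
other points -/
theorem exists_LX_exact_pt [Infinite k] (hinj₁ : ∀ p ∈ N, ∀ p' ∈ N, p.1 = p'.1 → p = p')
    (hinj₂ : ∀ p ∈ N, ∀ p' ∈ N, p.2 = p'.2 → p = p')
    {E₁ : Divisor k F₁} {E₂ : Divisor k F₂} (hE₁ : ∀ p ∈ N, E₁ p.1 = 0)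
    (hE₂ : ∀ p ∈ N, E₂ p.2 = 0) (hdeg₁ : c₁ + N.card + 2 ≤ Divisor.degree E₁)
    (hdeg₂ : c₂ + N.card + 2 ≤ Divisor.degree E₂) (R₀ : Place k F₁ ⊕ Place k F₂)
    (T₁ : Finset (Place k F₁)) (T₂ : Finset (Place k F₂))
    (hT₁ : ∀ Q ∈ T₁, Sum.inl Q ≠ R₀ ∧ ∀ p ∈ N, R₀ = Sum.inr p.2 → Q ≠ p.1)
    (hT₂ : ∀ Q ∈ T₂, Sum.inr Q ≠ R₀ ∧ ∀ p ∈ N, R₀ = Sum.inl p.1 → Q ≠ p.2) :
    ∃ φ ∈ LX N (E₁ - pt₁ R₀) (E₂ - pt₂ R₀), (∀ Q ∈ T₁, φ.1 ≠ 0 ∧ Q.ord φ.1 = - E₁ Q) ∧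
      (∀ Q ∈ T₂, φ.2 ≠ 0 ∧ Q.ord φ.2 = - E₂ Q) := by
  rcases R₀ with Q₀ | Q₀
  · rw [pt₁_inl, pt₂_inl, sub_zero]
    by_cases hnode : ∃ p ∈ N, p.1 = Q₀
    · obtain ⟨p, hp, rfl⟩ := hnode
      exact exists_LX_exact_node hpf₁ hpf₂ hR₁ hR₂ hinj₁ hinj₂ hE₁ hE₂ hdeg₁ hdeg₂ hp T₁ T₂
        (fun Q hQ h => (hT₁ Q hQ).1 (by rw [h]))
        (fun Q hQ => (hT₂ Q hQ).2 p hp rfl)
    · obtain ⟨φ, hφ, h1, h2⟩ := exists_LX_exact (N := N) hpf₁ hpf₂ hR₁ hR₂ hinj₁ hinj₂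
        (E₁ := E₁ - Finsupp.single Q₀ 1) (E₂ := E₂)
        (fun a ha => by
          have h1 : a.1 ≠ Q₀ := fun h => hnode ⟨a, ha, h⟩
          rw [Finsupp.sub_apply, hE₁ a ha, Finsupp.single_eq_of_ne h1, sub_zero])
        hE₂ (by rw [degree_sub_single hpf₁]; omega) (by omega) T₁ T₂
      refine ⟨φ, hφ, fun Q hQ => ?_, h2⟩
      obtain ⟨h0, ho⟩ := h1 Q hQ
      refine ⟨h0, ?_⟩
      have hne : Q ≠ Q₀ := fun h => (hT₁ Q hQ).1 (by rw [h])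
      rw [ho, Finsupp.sub_apply, Finsupp.single_eq_of_ne hne, sub_zero]
  · rw [pt₁_inr, pt₂_inr, sub_zero]
    by_cases hnode : ∃ p ∈ N, p.2 = Q₀
    · obtain ⟨p, hp, rfl⟩ := hnode
      rw [← LX_node_swap hp (hE₁ p hp) (hE₂ p hp)]
      exact exists_LX_exact_node hpf₁ hpf₂ hR₁ hR₂ hinj₁ hinj₂ hE₁ hE₂ hdeg₁ hdeg₂ hp T₁ T₂
        (fun Q hQ => (hT₁ Q hQ).2 p hp rfl)
        (fun Q hQ h => (hT₂ Q hQ).1 (by rw [h]))
    · obtain ⟨φ, hφ, h1, h2⟩ := exists_LX_exact (N := N) hpf₁ hpf₂ hR₁ hR₂ hinj₁ hinj₂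
        (E₁ := E₁) (E₂ := E₂ - Finsupp.single Q₀ 1) hE₁
        (fun a ha => by
          have h1 : a.2 ≠ Q₀ := fun h => hnode ⟨a, ha, h⟩
          rw [Finsupp.sub_apply, hE₂ a ha, Finsupp.single_eq_of_ne h1, sub_zero])
        (by omega) (by rw [degree_sub_single hpf₂]; omega) T₁ T₂
      refine ⟨φ, hφ, h1, fun Q hQ => ?_⟩
      obtain ⟨h0, ho⟩ := h2 Q hQ
      refine ⟨h0, ?_⟩
      have hne : Q ≠ Q₀ := fun h => (hT₂ Q hQ).1 (by rw [h])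
      rw [ho, Finsupp.sub_apply, Finsupp.single_eq_of_ne hne, sub_zero]

end LXmore

/-! ### `Bar₂` -/

section Aux

theorem eq_of_le_of_ne_of_finrank {K V : Type*} [Field K] [AddCommGroup V] [Module K V]
    {H X M : Submodule K V} [Module.Finite K M] (h1 : H ≤ X) (h2 : X ≤ M) (h3 : X ≠ M)
    (h4 : Module.finrank K H + 1 = Module.finrank K M) : H = X := by
  haveI : Module.Finite K X := Submodule.finiteDimensional_of_le h2
  have hlt : X < M := lt_of_le_of_ne h2 h3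
  have := Submodule.finrank_lt_finrank_of_lt hlt
  exact Submodule.eq_of_le_of_finrank_le h1 (by omega)

theorem nsmul_sub_self_eq {M : Type*} [AddCommGroup M] (n : ℕ) (hn : 1 ≤ n) (E : M) :
    n • E - E = (n - 1) • E := by
  obtain ⟨m, rfl⟩ : ∃ m, n = m + 1 := ⟨n - 1, by omega⟩
  rw [succ_nsmul, Nat.add_sub_cancel]
  abel

theorem ev_degree {K F : Type*} [Field K] [Field F] [Algebra K F] {E : Divisor K F}
    (hE : 0 < Divisor.degree E) (𝔞 : Divisor K F) (b : ℤ) :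
    ∀ᶠ n : ℕ in Filter.atTop, b ≤ Divisor.degree (n • E - 𝔞) := by
  obtain ⟨N, hN⟩ := exists_threshold' hE (b + Divisor.degree 𝔞)
  refine Filter.eventually_atTop.mpr ⟨N, fun n hn => ?_⟩
  have := hN n hn
  rw [map_sub, map_nsmul, nsmul_eq_mul]
  omega

end Aux

section Bar

variable {L k F Fk₁ Fk₂ : Type*} [Field L] [Field k] [Field F] [Field Fk₁] [Field Fk₂]
  [Algebra L F] [Algebra k Fk₁] [Algebra k Fk₂]
variable {A : ValuationSubring L} {res : A →+* k} {Red₁ : F → Fk₁ → Prop}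
  {Red₂ : F → Fk₂ → Prop} {D : Divisor L F} {D₁ : Divisor k Fk₁} {D₂ : Divisor k Fk₂}
  {Sg : Finset (Place k Fk₁ × Place k Fk₂)} {g g₁ g₂ : ℕ} {c c₁ c₂ : ℤ}

/-- `Bar₂ S 𝔞 𝔟₁ 𝔟₂`: the joint reduction of `L(n D - 𝔞)` is `LX Sg (n D₁ - 𝔟₁) (n D₂ - 𝔟₂)` for
all large `n` -/
def Bar₂ (S : Setup2 A res Red₁ Red₂ D D₁ D₂ Sg g g₁ g₂ c c₁ c₂) (𝔞 : Divisor L F)
    (𝔟₁ : Divisor k Fk₁) (𝔟₂ : Divisor k Fk₂) : Prop :=
  ∃ N : ℕ, ∀ n, N ≤ n →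
    redSpace₂ S.ax₁ S.ax₂ (riemannRochSpace (n • D - 𝔞)) = LX Sg (n • D₁ - 𝔟₁) (n • D₂ - 𝔟₂)

variable (S : Setup2 A res Red₁ Red₂ D D₁ D₂ Sg g g₁ g₂ c c₁ c₂)

theorem redSpace₂_mono {V W : Submodule L F} (h : V ≤ W) :
    redSpace₂ S.ax₁ S.ax₂ V ≤ redSpace₂ S.ax₁ S.ax₂ W := by
  rintro a ⟨x, hx, h1, h2⟩
  exact ⟨x, h hx, h1, h2⟩

theorem finrank_redSpace₂_rr (E : Divisor L F) :
    Module.finrank k (redSpace₂ S.ax₁ S.ax₂ (riemannRochSpace E))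
      = Module.finrank L (riemannRochSpace E) := by
  obtain ⟨P₀⟩ := bz_exists_place S
  exact S.H1 _ (finite_rrSpace S.hpf P₀ E)

theorem bar₂_zero : Bar₂ S 0 0 0 := by
  obtain ⟨N, hN⟩ := bar_zero S
  refine ⟨N, fun n hn => ?_⟩
  rw [sub_zero, sub_zero, sub_zero]
  exact hN n hn

theorem Bar₂.eventually {𝔞 : Divisor L F} {𝔟₁ : Divisor k Fk₁} {𝔟₂ : Divisor k Fk₂}
    (h : Bar₂ S 𝔞 𝔟₁ 𝔟₂) : ∀ᶠ n : ℕ in Filter.atTop,
      redSpace₂ S.ax₁ S.ax₂ (riemannRochSpace (n • D - 𝔞)) = LX Sg (n • D₁ - 𝔟₁) (n • D₂ - 𝔟₂) :=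
  Filter.eventually_atTop.mpr h

/-- products of joint reductions of sections -/
theorem mul_mem_redSpace₂ {E E' : Divisor L F} {φ χ : Fk₁ × Fk₂}
    (hφ : φ ∈ redSpace₂ S.ax₁ S.ax₂ (riemannRochSpace E))
    (hχ : χ ∈ redSpace₂ S.ax₁ S.ax₂ (riemannRochSpace E')) :
    χ * φ ∈ redSpace₂ S.ax₁ S.ax₂ (riemannRochSpace (E' + E)) := by
  obtain ⟨x, hx, hx1, hx2⟩ := hφ
  obtain ⟨y, hy, hy1, hy2⟩ := hχ
  exact ⟨y * x, mul_mem_rrSpace hy hx, S.ax₁.mul hy1 hx1, S.ax₂.mul hy2 hx2⟩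

section Step

variable [Infinite k]

/-- **the step**: adding one place to `𝔞` adds one point of the special fibre to `𝔟` -/
theorem Bar₂.step {𝔞 : Divisor L F} {𝔟₁ : Divisor k Fk₁} {𝔟₂ : Divisor k Fk₂}
    (h : Bar₂ S 𝔞 𝔟₁ 𝔟₂) (hb₁ : ∀ p ∈ Sg, 𝔟₁ p.1 = 0) (hb₂ : ∀ p ∈ Sg, 𝔟₂ p.2 = 0)
    (P : Place L F) :
    ∃ R : Place k Fk₁ ⊕ Place k Fk₂, (∀ p ∈ Sg, R ≠ Sum.inr p.2) ∧
      Bar₂ S (𝔞 + Finsupp.single P 1) (𝔟₁ + pt₁ R) (𝔟₂ + pt₂ R) := by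
  obtain ⟨p₀, hp₀⟩ := S.node_nonempty
  have e0 := h.eventually S
  have e1 := ev_degree (bz_deg_pos S) 𝔞 (c + 1)
  have e2 := ev_degree S.deg₁_pos 𝔟₁ (c₁ + Sg.card + 1)
  have e3 := ev_degree S.deg₂_pos 𝔟₂ (c₂ + Sg.card + 1)
  obtain ⟨N₀, hN₀⟩ := Filter.eventually_atTop.mp (e0.and (e1.and (e2.and e3)))
  obtain ⟨m₀, hm₀⟩ := bar_zero S
  set H : ℕ → Submodule k (Fk₁ × Fk₂) := fun n =>
    redSpace₂ S.ax₁ S.ax₂ (riemannRochSpace (n • D - (𝔞 + Finsupp.single P 1))) with hH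
  have hsub : ∀ n : ℕ, n • D - (𝔞 + Finsupp.single P 1) = n • D - 𝔞 - Finsupp.single P 1 :=
    fun n => by abel
  have hB₁ : ∀ n : ℕ, n • D₁ + -𝔟₁ = n • D₁ - 𝔟₁ := fun n => by abel
  have hB₂ : ∀ n : ℕ, n • D₂ + -𝔟₂ = n • D₂ - 𝔟₂ := fun n => by abel
  have hoff₁ : ∀ n : ℕ, ∀ p ∈ Sg, (n • D₁ + -𝔟₁) p.1 = 0 := by
    intro n p hp
    rw [Finsupp.add_apply, Finsupp.neg_apply, hb₁ p hp, nsmul_node_off (S.node_off₁ p hp)]
    simp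
  have hoff₂ : ∀ n : ℕ, ∀ p ∈ Sg, (n • D₂ + -𝔟₂) p.2 = 0 := by
    intro n p hp
    rw [Finsupp.add_apply, Finsupp.neg_apply, hb₂ p hp, nsmul_node_off (S.node_off₂ p hp)]
    simp
  have hfin : ∀ n : ℕ, Module.Finite k (LX Sg (n • D₁ + -𝔟₁) (n • D₂ + -𝔟₂)) := fun n =>
    finite_LX (N := Sg) S.hpf₁ S.hpf₂ p₀.1 p₀.2 _ _
  have h_le : ∀ n, N₀ ≤ n → H n ≤ LX Sg (n • D₁ + -𝔟₁) (n • D₂ + -𝔟₂) := by
    intro n hn
    rw [hB₁, hB₂, ← (hN₀ n hn).1]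
    apply redSpace₂_mono S
    apply rrSpace_mono
    rw [hsub]
    exact sub_single_le _ _
  have h_dim : ∀ n, N₀ ≤ n →
      Module.finrank k (H n) + 1
        = Module.finrank k (LX Sg (n • D₁ + -𝔟₁) (n • D₂ + -𝔟₂)) := by
    intro n hn
    have e1 : Module.finrank k (H n)
        = Module.finrank L (riemannRochSpace (n • D - 𝔞 - Finsupp.single P 1)) := by
      rw [← hsub]; exact finrank_redSpace₂_rr S _
    have e2 : Module.finrank k (LX Sg (n • D₁ + -𝔟₁) (n • D₂ + -𝔟₂))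
        = Module.finrank L (riemannRochSpace (n • D - 𝔞)) := by
      rw [hB₁, hB₂, ← (hN₀ n hn).1]; exact finrank_redSpace₂_rr S _
    rw [e1, e2]
    exact finrank_sub_single S.hpf S.RF P (hN₀ n hn).2.1
  have h_ne : ∀ n, N₀ ≤ n → H n ≠ LX Sg (n • D₁ + -𝔟₁) (n • D₂ + -𝔟₂) := by
    intro n hn heq
    have := h_dim n hn
    rw [heq] at this
    omega
  have h_mul : ∀ n m, N₀ ≤ n → m₀ ≤ m → ∀ φ ∈ H n, ∀ χ ∈ LX Sg (m • D₁) (m • D₂),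
      χ * φ ∈ H (n + m) := by
    intro n m hn hm φ hφ χ hχ
    rw [← hm₀ m hm] at hχ
    have := mul_mem_redSpace₂ S hφ hχ
    have heq : m • D + (n • D - (𝔞 + Finsupp.single P 1))
        = (n + m) • D - (𝔞 + Finsupp.single P 1) := by
      rw [add_smul]; abel
    rwa [heq] at this
  have hnB₁ : ∀ p ∈ Sg, (-𝔟₁) p.1 = 0 := fun p hp => by
    rw [Finsupp.neg_apply, hb₁ p hp, neg_zero]
  have hnB₂ : ∀ p ∈ Sg, (-𝔟₂) p.2 = 0 := fun p hp => by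
    rw [Finsupp.neg_apply, hb₂ p hp, neg_zero]
  have hdeg₁ : ∀ n, N₀ ≤ n → c₁ + Sg.card + 1 ≤ Divisor.degree (n • D₁ + -𝔟₁) := fun n hn => by
    rw [hB₁]; exact (hN₀ n hn).2.2.1
  have hdeg₂ : ∀ n, N₀ ≤ n → c₂ + Sg.card + 1 ≤ Divisor.degree (n • D₂ + -𝔟₂) := fun n hn => by
    rw [hB₂]; exact (hN₀ n hn).2.2.2
  -- the two shapes of the conclusion
  have concl₁ : ∀ Q : Place k Fk₁, (∀ n, N₀ ≤ n → ∀ φ ∈ H n,
      φ.1 ∈ riemannRochSpace (n • D₁ + -𝔟₁ - Finsupp.single Q 1)) →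
      Bar₂ S (𝔞 + Finsupp.single P 1) (𝔟₁ + pt₁ (Sum.inl Q : Place k Fk₁ ⊕ Place k Fk₂))
        (𝔟₂ + pt₂ (Sum.inl Q : Place k Fk₁ ⊕ Place k Fk₂)) := by
    intro Q hQ
    refine ⟨N₀, fun n hn => ?_⟩
    rw [pt₁_inl, pt₂_inl, add_zero]
    have hrw : n • D₁ - (𝔟₁ + Finsupp.single Q 1) = n • D₁ + -𝔟₁ - Finsupp.single Q 1 := by abel
    rw [hrw, ← hB₂]
    haveI := hfin n
    refine eq_of_le_of_ne_of_finrank (M := LX Sg (n • D₁ + -𝔟₁) (n • D₂ + -𝔟₂))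
      (fun φ hφ => ⟨hQ n hn φ hφ, (h_le n hn hφ).2.1, (h_le n hn hφ).2.2⟩)
      (LX_mono (sub_single_le _ _) (le_refl _)) ?_ (h_dim n hn)
    intro heq
    obtain ⟨φ, hφ, hφn⟩ := exists_LX_notMem₁ (N := Sg) S.hpf₁ S.hpf₂ S.RF₁ S.RF₂ S.node_inj₁
      S.node_inj₂ (hoff₁ n) (hoff₂ n) (hdeg₁ n hn) (by have := hdeg₂ n hn; omega) Q
    rw [← heq] at hφ
    exact hφn hφ.1
  have concl₂ : ∀ Q : Place k Fk₂, (∀ n, N₀ ≤ n → ∀ φ ∈ H n,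
      φ.2 ∈ riemannRochSpace (n • D₂ + -𝔟₂ - Finsupp.single Q 1)) →
      Bar₂ S (𝔞 + Finsupp.single P 1) (𝔟₁ + pt₁ (Sum.inr Q : Place k Fk₁ ⊕ Place k Fk₂))
        (𝔟₂ + pt₂ (Sum.inr Q : Place k Fk₁ ⊕ Place k Fk₂)) := by
    intro Q hQ
    refine ⟨N₀, fun n hn => ?_⟩
    rw [pt₁_inr, pt₂_inr, add_zero]
    have hrw : n • D₂ - (𝔟₂ + Finsupp.single Q 1) = n • D₂ + -𝔟₂ - Finsupp.single Q 1 := by abel
    rw [hrw, ← hB₁]
    haveI := hfin n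
    refine eq_of_le_of_ne_of_finrank (M := LX Sg (n • D₁ + -𝔟₁) (n • D₂ + -𝔟₂))
      (fun φ hφ => ⟨(h_le n hn hφ).1, hQ n hn φ hφ, (h_le n hn hφ).2.2⟩)
      (LX_mono (le_refl _) (sub_single_le _ _)) ?_ (h_dim n hn)
    intro heq
    obtain ⟨φ, hφ, hφn⟩ := exists_LX_notMem₂ (N := Sg) S.hpf₁ S.hpf₂ S.RF₁ S.RF₂ S.node_inj₁
      S.node_inj₂ (hoff₁ n) (hoff₂ n) (by have := hdeg₁ n hn; omega) (hdeg₂ n hn) Q
    rw [← heq] at hφ
    exact hφn hφ.2.1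
  rcases nodal_hyperplane S.hpf₁ S.hpf₂ S.RF₁ S.RF₂ S.node_inj₁ S.node_inj₂ D₁ D₂ S.deg₁_pos
    S.deg₂_pos S.node_off₁ S.node_off₂ (-𝔟₁) (-𝔟₂) hnB₁ hnB₂ N₀ m₀ H h_le h_ne h_mul with
    ⟨Q, hQ⟩ | ⟨Q, hQ⟩
  · exact ⟨Sum.inl Q, fun _ _ h => Sum.inl_ne_inr h, concl₁ Q hQ⟩
  · by_cases hnode : ∃ p ∈ Sg, p.2 = Q
    · obtain ⟨p, hp, rfl⟩ := hnode
      refine ⟨Sum.inl p.1, fun _ _ h => Sum.inl_ne_inr h, concl₁ p.1 fun n hn φ hφ => ?_⟩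
      have hmem : φ ∈ LX Sg (n • D₁ + -𝔟₁) (n • D₂ + -𝔟₂ - Finsupp.single p.2 1) :=
        ⟨(h_le n hn hφ).1, hQ n hn φ hφ, (h_le n hn hφ).2.2⟩
      rw [← LX_node_swap hp (hoff₁ n p hp) (hoff₂ n p hp)] at hmem
      exact hmem.1
    · refine ⟨Sum.inr Q, fun p hp h => hnode ⟨p, hp, ?_⟩, concl₂ Q hQ⟩
      exact (Sum.inr.inj h).symm

end Step

/-! ### the specialisation of places -/

/-- `R` is a base point of the family `H` -/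
def IsBaseFam (S : Setup2 A res Red₁ Red₂ D D₁ D₂ Sg g g₁ g₂ c c₁ c₂)
    (H : ℕ → Submodule k (Fk₁ × Fk₂)) (R : Place k Fk₁ ⊕ Place k Fk₂) : Prop :=
  ∃ N : ℕ, ∀ n, N ≤ n → H n = LX Sg (n • D₁ - pt₁ R) (n • D₂ - pt₂ R)

/-- the family of joint reductions of the `L(n D - P)` -/
noncomputable def fam (S : Setup2 A res Red₁ Red₂ D D₁ D₂ Sg g g₁ g₂ c c₁ c₂) (P : Place L F) :
    ℕ → Submodule k (Fk₁ × Fk₂) :=
  fun n => redSpace₂ S.ax₁ S.ax₂ (riemannRochSpace (n • D - Finsupp.single P 1))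

/-- a base point of a family (the first component is preferred) -/
noncomputable def bp (S : Setup2 A res Red₁ Red₂ D D₁ D₂ Sg g g₁ g₂ c c₁ c₂)
    (H : ℕ → Submodule k (Fk₁ × Fk₂)) : Place k Fk₁ ⊕ Place k Fk₂ :=
  if h : ∃ Q : Place k Fk₁, IsBaseFam S H (Sum.inl Q) then Sum.inl h.choose
  else if h' : ∃ Q : Place k Fk₂, IsBaseFam S H (Sum.inr Q) then Sum.inr h'.choose
  else Sum.inl S.node_nonempty.choose.1

/-- **the specialisation of places** -/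
noncomputable def sp (S : Setup2 A res Red₁ Red₂ D D₁ D₂ Sg g g₁ g₂ c c₁ c₂) (P : Place L F) :
    Place k Fk₁ ⊕ Place k Fk₂ :=
  bp S (fam S P)

theorem sp_def (P : Place L F) : sp S P = bp S (fam S P) := rfl

/-- `sp` depends only on the family -/
theorem sp_congr {P P' : Place L F} (h : fam S P = fam S P') : sp S P = sp S P' := by
  rw [sp_def, sp_def, h]

theorem isBaseFam_iff {P : Place L F} {R : Place k Fk₁ ⊕ Place k Fk₂} :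
    IsBaseFam S (fam S P) R ↔ Bar₂ S (Finsupp.single P 1) (pt₁ R) (pt₂ R) := Iff.rfl

theorem exists_base [Infinite k] (P : Place L F) :
    ∃ R : Place k Fk₁ ⊕ Place k Fk₂, (∀ p ∈ Sg, R ≠ Sum.inr p.2) ∧ IsBaseFam S (fam S P) R := by
  obtain ⟨R, hR, hbar⟩ := (bar₂_zero S).step S (fun _ _ => rfl) (fun _ _ => rfl) P
  rw [zero_add, zero_add, zero_add] at hbar
  exact ⟨R, hR, hbar⟩

/-- **`sp_spec`**: the joint reduction of `L(n D - P)` is the space of the sections of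
`LX Sg (n D₁) (n D₂)` vanishing at `sp P` -/
theorem sp_spec [Infinite k] (P : Place L F) :
    Bar₂ S (Finsupp.single P 1) (pt₁ (sp S P)) (pt₂ (sp S P)) := by
  obtain ⟨R, hR, hbar⟩ := exists_base S P
  rw [← isBaseFam_iff]
  unfold sp bp
  split_ifs with h h'
  · exact h.choose_spec
  · exact h'.choose_spec
  · exfalso
    rcases R with Q | Q
    · exact h ⟨Q, hbar⟩
    · exact h' ⟨Q, hbar⟩

/-- the points over a node are recorded on the first branch -/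
theorem sp_ne (P : Place L F) : ∀ p ∈ Sg, sp S P ≠ Sum.inr p.2 := by
  intro p hp heq
  by_cases h : ∃ Q : Place k Fk₁, IsBaseFam S (fam S P) (Sum.inl Q)
  · rw [sp_def, bp, dif_pos h] at heq
    exact Sum.inl_ne_inr heq
  · by_cases h' : ∃ Q : Place k Fk₂, IsBaseFam S (fam S P) (Sum.inr Q)
    · rw [sp_def, bp, dif_neg h, dif_pos h'] at heq
      have hQ := Sum.inr.inj heq
      have hb := h'.choose_spec
      rw [hQ] at hb
      apply h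
      refine ⟨p.1, ?_⟩
      obtain ⟨N, hN⟩ := hb
      refine ⟨N, fun n hn => ?_⟩
      rw [hN n hn, pt₁_inr, pt₂_inr, pt₁_inl, pt₂_inl, sub_zero, sub_zero]
      exact (LX_node_swap hp (nsmul_node_off (S.node_off₁ p hp) n)
        (nsmul_node_off (S.node_off₂ p hp) n)).symm
    · rw [sp_def, bp, dif_neg h, dif_neg h'] at heq
      exact Sum.inl_ne_inr heq

/-! ### sections with exact orders -/

section Exact

variable [Infinite k]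

/-- generic sections of `L(n D - 𝔞)`: their reductions have exact orders at finitely many
points -/
theorem Bar₂.exists_exact {𝔞 : Divisor L F} {𝔟₁ : Divisor k Fk₁} {𝔟₂ : Divisor k Fk₂}
    (h : Bar₂ S 𝔞 𝔟₁ 𝔟₂) (hb₁ : ∀ p ∈ Sg, 𝔟₁ p.1 = 0) (hb₂ : ∀ p ∈ Sg, 𝔟₂ p.2 = 0)
    (T₁ : Finset (Place k Fk₁)) (T₂ : Finset (Place k Fk₂)) :
    ∀ᶠ n : ℕ in Filter.atTop, ∃ φ ∈ redSpace₂ S.ax₁ S.ax₂ (riemannRochSpace (n • D - 𝔞)),
      (∀ Q ∈ T₁, φ.1 ≠ 0 ∧ Q.ord φ.1 = -((n • D₁ - 𝔟₁) Q)) ∧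
      (∀ Q ∈ T₂, φ.2 ≠ 0 ∧ Q.ord φ.2 = -((n • D₂ - 𝔟₂) Q)) := by
  filter_upwards [h.eventually S, ev_degree S.deg₁_pos 𝔟₁ (c₁ + Sg.card + 1),
    ev_degree S.deg₂_pos 𝔟₂ (c₂ + Sg.card + 1)] with n h0 h1 h2
  rw [h0]
  exact exists_LX_exact (N := Sg) S.hpf₁ S.hpf₂ S.RF₁ S.RF₂ S.node_inj₁ S.node_inj₂
    (E₁ := n • D₁ - 𝔟₁) (E₂ := n • D₂ - 𝔟₂)
    (fun p hp => by
      rw [Finsupp.sub_apply, hb₁ p hp, nsmul_node_off (S.node_off₁ p hp), sub_zero])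
    (fun p hp => by
      rw [Finsupp.sub_apply, hb₂ p hp, nsmul_node_off (S.node_off₂ p hp), sub_zero])
    h1 h2 T₁ T₂

/-- **(B4)** generic sections of `L(n D - P)`: their reductions have exact orders at finitely
many points different from `sp P` -/
theorem exists_sec_exact (P : Place L F) (T₁ : Finset (Place k Fk₁)) (T₂ : Finset (Place k Fk₂))
    (hT₁ : ∀ Q ∈ T₁, Sum.inl Q ≠ sp S P)
    (hT₂ : ∀ Q ∈ T₂, Sum.inr Q ≠ sp S P ∧ ∀ p ∈ Sg, sp S P = Sum.inl p.1 → Q ≠ p.2) :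
    ∀ᶠ n : ℕ in Filter.atTop,
      ∃ φ ∈ redSpace₂ S.ax₁ S.ax₂ (riemannRochSpace (n • D - Finsupp.single P 1)),
        (∀ Q ∈ T₁, φ.1 ≠ 0 ∧ Q.ord φ.1 = -((n • D₁) Q)) ∧
        (∀ Q ∈ T₂, φ.2 ≠ 0 ∧ Q.ord φ.2 = -((n • D₂) Q)) := by
  filter_upwards [(sp_spec S P).eventually S, ev_degree S.deg₁_pos 0 (c₁ + Sg.card + 2),
    ev_degree S.deg₂_pos 0 (c₂ + Sg.card + 2)] with n h0 h1 h2
  rw [h0]
  rw [sub_zero] at h1 h2
  exact exists_LX_exact_pt (N := Sg) S.hpf₁ S.hpf₂ S.RF₁ S.RF₂ S.node_inj₁ S.node_inj₂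
    (E₁ := n • D₁) (E₂ := n • D₂)
    (fun p hp => nsmul_node_off (S.node_off₁ p hp) n)
    (fun p hp => nsmul_node_off (S.node_off₂ p hp) n) h1 h2 (sp S P) T₁ T₂
    (fun Q hQ => ⟨hT₁ Q hQ, fun p hp h => absurd h (sp_ne S P p hp)⟩) hT₂

end Exact

/-! ### independence of the context, `SpAx` -/

section StepEq

variable [Infinite k]

/-- **independence of the context** -/
theorem Bar₂.step_eq {𝔞 : Divisor L F} {𝔟₁ : Divisor k Fk₁} {𝔟₂ : Divisor k Fk₂}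
    (h : Bar₂ S 𝔞 𝔟₁ 𝔟₂) (hb₁ : ∀ p ∈ Sg, 𝔟₁ p.1 = 0) (hb₂ : ∀ p ∈ Sg, 𝔟₂ p.2 = 0)
    {P : Place L F} {R : Place k Fk₁ ⊕ Place k Fk₂}
    (h' : Bar₂ S (𝔞 + Finsupp.single P 1) (𝔟₁ + pt₁ R) (𝔟₂ + pt₂ R)) :
    R = sp S P ∨ ∃ p ∈ Sg, R = Sum.inr p.2 ∧ sp S P = Sum.inl p.1 := by
  by_contra hcon
  rw [not_or] at hcon
  obtain ⟨hne, hnn⟩ := hcon
  have heq : ∀ n m : ℕ, m • D - Finsupp.single P 1 + (n • D - 𝔞)
      = (n + m) • D - (𝔞 + Finsupp.single P 1) := fun n m => by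
    rw [add_smul]; abel
  rcases R with Q | Q
  · have ea := h.exists_exact S hb₁ hb₂ {Q} ∅
    have eb := exists_sec_exact S P {Q} ∅
      (fun Q' hQ' => by rw [Finset.mem_singleton] at hQ'; subst hQ'; exact hne)
      (fun Q' hQ' => absurd hQ' (Finset.notMem_empty _))
    have ec := h'.eventually S
    obtain ⟨Na, hNa⟩ := Filter.eventually_atTop.mp (ea.and ec)
    obtain ⟨Nb, hNb⟩ := Filter.eventually_atTop.mp eb
    obtain ⟨⟨φ, hφ, hφ1, -⟩, -⟩ := hNa Na le_rfl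
    obtain ⟨χ, hχ, hχ1, -⟩ := hNb Nb le_rfl
    have hc := (hNa (Na + Nb) (Nat.le_add_right _ _)).2
    have hmul := mul_mem_redSpace₂ S hφ hχ
    rw [heq, hc] at hmul
    obtain ⟨hφ0, hφo⟩ := hφ1 Q (Finset.mem_singleton_self _)
    obtain ⟨hχ0, hχo⟩ := hχ1 Q (Finset.mem_singleton_self _)
    have hm1 : χ.1 * φ.1 ∈ riemannRochSpace ((Na + Nb) • D₁ - (𝔟₁ + pt₁ (Sum.inl Q))) := hmul.1
    have hord := (mem_rrSpace_iff_of_ne_zero (mul_ne_zero hχ0 hφ0)).mp hm1 Q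
    rw [Q.ord_mul hχ0 hφ0, hχo, hφo, pt₁_inl] at hord
    simp only [Finsupp.sub_apply, Finsupp.add_apply, Finsupp.smul_apply, nsmul_eq_mul,
      Finsupp.single_eq_same, add_smul] at hord
    push_cast at hord
    linarith
  · have ea := h.exists_exact S hb₁ hb₂ ∅ {Q}
    have eb := exists_sec_exact S P ∅ {Q}
      (fun Q' hQ' => absurd hQ' (Finset.notMem_empty _))
      (fun Q' hQ' => by
        rw [Finset.mem_singleton] at hQ'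
        subst hQ'
        exact ⟨hne, fun p hp hsp hQp => hnn ⟨p, hp, by rw [hQp], hsp⟩⟩)
    have ec := h'.eventually S
    obtain ⟨Na, hNa⟩ := Filter.eventually_atTop.mp (ea.and ec)
    obtain ⟨Nb, hNb⟩ := Filter.eventually_atTop.mp eb
    obtain ⟨⟨φ, hφ, -, hφ1⟩, -⟩ := hNa Na le_rfl
    obtain ⟨χ, hχ, -, hχ1⟩ := hNb Nb le_rfl
    have hc := (hNa (Na + Nb) (Nat.le_add_right _ _)).2
    have hmul := mul_mem_redSpace₂ S hφ hχ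
    rw [heq, hc] at hmul
    obtain ⟨hφ0, hφo⟩ := hφ1 Q (Finset.mem_singleton_self _)
    obtain ⟨hχ0, hχo⟩ := hχ1 Q (Finset.mem_singleton_self _)
    have hm1 : χ.2 * φ.2 ∈ riemannRochSpace ((Na + Nb) • D₂ - (𝔟₂ + pt₂ (Sum.inr Q))) :=
      hmul.2.1
    have hord := (mem_rrSpace_iff_of_ne_zero (mul_ne_zero hχ0 hφ0)).mp hm1 Q
    rw [Q.ord_mul hχ0 hφ0, hχo, hφo, pt₂_inr] at hord
    simp only [Finsupp.sub_apply, Finsupp.add_apply, Finsupp.smul_apply, nsmul_eq_mul,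
      Finsupp.single_eq_same, add_smul] at hord
    push_cast at hord
    linarith

/-- the reductions of the sections of `L(n D - P)` vanish at `sp P` (first component) -/
theorem sp_van₁ {P : Place L F} {Q : Place k Fk₁} (hsp : sp S P = Sum.inl Q) {n : ℕ} {x : F}
    {a₁ : Fk₁} {a₂ : Fk₂} (hx : x ∈ riemannRochSpace (n • D - Finsupp.single P 1))
    (h1 : Red₁ x a₁) (h2 : Red₂ x a₂) :
    a₁ ∈ riemannRochSpace (n • D₁ - Finsupp.single Q 1) := by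
  have hspec := sp_spec S P
  rw [hsp, pt₁_inl, pt₂_inl] at hspec
  have ea := (bar₂_zero S).exists_exact S (fun _ _ => rfl) (fun _ _ => rfl) {Q} ∅
  obtain ⟨N, hN⟩ := Filter.eventually_atTop.mp (ea.and (hspec.eventually S))
  obtain ⟨⟨β, hβ, hβ1, -⟩, -⟩ := hN N le_rfl
  have hc := (hN (n + N) (Nat.le_add_left _ _)).2
  have hxa : ((a₁, a₂) : Fk₁ × Fk₂)
      ∈ redSpace₂ S.ax₁ S.ax₂ (riemannRochSpace (n • D - Finsupp.single P 1)) :=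
    ⟨x, hx, h1, h2⟩
  have hmul := mul_mem_redSpace₂ S hxa hβ
  have heq : N • D - 0 + (n • D - Finsupp.single P 1) = (n + N) • D - Finsupp.single P 1 := by
    rw [add_smul]; abel
  rw [heq, hc] at hmul
  obtain ⟨hβ0, hβo⟩ := hβ1 Q (Finset.mem_singleton_self _)
  have hm1 : β.1 * a₁ ∈ riemannRochSpace ((n + N) • D₁ - Finsupp.single Q 1) := hmul.1
  have ha₁ : a₁ ∈ riemannRochSpace (n • D₁) :=
    (S.H2 n x a₁ a₂ (rrSpace_mono (sub_single_le _ _) hx) h1 h2).1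
  rw [mem_sub_single_iff ha₁]
  by_cases h0 : a₁ = 0
  · exact Or.inl h0
  right
  have hord := (mem_rrSpace_iff_of_ne_zero (mul_ne_zero hβ0 h0)).mp hm1 Q
  rw [Q.ord_mul hβ0 h0, hβo] at hord
  simp only [Finsupp.sub_apply, Finsupp.add_apply, Finsupp.smul_apply, nsmul_eq_mul,
    Finsupp.single_eq_same, add_smul, Finsupp.coe_zero, Pi.zero_apply] at hord ⊢
  push_cast at hord
  linarith

/-- the reductions of the sections of `L(n D - P)` vanish at `sp P` (second component) -/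
theorem sp_van₂ {P : Place L F} {Q : Place k Fk₂} (hsp : sp S P = Sum.inr Q) {n : ℕ} {x : F}
    {a₁ : Fk₁} {a₂ : Fk₂} (hx : x ∈ riemannRochSpace (n • D - Finsupp.single P 1))
    (h1 : Red₁ x a₁) (h2 : Red₂ x a₂) :
    a₂ ∈ riemannRochSpace (n • D₂ - Finsupp.single Q 1) := by
  have hspec := sp_spec S P
  rw [hsp, pt₁_inr, pt₂_inr] at hspec
  have ea := (bar₂_zero S).exists_exact S (fun _ _ => rfl) (fun _ _ => rfl) ∅ {Q}
  obtain ⟨N, hN⟩ := Filter.eventually_atTop.mp (ea.and (hspec.eventually S))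
  obtain ⟨⟨β, hβ, -, hβ1⟩, -⟩ := hN N le_rfl
  have hc := (hN (n + N) (Nat.le_add_left _ _)).2
  have hxa : ((a₁, a₂) : Fk₁ × Fk₂)
      ∈ redSpace₂ S.ax₁ S.ax₂ (riemannRochSpace (n • D - Finsupp.single P 1)) :=
    ⟨x, hx, h1, h2⟩
  have hmul := mul_mem_redSpace₂ S hxa hβ
  have heq : N • D - 0 + (n • D - Finsupp.single P 1) = (n + N) • D - Finsupp.single P 1 := by
    rw [add_smul]; abel
  rw [heq, hc] at hmul
  obtain ⟨hβ0, hβo⟩ := hβ1 Q (Finset.mem_singleton_self _)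
  have hm1 : β.2 * a₂ ∈ riemannRochSpace ((n + N) • D₂ - Finsupp.single Q 1) := hmul.2.1
  have ha₂ : a₂ ∈ riemannRochSpace (n • D₂) :=
    (S.H2 n x a₁ a₂ (rrSpace_mono (sub_single_le _ _) hx) h1 h2).2.1
  rw [mem_sub_single_iff ha₂]
  by_cases h0 : a₂ = 0
  · exact Or.inl h0
  right
  have hord := (mem_rrSpace_iff_of_ne_zero (mul_ne_zero hβ0 h0)).mp hm1 Q
  rw [Q.ord_mul hβ0 h0, hβo] at hord
  simp only [Finsupp.sub_apply, Finsupp.add_apply, Finsupp.smul_apply, nsmul_eq_mul,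
    Finsupp.single_eq_same, add_smul, Finsupp.coe_zero, Pi.zero_apply] at hord ⊢
  push_cast at hord
  linarith

/-- separation on the first component -/
theorem sp_sep₁ {P : Place L F} {Q : Place k Fk₁} (hsp : sp S P ≠ Sum.inl Q) :
    ∃ (n : ℕ) (x : F) (a₁ : Fk₁) (a₂ : Fk₂),
      x ∈ riemannRochSpace (n • D - Finsupp.single P 1) ∧ Red₁ x a₁ ∧ Red₂ x a₂ ∧
        a₁ ∉ riemannRochSpace (n • D₁ - Finsupp.single Q 1) := by
  have e := exists_sec_exact S P {Q} ∅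
    (fun Q' hQ' => by rw [Finset.mem_singleton] at hQ'; subst hQ'; exact fun h => hsp h.symm)
    (fun Q' hQ' => absurd hQ' (Finset.notMem_empty _))
  obtain ⟨n, φ, ⟨x, hx, h1, h2⟩, hφ1, -⟩ := e.exists
  obtain ⟨h0, ho⟩ := hφ1 Q (Finset.mem_singleton_self _)
  exact ⟨n, x, φ.1, φ.2, hx, h1, h2, notMem_sub_single_of_ord_eq h0 ho⟩

/-- separation on the second component -/
theorem sp_sep₂ {P : Place L F} {Q : Place k Fk₂} (hQ : Smooth₂ Sg Q)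
    (hsp : sp S P ≠ Sum.inr Q) :
    ∃ (n : ℕ) (x : F) (a₁ : Fk₁) (a₂ : Fk₂),
      x ∈ riemannRochSpace (n • D - Finsupp.single P 1) ∧ Red₁ x a₁ ∧ Red₂ x a₂ ∧
        a₂ ∉ riemannRochSpace (n • D₂ - Finsupp.single Q 1) := by
  have e := exists_sec_exact S P ∅ {Q}
    (fun Q' hQ' => absurd hQ' (Finset.notMem_empty _))
    (fun Q' hQ' => by
      rw [Finset.mem_singleton] at hQ'
      subst hQ'
      exact ⟨fun h => hsp h.symm, fun p hp _ h => hQ p hp h.symm⟩)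
  obtain ⟨n, φ, ⟨x, hx, h1, h2⟩, -, hφ1⟩ := e.exists
  obtain ⟨h0, ho⟩ := hφ1 Q (Finset.mem_singleton_self _)
  exact ⟨n, x, φ.1, φ.2, hx, h1, h2, notMem_sub_single_of_ord_eq h0 ho⟩

/-- **helper7's interface** -/
theorem spAx : NodalSp.SpAx S (sp S) where
  sp_ne := sp_ne S
  van₁ := fun hsp _ _ _ _ hx h1 h2 => sp_van₁ S hsp hx h1 h2
  van₂ := fun hsp _ _ _ _ hx h1 h2 => sp_van₂ S hsp hx h1 h2
  sep₁ := fun hsp => sp_sep₁ S hsp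
  sep₂ := fun hQ hsp => sp_sep₂ S hQ hsp

end StepEq

/-! ### reduction of effective divisors -/

/-- the push-forward of a divisor to the first component -/
noncomputable def push₁ (S : Setup2 A res Red₁ Red₂ D D₁ D₂ Sg g g₁ g₂ c c₁ c₂)
    (𝔞 : Divisor L F) : Divisor k Fk₁ :=
  Finsupp.comapDomain Sum.inl (Finsupp.mapDomain (sp S) 𝔞) Sum.inl_injective.injOn

/-- the push-forward of a divisor to the second component -/
noncomputable def push₂ (S : Setup2 A res Red₁ Red₂ D D₁ D₂ Sg g g₁ g₂ c c₁ c₂)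
    (𝔞 : Divisor L F) : Divisor k Fk₂ :=
  Finsupp.comapDomain Sum.inr (Finsupp.mapDomain (sp S) 𝔞) Sum.inr_injective.injOn

theorem push₁_apply (𝔞 : Divisor L F) (Q : Place k Fk₁) :
    push₁ S 𝔞 Q = Finsupp.mapDomain (sp S) 𝔞 (Sum.inl Q) :=
  Finsupp.comapDomain_apply _ _ _ _

theorem push₂_apply (𝔞 : Divisor L F) (Q : Place k Fk₂) :
    push₂ S 𝔞 Q = Finsupp.mapDomain (sp S) 𝔞 (Sum.inr Q) :=
  Finsupp.comapDomain_apply _ _ _ _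

theorem push₁_zero : push₁ S (0 : Divisor L F) = 0 := by
  ext Q
  rw [push₁_apply, Finsupp.mapDomain_zero]
  rfl

theorem push₂_zero : push₂ S (0 : Divisor L F) = 0 := by
  ext Q
  rw [push₂_apply, Finsupp.mapDomain_zero]
  rfl

theorem push₁_add (𝔞 𝔞' : Divisor L F) : push₁ S (𝔞 + 𝔞') = push₁ S 𝔞 + push₁ S 𝔞' := by
  ext Q
  rw [Finsupp.add_apply, push₁_apply, push₁_apply, push₁_apply, Finsupp.mapDomain_add,
    Finsupp.add_apply]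

theorem push₂_add (𝔞 𝔞' : Divisor L F) : push₂ S (𝔞 + 𝔞') = push₂ S 𝔞 + push₂ S 𝔞' := by
  ext Q
  rw [Finsupp.add_apply, push₂_apply, push₂_apply, push₂_apply, Finsupp.mapDomain_add,
    Finsupp.add_apply]

theorem push₁_single (P : Place L F) : push₁ S (Finsupp.single P 1) = pt₁ (sp S P) := by
  ext Q
  rw [push₁_apply, Finsupp.mapDomain_single]
  rcases hR : sp S P with Q' | Q'
  · rw [pt₁_inl, Finsupp.single_apply, Finsupp.single_apply]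
    simp only [Sum.inl.injEq]
  · rw [pt₁_inr, Finsupp.single_apply]
    simp

theorem push₂_single (P : Place L F) : push₂ S (Finsupp.single P 1) = pt₂ (sp S P) := by
  ext Q
  rw [push₂_apply, Finsupp.mapDomain_single]
  rcases hR : sp S P with Q' | Q'
  · rw [pt₂_inl, Finsupp.single_apply]
    simp
  · rw [pt₂_inr, Finsupp.single_apply, Finsupp.single_apply]
    simp only [Sum.inr.injEq]

section Smooth

variable [Infinite k]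

/-- the induction behind `bar_smooth` -/
theorem bar_push (𝔞 : Divisor L F) (h𝔞 : 0 ≤ 𝔞)
    (hsm : ∀ P, 𝔞 P ≠ 0 → ∀ p ∈ Sg, sp S P ≠ Sum.inl p.1) :
    Bar₂ S 𝔞 (push₁ S 𝔞) (push₂ S 𝔞) ∧ (∀ p ∈ Sg, push₁ S 𝔞 p.1 = 0) ∧
      (∀ p ∈ Sg, push₂ S 𝔞 p.2 = 0) := by
  refine divisor_induction S.hpf
    (p := fun 𝔞 => (∀ P, 𝔞 P ≠ 0 → ∀ p ∈ Sg, sp S P ≠ Sum.inl p.1) →
      (Bar₂ S 𝔞 (push₁ S 𝔞) (push₂ S 𝔞) ∧ (∀ p ∈ Sg, push₁ S 𝔞 p.1 = 0) ∧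
        (∀ p ∈ Sg, push₂ S 𝔞 p.2 = 0))) 0 ?_ ?_ 𝔞 h𝔞 hsm
  · intro _
    rw [push₁_zero, push₂_zero]
    exact ⟨bar₂_zero S, fun _ _ => rfl, fun _ _ => rfl⟩
  · intro 𝔞' P h𝔞' ih hsm'
    have hnn : ∀ P', 0 ≤ 𝔞' P' := fun P' => by
      have := Finsupp.le_def.mp h𝔞' P'
      simpa using this
    have hsm'' : ∀ P', 𝔞' P' ≠ 0 → ∀ p ∈ Sg, sp S P' ≠ Sum.inl p.1 := by
      intro P' hP'
      apply hsm' P'
      rw [Finsupp.add_apply]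
      have h1 := hnn P'
      have h2 : (0 : ℤ) ≤ (Finsupp.single P (1 : ℤ)) P' := by
        rw [Finsupp.single_apply]; split_ifs <;> norm_num
      omega
    have hP : ∀ p ∈ Sg, sp S P ≠ Sum.inl p.1 := by
      apply hsm' P
      rw [Finsupp.add_apply, Finsupp.single_eq_same]
      have h1 := hnn P
      omega
    obtain ⟨hbar, ho₁, ho₂⟩ := ih hsm''
    obtain ⟨R, hR, hstep⟩ := hbar.step S ho₁ ho₂ P
    have hRsp : R = sp S P := by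
      rcases hbar.step_eq S ho₁ ho₂ hstep with h | ⟨p, hp, -, hsp⟩
      · exact h
      · exact absurd hsp (hP p hp)
    rw [hRsp] at hstep
    rw [push₁_add, push₂_add, push₁_single, push₂_single]
    refine ⟨hstep, fun p hp => ?_, fun p hp => ?_⟩
    · rw [Finsupp.add_apply, ho₁ p hp, zero_add]
      rcases hsp : sp S P with Q | Q
      · rw [pt₁_inl]
        refine Finsupp.single_eq_of_ne ?_
        intro h
        exact hP p hp (by rw [hsp, h])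
      · rw [pt₁_inr]
        rfl
    · rw [Finsupp.add_apply, ho₂ p hp, zero_add]
      rcases hsp : sp S P with Q | Q
      · rw [pt₂_inl]
        rfl
      · rw [pt₂_inr]
        refine Finsupp.single_eq_of_ne ?_
        intro h
        exact sp_ne S P p hp (by rw [hsp, h])

/-- **(B5) reduction of effective divisors** whose points do not specialise to nodes -/
theorem bar_smooth (𝔞 : Divisor L F) (h𝔞 : 0 ≤ 𝔞)
    (hsm : ∀ P, 𝔞 P ≠ 0 → ∀ p ∈ Sg, sp S P ≠ Sum.inl p.1)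
    (𝔟₁ : Divisor k Fk₁) (𝔟₂ : Divisor k Fk₂)
    (h₁ : ∀ Q, 𝔟₁ Q = Finsupp.mapDomain (sp S) 𝔞 (Sum.inl Q))
    (h₂ : ∀ Q, 𝔟₂ Q = Finsupp.mapDomain (sp S) 𝔞 (Sum.inr Q)) :
    ∃ N : ℕ, ∀ n, N ≤ n → redSpace₂ S.ax₁ S.ax₂ (riemannRochSpace (n • D - 𝔞))
      = LX Sg (n • D₁ - 𝔟₁) (n • D₂ - 𝔟₂) := by
  have e₁ : 𝔟₁ = push₁ S 𝔞 := by
    ext Q
    rw [h₁, push₁_apply]
  have e₂ : 𝔟₂ = push₂ S 𝔞 := by
    ext Q
    rw [h₂, push₂_apply]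
  rw [e₁, e₂]
  exact (bar_push S 𝔞 h𝔞 hsm).1

/-- uniqueness of the reduction, one inequality -/
theorem Bar₂.le_of_bar {𝔞 : Divisor L F} {𝔟₁ 𝔟₁' : Divisor k Fk₁} {𝔟₂ 𝔟₂' : Divisor k Fk₂}
    (h : Bar₂ S 𝔞 𝔟₁ 𝔟₂) (h' : Bar₂ S 𝔞 𝔟₁' 𝔟₂') (hb₁ : ∀ p ∈ Sg, 𝔟₁ p.1 = 0)
    (hb₂ : ∀ p ∈ Sg, 𝔟₂ p.2 = 0) : 𝔟₁' ≤ 𝔟₁ ∧ 𝔟₂' ≤ 𝔟₂ := by
  constructor
  · rw [Finsupp.le_def]
    intro Q
    have ea := h.exists_exact S hb₁ hb₂ {Q} ∅
    obtain ⟨n, ⟨φ, hφ, hφ1, -⟩, hc⟩ := (ea.and (h'.eventually S)).exists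
    rw [hc] at hφ
    obtain ⟨h0, ho⟩ := hφ1 Q (Finset.mem_singleton_self _)
    have hord := (mem_rrSpace_iff_of_ne_zero h0).mp hφ.1 Q
    rw [ho] at hord
    simp only [Finsupp.sub_apply] at hord
    linarith
  · rw [Finsupp.le_def]
    intro Q
    have ea := h.exists_exact S hb₁ hb₂ ∅ {Q}
    obtain ⟨n, ⟨φ, hφ, -, hφ1⟩, hc⟩ := (ea.and (h'.eventually S)).exists
    rw [hc] at hφ
    obtain ⟨h0, ho⟩ := hφ1 Q (Finset.mem_singleton_self _)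
    have hord := (mem_rrSpace_iff_of_ne_zero h0).mp hφ.2.1 Q
    rw [ho] at hord
    simp only [Finsupp.sub_apply] at hord
    linarith

/-- **uniqueness of the reduction** -/
theorem Bar₂.unique {𝔞 : Divisor L F} {𝔟₁ 𝔟₁' : Divisor k Fk₁} {𝔟₂ 𝔟₂' : Divisor k Fk₂}
    (h : Bar₂ S 𝔞 𝔟₁ 𝔟₂) (h' : Bar₂ S 𝔞 𝔟₁' 𝔟₂') (hb₁ : ∀ p ∈ Sg, 𝔟₁ p.1 = 0)
    (hb₂ : ∀ p ∈ Sg, 𝔟₂ p.2 = 0) (hb₁' : ∀ p ∈ Sg, 𝔟₁' p.1 = 0)
    (hb₂' : ∀ p ∈ Sg, 𝔟₂' p.2 = 0) : 𝔟₁ = 𝔟₁' ∧ 𝔟₂ = 𝔟₂' := by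
  obtain ⟨a1, a2⟩ := h.le_of_bar S h' hb₁ hb₂
  obtain ⟨b1, b2⟩ := h'.le_of_bar S h hb₁' hb₂'
  exact ⟨le_antisymm b1 a1, le_antisymm b2 a2⟩

/-- a divisor with a reduction off the nodes is smooth-specialising -/
theorem Bar₂.smooth {𝔞 : Divisor L F} {𝔟₁ : Divisor k Fk₁} {𝔟₂ : Divisor k Fk₂}
    (h : Bar₂ S 𝔞 𝔟₁ 𝔟₂) (h𝔞 : 0 ≤ 𝔞) (hb₁ : ∀ p ∈ Sg, 𝔟₁ p.1 = 0)
    (hb₂ : ∀ p ∈ Sg, 𝔟₂ p.2 = 0) :
    ∀ P, 𝔞 P ≠ 0 → ∀ p ∈ Sg, sp S P ≠ Sum.inl p.1 := by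
  intro P hP p hp hsp
  have hle : Finsupp.single P 1 ≤ 𝔞 := by
    rw [Finsupp.le_def]
    intro P'
    have h1 := Finsupp.le_def.mp h𝔞 P'
    simp only [Finsupp.coe_zero, Pi.zero_apply] at h1
    rw [Finsupp.single_apply]
    split_ifs with hPP
    · subst hPP
      omega
    · exact h1
  have hspec := sp_spec S P
  rw [hsp, pt₁_inl, pt₂_inl] at hspec
  have ea := h.exists_exact S hb₁ hb₂ {p.1} ∅
  obtain ⟨n, ⟨φ, hφ, hφ1, -⟩, hc⟩ := (ea.and (hspec.eventually S)).exists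
  have hφ' : φ ∈ redSpace₂ S.ax₁ S.ax₂ (riemannRochSpace (n • D - Finsupp.single P 1)) :=
    redSpace₂_mono S (rrSpace_mono (sub_le_sub_left hle _)) hφ
  rw [hc] at hφ'
  obtain ⟨h0, ho⟩ := hφ1 p.1 (Finset.mem_singleton_self _)
  have hord := (mem_rrSpace_iff_of_ne_zero h0).mp hφ'.1 p.1
  rw [ho] at hord
  simp only [Finsupp.sub_apply, Finsupp.single_eq_same, hb₁ p hp,
    nsmul_node_off (S.node_off₁ p hp) n] at hord
  omega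

/-- **(B6)** a reduction off the nodes is the push-forward -/
theorem Bar₂.eq_push {𝔞 : Divisor L F} {𝔟₁ : Divisor k Fk₁} {𝔟₂ : Divisor k Fk₂}
    (h : Bar₂ S 𝔞 𝔟₁ 𝔟₂) (h𝔞 : 0 ≤ 𝔞) (hb₁ : ∀ p ∈ Sg, 𝔟₁ p.1 = 0)
    (hb₂ : ∀ p ∈ Sg, 𝔟₂ p.2 = 0) : 𝔟₁ = push₁ S 𝔞 ∧ 𝔟₂ = push₂ S 𝔞 := by
  obtain ⟨hbar, ho₁, ho₂⟩ := bar_push S 𝔞 h𝔞 (h.smooth S h𝔞 hb₁ hb₂)
  exact h.unique S hbar hb₁ hb₂ ho₁ ho₂

/-- `Bar₂ S D D₁ D₂` -/
theorem bar₂_D : Bar₂ S D D₁ D₂ := by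
  obtain ⟨N, hN⟩ := bar_zero S
  refine ⟨N + 1, fun n hn => ?_⟩
  have h1 : 1 ≤ n := by omega
  rw [nsmul_sub_self_eq n h1 D, nsmul_sub_self_eq n h1 D₁, nsmul_sub_self_eq n h1 D₂]
  exact hN (n - 1) (by omega)

/-- the points of `D` do not specialise to nodes -/
theorem smooth_D : ∀ P, D P ≠ 0 → ∀ p ∈ Sg, sp S P ≠ Sum.inl p.1 :=
  (bar₂_D S).smooth S S.D_nonneg S.node_off₁ S.node_off₂

/-- `sp_* D = (D₁, D₂)` -/
theorem push_D : D₁ = push₁ S D ∧ D₂ = push₂ S D :=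
  (bar₂_D S).eq_push S S.D_nonneg S.node_off₁ S.node_off₂

theorem mapDomain_D₁ (Q : Place k Fk₁) : Finsupp.mapDomain (sp S) D (Sum.inl Q) = D₁ Q := by
  rw [← push₁_apply, ← (push_D S).1]

theorem mapDomain_D₂ (Q : Place k Fk₂) : Finsupp.mapDomain (sp S) D (Sum.inr Q) = D₂ Q := by
  rw [← push₂_apply, ← (push_D S).2]

end Smooth

end Bar

end Fermat.Agent.S34.Nodal
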