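import Fermat.Agent.S34.Facts
import Fermat.Agent.S37.GalAbs

/-!
# C83 (S34), piece A5, part 0: tools shared by Stage 1 (`Mov`) and Stage 2 (`Inj`)

* `exists_joint_scale` : a nonzero function has a scaling which is integral for BOTH valuations
  with at least one nonzero reduction;
* `red_smul_div`       : `h f / f` reduces to a nonzero constant if `h` acts trivially on the
  special fibre;
* `exists_sp_eq₁/₂`    : every smooth point off `D_i` is the specialisation of a place;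
* `exists_lift`        : a divisor `G₀ ≥ 0` lifting two finite sets of smooth points;
* `mapDomain_eq_zero_of_red_const` : `m • E = div w`, `w` reducing to a nonzero constant ⇒ the
  specialisation of `E` vanishes at the smooth points;
* `no_node_of_count`   : THE COUNT: an effective divisor whose specialisation at the smooth points
  already accounts for its whole degree has no point over a node.
-/

set_option autoImplicit false
set_option linter.unusedSectionVars false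
set_option linter.style.haveILetI false
set_option linter.unusedSimpArgs false
set_option linter.unusedTactic false
set_option linter.unusedVariables false

open AlgebraicCurve Fermat.Agent.Lib.FF Fermat.Agent.S18.Deuring
open scoped Classical

namespace Fermat.Agent.S34.Common

section Gen

variable {K₁ F₁ K₂ F₂ : Type*} [Field K₁] [Field F₁] [Algebra K₁ F₁] [Field K₂] [Field F₂]
  [Algebra K₂ F₂]

/-- the degree of a push-forward (all places have degree one) -/
theorem degree_mapDomain (hpf₁ : PlaceFacts K₁ F₁) (hpf₂ : PlaceFacts K₂ F₂)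
    (ρ : Place K₁ F₁ → Place K₂ F₂) (E : Divisor K₁ F₁) :
    Divisor.degree (Finsupp.mapDomain ρ E) = Divisor.degree E := by
  induction E using Finsupp.induction_linear with
  | zero => simp
  | add f g hf hg => rw [Finsupp.mapDomain_add, map_add, map_add, hf, hg]
  | single P n => rw [Finsupp.mapDomain_single, hpf₂.degree_single, hpf₁.degree_single]

/-- an effective divisor of degree zero is zero -/
theorem eq_zero_of_nonneg_of_degree_eq_zero (hpf₁ : PlaceFacts K₁ F₁) {E : Divisor K₁ F₁}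
    (hE : 0 ≤ E) (hdeg : Divisor.degree E = 0) : E = 0 := by
  have h1 := degree_eq_sum_of_res hpf₁.res E E.support subset_rfl
  rw [hdeg] at h1
  have h2 := (Finset.sum_eq_zero_iff_of_nonneg
    (fun v _ => by simpa using Finsupp.le_def.mp hE v)).mp h1.symm
  ext v
  by_cases hv : v ∈ E.support
  · simpa using h2 v hv
  · simpa using Finsupp.notMem_support_iff.mp hv

end Gen

variable {L k F Fk₁ Fk₂ : Type*} [Field L] [Field k] [Field F] [Field Fk₁] [Field Fk₂]
  [Algebra L F] [Algebra k Fk₁] [Algebra k Fk₂]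
variable {A : ValuationSubring L} {res : A →+* k} {Red₁ : F → Fk₁ → Prop}
  {Red₂ : F → Fk₂ → Prop} {D : Divisor L F} {D₁ : Divisor k Fk₁} {D₂ : Divisor k Fk₂}
  {Sg : Finset (Place k Fk₁ × Place k Fk₂)} {g g₁ g₂ : ℕ} {c c₁ c₂ : ℤ}

/-- joint scaling: integral for both valuations, one reduction nonzero -/
theorem exists_joint_scale (ax₁ : RedAx A res Red₁) (ax₂ : RedAx A res Red₂) (x : F)
    (hx : x ≠ 0) :
    ∃ c : L, c ≠ 0 ∧ ∃ (a₁ : Fk₁) (a₂ : Fk₂), Red₁ (c • x) a₁ ∧ Red₂ (c • x) a₂ ∧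
      (a₁ ≠ 0 ∨ a₂ ≠ 0) := by
  obtain ⟨e₁, he₁, φ₁, hφ₁, h₁⟩ := ax₁.scale x hx
  obtain ⟨e₂, he₂, φ₂, hφ₂, h₂⟩ := ax₂.scale x hx
  rcases ax₂.mem_or (e₁ / e₂) with ⟨u, hu⟩ | ⟨-, u, hu, hu0⟩
  · refine ⟨e₁, he₁, φ₁, algebraMap k Fk₂ (res u) * φ₂, h₁, ?_, Or.inl hφ₁⟩
    have := ax₂.smul u h₂
    rwa [hu, smul_smul, div_mul_cancel₀ _ he₂] at this
  · refine ⟨e₂, he₂, algebraMap k Fk₁ (res u) * φ₁, φ₂, ?_, h₂, Or.inr hφ₂⟩
    have := ax₁.smul u h₁
    rwa [hu, smul_smul, inv_div, div_mul_cancel₀ _ he₁] at this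

/-- `h f / f` reduces to a nonzero constant -/
theorem red_smul_div {Fk : Type*} [Field Fk] [Algebra k Fk] {Red : F → Fk → Prop}
    (ax : RedAx A res Red) (h : SemilinearAut L F)
    (hred : ∀ x a, Red x a → Red (h • x) a)
    (hval : ∀ c : L, c ≠ 0 →
      SemilinearAut.baseAut h c / c ∈ A ∧ c / SemilinearAut.baseAut h c ∈ A)
    {f : F} (hf : f ≠ 0) : ∃ e : k, e ≠ 0 ∧ Red (h • f * f⁻¹) (algebraMap k Fk e) := by
  obtain ⟨c, hc, φ, hφ, hR⟩ := ax.scale f hf
  have h1 := hred _ _ hR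
  have h2 : h • (c • f) = (SemilinearAut.baseAut h c) • (h • f) := by
    rw [Algebra.smul_def, Algebra.smul_def, smul_mul', SemilinearAut.smul_algebraMap]
  rw [h2] at h1
  have h3 := ax.mul h1 (ax.inv hR hφ)
  rw [mul_inv_cancel₀ hφ] at h3
  obtain ⟨hu, hu'⟩ := hval c hc
  have hσc : SemilinearAut.baseAut h c ≠ 0 := by
    intro h0
    exact hc ((map_eq_zero_iff _ (SemilinearAut.baseAut h).injective).mp h0)
  have h4 := ax.smul (⟨c / SemilinearAut.baseAut h c, hu'⟩ : A) h3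
  have hcF : algebraMap L F c ≠ 0 := (map_ne_zero _).mpr hc
  have hσcF : algebraMap L F (SemilinearAut.baseAut h c) ≠ 0 := (map_ne_zero _).mpr hσc
  have h5 : (c / SemilinearAut.baseAut h c) •
      ((SemilinearAut.baseAut h c) • (h • f) * (c • f)⁻¹) = h • f * f⁻¹ := by
    simp only [Algebra.smul_def, map_div₀]
    field_simp
  rw [mul_one] at h4
  refine ⟨res ⟨c / SemilinearAut.baseAut h c, hu'⟩, ?_, ?_⟩
  · intro h0
    have h6 : (⟨c / SemilinearAut.baseAut h c, hu'⟩ : A) * ⟨SemilinearAut.baseAut h c / c, hu⟩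
        = 1 := by
      apply Subtype.ext
      show c / SemilinearAut.baseAut h c * (SemilinearAut.baseAut h c / c) = 1
      field_simp
    have h7 := congrArg res h6
    rw [map_mul, h0, zero_mul, map_one] at h7
    exact zero_ne_one h7
  · have h8 : ((⟨c / SemilinearAut.baseAut h c, hu'⟩ : A) : L) = c / SemilinearAut.baseAut h c :=
      rfl
    rw [h8, h5] at h4
    exact h4

variable (S : Setup2 A res Red₁ Red₂ D D₁ D₂ Sg g g₁ g₂ c c₁ c₂) (Fc : Facts S)

/-- every smooth point of the first component off `D₁` is the specialisation of a place -/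
theorem exists_sp_eq₁ (Q : Place k Fk₁) (hQ : Smooth₁ Sg Q) (hD : D₁ Q = 0) :
    ∃ P, Fc.sp P = Sum.inl Q := by
  obtain ⟨τ, t, hτt, ht, -⟩ := Fc.unif₁ Q hQ hD
  have ht0 : t ≠ 0 := by
    rintro rfl
    simp at ht
  have h1 := Fc.r5₁ hτt ht0 Q hQ
  rw [ht] at h1
  obtain ⟨P, hP, -⟩ := exists_fibre_of_mapDomain_ne_zero Fc.sp
    (by rw [h1]; exact one_ne_zero)
  exact ⟨P, hP⟩

/-- every smooth point of the second component off `D₂` is the specialisation of a place -/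
theorem exists_sp_eq₂ (Q : Place k Fk₂) (hQ : Smooth₂ Sg Q) (hD : D₂ Q = 0) :
    ∃ P, Fc.sp P = Sum.inr Q := by
  obtain ⟨τ, t, hτt, ht, -⟩ := Fc.unif₂ Q hQ hD
  have ht0 : t ≠ 0 := by
    rintro rfl
    simp at ht
  have h1 := Fc.r5₂ hτt ht0 Q hQ
  rw [ht] at h1
  obtain ⟨P, hP, -⟩ := exists_fibre_of_mapDomain_ne_zero Fc.sp
    (by rw [h1]; exact one_ne_zero)
  exact ⟨P, hP⟩

theorem mapDomain_inl_apply_inl {α β : Type*} (E : α →₀ ℤ) (a : α) :
    Finsupp.mapDomain (Sum.inl : α → α ⊕ β) E (Sum.inl a) = E a :=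
  Finsupp.mapDomain_apply Sum.inl_injective E a

theorem mapDomain_inr_apply_inr {α β : Type*} (E : β →₀ ℤ) (b : β) :
    Finsupp.mapDomain (Sum.inr : β → α ⊕ β) E (Sum.inr b) = E b :=
  Finsupp.mapDomain_apply Sum.inr_injective E b

theorem mapDomain_inl_apply_inr {α β : Type*} (E : α →₀ ℤ) (b : β) :
    Finsupp.mapDomain (Sum.inl : α → α ⊕ β) E (Sum.inr b) = 0 :=
  Finsupp.mapDomain_of_notMem_range _ _ (by simp)

theorem mapDomain_inr_apply_inl {α β : Type*} (E : β →₀ ℤ) (a : α) :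
    Finsupp.mapDomain (Sum.inr : β → α ⊕ β) E (Sum.inl a) = 0 :=
  Finsupp.mapDomain_of_notMem_range _ _ (by simp)

theorem sum_single_nonneg {ι α : Type*} (s : Finset ι) (pt : ι → α) :
    (0 : α →₀ ℤ) ≤ ∑ Q ∈ s, Finsupp.single (pt Q) (1 : ℤ) := by
  refine Finset.sum_nonneg fun Q _ => ?_
  rw [Finsupp.le_def]
  intro v
  rw [Finsupp.single_apply]
  split_ifs <;> simp

/-- a divisor lifting two finite sets of smooth points -/
theorem exists_lift (Qs₁ : Finset (Place k Fk₁)) (Qs₂ : Finset (Place k Fk₂))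
    (h₁ : ∀ Q ∈ Qs₁, Smooth₁ Sg Q ∧ D₁ Q = 0) (h₂ : ∀ Q ∈ Qs₂, Smooth₂ Sg Q ∧ D₂ Q = 0) :
    ∃ G₀ : Divisor L F, 0 ≤ G₀ ∧ Divisor.degree G₀ = (Qs₁.card : ℤ) + Qs₂.card ∧
      (∀ Q, Finsupp.mapDomain Fc.sp G₀ (Sum.inl Q) = sumPl Qs₁ Q) ∧
      (∀ Q, Finsupp.mapDomain Fc.sp G₀ (Sum.inr Q) = sumPl Qs₂ Q) := by
  obtain ⟨p₀, hp₀⟩ := S.node_nonempty
  obtain ⟨P₀, -⟩ : ∃ P : Place L F, True := by
    by_contra hcon
    have hemp : ∀ P : Place L F, False := fun P => hcon ⟨P, trivial⟩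
    have h0 : D = 0 := by
      ext P
      exact (hemp P).elim
    have := S.deg_eq
    rw [h0, map_zero] at this
    have h1 := S.deg₁_pos
    have h2 := S.deg₂_pos
    omega
  haveI : Nonempty (Place L F) := ⟨P₀⟩
  have hpt₁ : ∀ Q ∈ Qs₁, ∃ P, Fc.sp P = Sum.inl Q := fun Q hQ =>
    exists_sp_eq₁ S Fc Q (h₁ Q hQ).1 (h₁ Q hQ).2
  have hpt₂ : ∀ Q ∈ Qs₂, ∃ P, Fc.sp P = Sum.inr Q := fun Q hQ =>
    exists_sp_eq₂ S Fc Q (h₂ Q hQ).1 (h₂ Q hQ).2
  choose! pt₁ hpt₁ using hpt₁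
  choose! pt₂ hpt₂ using hpt₂
  set G₁ : Divisor L F := ∑ Q ∈ Qs₁, Finsupp.single (pt₁ Q) (1 : ℤ) with hG₁
  set G₂ : Divisor L F := ∑ Q ∈ Qs₂, Finsupp.single (pt₂ Q) (1 : ℤ) with hG₂
  have hr₁ : Finsupp.mapDomain Fc.sp G₁ = Finsupp.mapDomain Sum.inl (sumPl Qs₁) := by
    rw [hG₁, Finsupp.mapDomain_finsetSum, sumPl, Finsupp.mapDomain_finsetSum]
    refine Finset.sum_congr rfl fun Q hQ => ?_
    rw [Finsupp.mapDomain_single, Finsupp.mapDomain_single, hpt₁ Q hQ]
  have hr₂ : Finsupp.mapDomain Fc.sp G₂ = Finsupp.mapDomain Sum.inr (sumPl Qs₂) := by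
    rw [hG₂, Finsupp.mapDomain_finsetSum, sumPl, Finsupp.mapDomain_finsetSum]
    refine Finset.sum_congr rfl fun Q hQ => ?_
    rw [Finsupp.mapDomain_single, Finsupp.mapDomain_single, hpt₂ Q hQ]
  refine ⟨G₁ + G₂, add_nonneg (sum_single_nonneg _ _) (sum_single_nonneg _ _), ?_, ?_, ?_⟩
  · rw [map_add, hG₁, hG₂, map_sum, map_sum]
    simp only [S.hpf.degree_single]
    simp
  · intro Q
    rw [Finsupp.mapDomain_add, Finsupp.add_apply, hr₁, hr₂, mapDomain_inl_apply_inl,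
      mapDomain_inr_apply_inl, add_zero]
  · intro Q
    rw [Finsupp.mapDomain_add, Finsupp.add_apply, hr₁, hr₂, mapDomain_inl_apply_inr,
      mapDomain_inr_apply_inr, zero_add]

/-- `m • E = div w` with `w` reducing to a nonzero constant: the specialisation of `E` vanishes at
the smooth points of the first component -/
theorem mapDomain_eq_zero_of_red_const₁ {m : ℕ} (hm : m ≠ 0) {w : F} {E : Divisor L F}
    (hdiv : ∀ P, (m : ℤ) * E P = P.ord w) {e : k} (he : e ≠ 0)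
    (hw : Red₁ w (algebraMap k Fk₁ e)) (Q : Place k Fk₁) (hQ : Smooth₁ Sg Q) :
    Finsupp.mapDomain Fc.sp E (Sum.inl Q) = 0 := by
  have hdivw : S.hpf.divOf w = m • E := by
    ext P
    rw [S.hpf.divOf_apply, Finsupp.smul_apply, nsmul_eq_mul]
    exact (hdiv P).symm
  have h1 := Fc.r5₁ hw ((map_ne_zero _).mpr he) Q hQ
  rw [hdivw, Finsupp.mapDomain_smul, Finsupp.smul_apply, nsmul_eq_mul, ord_algebraMap] at h1
  rcases mul_eq_zero.mp h1 with h | h
  · exact absurd (by exact_mod_cast h) hm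
  · exact h

/-- the same at the smooth points of the second component -/
theorem mapDomain_eq_zero_of_red_const₂ {m : ℕ} (hm : m ≠ 0) {w : F} {E : Divisor L F}
    (hdiv : ∀ P, (m : ℤ) * E P = P.ord w) {e : k} (he : e ≠ 0)
    (hw : Red₂ w (algebraMap k Fk₂ e)) (Q : Place k Fk₂) (hQ : Smooth₂ Sg Q) :
    Finsupp.mapDomain Fc.sp E (Sum.inr Q) = 0 := by
  have hdivw : S.hpf.divOf w = m • E := by
    ext P
    rw [S.hpf.divOf_apply, Finsupp.smul_apply, nsmul_eq_mul]
    exact (hdiv P).symm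
  have h1 := Fc.r5₂ hw ((map_ne_zero _).mpr he) Q hQ
  rw [hdivw, Finsupp.mapDomain_smul, Finsupp.smul_apply, nsmul_eq_mul, ord_algebraMap] at h1
  rcases mul_eq_zero.mp h1 with h | h
  · exact absurd (by exact_mod_cast h) hm
  · exact h

/-- no place specialises to the second branch of a node -/
theorem mapDomain_sp_inr_node (E : Divisor L F) {p : Place k Fk₁ × Place k Fk₂} (hp : p ∈ Sg) :
    Finsupp.mapDomain Fc.sp E (Sum.inr p.2) = 0 := by
  rw [mapDomain_apply_sum]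
  refine Finset.sum_eq_zero fun P _ => ?_
  rw [if_neg (Fc.sp_ne P p hp)]

/-- **the count**: an effective divisor whose specialisation at the smooth points accounts for
its whole degree has no point over a node -/
theorem no_node_of_count {Z : Divisor L F} (hZ : 0 ≤ Z) {E₁ : Divisor k Fk₁}
    {E₂ : Divisor k Fk₂}
    (hdeg : Divisor.degree Z = Divisor.degree E₁ + Divisor.degree E₂)
    (h₁ : ∀ Q, Smooth₁ Sg Q → Finsupp.mapDomain Fc.sp Z (Sum.inl Q) = E₁ Q)
    (h₂ : ∀ Q, Smooth₂ Sg Q → Finsupp.mapDomain Fc.sp Z (Sum.inr Q) = E₂ Q)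
    (hn₁ : ∀ p ∈ Sg, E₁ p.1 = 0) (hn₂ : ∀ p ∈ Sg, E₂ p.2 = 0) :
    ∀ P, ∀ p ∈ Sg, Fc.sp P = Sum.inl p.1 → Z P = 0 := by
  obtain ⟨p₀, hp₀⟩ := S.node_nonempty
  set ρ₁ : Place L F → Place k Fk₁ := fun P => Sum.elim id (fun _ => p₀.1) (Fc.sp P) with hρ₁
  set ρ₂ : Place L F → Place k Fk₂ := fun P => Sum.elim (fun _ => p₀.2) id (Fc.sp P) with hρ₂
  set Z₁ : Divisor L F := Finsupp.filter (fun P => (Fc.sp P).isLeft = true) Z with hZ₁
  set Z₂ : Divisor L F := Finsupp.filter (fun P => ¬ (Fc.sp P).isLeft = true) Z with hZ₂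
  have hsum : Z₁ + Z₂ = Z := Finsupp.filter_add_filter_not _ _
  set B₁ : Divisor k Fk₁ := Finsupp.mapDomain ρ₁ Z₁ with hB₁
  set B₂ : Divisor k Fk₂ := Finsupp.mapDomain ρ₂ Z₂ with hB₂
  have hdegB : Divisor.degree B₁ + Divisor.degree B₂ = Divisor.degree Z := by
    rw [hB₁, hB₂, degree_mapDomain S.hpf S.hpf₁, degree_mapDomain S.hpf S.hpf₂, ← map_add, hsum]
  have hsp₁ : Finsupp.mapDomain Fc.sp Z₁ = Finsupp.mapDomain Sum.inl B₁ := by
    rw [hB₁, ← Finsupp.mapDomain_comp]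
    refine Finsupp.mapDomain_congr fun P hP => ?_
    have hP' : (Fc.sp P).isLeft = true := by
      by_contra hcon
      exact (Finsupp.mem_support_iff.mp hP)
        (Finsupp.filter_apply_neg (fun P => (Fc.sp P).isLeft = true) Z hcon)
    show Fc.sp P = Sum.inl (Sum.elim id (fun _ => p₀.1) (Fc.sp P))
    rcases hsp : Fc.sp P with Q | Q
    · rfl
    · rw [hsp] at hP'
      simp at hP'
  have hsp₂ : Finsupp.mapDomain Fc.sp Z₂ = Finsupp.mapDomain Sum.inr B₂ := by
    rw [hB₂, ← Finsupp.mapDomain_comp]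
    refine Finsupp.mapDomain_congr fun P hP => ?_
    have hP' : ¬ (Fc.sp P).isLeft = true := by
      intro hcon
      exact (Finsupp.mem_support_iff.mp hP)
        (Finsupp.filter_apply_neg (fun P => ¬ (Fc.sp P).isLeft = true) Z (not_not.mpr hcon))
    show Fc.sp P = Sum.inr (Sum.elim (fun _ => p₀.2) id (Fc.sp P))
    rcases hsp : Fc.sp P with Q | Q
    · rw [hsp] at hP'
      simp at hP'
    · rfl
  have hZs : Finsupp.mapDomain Fc.sp Z
      = Finsupp.mapDomain Sum.inl B₁ + Finsupp.mapDomain Sum.inr B₂ := by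
    rw [← hsum, Finsupp.mapDomain_add, hsp₁, hsp₂]
  have hl : ∀ Q, Finsupp.mapDomain Fc.sp Z (Sum.inl Q) = B₁ Q := fun Q => by
    rw [hZs, Finsupp.add_apply, mapDomain_inl_apply_inl, mapDomain_inr_apply_inl, add_zero]
  have hr : ∀ Q, Finsupp.mapDomain Fc.sp Z (Sum.inr Q) = B₂ Q := fun Q => by
    rw [hZs, Finsupp.add_apply, mapDomain_inl_apply_inr, mapDomain_inr_apply_inr, zero_add]
  have hZs_nn : 0 ≤ Finsupp.mapDomain Fc.sp Z := mapDomain_nonneg Fc.sp hZ
  have hB₂E : B₂ = E₂ := by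
    ext Q
    by_cases hQ : Smooth₂ Sg Q
    · rw [← hr, h₂ Q hQ]
    · unfold Smooth₂ at hQ
      simp only [not_forall, not_not] at hQ
      obtain ⟨p, hp, hpQ⟩ := hQ
      rw [← hpQ, ← hr, mapDomain_sp_inr_node S Fc Z hp, hn₂ p hp]
  have hN : 0 ≤ B₁ - E₁ := by
    rw [Finsupp.le_def]
    intro Q
    rw [Finsupp.sub_apply]
    by_cases hQ : Smooth₁ Sg Q
    · rw [← hl, h₁ Q hQ]
      simp
    · unfold Smooth₁ at hQ
      simp only [not_forall, not_not] at hQ
      obtain ⟨p, hp, hpQ⟩ := hQ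
      rw [← hpQ, hn₁ p hp, sub_zero, ← hl]
      simpa using Finsupp.le_def.mp hZs_nn (Sum.inl p.1)
  have hNdeg : Divisor.degree (B₁ - E₁) = 0 := by
    rw [map_sub]
    rw [hB₂E] at hdegB
    omega
  have hN0 := eq_zero_of_nonneg_of_degree_eq_zero S.hpf₁ hN hNdeg
  intro P p hp hP
  have h3 : Finsupp.mapDomain Fc.sp Z (Sum.inl p.1) = 0 := by
    rw [hl]
    have := congrArg (fun E : Divisor k Fk₁ => E p.1) hN0
    simp only [Finsupp.sub_apply, Finsupp.coe_zero, Pi.zero_apply] at this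
    rw [hn₁ p hp] at this
    simpa using this
  have h4 := le_mapDomain_apply Fc.sp (E := Z) (Q := Sum.inl p.1)
    (fun P' _ => Finsupp.le_def.mp hZ P') hP
  have h5 := Finsupp.le_def.mp hZ P
  rw [h3] at h4
  simp only [Finsupp.coe_zero, Pi.zero_apply] at h5
  omega

end Fermat.Agent.S34.Common
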