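import Fermat.Agent.S34.NodalProd
import Fermat.Agent.S34.NodalFibre
import Fermat.Agent.S37.RedInjM

/-!
# C83 (S34), piece C2, part 6: the products and the separation for `X₀(Mq)` at `q` (concrete)

`Red₁`, `Red₂ : F(Mq) → F_k(M) → Prop` the two reductions, `E = Pol(J)` on `F_k(M)`,
`D = Pol(j) + Pol(j_q)` on `F(Mq)`.  `ProdFacts` collects what C1 (reductions of `α f`, `β f`,
`j`, `j_q`) and C3 (`H2a`, `H2b`) deliver.  From it:

* `exists_lift` : lifting of `L(a E)` to `L(a Pol j)` at the level `M` (S18);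
* `halpha`, `hbeta` : the hypotheses `hα`, `hβ` of `PreSetup2.exists_setup2_of_products`;
* `hsep₁`, `hsep₂` : the separation hypotheses;
* `exists_setup2` : `Setup2` from `PreSetup2`, `ProdFacts` and the conductor hypothesis.
-/

set_option autoImplicit false
set_option linter.unusedSectionVars false
set_option linter.unusedVariables false
set_option linter.style.haveILetI false
set_option synthInstance.maxHeartbeats 400000
set_option maxHeartbeats 1000000

noncomputable section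

open AlgebraicCurve ModularCurve IntermediateField Fermat.Agent.Lib.FF
open Fermat.Agent.S18 Fermat.Agent.S18.Deuring Fermat.Agent.S34.Nodal

namespace Fermat.Agent.S34.NConc

local notation "Qb" => AlgebraicClosure ℚ

variable (A : ValuationSubring (AlgebraicClosure ℚ)) (q : ℕ) [hq : Fact q.Prime]
variable (hA : A.LiesOverPrime q) (M : ℕ) [NeZero M] (hqM : ¬ q ∣ M)

attribute [local instance] Fermat.Agent.S34.C3.neZero_q

/-- what C1 and C3 deliver about the two reductions -/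
structure ProdFacts
    (Red₁ Red₂ : modularFunctionFieldBar (M * q) →
      modularFunctionFieldFullC (IsLocalRing.ResidueField A) M → Prop)
    (hpf : PlaceFacts Qb (modularFunctionFieldBar (M * q)))
    (hpfk : PlaceFacts (IsLocalRing.ResidueField A)
      (modularFunctionFieldFullC (IsLocalRing.ResidueField A) M)) : Prop where
  alpha₁ : ∀ f a, GV.RedF A M f a → Red₁ (heckeAlphaBar Qb M q f) a
  alpha₂ : ∀ f a, GV.RedF A M f a → ∃ a', Red₂ (heckeAlphaBar Qb M q f) a'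
  beta₁ : ∀ f a, GV.RedF A M f a → ∃ a', Red₁ (heckeBetaBar Qb M q f) a'
  beta₂ : ∀ f a, GV.RedF A M f a → Red₂ (heckeBetaBar Qb M q f) a
  j₁ : Red₁ (Fermat.Agent.S24.jBar (M * q)) (GV.jK (IsLocalRing.ResidueField A) M)
  jq₁ : Red₁ (Fermat.Agent.S34.C3.jq q M) (GV.jK (IsLocalRing.ResidueField A) M ^ q)
  jq₂ : Red₂ (Fermat.Agent.S34.C3.jq q M) (GV.jK (IsLocalRing.ResidueField A) M)
  j₂' : Red₂ (Fermat.Agent.S24.jBar (M * q)) (GV.jK (IsLocalRing.ResidueField A) M ^ q)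
  H2a : ∀ (c : ℕ) (x : modularFunctionFieldBar (M * q))
    (a₁ a₂ : modularFunctionFieldFullC (IsLocalRing.ResidueField A) M),
    x ∈ riemannRochSpace (c • hpf.poleDiv (Fermat.Agent.S24.jBar (M * q))) →
    Red₁ x a₁ → Red₂ x a₂ →
      a₁ ∈ riemannRochSpace (c • hpfk.poleDiv (GV.jK (IsLocalRing.ResidueField A) M))
  H2b : ∀ (c : ℕ) (x : modularFunctionFieldBar (M * q))
    (a₁ a₂ : modularFunctionFieldFullC (IsLocalRing.ResidueField A) M),
    x ∈ riemannRochSpace (c • hpf.poleDiv (Fermat.Agent.S34.C3.jq q M)) →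
    Red₁ x a₁ → Red₂ x a₂ →
      a₂ ∈ riemannRochSpace (c • hpfk.poleDiv (GV.jK (IsLocalRing.ResidueField A) M))

include hA hqM in
/-- lifting of `L(a E)` to `L(a Pol j)` at the level `M` (S18) -/
theorem exists_lift (h49 : 4 ∣ M ∨ 9 ∣ M) :
    ∃ a₀ : ℕ, ∀ a : ℕ, a₀ ≤ a →
      ∀ φ ∈ riemannRochSpace (a • (Final.placeFacts_k A q hA M).poleDiv
          (GV.jK (IsLocalRing.ResidueField A) M)),
        ∃ f ∈ riemannRochSpace (a • (Final.placeFacts_bar M).poleDiv (Fermat.Agent.S24.jBar M)),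
          GV.RedF A M f φ := by
  obtain ⟨g, c, -, S⟩ := Fermat.Agent.S37.R.exists_setup A q hA M hqM h49
  obtain ⟨ck, hRk⟩ := S.rthm_k
  refine ⟨max c.toNat ck.toNat, fun a ha φ hφ => ?_⟩
  have hd := S.deg_pos
  have h1 : (a : ℤ) * 1 ≤ a * Divisor.degree
      ((Final.placeFacts_bar M).poleDiv (Fermat.Agent.S24.jBar M)) :=
    mul_le_mul_of_nonneg_left (by omega) (by positivity)
  have hc : c ≤ a := by
    have : c.toNat ≤ a := (le_max_left _ _).trans ha
    omega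
  have hck : ck ≤ a := by
    have : ck.toNat ≤ a := (le_max_right _ _).trans ha
    omega
  have key := S.redSpace_nsmul_eq hRk a (by omega) (by omega)
  rw [← key] at hφ
  exact hφ

variable {A q M}
variable {Red₁ Red₂ : modularFunctionFieldBar (M * q) →
      modularFunctionFieldFullC (IsLocalRing.ResidueField A) M → Prop}
  {hpf : PlaceFacts Qb (modularFunctionFieldBar (M * q))}
  {hpfk : PlaceFacts (IsLocalRing.ResidueField A)
      (modularFunctionFieldFullC (IsLocalRing.ResidueField A) M)}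

include hA hqM in
/-- the hypothesis `hα` of `PreSetup2.exists_setup2_of_products` -/
theorem halpha (PF : ProdFacts A q M Red₁ Red₂ hpf hpfk)
    (ax₁ : RedAx A (IsLocalRing.residue A) Red₁) (ax₂ : RedAx A (IsLocalRing.residue A) Red₂)
    (h49 : 4 ∣ M ∨ 9 ∣ M) :
    ∃ n₀ : ℕ, ∀ n : ℕ, n₀ ≤ n →
      ∀ f ∈ riemannRochSpace ((n + 1 - q) •
          hpfk.poleDiv (GV.jK (IsLocalRing.ResidueField A) M)),
        ∃ h ∈ riemannRochSpace (n • ((1 + q) •
            hpfk.poleDiv (GV.jK (IsLocalRing.ResidueField A) M))),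
          (GV.jK (IsLocalRing.ResidueField A) M ^ (q * (n + 2)) * f, h)
            ∈ redSpace₂ ax₁ ax₂ (riemannRochSpace ((n + 1) •
                (hpf.poleDiv (Fermat.Agent.S24.jBar (M * q))
                  + hpf.poleDiv (Fermat.Agent.S34.C3.jq q M)))) := by
  obtain ⟨a₀, hlift⟩ := exists_lift A q hA M hqM h49
  refine ⟨a₀ + q, fun n hn φ hφ => ?_⟩
  have hqn : q ≤ n + 1 := by omega
  obtain ⟨f, hf, hfφ⟩ := hlift (n + 1 - q) (by omega) φ hφ
  obtain ⟨a', ha'⟩ := PF.alpha₂ f φ hfφ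
  set x : modularFunctionFieldBar (M * q) :=
    heckeAlphaBar Qb M q f * Fermat.Agent.S34.C3.jq q M ^ (n + 2) with hx
  have hxmem := Fermat.Agent.S34.NP.alpha_mul_jq_pow_mem q M (Final.placeFacts_bar M) hpf
    (n + 1 - q) (n + 2) hf
  have hR₁ : Red₁ x (φ * (GV.jK (IsLocalRing.ResidueField A) M ^ q) ^ (n + 2)) := by
    refine ax₁.mul (PF.alpha₁ f φ hfφ) ?_
    have : ∀ m : ℕ, Red₁ (Fermat.Agent.S34.C3.jq q M ^ m)
        ((GV.jK (IsLocalRing.ResidueField A) M ^ q) ^ m) := by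
      intro m
      induction m with
      | zero => simpa using ax₁.one
      | succ m ih => rw [pow_succ, pow_succ]; exact ax₁.mul ih PF.jq₁
    exact this _
  have hR₂ : Red₂ x (a' * GV.jK (IsLocalRing.ResidueField A) M ^ (n + 2)) := by
    refine ax₂.mul ha' ?_
    have : ∀ m : ℕ, Red₂ (Fermat.Agent.S34.C3.jq q M ^ m)
        (GV.jK (IsLocalRing.ResidueField A) M ^ m) := by
      intro m
      induction m with
      | zero => simpa using ax₂.one
      | succ m ih => rw [pow_succ, pow_succ]; exact ax₂.mul ih PF.jq₂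
    exact this _
  have hPjq0 : 0 ≤ hpf.poleDiv (Fermat.Agent.S34.C3.jq q M) := by
    rw [Finsupp.le_def]
    intro v
    rw [PlaceFacts.poleDiv_apply]
    exact le_max_right _ _
  refine ⟨a' * GV.jK (IsLocalRing.ResidueField A) M ^ (n + 2), ?_, x, ?_, ?_, hR₂⟩
  · have h1 := rrSpace_mono (Fermat.Agent.S34.NP.prod_le_snd q n hq.out.two_le hqn
      (Fermat.Agent.S34.C3.poleDiv_j_le q M hqM hpf) hPjq0) hxmem
    have h2 := PF.H2b _ x _ _ h1 hR₁ hR₂
    rwa [smul_smul]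
  · exact rrSpace_mono (Fermat.Agent.S34.NP.prod_le_sym q n hqn
      (Fermat.Agent.S34.C3.poleDiv_jq_le q M hqM hpf)) hxmem
  · show Red₁ x _
    have e : GV.jK (IsLocalRing.ResidueField A) M ^ (q * (n + 2)) * φ
        = φ * (GV.jK (IsLocalRing.ResidueField A) M ^ q) ^ (n + 2) := by
      rw [← pow_mul, mul_comm]
    rw [e]
    exact hR₁

include hA hqM in
/-- the hypothesis `hβ` of `PreSetup2.exists_setup2_of_products` -/
theorem hbeta (PF : ProdFacts A q M Red₁ Red₂ hpf hpfk)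
    (ax₁ : RedAx A (IsLocalRing.residue A) Red₁) (ax₂ : RedAx A (IsLocalRing.residue A) Red₂)
    (h49 : 4 ∣ M ∨ 9 ∣ M) :
    ∃ n₀ : ℕ, ∀ n : ℕ, n₀ ≤ n →
      ∀ f ∈ riemannRochSpace ((n + 1 - q) •
          hpfk.poleDiv (GV.jK (IsLocalRing.ResidueField A) M)),
        ∃ h ∈ riemannRochSpace (n • ((1 + q) •
            hpfk.poleDiv (GV.jK (IsLocalRing.ResidueField A) M))),
          (h, GV.jK (IsLocalRing.ResidueField A) M ^ (q * (n + 2)) * f)
            ∈ redSpace₂ ax₁ ax₂ (riemannRochSpace ((n + 1) •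
                (hpf.poleDiv (Fermat.Agent.S24.jBar (M * q))
                  + hpf.poleDiv (Fermat.Agent.S34.C3.jq q M)))) := by
  obtain ⟨a₀, hlift⟩ := exists_lift A q hA M hqM h49
  refine ⟨a₀ + q, fun n hn φ hφ => ?_⟩
  have hqn : q ≤ n + 1 := by omega
  obtain ⟨f, hf, hfφ⟩ := hlift (n + 1 - q) (by omega) φ hφ
  obtain ⟨a', ha'⟩ := PF.beta₁ f φ hfφ
  set x : modularFunctionFieldBar (M * q) :=
    heckeBetaBar Qb M q f * Fermat.Agent.S24.jBar (M * q) ^ (n + 2) with hx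
  have hxmem := Fermat.Agent.S34.NP.beta_mul_j_pow_mem q M (Final.placeFacts_bar M) hpf
    (n + 1 - q) (n + 2) hf
  have hR₂ : Red₂ x (φ * (GV.jK (IsLocalRing.ResidueField A) M ^ q) ^ (n + 2)) := by
    refine ax₂.mul (PF.beta₂ f φ hfφ) ?_
    have : ∀ m : ℕ, Red₂ (Fermat.Agent.S24.jBar (M * q) ^ m)
        ((GV.jK (IsLocalRing.ResidueField A) M ^ q) ^ m) := by
      intro m
      induction m with
      | zero => simpa using ax₂.one
      | succ m ih => rw [pow_succ, pow_succ]; exact ax₂.mul ih PF.j₂'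
    exact this _
  have hR₁ : Red₁ x (a' * GV.jK (IsLocalRing.ResidueField A) M ^ (n + 2)) := by
    refine ax₁.mul ha' ?_
    have : ∀ m : ℕ, Red₁ (Fermat.Agent.S24.jBar (M * q) ^ m)
        (GV.jK (IsLocalRing.ResidueField A) M ^ m) := by
      intro m
      induction m with
      | zero => simpa using ax₁.one
      | succ m ih => rw [pow_succ, pow_succ]; exact ax₁.mul ih PF.j₁
    exact this _
  have hPj0 : 0 ≤ hpf.poleDiv (Fermat.Agent.S24.jBar (M * q)) := by
    rw [Finsupp.le_def]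
    intro v
    rw [PlaceFacts.poleDiv_apply]
    exact le_max_right _ _
  refine ⟨a' * GV.jK (IsLocalRing.ResidueField A) M ^ (n + 2), ?_, x, ?_, hR₁, ?_⟩
  · have h1 := rrSpace_mono (Fermat.Agent.S34.NP.prod_le_snd q n hq.out.two_le hqn
      (Fermat.Agent.S34.C3.poleDiv_jq_le q M hqM hpf) hPj0) hxmem
    have h2 := PF.H2a _ x _ _ h1 hR₁ hR₂
    rwa [smul_smul]
  · have := rrSpace_mono (Fermat.Agent.S34.NP.prod_le_sym q n hqn
      (Fermat.Agent.S34.C3.poleDiv_j_le q M hqM hpf)) hxmem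
    rwa [add_comm (hpf.poleDiv (Fermat.Agent.S34.C3.jq q M))] at this
  · show Red₂ x _
    have e : GV.jK (IsLocalRing.ResidueField A) M ^ (q * (n + 2)) * φ
        = φ * (GV.jK (IsLocalRing.ResidueField A) M ^ q) ^ (n + 2) := by
      rw [← pow_mul, mul_comm]
    rw [e]
    exact hR₂

include hA hqM in
/-- joint reductions of `α f` with prescribed first coordinate (and of `β f` with prescribed
second coordinate) -/
theorem exists_mem_redSpace₂ (PF : ProdFacts A q M Red₁ Red₂ hpf hpfk)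
    (ax₁ : RedAx A (IsLocalRing.residue A) Red₁) (ax₂ : RedAx A (IsLocalRing.residue A) Red₂)
    (h49 : 4 ∣ M ∨ 9 ∣ M) :
    ∃ a₀ : ℕ, ∀ a : ℕ, a₀ ≤ a →
      ∀ φ ∈ riemannRochSpace (a • hpfk.poleDiv (GV.jK (IsLocalRing.ResidueField A) M)),
        (∃ b ∈ redSpace₂ ax₁ ax₂ (riemannRochSpace (a •
            (hpf.poleDiv (Fermat.Agent.S24.jBar (M * q))
              + hpf.poleDiv (Fermat.Agent.S34.C3.jq q M)))), b.1 = φ) ∧
        (∃ b ∈ redSpace₂ ax₁ ax₂ (riemannRochSpace (a •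
            (hpf.poleDiv (Fermat.Agent.S24.jBar (M * q))
              + hpf.poleDiv (Fermat.Agent.S34.C3.jq q M)))), b.2 = φ) := by
  obtain ⟨a₀, hlift⟩ := exists_lift A q hA M hqM h49
  refine ⟨a₀, fun a ha φ hφ => ?_⟩
  obtain ⟨f, hf, hfφ⟩ := hlift a ha φ hφ
  have hPj0 : 0 ≤ hpf.poleDiv (Fermat.Agent.S24.jBar (M * q)) := by
    rw [Finsupp.le_def]
    intro v
    rw [PlaceFacts.poleDiv_apply]
    exact le_max_right _ _
  have hPjq0 : 0 ≤ hpf.poleDiv (Fermat.Agent.S34.C3.jq q M) := by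
    rw [Finsupp.le_def]
    intro v
    rw [PlaceFacts.poleDiv_apply]
    exact le_max_right _ _
  have hle₁ : a • hpf.poleDiv (Fermat.Agent.S24.jBar (M * q))
      ≤ a • (hpf.poleDiv (Fermat.Agent.S24.jBar (M * q))
        + hpf.poleDiv (Fermat.Agent.S34.C3.jq q M)) := by
    rw [smul_add]
    exact le_add_of_nonneg_right (Fermat.Agent.S34.NC.nsmul_nonneg_of_nonneg hPjq0 a)
  have hle₂ : a • hpf.poleDiv (Fermat.Agent.S34.C3.jq q M)
      ≤ a • (hpf.poleDiv (Fermat.Agent.S24.jBar (M * q))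
        + hpf.poleDiv (Fermat.Agent.S34.C3.jq q M)) := by
    rw [smul_add]
    exact le_add_of_nonneg_left (Fermat.Agent.S34.NC.nsmul_nonneg_of_nonneg hPj0 a)
  constructor
  · obtain ⟨a', ha'⟩ := PF.alpha₂ f φ hfφ
    exact ⟨(φ, a'), ⟨heckeAlphaBar Qb M q f,
      rrSpace_mono hle₁ (Fermat.Agent.S34.NP.alpha_mem q M (Final.placeFacts_bar M) hpf a hf),
      PF.alpha₁ f φ hfφ, ha'⟩, rfl⟩
  · obtain ⟨a', ha'⟩ := PF.beta₁ f φ hfφ
    exact ⟨(a', φ), ⟨heckeBetaBar Qb M q f,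
      rrSpace_mono hle₂ (Fermat.Agent.S34.NP.beta_mem q M (Final.placeFacts_bar M) hpf a hf),
      ha', PF.beta₂ f φ hfφ⟩, rfl⟩

include hA hqM in
/-- the separation hypotheses `sep₁`, `sep₂` -/
theorem hsep (PF : ProdFacts A q M Red₁ Red₂ hpf hpfk)
    (ax₁ : RedAx A (IsLocalRing.residue A) Red₁) (ax₂ : RedAx A (IsLocalRing.residue A) Red₂)
    (h49 : 4 ∣ M ∨ 9 ∣ M)
    (Y : Finset (Place (IsLocalRing.ResidueField A)
      (modularFunctionFieldFullC (IsLocalRing.ResidueField A) M)))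
    (off : ∀ y ∈ Y, hpfk.poleDiv (GV.jK (IsLocalRing.ResidueField A) M) y = 0) :
    ∀ y ∈ Y, ∀ y' ∈ Y, y ≠ y' →
      (∃ m : ℕ, ∃ b ∈ redSpace₂ ax₁ ax₂ (riemannRochSpace (m •
            (hpf.poleDiv (Fermat.Agent.S24.jBar (M * q))
              + hpf.poleDiv (Fermat.Agent.S34.C3.jq q M)))),
          valueAt y b.1 ≠ valueAt y' b.1) ∧
      (∃ m : ℕ, ∃ b ∈ redSpace₂ ax₁ ax₂ (riemannRochSpace (m •
            (hpf.poleDiv (Fermat.Agent.S24.jBar (M * q))
              + hpf.poleDiv (Fermat.Agent.S34.C3.jq q M)))),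
          valueAt y b.2 ≠ valueAt y' b.2) := by
  intro y hy y' hy' hne
  obtain ⟨a₀, hred⟩ := exists_mem_redSpace₂ hA hqM PF ax₁ ax₂ h49
  obtain ⟨g, c, -, S⟩ := Fermat.Agent.S37.R.exists_setup A q hA M hqM h49
  obtain ⟨ck, hRk⟩ := S.rthm_k
  have hd : 0 < Divisor.degree (hpfk.poleDiv (GV.jK (IsLocalRing.ResidueField A) M)) :=
    S.deg_eq ▸ S.deg_pos
  set a : ℕ := max a₀ (ck + Y.card).toNat with ha
  have h1 : (a : ℤ) * 1 ≤ a * Divisor.degree
      (hpfk.poleDiv (GV.jK (IsLocalRing.ResidueField A) M)) :=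
    mul_le_mul_of_nonneg_left (by omega) (by positivity)
  have h2 : ck + Y.card ≤ a := by
    have : (ck + Y.card).toNat ≤ a := le_max_right _ _
    omega
  obtain ⟨φ, hφ, hv1, hv0⟩ := exists_delta hpfk hRk
    (E := a • hpfk.poleDiv (GV.jK (IsLocalRing.ResidueField A) M)) (Z := Y)
    (fun z hz => by rw [Finsupp.smul_apply, off z hz, smul_zero])
    (by rw [map_nsmul, nsmul_eq_mul]; omega) hy
  have hval : valueAt y φ ≠ valueAt y' φ := by
    rw [hv1.valueAt_eq, (hv0 y' hy' (fun h => hne h.symm)).valueAt_eq]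
    exact one_ne_zero
  obtain ⟨⟨b₁, hb₁, e₁⟩, ⟨b₂, hb₂, e₂⟩⟩ := hred a (le_max_left _ _) φ hφ
  exact ⟨⟨a, b₁, hb₁, by rw [e₁]; exact hval⟩, ⟨a, b₂, hb₂, by rw [e₂]; exact hval⟩⟩

include hA hqM in
/-- **`Setup2` for `X₀(Mq)` at `q`** from `PreSetup2` (C1, C3), `ProdFacts` (C1, C3), the
conductor hypothesis and `g₁ + g₂ ≤ g` -/
theorem exists_setup2 {g g₁ g₂ : ℕ} {c c₁ c₂ : ℤ}
    (S : Fermat.Agent.S34.NC.PreSetup2 A (IsLocalRing.residue A) Red₁ Red₂
      (hpf.poleDiv (Fermat.Agent.S24.jBar (M * q)) + hpf.poleDiv (Fermat.Agent.S34.C3.jq q M))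
      ((1 + q) • hpfk.poleDiv (GV.jK (IsLocalRing.ResidueField A) M))
      ((1 + q) • hpfk.poleDiv (GV.jK (IsLocalRing.ResidueField A) M)) g g₁ g₂ c c₁ c₂)
    (PF : ProdFacts A q M Red₁ Red₂ hpf hpfk) (h49 : 4 ∣ M ∨ 9 ∣ M)
    (Y₁ Y₂ : Finset (Place (IsLocalRing.ResidueField A)
      (modularFunctionFieldFullC (IsLocalRing.ResidueField A) M)))
    (off₁ : ∀ y ∈ Y₁, hpfk.poleDiv (GV.jK (IsLocalRing.ResidueField A) M) y = 0)
    (off₂ : ∀ y ∈ Y₂, hpfk.poleDiv (GV.jK (IsLocalRing.ResidueField A) M) y = 0)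
    (cond : ∀ (n : ℕ) (c₁ c₂ : modularFunctionFieldFullC (IsLocalRing.ResidueField A) M),
      c₁ ∈ riemannRochSpace (n • ((1 + q) •
        hpfk.poleDiv (GV.jK (IsLocalRing.ResidueField A) M))) →
      c₂ ∈ riemannRochSpace (n • ((1 + q) •
        hpfk.poleDiv (GV.jK (IsLocalRing.ResidueField A) M))) →
      (∀ y ∈ Y₁, HasValue y c₁ 0) → (∀ y ∈ Y₂, HasValue y c₂ 0) → ∃ m : ℕ, (c₁, c₂) ∈ S.B m)
    (hg : g₁ + g₂ ≤ g) :
    ∃ Sg : Finset (Place (IsLocalRing.ResidueField A)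
        (modularFunctionFieldFullC (IsLocalRing.ResidueField A) M) ×
        Place (IsLocalRing.ResidueField A)
        (modularFunctionFieldFullC (IsLocalRing.ResidueField A) M)),
      (∀ p ∈ Sg, p.1 ∈ Y₁ ∧ p.2 ∈ Y₂) ∧
        Fermat.Agent.S34.Setup2 A (IsLocalRing.residue A) Red₁ Red₂
          (hpf.poleDiv (Fermat.Agent.S24.jBar (M * q))
            + hpf.poleDiv (Fermat.Agent.S34.C3.jq q M))
          ((1 + q) • hpfk.poleDiv (GV.jK (IsLocalRing.ResidueField A) M))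
          ((1 + q) • hpfk.poleDiv (GV.jK (IsLocalRing.ResidueField A) M)) Sg
          g g₁ g₂ c c₁ c₂ := by
  obtain ⟨nα, hα⟩ := halpha hA hqM PF S.ax₁ S.ax₂ h49
  obtain ⟨nβ, hβ⟩ := hbeta hA hqM PF S.ax₁ S.ax₂ h49
  have hE : 0 ≤ hpfk.poleDiv (GV.jK (IsLocalRing.ResidueField A) M) := by
    rw [Finsupp.le_def]
    intro v
    rw [PlaceFacts.poleDiv_apply]
    exact le_max_right _ _
  have hdE : 0 < Divisor.degree (hpfk.poleDiv (GV.jK (IsLocalRing.ResidueField A) M)) := by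
    have := S.deg₁_pos
    rw [map_nsmul, nsmul_eq_mul] at this
    by_contra hcon
    push Not at hcon
    have h0 : ((1 + q : ℕ) : ℤ) * Divisor.degree
        (hpfk.poleDiv (GV.jK (IsLocalRing.ResidueField A) M)) ≤ 0 :=
      mul_nonpos_of_nonneg_of_nonpos (by positivity) hcon
    omega
  have hJ : ∀ y : Place (IsLocalRing.ResidueField A)
      (modularFunctionFieldFullC (IsLocalRing.ResidueField A) M),
      0 < hpfk.poleDiv (GV.jK (IsLocalRing.ResidueField A) M) y →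
        y.ord (GV.jK (IsLocalRing.ResidueField A) M)
          = - hpfk.poleDiv (GV.jK (IsLocalRing.ResidueField A) M) y := by
    intro y hy
    rw [PlaceFacts.poleDiv_apply] at hy ⊢
    rcases le_total (-y.ord (GV.jK (IsLocalRing.ResidueField A) M)) 0 with h | h
    · rw [max_eq_right h] at hy
      exact absurd hy (lt_irrefl _)
    · rw [max_eq_left h, neg_neg]
  have hJ' : ∀ y : Place (IsLocalRing.ResidueField A)
      (modularFunctionFieldFullC (IsLocalRing.ResidueField A) M),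
      hpfk.poleDiv (GV.jK (IsLocalRing.ResidueField A) M) y = 0 →
        0 ≤ y.ord (GV.jK (IsLocalRing.ResidueField A) M) := by
    intro y hy
    rw [PlaceFacts.poleDiv_apply] at hy
    have := le_max_left (-y.ord (GV.jK (IsLocalRing.ResidueField A) M)) 0
    omega
  refine S.exists_setup2_of_products hE hdE (GV.jK_ne_zero M (IsLocalRing.ResidueField A))
    hJ hJ' hq.out.two_le Y₁ Y₂ off₁ off₂ cond ?_ ?_ (max nα nβ)
    (fun n hn => hα n ((le_max_left _ _).trans hn))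
    (fun n hn => hβ n ((le_max_right _ _).trans hn)) hg
  · intro y hy y' hy' hne
    exact (hsep hA hqM PF S.ax₁ S.ax₂ h49 Y₁ off₁ y hy y' hy' hne).1
  · intro y hy y' hy' hne
    exact (hsep hA hqM PF S.ax₁ S.ax₂ h49 Y₂ off₂ y hy y' hy' hne).2

end Fermat.Agent.S34.NConc
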