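import Fermat.Agent.S34.NodalConcInst

/-!
# C83 (S34), piece C2, part 8: `Setup2` from a `CountInput` (variant of `exists_setup2`)

Same as `PreSetup2.exists_setup2` / `NConc.exists_setup2_joint`, but the conductor and separation
hypotheses are given as a `NC.CountInput` for the joint reductions `S.B` (e.g. the output of
`NCond.exists_countInput`).
-/

set_option autoImplicit false
set_option linter.unusedSectionVars false
set_option linter.style.haveILetI false
set_option linter.unusedVariables false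
set_option synthInstance.maxHeartbeats 400000
set_option maxHeartbeats 1000000

noncomputable section

open AlgebraicCurve ModularCurve Fermat.Agent.Lib.FF Fermat.Agent.S18 Fermat.Agent.S18.Deuring
  Fermat.Agent.S34.Nodal

namespace Fermat.Agent.S34.NC

section Abstract

variable {L k F Fk₁ Fk₂ : Type*} [Field L] [Field k] [Field F] [Field Fk₁] [Field Fk₂]
  [Algebra L F] [Algebra k Fk₁] [Algebra k Fk₂]
variable {A : ValuationSubring L} {res : A →+* k} {Red₁ : F → Fk₁ → Prop}
  {Red₂ : F → Fk₂ → Prop} {D : Divisor L F} {D₁ : Divisor k Fk₁} {D₂ : Divisor k Fk₂}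
  {g g₁ g₂ : ℕ} {c c₁ c₂ : ℤ}

/-- **the nodal fibre**, from a `CountInput` for the joint reductions -/
theorem PreSetup2.exists_setup2_of_countInput
    (S : PreSetup2 A res Red₁ Red₂ D D₁ D₂ g g₁ g₂ c c₁ c₂)
    {Y₁ : Finset (Place k Fk₁)} {Y₂ : Finset (Place k Fk₂)}
    (I : CountInput D₁ D₂ S.B Y₁ Y₂)
    (htop : ∃ n₀ : ℕ, ∀ n : ℕ, n₀ ≤ n →
      (riemannRochSpace ((n + 1) • D₁)).prod (riemannRochSpace ((n + 1) • D₂))
        ≤ S.B (n + 1) ⊔ (riemannRochSpace (n • D₁)).prod (riemannRochSpace (n • D₂)))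
    (hg : g₁ + g₂ ≤ g) :
    ∃ Sg : Finset (Place k Fk₁ × Place k Fk₂),
      (∀ p ∈ Sg, p.1 ∈ Y₁ ∧ p.2 ∈ Y₂) ∧
        Fermat.Agent.S34.Setup2 A res Red₁ Red₂ D D₁ D₂ Sg g g₁ g₂ c c₁ c₂ :=
  S.exists_setup2 Y₁ Y₂ I.off₁ I.off₂ I.cond I.sep₁ I.sep₂ htop hg

end Abstract

end Fermat.Agent.S34.NC

namespace Fermat.Agent.S34.NConc

local notation "Qb" => AlgebraicClosure ℚ

variable (A : ValuationSubring (AlgebraicClosure ℚ)) (q : ℕ) [hq : Fact q.Prime]
variable (hA : A.LiesOverPrime q) (M : ℕ) [NeZero M] (hqM : ¬ q ∣ M)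

attribute [local instance] Fermat.Agent.S34.C3.neZero_q

include hA hqM in
/-- the top polar blocks for the concrete reductions -/
theorem htop_joint
    (hpf : PlaceFacts Qb (modularFunctionFieldBar (M * q)))
    (hpfk : PlaceFacts (IsLocalRing.ResidueField A)
      (modularFunctionFieldFullC (IsLocalRing.ResidueField A) M))
    (ax₁ : RedAx A (IsLocalRing.residue A) (Fermat.Agent.S34.Joint.Red1 A q M))
    (ax₂ : RedAx A (IsLocalRing.residue A) (Fermat.Agent.S34.Joint.Red2 A q M hqM))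
    (hJF : Fermat.Agent.S34.C3.JointFin A q M hqM) (h49 : 4 ∣ M ∨ 9 ∣ M) :
    ∃ n₀ : ℕ, ∀ n : ℕ, n₀ ≤ n →
      (riemannRochSpace ((n + 1) • ((1 + q) •
          hpfk.poleDiv (GV.jK (IsLocalRing.ResidueField A) M)))).prod
        (riemannRochSpace ((n + 1) • ((1 + q) •
          hpfk.poleDiv (GV.jK (IsLocalRing.ResidueField A) M))))
        ≤ redSpace₂ ax₁ ax₂ (riemannRochSpace ((n + 1) •
            (hpf.poleDiv (Fermat.Agent.S24.jBar (M * q))
              + hpf.poleDiv (Fermat.Agent.S34.C3.jq q M))))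
          ⊔ (riemannRochSpace (n • ((1 + q) •
              hpfk.poleDiv (GV.jK (IsLocalRing.ResidueField A) M)))).prod
            (riemannRochSpace (n • ((1 + q) •
              hpfk.poleDiv (GV.jK (IsLocalRing.ResidueField A) M)))) := by
  have PF := prodFacts A q hA M hqM hJF hpf hpfk
  obtain ⟨nα, hα⟩ := halpha hA hqM PF ax₁ ax₂ h49
  obtain ⟨nβ, hβ⟩ := hbeta hA hqM PF ax₁ ax₂ h49
  obtain ⟨g₁, c₀, -, S₀⟩ := Fermat.Agent.S37.R.exists_setup A q hA M hqM h49
  obtain ⟨c₁, hRk⟩ := S₀.rthm_k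
  have hE : 0 ≤ hpfk.poleDiv (GV.jK (IsLocalRing.ResidueField A) M) := by
    rw [Finsupp.le_def]
    intro v
    rw [PlaceFacts.poleDiv_apply]
    exact le_max_right _ _
  have hdE : 0 < Divisor.degree (hpfk.poleDiv (GV.jK (IsLocalRing.ResidueField A) M)) :=
    S₀.deg_eq ▸ S₀.deg_pos
  have hJ : ∀ y : Place (IsLocalRing.ResidueField A)
      (modularFunctionFieldFullC (IsLocalRing.ResidueField A) M),
      0 < hpfk.poleDiv (GV.jK (IsLocalRing.ResidueField A) M) y →
        y.ord (GV.jK (IsLocalRing.ResidueField A) M)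
          = - hpfk.poleDiv (GV.jK (IsLocalRing.ResidueField A) M) y := by
    intro y hy
    rw [PlaceFacts.poleDiv_apply] at hy ⊢
    rcases le_total (-y.ord (GV.jK (IsLocalRing.ResidueField A) M)) 0 with h | h
    · rw [max_eq_right h] at hy
      exact absurd hy (lt_irrefl _)
    · rw [max_eq_left h, neg_neg]
  have hJ' : ∀ y : Place (IsLocalRing.ResidueField A)
      (modularFunctionFieldFullC (IsLocalRing.ResidueField A) M),
      hpfk.poleDiv (GV.jK (IsLocalRing.ResidueField A) M) y = 0 →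
        0 ≤ y.ord (GV.jK (IsLocalRing.ResidueField A) M) := by
    intro y hy
    rw [PlaceFacts.poleDiv_apply] at hy
    have := le_max_left (-y.ord (GV.jK (IsLocalRing.ResidueField A) M)) 0
    omega
  exact Fermat.Agent.S34.NC.top_of_products hpfk hRk hE hdE
    (GV.jK_ne_zero M (IsLocalRing.ResidueField A)) hJ hJ' q hq.out.two_le
    (fun n => redSpace₂ ax₁ ax₂ (riemannRochSpace (n •
      (hpf.poleDiv (Fermat.Agent.S24.jBar (M * q))
        + hpf.poleDiv (Fermat.Agent.S34.C3.jq q M))))) (max nα nβ)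
    (fun n hn => hα n ((le_max_left _ _).trans hn))
    (fun n hn => hβ n ((le_max_right _ _).trans hn))

include hA hqM in
/-- **`Setup2` for the concrete reductions**, from a `CountInput` for the joint reductions -/
theorem exists_setup2_of_countInput {g g₁ g₂ : ℕ} {c c₁ c₂ : ℤ}
    (hpf : PlaceFacts Qb (modularFunctionFieldBar (M * q)))
    (hpfk : PlaceFacts (IsLocalRing.ResidueField A)
      (modularFunctionFieldFullC (IsLocalRing.ResidueField A) M))
    (S : Fermat.Agent.S34.NC.PreSetup2 A (IsLocalRing.residue A)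
      (Fermat.Agent.S34.Joint.Red1 A q M) (Fermat.Agent.S34.Joint.Red2 A q M hqM)
      (hpf.poleDiv (Fermat.Agent.S24.jBar (M * q)) + hpf.poleDiv (Fermat.Agent.S34.C3.jq q M))
      ((1 + q) • hpfk.poleDiv (GV.jK (IsLocalRing.ResidueField A) M))
      ((1 + q) • hpfk.poleDiv (GV.jK (IsLocalRing.ResidueField A) M)) g g₁ g₂ c c₁ c₂)
    (hJF : Fermat.Agent.S34.C3.JointFin A q M hqM) (h49 : 4 ∣ M ∨ 9 ∣ M)
    {Y₁ Y₂ : Finset (Place (IsLocalRing.ResidueField A)
      (modularFunctionFieldFullC (IsLocalRing.ResidueField A) M))}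
    (I : Fermat.Agent.S34.NC.CountInput
      ((1 + q) • hpfk.poleDiv (GV.jK (IsLocalRing.ResidueField A) M))
      ((1 + q) • hpfk.poleDiv (GV.jK (IsLocalRing.ResidueField A) M)) S.B Y₁ Y₂)
    (hg : g₁ + g₂ ≤ g) :
    ∃ Sg : Finset (Place (IsLocalRing.ResidueField A)
        (modularFunctionFieldFullC (IsLocalRing.ResidueField A) M) ×
        Place (IsLocalRing.ResidueField A)
        (modularFunctionFieldFullC (IsLocalRing.ResidueField A) M)),
      (∀ p ∈ Sg, p.1 ∈ Y₁ ∧ p.2 ∈ Y₂) ∧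
        Fermat.Agent.S34.Setup2 A (IsLocalRing.residue A)
          (Fermat.Agent.S34.Joint.Red1 A q M) (Fermat.Agent.S34.Joint.Red2 A q M hqM)
          (hpf.poleDiv (Fermat.Agent.S24.jBar (M * q))
            + hpf.poleDiv (Fermat.Agent.S34.C3.jq q M))
          ((1 + q) • hpfk.poleDiv (GV.jK (IsLocalRing.ResidueField A) M))
          ((1 + q) • hpfk.poleDiv (GV.jK (IsLocalRing.ResidueField A) M)) Sg
          g g₁ g₂ c c₁ c₂ :=
  S.exists_setup2_of_countInput I (htop_joint A q hA M hqM hpf hpfk S.ax₁ S.ax₂ hJF h49) hg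

end Fermat.Agent.S34.NConc
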