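import Fermat.Agent.S34.NodalBar
import Fermat.Agent.S34.NodalR5
import Fermat.Agent.S34.NodalTarget

/-!
# C83 (S34): the abstract theorem

`Setup2` (the axioms of the two-component nodal reduction) implies `Target`: for `div f = m • D₀`,
`m` invertible in the residue field, and semilinear automorphisms `h`, `h'` acting trivially on
the special fibre, the divisor `(h' - 1)(h - 1) D₀` is principal.

* `barAx`            : `BarAx S (sp S)` (hyperplane lemma + Bar theory, `NodalHP`, `NodalBar`);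
* `factsOfSetup2`    : the contract `Facts S` (`NodalSp`, `NodalR5`, `FactsNS`);
* `target_of_setup2` : `Target` (`NodalMov`, `NodalInj`, `NodalTarget`).
-/

set_option autoImplicit false
set_option linter.unusedSectionVars false
set_option linter.style.haveILetI false

open AlgebraicCurve Fermat.Agent.Lib.FF Fermat.Agent.S18.Deuring

namespace Fermat.Agent.S34.NodalMain

variable {L k F Fk₁ Fk₂ : Type*} [Field L] [Field k] [Field F] [Field Fk₁] [Field Fk₂]
  [Algebra L F] [Algebra k Fk₁] [Algebra k Fk₂]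
variable {A : ValuationSubring L} {res : A →+* k} {Red₁ : F → Fk₁ → Prop}
  {Red₂ : F → Fk₂ → Prop} {D : Divisor L F} {D₁ : Divisor k Fk₁} {D₂ : Divisor k Fk₂}
  {Sg : Finset (Place k Fk₁ × Place k Fk₂)} {g g₁ g₂ : ℕ} {c c₁ c₂ : ℤ}

theorem barAx [Infinite k] (S : Setup2 A res Red₁ Red₂ D D₁ D₂ Sg g g₁ g₂ c c₁ c₂) :
    NodalR5.BarAx S (Nodal.sp S) :=
  ⟨Nodal.spAx S, Nodal.bar_smooth S⟩

/-- **the contract `Facts` from the axioms `Setup2`** -/
noncomputable def factsOfSetup2 [Infinite k]
    (S : Setup2 A res Red₁ Red₂ D D₁ D₂ Sg g g₁ g₂ c c₁ c₂) : Facts S :=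
  NodalR5.factsOfBarAx (barAx S)

theorem nonempty_facts [Infinite k] (S : Setup2 A res Red₁ Red₂ D D₁ D₂ Sg g g₁ g₂ c c₁ c₂) :
    Nonempty (Facts S) :=
  ⟨factsOfSetup2 S⟩

/-- **the abstract theorem**: `Setup2` implies `Target` -/
theorem target_of_setup2 [Infinite k] (S : Setup2 A res Red₁ Red₂ D D₁ D₂ Sg g g₁ g₂ c c₁ c₂) :
    Target A res Red₁ Red₂ D :=
  target_of_facts S (factsOfSetup2 S)

end Fermat.Agent.S34.NodalMain
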