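import Fermat.Agent.S34.NodalCommon

/-!
# C83 (S34), piece A5, Stage 1 (`Mov`): moving `(h - 1) D₀` off the nodes

`div f = m • D₀`, `(m : k) ≠ 0`, `h` acting trivially on the special fibre.  Then `(h - 1) D₀` is
linearly equivalent to a divisor `E` without points over the nodes, and `m • E = div f₁` for a
function `f₁` which is integral for both valuations with NONZERO reductions.

The trick: for a jointly normalised section `s` of `L(G₀ + (h - 1) D₀)` (`G₀` = lifts of balanced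
non-special smooth points) the function `f₁ = (h f / f) s ^ m ∈ L(m G₀)` has no pole over the
nodes, so (Reg) applies to `f₁` although it need not apply to `s`.
-/

set_option autoImplicit false
set_option linter.unusedSectionVars false
set_option linter.style.haveILetI false
set_option linter.unusedSimpArgs false
set_option linter.unusedTactic false
set_option linter.unusedVariables false
set_option maxHeartbeats 1000000

open AlgebraicCurve Fermat.Agent.Lib.FF Fermat.Agent.S18.Deuring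
open scoped Classical

namespace Fermat.Agent.S34.Mov

section Value

variable {k F : Type*} [Field k] [Field F] [Algebra k F]

/-- a value of `e σ ^ m` gives a value of `σ` -/
theorem hasValue_of_pow {x : Place k F} (hres : Function.Surjective (algebraMap k x.ResidueField))
    {e : k} (he : e ≠ 0) {m : ℕ} (hm : m ≠ 0) {σ : F} {v : k}
    (h : Nodal.HasValue x (algebraMap k F e * σ ^ m) v) :
    ∃ u : k, Nodal.HasValue x σ u ∧ e * u ^ m = v := by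
  by_cases h0 : σ = 0
  · refine ⟨0, by rw [h0]; exact Nodal.hasValue_zero' x, ?_⟩
    rw [h0, zero_pow hm, mul_zero] at h
    rw [zero_pow hm, mul_zero]
    exact (Nodal.hasValue_zero' x).unique h
  · have heF : algebraMap k F e ≠ 0 := (map_ne_zero _).mpr he
    have h1 := h.ord_nonneg
    rw [x.ord_mul heF (pow_ne_zero _ h0), ord_algebraMap, ord_pow', zero_add] at h1
    have h2 : 0 ≤ x.ord σ := by
      by_contra hcon
      have h3 : x.ord σ ≤ -1 := by omega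
      have h4 : (1 : ℤ) ≤ m := by exact_mod_cast Nat.one_le_iff_ne_zero.mpr hm
      nlinarith
    obtain ⟨u, hu⟩ := Nodal.exists_hasValue_of_ord_nonneg hres h2
    exact ⟨u, hu, ((Nodal.hasValue_algebraMap x e).mul (hu.pow m)).unique h⟩

end Value

variable {L k F Fk₁ Fk₂ : Type*} [Field L] [Field k] [Field F] [Field Fk₁] [Field Fk₂]
  [Algebra L F] [Algebra k Fk₁] [Algebra k Fk₂]
variable {A : ValuationSubring L} {res : A →+* k} {Red₁ : F → Fk₁ → Prop}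
  {Red₂ : F → Fk₂ → Prop} {D : Divisor L F} {D₁ : Divisor k Fk₁} {D₂ : Divisor k Fk₂}
  {Sg : Finset (Place k Fk₁ × Place k Fk₂)} {g g₁ g₂ : ℕ} {c c₁ c₂ : ℤ}

variable (S : Setup2 A res Red₁ Red₂ D D₁ D₂ Sg g g₁ g₂ c c₁ c₂) (Fc : Facts S)

/-- **Stage 1 (`Mov`)** -/
theorem stage1 {h : SemilinearAut L F} (hh : Compat2 A Red₁ Red₂ D h)
    {m : ℕ} (hm : (m : k) ≠ 0) {f : F} (hf : f ≠ 0) {D₀ : Divisor L F}
    (hdiv : ∀ P, (m : ℤ) * D₀ P = P.ord f) :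
    ∃ (E : Divisor L F) (f₁ s : F) (a₁ : Fk₁) (a₂ : Fk₂), s ≠ 0 ∧ f₁ ≠ 0 ∧
      (∀ P, E P = (h • D₀ - D₀) P + P.ord s) ∧
      (∀ P, ∀ p ∈ Sg, Fc.sp P = Sum.inl p.1 → E P = 0) ∧
      (∀ P, (m : ℤ) * E P = P.ord f₁) ∧ Red₁ f₁ a₁ ∧ Red₂ f₁ a₂ ∧ a₁ ≠ 0 ∧ a₂ ≠ 0 := by
  have ax₁ := S.ax₁
  have ax₂ := S.ax₂
  have hmN : m ≠ 0 := by
    rintro rfl
    simp at hm
  have hm0 : (m : ℤ) ≠ 0 := by exact_mod_cast hmN
  obtain ⟨p₀, hp₀⟩ := S.node_nonempty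
  -- the function `w = h f / f`
  have hhf : h • f ≠ 0 := by
    rw [Ne, Fermat.Agent.S37.G.smul_eq_zero_iff']
    exact hf
  set w : F := h • f * f⁻¹ with hw
  have hw0 : w ≠ 0 := mul_ne_zero hhf (inv_ne_zero hf)
  obtain ⟨e₁, he₁, hRw₁⟩ := Common.red_smul_div ax₁ h hh.red₁ hh.val hf
  obtain ⟨e₂, he₂, hRw₂⟩ := Common.red_smul_div ax₂ h hh.red₂ hh.val hf
  set D' : Divisor L F := h • D₀ - D₀ with hD'
  have hdivw : ∀ P, (m : ℤ) * D' P = P.ord w := by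
    intro P
    have h1 := SemilinearAut.ord_smul h (h⁻¹ • P) f
    rw [smul_inv_smul] at h1
    rw [hD', Finsupp.sub_apply, SemilinearAut.divisor_smul_apply, mul_sub, hdiv, hdiv, hw,
      P.ord_mul hhf (inv_ne_zero hf), P.ord_inv, h1]
    ring
  have hdegD' : Divisor.degree D' = 0 := by
    rw [hD', map_sub, SemilinearAut.degree_smul, sub_self]
  have hD'₁ := Common.mapDomain_eq_zero_of_red_const₁ S Fc hmN hdivw he₁ hRw₁
  have hD'₂ := Common.mapDomain_eq_zero_of_red_const₂ S Fc hmN hdivw he₂ hRw₂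
  -- balanced non-special points and their lifts
  obtain ⟨Qs₁, Qs₂, hcard, -, -, hQs₁, hQs₂, hrank, hns⟩ := Fc.ns ∅ ∅
  obtain ⟨G₀, hG₀nn, hG₀deg, hG₀₁, hG₀₂⟩ := Common.exists_lift S Fc Qs₁ Qs₂ hQs₁ hQs₂
  have hcardZ : (Qs₁.card : ℤ) + Qs₂.card = g := by exact_mod_cast hcard
  have hnQs₁ : ∀ p ∈ Sg, sumPl Qs₁ p.1 = 0 := by
    intro p hp
    rw [sumPl_apply, if_neg]
    intro hmem
    exact (hQs₁ _ hmem).1 p hp rfl
  have hnQs₂ : ∀ p ∈ Sg, sumPl Qs₂ p.2 = 0 := by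
    intro p hp
    rw [sumPl_apply, if_neg]
    intro hmem
    exact (hQs₂ _ hmem).1 p hp rfl
  -- the section
  obtain ⟨s₀, hs₀, hs₀0⟩ := exists_ne_zero_mem S.hpf S.RF (E := G₀ + D')
    (by rw [map_add, hG₀deg, hdegD', add_zero, hcardZ])
  obtain ⟨c₀, hc₀, σ₁, σ₂, hR₁, hR₂, hσ⟩ := Common.exists_joint_scale ax₁ ax₂ s₀ hs₀0
  set s : F := c₀ • s₀ with hs
  have hs0 : s ≠ 0 := smul_ne_zero hc₀ hs₀0
  have hsmem : s ∈ riemannRochSpace (G₀ + D') := Submodule.smul_mem _ _ hs₀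
  set Z : Divisor L F := S.hpf.divOf s + (G₀ + D') with hZ
  have hZnn : 0 ≤ Z := residual_nonneg S.hpf hs0 hsmem
  have hZapply : ∀ P, Z P = P.ord s + (G₀ P + D' P) := fun P => by
    rw [hZ, Finsupp.add_apply, Finsupp.add_apply, S.hpf.divOf_apply]
  have hZdeg : Divisor.degree Z = g := by
    rw [hZ, map_add, S.hpf.degree_divOf, map_add, hG₀deg, hdegD', add_zero, zero_add, hcardZ]
  -- the function `f₁`
  set f₁ : F := w * s ^ m with hf₁
  have hf₁0 : f₁ ≠ 0 := mul_ne_zero hw0 (pow_ne_zero _ hs0)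
  have hordf₁ : ∀ P : Place L F, P.ord f₁ = m * (Z P - G₀ P) := by
    intro P
    rw [hf₁, P.ord_mul hw0 (pow_ne_zero _ hs0), ord_pow', ← hdivw P, hZapply]
    ring
  have hRf₁ : Red₁ f₁ (algebraMap k Fk₁ e₁ * σ₁ ^ m) := ax₁.mul hRw₁ (ax₁.pow hR₁ m)
  have hRf₂ : Red₂ f₁ (algebraMap k Fk₂ e₂ * σ₂ ^ m) := ax₂.mul hRw₂ (ax₂.pow hR₂ m)
  -- `G₀` has no point over a node
  have hG₀node : ∀ P, ∀ p ∈ Sg, Fc.sp P = Sum.inl p.1 → G₀ P = 0 := by
    intro P p hp hP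
    have h1 := le_mapDomain_apply Fc.sp (E := G₀) (Q := Sum.inl p.1)
      (fun P' _ => Finsupp.le_def.mp hG₀nn P') hP
    rw [hG₀₁, hnQs₁ p hp] at h1
    have h2 := Finsupp.le_def.mp hG₀nn P
    simp only [Finsupp.coe_zero, Pi.zero_apply] at h2
    omega
  -- regularity of `f₁` over the nodes, values of `σ₁`, `σ₂` at the nodes
  have hval : ∀ p ∈ Sg, ∃ u₁ u₂ : k, Nodal.HasValue p.1 σ₁ u₁ ∧ Nodal.HasValue p.2 σ₂ u₂ ∧
      e₁ * u₁ ^ m = e₂ * u₂ ^ m := by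
    intro p hp
    obtain ⟨v, hv₁, hv₂⟩ := Fc.regN hRf₁ hRf₂ p hp (fun P hP => by
      rw [hordf₁, hG₀node P p hp hP, sub_zero]
      exact mul_nonneg (by positivity) (by simpa using Finsupp.le_def.mp hZnn P))
    obtain ⟨u₁, hu₁, hu₁v⟩ := hasValue_of_pow (S.hpf₁.res p.1) he₁ hmN hv₁
    obtain ⟨u₂, hu₂, hu₂v⟩ := hasValue_of_pow (S.hpf₂.res p.2) he₂ hmN hv₂
    exact ⟨u₁, u₂, hu₁, hu₂, hu₁v.trans hu₂v.symm⟩
  -- specialisation of `Z` at the smooth points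
  have hZ₁ : ∀ Q, Smooth₁ Sg Q → σ₁ ≠ 0 →
      Finsupp.mapDomain Fc.sp Z (Sum.inl Q) = Q.ord σ₁ + sumPl Qs₁ Q := by
    intro Q hQ h0
    rw [hZ, Finsupp.mapDomain_add, Finsupp.mapDomain_add, Finsupp.add_apply, Finsupp.add_apply,
      Fc.r5₁ hR₁ h0 Q hQ, hG₀₁, hD'₁ Q hQ, add_zero]
  have hZ₂ : ∀ Q, Smooth₂ Sg Q → σ₂ ≠ 0 →
      Finsupp.mapDomain Fc.sp Z (Sum.inr Q) = Q.ord σ₂ + sumPl Qs₂ Q := by
    intro Q hQ h0
    rw [hZ, Finsupp.mapDomain_add, Finsupp.mapDomain_add, Finsupp.add_apply, Finsupp.add_apply,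
      Fc.r5₂ hR₂ h0 Q hQ, hG₀₂, hD'₂ Q hQ, add_zero]
  have hZsnn : 0 ≤ Finsupp.mapDomain Fc.sp Z := mapDomain_nonneg Fc.sp hZnn
  -- `σ_i ∈ L_i(∑ Qs_i)`
  have hmem₁ : σ₁ ∈ riemannRochSpace (sumPl Qs₁) := by
    by_cases h0 : σ₁ = 0
    · rw [h0]
      exact Submodule.zero_mem _
    rw [mem_rrSpace_iff_of_ne_zero h0]
    intro Q
    by_cases hQ : Smooth₁ Sg Q
    · have h1 := Finsupp.le_def.mp hZsnn (Sum.inl Q)
      rw [hZ₁ Q hQ h0] at h1
      simp only [Finsupp.coe_zero, Pi.zero_apply] at h1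
      omega
    · unfold Smooth₁ at hQ
      simp only [not_forall, not_not] at hQ
      obtain ⟨p, hp, rfl⟩ := hQ
      obtain ⟨u₁, u₂, hu₁, -, -⟩ := hval p hp
      have := hu₁.ord_nonneg
      rw [hnQs₁ p hp]
      omega
  have hmem₂ : σ₂ ∈ riemannRochSpace (sumPl Qs₂) := by
    by_cases h0 : σ₂ = 0
    · rw [h0]
      exact Submodule.zero_mem _
    rw [mem_rrSpace_iff_of_ne_zero h0]
    intro Q
    by_cases hQ : Smooth₂ Sg Q
    · have h1 := Finsupp.le_def.mp hZsnn (Sum.inr Q)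
      rw [hZ₂ Q hQ h0] at h1
      simp only [Finsupp.coe_zero, Pi.zero_apply] at h1
      omega
    · unfold Smooth₂ at hQ
      simp only [not_forall, not_not] at hQ
      obtain ⟨p, hp, rfl⟩ := hQ
      obtain ⟨u₁, u₂, -, hu₂, -⟩ := hval p hp
      have := hu₂.ord_nonneg
      rw [hnQs₂ p hp]
      omega
  -- `σ₂` is a nonzero constant
  obtain ⟨a, ha⟩ := exists_const_of_finrank_eq_one S.hpf₂ p₀.2 (sumPl_nonneg Qs₂) hrank hmem₂
  have ha0 : a ≠ 0 := by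
    rintro rfl
    rw [map_zero] at ha
    have hσ₁ : σ₁ ≠ 0 := hσ.resolve_right (not_not.mpr ha)
    apply hσ₁
    refine hns σ₁ hmem₁ fun p hp => ?_
    obtain ⟨u₁, u₂, hu₁, hu₂, hu⟩ := hval p hp
    rw [ha] at hu₂
    have hu₂0 : u₂ = 0 := hu₂.unique (Nodal.hasValue_zero' p.2)
    rw [hu₂0, zero_pow hmN, mul_zero] at hu
    have hu₁0 : u₁ = 0 := by
      rcases mul_eq_zero.mp hu with h1 | h1
      · exact absurd h1 he₁
      · exact pow_eq_zero_iff hmN |>.mp h1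
    rw [hu₁0] at hu₁
    exact hu₁
  have hσ₂0 : σ₂ ≠ 0 := by
    rw [ha]
    exact (map_ne_zero _).mpr ha0
  -- `σ₁` does not vanish at the nodes
  have hnode₁ : ∀ p ∈ Sg, σ₁ ≠ 0 ∧ p.1.ord σ₁ = 0 := by
    intro p hp
    obtain ⟨u₁, u₂, hu₁, hu₂, hu⟩ := hval p hp
    rw [ha] at hu₂
    have hu₂a : u₂ = a := hu₂.unique (Nodal.hasValue_algebraMap p.2 a)
    have hu₁0 : u₁ ≠ 0 := by
      rintro rfl
      rw [zero_pow hmN, mul_zero, hu₂a] at hu
      exact mul_ne_zero he₂ (pow_ne_zero _ ha0) hu.symm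
    exact hu₁.ord_eq_zero hu₁0
  have hσ₁0 : σ₁ ≠ 0 := (hnode₁ p₀ hp₀).1
  -- the count
  have hcount := Common.no_node_of_count S Fc hZnn
    (E₁ := S.hpf₁.divOf σ₁ + sumPl Qs₁) (E₂ := S.hpf₂.divOf σ₂ + sumPl Qs₂)
    (by
      rw [hZdeg, map_add, map_add, S.hpf₁.degree_divOf, S.hpf₂.degree_divOf,
        degree_sumPl S.hpf₁, degree_sumPl S.hpf₂, zero_add, zero_add, hcardZ])
    (fun Q hQ => by rw [hZ₁ Q hQ hσ₁0, Finsupp.add_apply, S.hpf₁.divOf_apply])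
    (fun Q hQ => by rw [hZ₂ Q hQ hσ₂0, Finsupp.add_apply, S.hpf₂.divOf_apply])
    (fun p hp => by
      rw [Finsupp.add_apply, S.hpf₁.divOf_apply, (hnode₁ p hp).2, hnQs₁ p hp, add_zero])
    (fun p hp => by
      rw [Finsupp.add_apply, S.hpf₂.divOf_apply, ha, ord_algebraMap, hnQs₂ p hp, add_zero])
  -- conclusion
  refine ⟨Z - G₀, f₁, s, algebraMap k Fk₁ e₁ * σ₁ ^ m, algebraMap k Fk₂ e₂ * σ₂ ^ m, hs0, hf₁0,
    ?_, ?_, ?_, hRf₁, hRf₂, ?_, ?_⟩
  · intro P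
    rw [Finsupp.sub_apply, hZapply]
    ring
  · intro P p hp hP
    rw [Finsupp.sub_apply, hcount P p hp hP, hG₀node P p hp hP, sub_zero]
  · intro P
    rw [Finsupp.sub_apply, hordf₁]
  · exact mul_ne_zero ((map_ne_zero _).mpr he₁) (pow_ne_zero _ hσ₁0)
  · exact mul_ne_zero ((map_ne_zero _).mpr he₂) (pow_ne_zero _ hσ₂0)

end Fermat.Agent.S34.Mov
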