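import Fermat.Agent.S34.C3K1
import Fermat.Agent.Lib.FFs.Trace

/-!
# C83 (S34), piece C2, part 5: pole divisors along `α`, `β`, `w` and the products `α f · j_q ^ b`

* `map_mem_rrSpace_poleDiv`: an algebra hom `φ` of function fields maps `L(n Pol x)` into
  `L(n Pol (φ x))`;
* `alpha_mem`, `beta_mem`, `wAL_mem`, `wAL_mem'`: the instances for `α`, `β`, `w` on `F(Mq)`;
* `alpha_mul_jq_pow_mem`, `beta_mul_j_pow_mem`: the products lie in `L(a Pol j + b Pol j_q)`
  resp. `L(a Pol j_q + b Pol j)`;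
* `prod_le_sym`, `prod_le_jq`, ...: the inequalities between these divisors from (K1).
-/

set_option autoImplicit false
set_option linter.unusedSectionVars false
set_option linter.unusedVariables false
set_option linter.style.haveILetI false
set_option synthInstance.maxHeartbeats 400000
set_option maxHeartbeats 1000000

noncomputable section

open AlgebraicCurve ModularCurve IntermediateField Fermat.Agent.Lib.FF

namespace Fermat.Agent.S34.NP

section General

variable {K F F' : Type*} [Field K] [Field F] [Field F'] [Algebra K F] [Algebra K F']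

/-- an algebra hom maps `K[t]` into `K[φ t]` -/
theorem algHom_mem_adjoin (φ : F →ₐ[K] F') (t : F) {e : F} (he : e ∈ Algebra.adjoin K {t}) :
    φ e ∈ Algebra.adjoin K {φ t} := by
  induction he using Algebra.adjoin_induction with
  | mem x hx =>
    rw [Set.mem_singleton_iff] at hx
    rw [hx]
    exact Algebra.self_mem_adjoin_singleton _ _
  | algebraMap c =>
    rw [AlgHom.commutes]
    exact Subalgebra.algebraMap_mem _ _
  | add x y _ _ hx hy => rw [map_add]; exact Subalgebra.add_mem _ hx hy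
  | mul x y _ _ hx hy => rw [map_mul]; exact Subalgebra.mul_mem _ hx hy

/-- an algebra hom preserves integrality over `K[t]` -/
theorem isIntegral_algHom (φ : F →ₐ[K] F') (t : F) {e : F}
    (he : IsIntegral (Algebra.adjoin K {t}) e) :
    IsIntegral (Algebra.adjoin K {φ t}) (φ e) := by
  let φ₀ : Algebra.adjoin K {t} →+* Algebra.adjoin K {φ t} :=
    (φ.toRingHom.comp (Algebra.adjoin K {t}).val.toRingHom).codRestrict (Algebra.adjoin K {φ t})
      (fun x => algHom_mem_adjoin φ t x.2)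
  exact IsIntegral.map_of_comp_eq φ₀ φ.toRingHom (by ext x; rfl) he

variable [IsAlgClosed K]

/-- an algebra hom `φ` of function fields maps `L(n Pol x)` into `L(n Pol (φ x))` -/
theorem map_mem_rrSpace_poleDiv (hpf : PlaceFacts K F) (hpf' : PlaceFacts K F')
    (φ : F →ₐ[K] F') {x : F} (hx : Fermat.Agent.Lib.FFs.IsFF1s K F x) (n : ℕ) {f : F}
    (hf : f ∈ riemannRochSpace (n • hpf.poleDiv x)) :
    φ f ∈ riemannRochSpace (n • hpf'.poleDiv (φ x)) := by
  have hx0 : x ≠ 0 := fun h => hx.transcendental (h ▸ isAlgebraic_zero)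
  have hφinj : Function.Injective φ := φ.toRingHom.injective
  rw [mem_rrSpace_iff] at hf
  -- regularity of `f` at the finite places
  have hreg : ∀ Q : Place K F, 0 ≤ Q.ord x → 0 ≤ Q.ord f := by
    intro Q hQ
    rcases hf Q with h0 | h1
    · rw [h0, Q.ord_zero]
    · rw [Finsupp.smul_apply, hpf.poleDiv_of_nonneg hQ, smul_zero, neg_zero] at h1
      exact h1
  -- regularity of `f / x^n` at the infinite places
  have hinf : ∀ Q : Place K F, 0 ≤ Q.ord x⁻¹ → 0 ≤ Q.ord (f * (x⁻¹) ^ n) := by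
    intro Q hQ
    rw [Q.ord_inv] at hQ
    by_cases hf0 : f = 0
    · rw [hf0, zero_mul, Q.ord_zero]
    have hxn : (x⁻¹) ^ n ≠ 0 := pow_ne_zero _ (inv_ne_zero hx0)
    have hord : Q.ord ((x⁻¹) ^ n) = -((n : ℤ) * Q.ord x) := by
      rw [inv_pow, Q.ord_inv, ← zpow_natCast, Q.ord_zpow]
    rw [Q.ord_mul hf0 hxn, hord]
    rcases lt_or_eq_of_le (neg_nonneg.mp hQ) with hlt | heq
    · rcases hf Q with h0 | h1
      · exact absurd h0 hf0
      · rw [Finsupp.smul_apply, hpf.poleDiv_of_neg hlt, nsmul_eq_mul] at h1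
        linarith
    · rw [heq, mul_zero, neg_zero, add_zero]
      exact hreg Q (by rw [heq])
  have hint1 := Fermat.Agent.Lib.FFs.isIntegral_of_forall_ord_nonneg hx f hreg
  have hint2 := Fermat.Agent.Lib.FFs.isIntegral_of_forall_ord_nonneg hx.inv _ hinf
  have hint1' := isIntegral_algHom φ x hint1
  have hint2' := isIntegral_algHom φ x⁻¹ hint2
  rw [map_inv₀] at hint2'
  rw [map_mul, map_pow, map_inv₀] at hint2'
  by_cases hf0 : f = 0
  · rw [hf0, map_zero]
    exact Submodule.zero_mem _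
  have hφf0 : φ f ≠ 0 := fun h => hf0 (hφinj (h.trans (map_zero φ).symm))
  have hφx0 : φ x ≠ 0 := fun h => hx0 (hφinj (h.trans (map_zero φ).symm))
  rw [mem_rrSpace_iff_of_ne_zero hφf0]
  intro Q
  rw [Finsupp.smul_apply, nsmul_eq_mul]
  by_cases hQ : 0 ≤ Q.ord (φ x)
  · rw [hpf'.poleDiv_of_nonneg hQ, mul_zero, neg_zero]
    exact Fermat.Agent.Lib.FFs.ord_nonneg_of_isIntegral hint1' Q hQ
  · push Not at hQ
    rw [hpf'.poleDiv_of_neg hQ]
    have h1 := Fermat.Agent.Lib.FFs.ord_nonneg_of_isIntegral hint2' Q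
      (by rw [Q.ord_inv]; omega)
    have hxn : ((φ x)⁻¹) ^ n ≠ 0 := pow_ne_zero _ (inv_ne_zero hφx0)
    have hord : Q.ord (((φ x)⁻¹) ^ n) = -((n : ℤ) * Q.ord (φ x)) := by
      rw [inv_pow, Q.ord_inv, ← zpow_natCast, Q.ord_zpow]
    rw [Q.ord_mul hφf0 hxn, hord] at h1
    linarith

/-- `x ^ b ∈ L(b Pol x)` -/
theorem pow_mem_rrSpace_poleDiv (hpf : PlaceFacts K F) {x : F} (hx0 : x ≠ 0) (b : ℕ) :
    x ^ b ∈ riemannRochSpace (b • hpf.poleDiv x) := by
  rw [mem_rrSpace_iff_of_ne_zero (pow_ne_zero _ hx0)]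
  intro Q
  rw [Finsupp.smul_apply, nsmul_eq_mul, ← zpow_natCast, Q.ord_zpow]
  by_cases hQ : 0 ≤ Q.ord x
  · rw [hpf.poleDiv_of_nonneg hQ, mul_zero, neg_zero]
    positivity
  · push Not at hQ
    rw [hpf.poleDiv_of_neg hQ]
    linarith

/-- an automorphism `σ` of a function field maps `L(n Pol x)` onto `L(n Pol (σ x))` -/
theorem algEquiv_mem_rrSpace_poleDiv (hpf : PlaceFacts K F) (σ : F ≃ₐ[K] F) (x : F) (n : ℕ)
    {f : F} (hf : f ∈ riemannRochSpace (n • hpf.poleDiv x)) :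
    σ f ∈ riemannRochSpace (n • hpf.poleDiv (σ x)) := by
  rw [mem_rrSpace_iff] at hf ⊢
  intro Q
  have e1 : Q.ord (σ f) = (σ⁻¹ • Q).ord f := by
    have := Place.ord_smul (σ := σ) (σ⁻¹ • Q) f
    rwa [smul_inv_smul] at this
  have e2 : Q.ord (σ x) = (σ⁻¹ • Q).ord x := by
    have := Place.ord_smul (σ := σ) (σ⁻¹ • Q) x
    rwa [smul_inv_smul] at this
  rcases hf (σ⁻¹ • Q) with h0 | h1
  · left
    rw [h0, map_zero]
  · right
    rw [Finsupp.smul_apply, hpf.poleDiv_apply] at h1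
    rw [Finsupp.smul_apply, hpf.poleDiv_apply, e1, e2]
    exact h1

end General

section Concrete

local notation "Qb" => AlgebraicClosure ℚ

variable (q : ℕ) [hq : Fact q.Prime] (M : ℕ) [NeZero M] (hqM : ¬ q ∣ M)

attribute [local instance] Fermat.Agent.S34.C3.neZero_q

/-- `α` maps `L(a Pol j)` of level `M` into `L(a Pol j)` of level `Mq` -/
theorem alpha_mem (hpfM : PlaceFacts Qb (modularFunctionFieldBar M))
    (hpf : PlaceFacts Qb (modularFunctionFieldBar (M * q))) (a : ℕ)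
    {f : modularFunctionFieldBar M}
    (hf : f ∈ riemannRochSpace (a • hpfM.poleDiv (Fermat.Agent.S24.jBar M))) :
    heckeAlphaBar Qb M q f
      ∈ riemannRochSpace (a • hpf.poleDiv (Fermat.Agent.S24.jBar (M * q))) := by
  have h := map_mem_rrSpace_poleDiv hpfM hpf (heckeAlphaBar Qb M q)
    (Fermat.Agent.Lib.FFs.IsFF1s.of_isFF1 (Fermat.Agent.S24.isFF1_jBar M)) a hf
  rwa [Fermat.Agent.S34.C3.alpha_jBar] at h

/-- `β` maps `L(a Pol j)` of level `M` into `L(a Pol j_q)` of level `Mq` -/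
theorem beta_mem (hpfM : PlaceFacts Qb (modularFunctionFieldBar M))
    (hpf : PlaceFacts Qb (modularFunctionFieldBar (M * q))) (a : ℕ)
    {f : modularFunctionFieldBar M}
    (hf : f ∈ riemannRochSpace (a • hpfM.poleDiv (Fermat.Agent.S24.jBar M))) :
    heckeBetaBar Qb M q f
      ∈ riemannRochSpace (a • hpf.poleDiv (Fermat.Agent.S34.C3.jq q M)) :=
  map_mem_rrSpace_poleDiv hpfM hpf (heckeBetaBar Qb M q)
    (Fermat.Agent.Lib.FFs.IsFF1s.of_isFF1 (Fermat.Agent.S24.isFF1_jBar M)) a hf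

include hqM in
/-- `w` maps `L(c Pol j_q)` into `L(c Pol j)` -/
theorem wAL_mem (hpf : PlaceFacts Qb (modularFunctionFieldBar (M * q))) (c : ℕ)
    {x : modularFunctionFieldBar (M * q)}
    (hx : x ∈ riemannRochSpace (c • hpf.poleDiv (Fermat.Agent.S34.C3.jq q M))) :
    Fermat.Agent.S37.AL.wAL hq.out hqM x
      ∈ riemannRochSpace (c • hpf.poleDiv (Fermat.Agent.S24.jBar (M * q))) := by
  have h := algEquiv_mem_rrSpace_poleDiv hpf (Fermat.Agent.S37.AL.wALEquiv hq.out hqM) _ c hx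
  rwa [Fermat.Agent.S37.AL.wALEquiv_apply, Fermat.Agent.S37.AL.wALEquiv_apply,
    Fermat.Agent.S34.C3.wAL_jq q M hqM] at h

include hqM in
/-- `w` maps `L(c Pol j)` into `L(c Pol j_q)` -/
theorem wAL_mem' (hpf : PlaceFacts Qb (modularFunctionFieldBar (M * q))) (c : ℕ)
    {x : modularFunctionFieldBar (M * q)}
    (hx : x ∈ riemannRochSpace (c • hpf.poleDiv (Fermat.Agent.S24.jBar (M * q)))) :
    Fermat.Agent.S37.AL.wAL hq.out hqM x
      ∈ riemannRochSpace (c • hpf.poleDiv (Fermat.Agent.S34.C3.jq q M)) := by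
  have h := algEquiv_mem_rrSpace_poleDiv hpf (Fermat.Agent.S37.AL.wALEquiv hq.out hqM) _ c hx
  rwa [Fermat.Agent.S37.AL.wALEquiv_apply, Fermat.Agent.S37.AL.wALEquiv_apply,
    Fermat.Agent.S34.C3.wAL_jBar q M hqM] at h

/-- the products `α f · j_q ^ b` -/
theorem alpha_mul_jq_pow_mem (hpfM : PlaceFacts Qb (modularFunctionFieldBar M))
    (hpf : PlaceFacts Qb (modularFunctionFieldBar (M * q))) (a b : ℕ)
    {f : modularFunctionFieldBar M}
    (hf : f ∈ riemannRochSpace (a • hpfM.poleDiv (Fermat.Agent.S24.jBar M))) :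
    heckeAlphaBar Qb M q f * Fermat.Agent.S34.C3.jq q M ^ b
      ∈ riemannRochSpace (a • hpf.poleDiv (Fermat.Agent.S24.jBar (M * q))
          + b • hpf.poleDiv (Fermat.Agent.S34.C3.jq q M)) := by
  by_cases hj : Fermat.Agent.S34.C3.jq q M = 0
  · by_cases hb : b = 0
    · subst hb
      rw [pow_zero, mul_one, zero_smul, add_zero]
      exact alpha_mem q M hpfM hpf a hf
    · rw [hj, zero_pow hb, mul_zero]
      exact Submodule.zero_mem _
  · exact Fermat.Agent.S18.Deuring.mul_mem_rrSpace (alpha_mem q M hpfM hpf a hf)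
      (pow_mem_rrSpace_poleDiv hpf hj b)

/-- the products `β f · j ^ b` -/
theorem beta_mul_j_pow_mem (hpfM : PlaceFacts Qb (modularFunctionFieldBar M))
    (hpf : PlaceFacts Qb (modularFunctionFieldBar (M * q))) (a b : ℕ)
    {f : modularFunctionFieldBar M}
    (hf : f ∈ riemannRochSpace (a • hpfM.poleDiv (Fermat.Agent.S24.jBar M))) :
    heckeBetaBar Qb M q f * Fermat.Agent.S24.jBar (M * q) ^ b
      ∈ riemannRochSpace (a • hpf.poleDiv (Fermat.Agent.S34.C3.jq q M)
          + b • hpf.poleDiv (Fermat.Agent.S24.jBar (M * q))) :=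
  Fermat.Agent.S18.Deuring.mul_mem_rrSpace (beta_mem q M hpfM hpf a hf)
    (pow_mem_rrSpace_poleDiv hpf (Fermat.Agent.S34.C3.jBar_ne_zero q M) b)

end Concrete

section Ineq

variable {K F : Type*} [Field K] [Field F] [Algebra K F]

/-- from `Y ≤ q X`: `(n + 1 - q) X + (n + 2) Y ≤ (n + 1) (X + Y)` -/
theorem prod_le_sym {X Y : Divisor K F} (q n : ℕ) (hqn : q ≤ n + 1)
    (hXY : Y ≤ q • X) : (n + 1 - q) • X + (n + 2) • Y ≤ (n + 1) • (X + Y) := by
  rw [Finsupp.le_def] at hXY ⊢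
  intro v
  have h := hXY v
  simp only [Finsupp.add_apply, Finsupp.smul_apply, nsmul_eq_mul] at h ⊢
  have : ((n + 1 - q : ℕ) : ℤ) = (n : ℤ) + 1 - q := by
    push_cast [Nat.cast_sub hqn]
    ring
  rw [this]
  push_cast
  linarith

/-- from `X ≤ q Y`, `0 ≤ Y`, `2 ≤ q`: `(n + 1 - q) X + (n + 2) Y ≤ ((1 + q) n) Y` -/
theorem prod_le_snd {X Y : Divisor K F} (q n : ℕ) (hq : 2 ≤ q) (hqn : q ≤ n + 1)
    (hXY : X ≤ q • Y) (hY : 0 ≤ Y) : (n + 1 - q) • X + (n + 2) • Y ≤ (n * (1 + q)) • Y := by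
  rw [Finsupp.le_def] at hXY hY ⊢
  intro v
  have h := hXY v
  have h0 := hY v
  simp only [Finsupp.add_apply, Finsupp.smul_apply, nsmul_eq_mul, Finsupp.coe_zero,
    Pi.zero_apply] at h h0 ⊢
  have e : ((n + 1 - q : ℕ) : ℤ) = (n : ℤ) + 1 - q := by
    push_cast [Nat.cast_sub hqn]
    ring
  rw [e]
  push_cast
  have hq' : (2 : ℤ) ≤ q := by exact_mod_cast hq
  have hqn' : (q : ℤ) ≤ n + 1 := by exact_mod_cast hqn
  have h1 : ((n : ℤ) + 1 - q) * X v ≤ ((n : ℤ) + 1 - q) * (q * Y v) :=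
    mul_le_mul_of_nonneg_left h (by linarith)
  have h2 : (0 : ℤ) ≤ ((q : ℤ) * q - q - 2) * Y v := by
    apply mul_nonneg _ h0
    nlinarith
  nlinarith

end Ineq

end Fermat.Agent.S34.NP
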