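import Fermat.Agent.S34.NodalCount

/-!
# C83 (S34), piece C2, part 2: the top polar blocks at the cusps (abstract form)

`E = Pol(J)` on `F`, `D₁ = D₂ = (1 + q) • E`, `B n ⊆ L(n D₁) × L(n D₂)`.

* `rrSpace_le_sup_of_chain`: if every one-point step between `G₀` and `G₁` is realised by an
  element of `S`, then `L(G₁) ≤ S ⊔ L(G₀)`;
* `rrSpace_le_mul_pow_sup`: `L(G₁) ≤ J^c · L(G₁ - c E) ⊔ L(G₀)` when `G₀ - c E` has large degree;
* `top_of_products`: the hypothesis `htop` of `CountInput.count` from the reductions of the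
  products `α f · j_q ^ b` and `β f · j ^ b`.
-/

set_option autoImplicit false
set_option linter.unusedSectionVars false
set_option linter.style.haveILetI false
set_option linter.unusedVariables false

open AlgebraicCurve Fermat.Agent.Lib.FF Fermat.Agent.S18.Deuring

namespace Fermat.Agent.S34.NC

section Chain

variable {k F : Type*} [Field k] [Field F] [Algebra k F]

/-- if every one-point step between `G₀` and `G₁` is realised by an element of `S`, then
`L(G₁) ≤ S ⊔ L(G₀)` -/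
theorem rrSpace_le_sup_of_chain (hpf : PlaceFacts k F) (S : Submodule k F)
    (G₀ G₁ : Divisor k F)
    (hstep : ∀ (G : Divisor k F) (y : Place k F), G₀ ≤ G → G + Finsupp.single y 1 ≤ G₁ →
      ∃ p ∈ S, p ∈ riemannRochSpace (G + Finsupp.single y 1) ∧ p ∉ riemannRochSpace G)
    (hle : G₀ ≤ G₁) : riemannRochSpace G₁ ≤ S ⊔ riemannRochSpace G₀ := by
  have key : ∀ G' : Divisor k F, G₀ ≤ G' →
      (G' ≤ G₁ → riemannRochSpace G' ≤ S ⊔ riemannRochSpace G₀) := by
    refine divisor_induction hpf G₀ (fun _ => le_sup_right) ?_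
    intro G' P hG' ih hle'
    have hG'le : G' ≤ G₁ := (le_add_single G' P).trans hle'
    obtain ⟨p, hpS, hp1, hp2⟩ := hstep G' P hG' hle'
    refine (rrSpace_add_single_le hpf G' P hp1 hp2).trans ?_
    refine sup_le (ih hG'le) ?_
    rw [Submodule.span_singleton_le_iff_mem]
    exact Submodule.mem_sup_left hpS
  exact key G₁ hle le_rfl

/-- the polar parts at the poles of `J` are realised by `J ^ c · L(G₁ - c E)` -/
theorem rrSpace_le_mul_pow_sup (hpf : PlaceFacts k F) {g : ℕ} {c : ℤ} (hR : RThm k F g c)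
    {E : Divisor k F} (hE : 0 ≤ E) {J : F} (hJ0 : J ≠ 0)
    (hJ : ∀ y : Place k F, 0 < E y → y.ord J = - E y)
    (hJ' : ∀ y : Place k F, E y = 0 → 0 ≤ y.ord J)
    (cc : ℕ) (G₀ G₁ : Divisor k F) (hle : G₀ ≤ G₁)
    (hoff : ∀ y : Place k F, E y = 0 → G₁ y ≤ G₀ y)
    (hdeg : c ≤ Divisor.degree (G₀ - cc • E)) :
    riemannRochSpace G₁
      ≤ (riemannRochSpace (G₁ - cc • E)).map (LinearMap.mulLeft k (J ^ cc))
        ⊔ riemannRochSpace G₀ := by
  refine rrSpace_le_sup_of_chain hpf _ G₀ G₁ ?_ hle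
  intro G y hG hGy
  have hy1 : G₀ y ≤ G y := Finsupp.le_def.mp hG y
  have hy2 : G y + 1 ≤ G₁ y := by
    have := Finsupp.le_def.mp hGy y
    rwa [Finsupp.add_apply, Finsupp.single_eq_same] at this
  have hEy : 0 < E y := by
    have h0 : 0 ≤ E y := by
      have := Finsupp.le_def.mp hE y
      simpa using this
    rcases h0.lt_or_eq with h | h
    · exact h
    · have := hoff y h.symm
      omega
  set H : Divisor k F := G + Finsupp.single y 1 - cc • E with hH
  have hdegH : c + 1 ≤ Divisor.degree H := by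
    have h1 := degree_mono hpf hG
    rw [hH, map_sub, map_add, hpf.degree_single]
    rw [map_sub] at hdeg
    omega
  obtain ⟨f, hf, hf0, hford⟩ := exists_ord_eq hpf hR y hdegH
  have hp0 : J ^ cc * f ≠ 0 := mul_ne_zero (pow_ne_zero _ hJ0) hf0
  have hord : ∀ z : Place k F, z.ord (J ^ cc * f) = cc * z.ord J + z.ord f := by
    intro z
    rw [z.ord_mul (pow_ne_zero _ hJ0) hf0, ← zpow_natCast, z.ord_zpow]
  refine ⟨J ^ cc * f, ?_, ?_, ?_⟩
  · refine Submodule.mem_map.mpr ⟨f, ?_, rfl⟩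
    refine rrSpace_mono ?_ hf
    rw [hH]
    exact sub_le_sub_right hGy _
  · rw [mem_rrSpace_iff_of_ne_zero hp0]
    intro z
    rw [hord z]
    have hfz := (mem_rrSpace_iff_of_ne_zero hf0).mp hf z
    have hHz : H z = (G + Finsupp.single y (1 : ℤ) : Divisor k F) z - cc * E z := by
      rw [hH, Finsupp.sub_apply, Finsupp.smul_apply, nsmul_eq_mul]
    rw [hHz] at hfz
    have h0 : 0 ≤ E z := by
      have := Finsupp.le_def.mp hE z
      simpa using this
    rcases h0.lt_or_eq with h | h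
    · rw [hJ z h]
      have : (cc : ℤ) * -E z = - (cc * E z) := by ring
      rw [this]
      omega
    · have hz := hJ' z h.symm
      rw [← h, mul_zero, sub_zero] at hfz
      have : 0 ≤ (cc : ℤ) * z.ord J := by positivity
      omega
  · intro hmem
    have h1 := (mem_rrSpace_iff_of_ne_zero hp0).mp hmem y
    rw [hord y, hford, hJ y hEy] at h1
    have hHy : H y = G y + 1 - cc * E y := by
      rw [hH, Finsupp.sub_apply, Finsupp.add_apply, Finsupp.single_eq_same, Finsupp.smul_apply,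
        nsmul_eq_mul]
    rw [hHy] at h1
    have : (cc : ℤ) * -E y = - (cc * E y) := by ring
    rw [this] at h1
    omega

end Chain

section Top

variable {k F : Type*} [Field k] [Field F] [Algebra k F]

/-- **the top polar blocks are reductions** (hypothesis `htop` of `CountInput.count`), from the
reductions of the products `α f · j_q ^ (n + 2)` and `β f · j ^ (n + 2)`,
`f ∈ L((n + 1 - q) Pol j)` -/
theorem top_of_products (hpf : PlaceFacts k F) {g : ℕ} {c : ℤ} (hR : RThm k F g c)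
    {E : Divisor k F} (hE : 0 ≤ E) (hdE : 0 < Divisor.degree E) {J : F} (hJ0 : J ≠ 0)
    (hJ : ∀ y : Place k F, 0 < E y → y.ord J = - E y)
    (hJ' : ∀ y : Place k F, E y = 0 → 0 ≤ y.ord J)
    (q : ℕ) (hq : 2 ≤ q) (B : ℕ → Submodule k (F × F)) (n₀ : ℕ)
    (hα : ∀ n : ℕ, n₀ ≤ n → ∀ f ∈ riemannRochSpace ((n + 1 - q) • E),
      ∃ h ∈ riemannRochSpace (n • ((1 + q) • E)), (J ^ (q * (n + 2)) * f, h) ∈ B (n + 1))
    (hβ : ∀ n : ℕ, n₀ ≤ n → ∀ f ∈ riemannRochSpace ((n + 1 - q) • E),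
      ∃ h ∈ riemannRochSpace (n • ((1 + q) • E)), (h, J ^ (q * (n + 2)) * f) ∈ B (n + 1)) :
    ∃ n₁ : ℕ, ∀ n : ℕ, n₁ ≤ n →
      (riemannRochSpace ((n + 1) • ((1 + q) • E))).prod
          (riemannRochSpace ((n + 1) • ((1 + q) • E)))
        ≤ B (n + 1) ⊔ (riemannRochSpace (n • ((1 + q) • E))).prod
          (riemannRochSpace (n • ((1 + q) • E))) := by
  refine ⟨max n₀ (2 * q + c.toNat), ?_⟩
  intro n hn
  have hn₀ : n₀ ≤ n := (le_max_left _ _).trans hn
  have hn₁ : 2 * q + c.toNat ≤ n := (le_max_right _ _).trans hn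
  have hD : 0 ≤ (1 + q) • E := nsmul_nonneg_of_nonneg hE (1 + q)
  set G₀ : Divisor k F := n • ((1 + q) • E) with hG₀
  set G₁ : Divisor k F := (n + 1) • ((1 + q) • E) with hG₁
  have hle : G₀ ≤ G₁ := nsmul_le_nsmul_of_nonneg hD (Nat.le_succ n)
  have hoff : ∀ y : Place k F, E y = 0 → G₁ y ≤ G₀ y := by
    intro y hy
    simp only [hG₀, hG₁, Finsupp.smul_apply, hy, smul_zero, le_refl]
  have e₁ : G₁ - (q * (n + 2)) • E = (n + 1 - q) • E := by
    ext y
    simp only [hG₁, Finsupp.sub_apply, Finsupp.smul_apply, nsmul_eq_mul]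
    have : ((n + 1 - q : ℕ) : ℤ) = (n : ℤ) + 1 - q := by
      have : q ≤ n + 1 := by omega
      push_cast [Nat.cast_sub this]
      ring
    rw [this]
    push_cast
    ring
  have hdeg : c ≤ Divisor.degree (G₀ - (q * (n + 2)) • E) := by
    have e₀ : G₀ - (q * (n + 2)) • E = (n - 2 * q) • E := by
      ext y
      simp only [hG₀, Finsupp.sub_apply, Finsupp.smul_apply, nsmul_eq_mul]
      have : ((n - 2 * q : ℕ) : ℤ) = (n : ℤ) - 2 * q := by
        have : 2 * q ≤ n := by omega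
        push_cast [Nat.cast_sub this]
        ring
      rw [this]
      push_cast
      ring
    rw [e₀, map_nsmul, nsmul_eq_mul]
    have h1 : (c.toNat : ℤ) ≤ ((n - 2 * q : ℕ) : ℤ) := by
      have : c.toNat ≤ n - 2 * q := by omega
      exact_mod_cast this
    have h2 : ((n - 2 * q : ℕ) : ℤ) * 1 ≤ ((n - 2 * q : ℕ) : ℤ) * Divisor.degree E :=
      mul_le_mul_of_nonneg_left (by omega) (by positivity)
    have h3 : c ≤ (c.toNat : ℤ) := Int.self_le_toNat c
    omega
  have key := rrSpace_le_mul_pow_sup hpf hR hE hJ0 hJ hJ' (q * (n + 2)) G₀ G₁ hle hoff hdeg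
  rw [e₁] at key
  rintro ⟨φ₁, φ₂⟩ ⟨h₁, h₂⟩
  simp only at h₁ h₂
  obtain ⟨p₁, hp₁, ψ₁, hψ₁, e1⟩ := Submodule.mem_sup.mp (key h₁)
  obtain ⟨f₁, hf₁, rfl⟩ := Submodule.mem_map.mp hp₁
  obtain ⟨a, ha, haB⟩ := hα n hn₀ f₁ hf₁
  have h₂' : φ₂ - a ∈ riemannRochSpace G₁ :=
    Submodule.sub_mem _ h₂ (rrSpace_mono hle ha)
  obtain ⟨p₂, hp₂, ψ₂, hψ₂, e2⟩ := Submodule.mem_sup.mp (key h₂')
  obtain ⟨f₂, hf₂, rfl⟩ := Submodule.mem_map.mp hp₂
  obtain ⟨b, hb, hbB⟩ := hβ n hn₀ f₂ hf₂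
  rw [Submodule.mem_sup]
  refine ⟨(J ^ (q * (n + 2)) * f₁, a) + (b, J ^ (q * (n + 2)) * f₂),
    Submodule.add_mem _ haB hbB, (ψ₁ - b, ψ₂), ⟨?_, hψ₂⟩, ?_⟩
  · exact Submodule.sub_mem _ hψ₁ hb
  · simp only [LinearMap.mulLeft_apply] at e1 e2
    refine Prod.ext ?_ ?_
    · simp only [Prod.mk_add_mk]
      rw [← e1]
      ring
    · simp only [Prod.mk_add_mk]
      have : φ₂ = J ^ (q * (n + 2)) * f₂ + ψ₂ + a := by
        rw [e2]; ring
      rw [this]
      ring

end Top

end Fermat.Agent.S34.NC
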