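import Mathlib
import Fermat.Agent.S31.MainCore
import Fermat.Agent.S31.MainAlg
import Fermat.Agent.S31.MainTrace
import Fermat.Agent.S31.LatRes
import Fermat.Prelude.Def_GaloisRep_LocalConditions

/-!
# C83 (S34), piece (T), second version (helper5): transfer from the Jacobian to a Hecke–Galois datum

NOTE: the team interface is `Fermat.Agent.S34.Tr.InertiaSq` / `unipotent_of_inertiaSq` in
`S34/Transfer.lean` (helper7).  This file is an independent second proof with the hypothesis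
in the form `h • (h • x - x) = h • x - x`; it does not use `CharZero`.

`InertiaUnipotent N p q` is the geometric statement **(G)**: for every valuation ring `P` of `ℚ̄`
over `q`, every `h` in its inertia group and every `p`-power torsion point `x` of `J₀(N)`,
`(h - 1)² x = 0`, in the form `h • (h • x - x) = h • x - x`.

Main result: `isUnipotentOnInertiaAt_of_inertiaUnipotent`: (G) and `q ≠ p` imply that the
representation of every Hecke–Galois datum of level `N` is unipotent on inertia at `q`, that is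
`charpoly ρ(h) = (X - 1)²`.

Proof: as in S31.  Approximate `h` by a power `σ ^ a` of a Frobenius element at a prime
`ℓ ∉ S` on a number field containing the trace level and the determinant level of `ρ` modulo
`𝔪 ^ k`, the field of the points `Θ(Λ) ⊂ J₀(N)[p ^ n]` and `ℚ(μ_{p ^ n})`.  On `J₀(N)[p ^ n]` the
Eichler–Shimura relation and Lucas give `σ^{2a} - V_a(T_ℓ) σ^a + ℓ^a = 0`; with (G) and
`ℓ^a ≡ 1` this is `V_a(T_ℓ) = 2` on `Θ(Λ)`, so `V_a(T_ℓ) - 2` maps `Λ` into `p ^ n Λ`, and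
the saturation of the Hecke algebra gives `tr ρ(σ^a) = π(V_a(T_ℓ)) ≡ 2`.  Also
`det ρ(σ^a) = ℓ^a ≡ 1`.
-/

set_option autoImplicit false
set_option linter.unusedSectionVars false
set_option linter.unusedVariables false
set_option linter.style.haveILetI false

noncomputable section

namespace Fermat.Agent.S34

open Polynomial ModularCurve Fermat.Agent.S31.Lat Fermat.Agent.S31.Main

local notation "Qb" => AlgebraicClosure ℚ
local notation "Gal" => (AlgebraicClosure ℚ ≃ₐ[ℚ] AlgebraicClosure ℚ)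

/-- **(G)**: the inertia groups at `q` act unipotently (of level two) on the `p`-power torsion
of `J₀(N)` -/
def InertiaUnipotent (N p q : ℕ) [NeZero N] : Prop :=
  ∀ P : ValuationSubring Qb, P.LiesOverPrime q → ∀ h ∈ P.inertiaSubgroupIn ℚ,
    ∀ x : JZero N, (∃ n : ℕ, p ^ n • x = 0) → h • (h • x - x) = h • x - x

namespace Transfer

/-! ### linear algebra in rank two -/

section Algebra

variable {T : Type*} [CommRing T] {V : Type*} [AddCommGroup V] [Module T V]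
  [Module.Free T V] [Module.Finite T V]

/-- the characteristic polynomial in rank two -/
theorem charpoly_eq_of_finrank_two [Nontrivial T] (f : Module.End T V)
    (hrank : Module.finrank T V = 2) :
    LinearMap.charpoly f = X ^ 2 - C (LinearMap.trace T V f) * X + C (LinearMap.det f) := by
  classical
  let b : Module.Basis (Fin 2) T V := Module.finBasisOfFinrankEq T V hrank
  rw [← LinearMap.charpoly_toMatrix f b, LinearMap.trace_eq_matrix_trace T b,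
    ← LinearMap.det_toMatrix b, Matrix.charpoly_fin_two]

/-- the determinant from the characteristic polynomial in rank two -/
theorem det_of_charpoly [Nontrivial T] (f : Module.End T V) (t d : T)
    (hrank : Module.finrank T V = 2)
    (hf : LinearMap.charpoly f = X ^ 2 - C t * X + C d) : LinearMap.det f = d := by
  have h := charpoly_eq_of_finrank_two f hrank
  rw [hf] at h
  have h0 := congrArg (fun P : Polynomial T => P.coeff 0) h
  simp only [coeff_add, coeff_sub, coeff_X_pow, coeff_C_mul, coeff_X_zero, coeff_C_zero,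
    mul_zero, sub_zero] at h0
  simpa using h0.symm

/-- an endomorphism congruent to the identity modulo `I` has determinant congruent to one -/
theorem det_sub_one_mem (I : Ideal T) (f : Module.End T V)
    (hf : ∀ v, f v - v ∈ I • (⊤ : Submodule T V)) : LinearMap.det f - 1 ∈ I := by
  classical
  let b := Module.Free.chooseBasis T V
  rw [← LinearMap.det_toMatrix b, ← Ideal.Quotient.eq, map_one, RingHom.map_det]
  have e : (Ideal.Quotient.mk I).mapMatrix (LinearMap.toMatrix b b f) = 1 := by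
    ext i j
    rw [RingHom.mapMatrix_apply, Matrix.map_apply, LinearMap.toMatrix_apply]
    have h1 := repr_mem_of_mem_smul b I (hf (b j)) i
    rw [map_sub, Finsupp.sub_apply, Module.Basis.repr_self] at h1
    by_cases hij : i = j
    · subst hij
      rw [Matrix.one_apply_eq, ← map_one (Ideal.Quotient.mk I), Ideal.Quotient.eq]
      simpa using h1
    · rw [Matrix.one_apply_ne hij, Ideal.Quotient.eq_zero_iff_mem]
      have h2 : (Finsupp.single j (1 : T)) i = 0 := Finsupp.single_eq_of_ne hij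
      rw [h2, sub_zero] at h1
      exact h1
  rw [e, Matrix.det_one]

end Algebra

variable {T : Type} [CommRing T] [IsLocalRing T]

/-- the determinant of `ρ` is continuous -/
theorem exists_det_level (ρ : GaloisRepAdic T) (k : ℕ) :
    ∃ L : IntermediateField ℚ Qb, FiniteDimensional ℚ L ∧
      ∀ σ τ : Gal, (∀ x ∈ L, σ x = τ x) →
        LinearMap.det (ρ.ρ σ) - LinearMap.det (ρ.ρ τ) ∈ IsLocalRing.maximalIdeal T ^ k := by
  obtain ⟨L, hL, h⟩ := ρ.isAdicContinuous k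
  refine ⟨L, hL, fun σ τ hστ => ?_⟩
  have hu : ∀ x ∈ L, (τ⁻¹ * σ) x = x := fun x hx => by
    show τ⁻¹ (σ x) = x
    rw [hστ x hx]
    exact τ.symm_apply_apply x
  have e : ρ.ρ σ = ρ.ρ τ * ρ.ρ (τ⁻¹ * σ) := by
    rw [← map_mul, mul_inv_cancel_left]
  have e2 : LinearMap.det (ρ.ρ σ) - LinearMap.det (ρ.ρ τ)
      = LinearMap.det (ρ.ρ τ) * (LinearMap.det (ρ.ρ (τ⁻¹ * σ)) - 1) := by
    rw [e, map_mul]
    ring
  rw [e2]
  exact Ideal.mul_mem_left _ _ (det_sub_one_mem _ _ (h _ hu))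

/-! ### the algebraic heart -/

/-- a quadratic relation for `h` with constant term one and `(h - 1)² = 0` force the linear
term to be two -/
theorem hecke_eq_two_of_relations {J : Type*} [AddCommGroup J] {G : Type*} [Group G]
    [DistribMulAction G J] (h s : G) (τ : Module.End ℤ J) (e : ℤ) (y : J)
    (h1 : s • s • y - τ (s • y) + e • y = 0)
    (hs : s • y = h • y) (hs2 : s • (h • y) = h • h • y)
    (he : (e - 1) • y = 0)
    (hu : h • (h • y - y) = h • y - y)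
    (hτ : τ (h • y) = h • τ y) : τ y = (2 : ℤ) • y := by
  rw [hs, hs2, hτ] at h1
  have he' : e • y = y := by
    rw [sub_smul, one_smul, sub_eq_zero] at he
    exact he
  rw [he'] at h1
  rw [smul_sub] at hu
  have h3 : h • τ y = h • ((2 : ℤ) • y) := by
    have e1 : h • τ y = h • h • y + y := by
      rw [sub_add_eq_add_sub, sub_eq_zero] at h1
      exact h1.symm
    have e2 : h • h • y = h • y + h • y - y := by
      rw [sub_eq_iff_eq_add] at hu
      rw [hu]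
      abel
    rw [e1, e2, smul_comm, two_smul]
    abel
  exact MulAction.injective h h3

variable {N : ℕ} [NeZero N]

/-- **the geometric core of (T)** -/
theorem exists_frob_unip {p : ℕ} (hp : p.Prime) {S : Finset ℕ} (hpS : p ∈ S)
    (hNS : ∀ q : ℕ, q.Prime → q ∣ N → q ∈ S)
    {q : ℕ} (hq : q.Prime) (hqp : q ≠ p) (hG : InertiaUnipotent N p q)
    {P : ValuationSubring Qb} (hP : P.LiesOverPrime q)
    {h : Gal} (hh : h ∈ P.inertiaSubgroupIn ℚ) (n : ℕ)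
    (L : IntermediateField ℚ Qb) (hL : FiniteDimensional ℚ L) :
    ∃ (ℓ : ℕ) (hℓ : ℓ.Prime) (hℓN : ¬ ℓ ∣ N) (hℓS : ℓ ∉ S)
      (A : ValuationSubring Qb) (σ : Gal) (a : ℕ),
      A.LiesOverPrime ℓ ∧ A.IsFrobeniusAt σ ℓ ∧
      (∀ x ∈ L, h x = (σ ^ a) x) ∧ ((p ^ n : ℕ) : ℤ) ∣ (ℓ : ℤ) ^ a - 1 ∧
      ∀ c : Lam N, ∃ c' : Lam N,
        aeval (Tpar hℓ hℓN) (lucasV (ℓ : ℤ) a) c - (2 : ℤ) • c = (p ^ n) • c' := by
  classical
  haveI : NeZero (p ^ n) := ⟨pow_ne_zero _ hp.ne_zero⟩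
  obtain ⟨Θ, hΘ1, hΘ2, hΘ3⟩ := Fermat.Agent.S29.ThetaJ.exists_theta_Lam N (p ^ n)
  obtain ⟨K₁, hK₁, hfix⟩ := exists_fixing_theta Θ
  obtain ⟨K₂, hK₂, hχ⟩ := Fermat.Agent.S31.Cyc.chiM_finiteLevel (p ^ n)
  haveI := hL
  haveI := hK₁
  haveI := hK₂
  have hK : FiniteDimensional ℚ (L ⊔ K₁ ⊔ K₂ : IntermediateField ℚ Qb) := inferInstance
  have hLK : L ≤ L ⊔ K₁ ⊔ K₂ := le_sup_left.trans le_sup_left
  have hK₁K : K₁ ≤ L ⊔ K₁ ⊔ K₂ := le_sup_right.trans le_sup_left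
  have hK₂K : K₂ ≤ L ⊔ K₁ ⊔ K₂ := le_sup_right
  obtain ⟨ℓ, A, σ, a, hℓ, hℓS, hA, hσ, hg⟩ :=
    Fermat.Agent.Lib.FrobDensity.frobeniusGenerates _ hK S h
  have hℓN : ¬ ℓ ∣ N := fun hd => hℓS (hNS ℓ hℓ hd)
  have hnp : ∀ {r : ℕ}, r.Prime → r ∉ S → ¬ r ∣ p := by
    intro r hr hrS hd
    have := (Nat.prime_dvd_prime_iff_eq hr hp).mp hd
    exact hrS (this ▸ hpS)
  have hnNp : ∀ {r : ℕ}, r.Prime → r ∉ S → ¬ r ∣ N * p := by
    intro r hr hrS hd
    rcases hr.dvd_mul.mp hd with h1 | h1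
    · exact hrS (hNS r hr h1)
    · exact hnp hr hrS h1
  have hnpn : ∀ {r : ℕ}, r.Prime → r ∉ S → ¬ r ∣ p ^ n := by
    intro r hr hrS hd
    exact hnp hr hrS (hr.dvd_of_dvd_pow hd)
  have hqpn : ¬ q ∣ p ^ n := by
    intro hd
    exact hqp ((Nat.prime_dvd_prime_iff_eq hq hp).mp (hq.dvd_of_dvd_pow hd))
  -- the cyclotomic character
  have hc1 : Fermat.Agent.S31.Cyc.chiM (p ^ n) h = Fermat.Agent.S31.Cyc.chiM (p ^ n) (σ ^ a) :=
    chiM_eq_of_agree (p ^ n) hK₂K hχ hg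
  have hc3 : Fermat.Agent.S31.Cyc.chiM (p ^ n) h = 1 := by
    haveI : Fact q.Prime := ⟨hq⟩
    exact Fermat.Agent.S31.Cyc.chiM_inertia (p ^ n) P q hP hqpn h hh
  rw [hc3] at hc1
  have hc4 := congrArg Units.val hc1
  rw [chiM_frob_pow (p ^ n) hℓ (hnpn hℓ hℓS) hA hσ a] at hc4
  have hdvd : ((p ^ n : ℕ) : ℤ) ∣ (ℓ : ℤ) ^ a - 1 := by
    rw [← ZMod.intCast_zmod_eq_zero_iff_dvd]
    push_cast
    rw [sub_eq_zero]
    exact_mod_cast hc4.symm
  refine ⟨ℓ, hℓ, hℓN, hℓS, A, σ, a, hA, hσ, fun x hx => hg x (hLK hx), hdvd, fun c => ?_⟩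
  apply hΘ2
  rw [map_sub, aeval_intertwine Θ (Tpar hℓ hℓN) (heckeOperatorBar N ⟨ℓ, hℓ⟩) (hΘ3 ℓ hℓ hℓN),
    map_zsmul, sub_eq_zero]
  have hy : ∃ k : ℕ, p ^ k • Θ c = 0 := ⟨n, hΘ1 c⟩
  have hs : ∀ τ : Gal, σ ^ a • (τ • Θ c) = h • (τ • Θ c) :=
    fun τ => smul_theta_eq_of_agree Θ hK₁K hfix hg c τ
  have h1 := hs 1
  rw [one_smul] at h1
  have he : ((ℓ : ℤ) ^ a - 1) • Θ c = 0 := by
    obtain ⟨k, hk⟩ := hdvd
    rw [hk, mul_comm, mul_smul, natCast_zsmul, hΘ1 c, smul_zero]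
  exact hecke_eq_two_of_relations h (σ ^ a) _ _ (Θ c)
    (frob_pow_relation p hℓ (hnNp hℓ hℓS) hA hσ a (Θ c) hy)
    h1 (hs h) he (hG P hP h hh (Θ c) hy)
    (aeval_hecke_smul ⟨ℓ, hℓ⟩ _ h (Θ c))

/-! ### the datum -/

section Datum

open CuspForm

variable {p : ℕ} {S : Finset ℕ}
  {𝒪 : Type} [CommRing 𝒪] [IsDomain 𝒪] [IsDiscreteValuationRing 𝒪]
  [IsAdicComplete (IsLocalRing.maximalIdeal 𝒪) 𝒪]
  {θ : CuspForm.heckeAlgebra N 2 (↑S : Set ℕ) →+* IsLocalRing.ResidueField 𝒪}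
  {T' : Type} [CommRing T'] [IsLocalRing T'] [IsNoetherianRing T']
  [IsAdicComplete (IsLocalRing.maximalIdeal T') T'] [Algebra 𝒪 T']
  [IsLocalHom (algebraMap 𝒪 T')] [Module.Finite 𝒪 T'] [Module.Free 𝒪 T']

theorem natCast_mem_maximalIdeal (hp𝒪 : (p : 𝒪) ∈ IsLocalRing.maximalIdeal 𝒪) :
    (p : T') ∈ IsLocalRing.maximalIdeal T' := by
  rw [IsLocalRing.mem_maximalIdeal, mem_nonunits_iff]
  intro hu
  have h1 : IsUnit (algebraMap 𝒪 T' (p : 𝒪)) := by rwa [map_natCast]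
  have h2 : IsUnit (p : 𝒪) := isUnit_of_map_unit (algebraMap 𝒪 T') _ h1
  exact ((IsLocalRing.mem_maximalIdeal _).mp hp𝒪) h2

/-- the trace of a power of a Frobenius element -/
theorem trace_frob_pow (H : HeckeGaloisRepDatum N (↑S : Set ℕ) 𝒪 θ T')
    {ℓ : ℕ} (hℓ : ℓ.Prime) (hℓN : ¬ ℓ ∣ N) (hℓS : ℓ ∉ S)
    {A : ValuationSubring Qb} (hA : A.LiesOverPrime ℓ) {σ : Gal} (hσ : A.IsFrobeniusAt σ ℓ)
    (a : ℕ) :
    H.ρ.trace (σ ^ a) = H.π (aeval (heckeAlgebra.T hℓ hℓN hℓS) (lucasV (ℓ : ℤ) a)) := by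
  have hf : LinearMap.charpoly (H.ρ.ρ σ) =
      X ^ 2 - C (H.π (heckeAlgebra.T hℓ hℓN hℓS)) * X + C (((ℓ : ℤ) : T')) := by
    rw [Int.cast_natCast]
    exact H.charpoly_frob ℓ hℓ hℓN hℓS A hA σ hσ
  have h1 := (trace_pow_eq (H.ρ.ρ σ) (H.π (heckeAlgebra.T hℓ hℓN hℓS)) (ℓ : ℤ)
    H.ρ.finrank_eq hf a).1
  rw [map_aeval_int]
  show LinearMap.trace T' H.ρ.V (H.ρ.ρ (σ ^ a)) = _
  rw [map_pow]
  exact h1

/-- the determinant of a power of a Frobenius element -/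
theorem det_frob_pow (H : HeckeGaloisRepDatum N (↑S : Set ℕ) 𝒪 θ T')
    {ℓ : ℕ} (hℓ : ℓ.Prime) (hℓN : ¬ ℓ ∣ N) (hℓS : ℓ ∉ S)
    {A : ValuationSubring Qb} (hA : A.LiesOverPrime ℓ) {σ : Gal} (hσ : A.IsFrobeniusAt σ ℓ)
    (a : ℕ) :
    LinearMap.det (H.ρ.ρ (σ ^ a)) = (ℓ : T') ^ a := by
  rw [map_pow, map_pow]
  congr 1
  exact det_of_charpoly _ _ _ H.ρ.finrank_eq (H.charpoly_frob ℓ hℓ hℓN hℓS A hA σ hσ)

/-- trace and determinant of `ρ(h)`, `h` in an inertia group at `q`, modulo `𝔪 ^ k` -/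
theorem trace_det_mem (hp : p.Prime)
    (hp𝒪 : (p : 𝒪) ∈ IsLocalRing.maximalIdeal 𝒪) (hpS : p ∈ S)
    (hNS : ∀ q : ℕ, q.Prime → q ∣ N → q ∈ S)
    (H : HeckeGaloisRepDatum N (↑S : Set ℕ) 𝒪 θ T')
    (q : ℕ) (hq : q.Prime) (hqp : q ≠ p) (hG : InertiaUnipotent N p q)
    (P : ValuationSubring Qb) (hP : P.LiesOverPrime q)
    (h : Gal) (hh : h ∈ P.inertiaSubgroupIn ℚ) (k : ℕ) :
    H.ρ.trace h - 2 ∈ IsLocalRing.maximalIdeal T' ^ k ∧
      LinearMap.det (H.ρ.ρ h) - 1 ∈ IsLocalRing.maximalIdeal T' ^ k := by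
  have hpT : (p : T') ∈ IsLocalRing.maximalIdeal T' := natCast_mem_maximalIdeal hp𝒪
  obtain ⟨M₀, hM₀, hsat⟩ := hecke_saturation N (↑S : Set ℕ)
  obtain ⟨L₁, hL₁, htr⟩ := exists_trace_level H.ρ k
  obtain ⟨L₂, hL₂, hdet⟩ := exists_det_level H.ρ k
  haveI := hL₁
  haveI := hL₂
  have hL : FiniteDimensional ℚ (L₁ ⊔ L₂ : IntermediateField ℚ Qb) := inferInstance
  obtain ⟨ℓ, hℓ, hℓN, hℓS, A, σ, a, hA, hσ, hg, hdvd, hdiv⟩ :=
    exists_frob_unip hp hpS hNS hq hqp hG hP hh (k + padicValNat p M₀) (L₁ ⊔ L₂) hL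
  have hi : ℓ.Prime ∧ ¬ ℓ ∣ N ∧ ℓ ∉ (↑S : Set ℕ) := ⟨hℓ, hℓN, hℓS⟩
  have hPpar : evPar N (↑S : Set ℕ)
      (aeval (FreeAlgebra.ι ℤ (⟨ℓ, hi⟩ : HIdx N (↑S : Set ℕ))) (lucasV (ℓ : ℤ) a) - 2)
      = aeval (Tpar hℓ hℓN) (lucasV (ℓ : ℤ) a) - 2 := by
    rw [map_sub, ← Polynomial.aeval_algHom_apply, evPar_ι, map_ofNat]
    rfl
  have hPT : evT N (↑S : Set ℕ)
      (aeval (FreeAlgebra.ι ℤ (⟨ℓ, hi⟩ : HIdx N (↑S : Set ℕ))) (lucasV (ℓ : ℤ) a) - 2)
      = aeval (heckeAlgebra.T hℓ hℓN hℓS) (lucasV (ℓ : ℤ) a) - 2 := by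
    rw [map_sub, ← Polynomial.aeval_algHom_apply, evT_ι, map_ofNat]
  obtain ⟨Q, hQ⟩ := hsat (p ^ (k + padicValNat p M₀)) _ (fun c => by
    rw [hPpar, LinearMap.sub_apply]
    have e2 : (2 : Module.End ℤ (Lam N)) c = (2 : ℤ) • c := by
      rw [show (2 : Module.End ℤ (Lam N)) = (((2 : ℤ)) : Module.End ℤ (Lam N)) by norm_cast,
        Module.End.intCast_apply]
    rw [e2]
    exact hdiv c)
  rw [hPT] at hQ
  have key := map_mem_pow_of_nsmul_eq H.π hp hpT M₀ hM₀ k (k + padicValNat p M₀) le_rfl _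
    (evT N (↑S : Set ℕ) Q) hQ
  rw [map_sub, map_ofNat, ← trace_frob_pow H hℓ hℓN hℓS hA hσ a] at key
  have hone : ((ℓ : T') ^ a - 1) ∈ IsLocalRing.maximalIdeal T' ^ k := by
    obtain ⟨m, hm⟩ := hdvd
    have e : ((ℓ : T') ^ a - 1) = (p : T') ^ (k + padicValNat p M₀) * (m : T') := by
      have := congrArg (Int.cast : ℤ → T') hm
      push_cast at this
      exact this
    rw [e]
    exact Ideal.mul_mem_right _ _
      (Ideal.pow_le_pow_right (Nat.le_add_right _ _) (Ideal.pow_mem_pow hpT _))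
  refine ⟨?_, ?_⟩
  · have h2 := htr h (σ ^ a) (fun x hx => hg x (le_sup_left (a := L₁) (b := L₂) hx))
    have e : H.ρ.trace h - 2 = (H.ρ.trace h - H.ρ.trace (σ ^ a)) + (H.ρ.trace (σ ^ a) - 2) := by
      ring
    rw [e]
    exact Ideal.add_mem _ h2 key
  · have h2 := hdet h (σ ^ a) (fun x hx => hg x (le_sup_right (a := L₁) (b := L₂) hx))
    rw [det_frob_pow H hℓ hℓN hℓS hA hσ a] at h2
    have e : LinearMap.det (H.ρ.ρ h) - 1
        = (LinearMap.det (H.ρ.ρ h) - (ℓ : T') ^ a) + ((ℓ : T') ^ a - 1) := by ring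
    rw [e]
    exact Ideal.add_mem _ h2 hone

end Datum

end Transfer

section Main

open CuspForm Transfer

variable {N : ℕ} [NeZero N] {p : ℕ} {S : Finset ℕ}
  {𝒪 : Type} [CommRing 𝒪] [IsDomain 𝒪] [IsDiscreteValuationRing 𝒪]
  [IsAdicComplete (IsLocalRing.maximalIdeal 𝒪) 𝒪]
  {θ : CuspForm.heckeAlgebra N 2 (↑S : Set ℕ) →+* IsLocalRing.ResidueField 𝒪}
  {T' : Type} [CommRing T'] [IsLocalRing T'] [IsNoetherianRing T']
  [IsAdicComplete (IsLocalRing.maximalIdeal T') T'] [Algebra 𝒪 T']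
  [IsLocalHom (algebraMap 𝒪 T')] [Module.Finite 𝒪 T'] [Module.Free 𝒪 T']

/-- **(T)**: the geometric statement (G) implies that the representation of a Hecke–Galois
datum is unipotent on inertia at `q ≠ p` -/
theorem isUnipotentOnInertiaAt_of_inertiaUnipotent (hp : p.Prime)
    (hp𝒪 : (p : 𝒪) ∈ IsLocalRing.maximalIdeal 𝒪) (hpS : p ∈ S)
    (hNS : ∀ q : ℕ, q.Prime → q ∣ N → q ∈ S)
    (H : HeckeGaloisRepDatum N (↑S : Set ℕ) 𝒪 θ T')
    (q : ℕ) (hq : q.Prime) (hqp : q ≠ p) (hG : InertiaUnipotent N p q) :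
    H.ρ.IsUnipotentOnInertiaAt q := by
  intro P hP h hh
  have hbot : ⨅ k : ℕ, IsLocalRing.maximalIdeal T' ^ k = ⊥ :=
    Ideal.iInf_pow_eq_bot_of_isLocalRing _ (IsLocalRing.maximalIdeal.isMaximal T').ne_top
  have htr : LinearMap.trace T' H.ρ.V (H.ρ.ρ h) = 2 := by
    have hmem : H.ρ.trace h - 2 ∈ ⨅ k : ℕ, IsLocalRing.maximalIdeal T' ^ k := by
      rw [Ideal.mem_iInf]
      intro k
      exact (trace_det_mem hp hp𝒪 hpS hNS H q hq hqp hG P hP h hh k).1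
    rw [hbot] at hmem
    exact sub_eq_zero.mp hmem
  have hdet : LinearMap.det (H.ρ.ρ h) = 1 := by
    have hmem : LinearMap.det (H.ρ.ρ h) - 1 ∈ ⨅ k : ℕ, IsLocalRing.maximalIdeal T' ^ k := by
      rw [Ideal.mem_iInf]
      intro k
      exact (trace_det_mem hp hp𝒪 hpS hNS H q hq hqp hG P hP h hh k).2
    rw [hbot] at hmem
    exact sub_eq_zero.mp hmem
  rw [charpoly_eq_of_finrank_two _ H.ρ.finrank_eq, htr, hdet, map_ofNat, map_one]
  ring

end Main

end Fermat.Agent.S34
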